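import Mathlib.Data.ZMod.Units
import Mathlib.LinearAlgebra.Matrix.SpecialLinearGroup
import Mathlib.Tactic.LinearCombination

/-!
Every element of `SL(2, ℤ/M)` lifts to `SL(2, ℤ)`.
-/

set_option autoImplicit false

namespace FermatAgent.TWLocal

open scoped MatrixGroups

local notation "M₂" => Matrix (Fin 2) (Fin 2) ℤ

/-- Reduction of integral matrices of determinant one modulo `M`. -/
abbrev redSL (M : ℕ) : SL(2, ℤ) →* Matrix.SpecialLinearGroup (Fin 2) (ZMod M) :=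
  Matrix.SpecialLinearGroup.map (Int.castRingHom (ZMod M))

/-- A translate of `a` by a multiple of `c` is prime to `M` when `(a, c)` is. -/
theorem exists_isUnit_add_mul (M : ℕ) [NeZero M] {a c : ZMod M} {x y : ZMod M}
    (h : a * x + c * y = 1) : ∃ t : ZMod M, IsUnit (a + t * c) := by
  classical
  set T : ℕ := ∏ p ∈ M.primeFactors.filter fun p => ¬ p ∣ a.val, p with hT
  refine ⟨(T : ZMod M), ?_⟩
  have hcast : a + (T : ZMod M) * c = ((a.val + T * c.val : ℕ) : ZMod M) := by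
    rw [Nat.cast_add, Nat.cast_mul, ZMod.natCast_zmod_val, ZMod.natCast_zmod_val]
  rw [hcast, ZMod.isUnit_iff_coprime]
  refine Nat.coprime_of_dvd' fun p hp hp1 hpM => ?_
  have hpm : p ∈ M.primeFactors := Nat.mem_primeFactors.mpr ⟨hp, hpM, NeZero.ne M⟩
  have hmod : ((a.val * x.val + c.val * y.val : ℕ) : ZMod M) = ((1 : ℕ) : ZMod M) := by
    push_cast
    simp only [ZMod.natCast_zmod_val, h]
  have hmod' := ((ZMod.natCast_eq_natCast_iff _ _ _).mp hmod).of_dvd hpM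
  by_cases hpa : p ∣ a.val
  · exfalso
    have hTc : p ∣ T * c.val := (Nat.dvd_add_iff_right hpa).mpr hp1
    rcases hp.dvd_mul.mp hTc with hpT | hpc
    · obtain ⟨r, hr, hpr⟩ := (hp.prime.dvd_finsetProd_iff _).mp hpT
      rw [Finset.mem_filter, Nat.mem_primeFactors] at hr
      rw [(Nat.prime_dvd_prime_iff_eq hp hr.1.1).mp hpr] at hpa
      exact hr.2 hpa
    · have : p ∣ a.val * x.val + c.val * y.val :=
        dvd_add (dvd_mul_of_dvd_left hpa _) (dvd_mul_of_dvd_left hpc _)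
      exact hp.ne_one (Nat.dvd_one.mp ((hmod'.dvd_iff dvd_rfl).mp this))
  · exfalso
    have hpT : p ∣ T := Finset.dvd_prod_of_mem _ (Finset.mem_filter.mpr ⟨hpm, hpa⟩)
    exact hpa ((Nat.dvd_add_iff_left (dvd_mul_of_dvd_left hpT _)).mpr hp1)

/-- Reduction `SL(2, ℤ) → SL(2, ℤ/M)` is surjective. -/
theorem redSL_surjective (M : ℕ) [NeZero M] : Function.Surjective (redSL M) := by
  have lift_int : ∀ t : ZMod M, ∃ n : ℤ, (n : ZMod M) = t := ZMod.intCast_surjective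
  let Lo : ℤ → SL(2, ℤ) := fun n => ⟨!![1, 0; n, 1], by simp⟩
  let Up : ℤ → SL(2, ℤ) := fun n => ⟨!![1, n; 0, 1], by simp⟩
  intro g
  have hg : g.1 0 0 * g.1 1 1 - g.1 0 1 * g.1 1 0 = 1 := by
    rw [← Matrix.det_fin_two]; exact g.2
  obtain ⟨t, ht⟩ := exists_isUnit_add_mul M (a := g.1 0 0) (c := g.1 1 0) (x := g.1 1 1)
    (y := -g.1 0 1) (by linear_combination hg)
  obtain ⟨u, hu⟩ := ht
  obtain ⟨nt, hnt⟩ := lift_int t
  obtain ⟨nu, hnu⟩ := lift_int (u : ZMod M)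
  obtain ⟨nv, hnv⟩ := lift_int ((u⁻¹ : (ZMod M)ˣ) : ZMod M)
  obtain ⟨nb, hnb⟩ := lift_int (g.1 0 1 + t * g.1 1 1)
  obtain ⟨nc, hnc⟩ := lift_int (g.1 1 0)
  have huv : (u : ZMod M) * ((u⁻¹ : (ZMod M)ˣ) : ZMod M) = 1 := Units.mul_inv u
  let S : SL(2, ℤ) := ⟨!![0, -1; 1, 0], by simp⟩
  -- the diagonal matrix with entries `(u, u⁻¹)` modulo `M`
  let D : SL(2, ℤ) := Up nu * Lo (-nv) * Up nu * S
  refine ⟨Up (-nt) * (Lo (nc * nv) * D * Up (nv * nb)), ?_⟩
  have hUp : ∀ n : ℤ, (redSL M (Up n) : Matrix (Fin 2) (Fin 2) (ZMod M)) = !![1, (n : ZMod M); 0, 1] :=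
    fun n => by rw [redSL, Matrix.SpecialLinearGroup.map_apply_coe]; ext i k; fin_cases i <;> fin_cases k <;> simp [Up]
  have hLo : ∀ n : ℤ, (redSL M (Lo n) : Matrix (Fin 2) (Fin 2) (ZMod M)) = !![1, 0; (n : ZMod M), 1] :=
    fun n => by rw [redSL, Matrix.SpecialLinearGroup.map_apply_coe]; ext i k; fin_cases i <;> fin_cases k <;> simp [Lo]
  have hS : (redSL M S : Matrix (Fin 2) (Fin 2) (ZMod M)) = !![0, -1; 1, 0] := by
    rw [redSL, Matrix.SpecialLinearGroup.map_apply_coe]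
    ext i k; fin_cases i <;> fin_cases k <;> simp [S]
  simp only [map_mul, D]
  apply Subtype.ext
  simp only [Matrix.SpecialLinearGroup.coe_mul, hUp, hLo, hS, Int.cast_neg, Int.cast_mul, hnt, hnu,
    hnv, hnb, hnc, Matrix.mul_fin_two]
  ext i k
  fin_cases i <;> fin_cases k <;> simp
  all_goals grobner

end FermatAgent.TWLocal
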