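import Fermat.Agent.RTLift.Systems.Twist
import Fermat.Agent.ModCurve.Group.Universal
import Fermat.Agent.Periods.HeckeHom
import Fermat.Prelude.Def_GaloisRep_Adic
import Fermat.Prelude.Def_FLTPrelim_Ramification

/-!
The hypotheses and the statement of the local compatibility at an auxiliary prime where the
character is the twist `κ`.
-/

set_option autoImplicit false

noncomputable section

namespace FermatAgent.TWLocal

open scoped MatrixGroups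
open CongruenceSubgroup IsLocalRing Polynomial
open FermatAgent.RTLift.Modules (levelChar crossedHoms)
open FermatAgent.RTLift.Systems (twistCross)
open FermatAgent.ModCurveGroup (KillsEP)

local notation "Qb" => AlgebraicClosure ℚ
local notation "GQ" => AlgebraicClosure ℚ ≃ₐ[ℚ] AlgebraicClosure ℚ

/-- A system at level `N q²` which is the twist by `κ⁻¹` of a system of character `κ²` at level
`N q`, congruent to the old stabilisation of `x₀` at level `N`; `ρ` its Galois representation. -/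
structure TwistData (O : Type) [CommRing O] [IsDomain O] [IsDiscreteValuationRing O]
    (p N q : ℕ) [NeZero q] (ρ : GaloisRepAdic O) (κ : (ZMod q)ˣ →* O) where
  p_mem : (p : O) ∈ maximalIdeal O
  p_prime : p.Prime
  p_ne_two : p ≠ 2
  q_prime : q.Prime
  q_not_dvd : ¬ q ∣ N
  q_ne : q ≠ p
  q_one : (q : ZMod p) = 1
  kappa_pow : ∀ a, ∃ n : ℕ, κ a ^ p ^ n = 1
  θ : (ZMod q)ˣ →* O
  θ_eq : ∀ a, θ a = κ a ^ 2
  /-- The class at level `N q`. -/
  e₀ : crossedHoms (levelChar (dvd_mul_left q N) θ) O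
  /-- The homomorphism at level `N q²`. -/
  y : Additive (Gamma0 (N * q ^ 2)) →+ O
  y_eq : ∀ γ : Gamma0 (N * q ^ 2), y (Additive.ofMul γ) =
    (((twistCross (θ := θ) (θ' := (1 : (ZMod q)ˣ →* O)) (dvd_mul_left q N) (Dvd.intro_left (N * q) (by ring))
      (dvd_refl q) (M' := N * q ^ 2) (dvd_of_eq (by ring)) κ
      (fun a => by rw [θ_eq, MonoidHom.one_apply, one_mul, ZMod.unitsMap_self]; rfl)).apply
        e₀) : Gamma0 (N * q ^ 2) → O) γ
  y_killsEP : KillsEP (Gamma0 (N * q ^ 2)) y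
  /-- Finitely many primes to avoid. -/
  S : Finset ℕ
  a : ℕ → O
  y_eigen : ∀ (l : ℕ) (hl : l.Prime) (hlN : ¬ l ∣ N * q ^ 2), l ∉ S →
    Periods.heckeHomT O (N * q ^ 2) hl hlN y = a l • y
  charpoly_eq : ∀ (l : ℕ) (_ : l.Prime), ¬ l ∣ N * q ^ 2 → l ∉ S →
    ∀ A : ValuationSubring Qb, A.LiesOverPrime l → ∀ σ : GQ, A.IsFrobeniusAt σ l →
      LinearMap.charpoly (ρ.ρ σ) = X ^ 2 - C (a l) * X + C (l : O)
  /-- The residual class at level `N`. -/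
  x₀ : Additive (Gamma0 N) →+ ResidueField O
  x₀_ne_zero : x₀ ≠ 0
  x₀_killsEP : KillsEP (Gamma0 N) x₀
  x₀_eigen : ∀ (l : ℕ) (hl : l.Prime) (hlN : ¬ l ∣ N), ¬ l ∣ N * q ^ 2 → l ∉ S →
    Periods.heckeHomT (ResidueField O) N hl hlN x₀ = residue O (a l) • x₀
  c : ResidueField O
  x₀_eigen_q : Periods.heckeHomT (ResidueField O) N q_prime q_not_dvd x₀ = c • x₀
  c_sq_ne : c ^ 2 ≠ 4
  y_mod : ∀ (γ : Gamma0 (N * q ^ 2)) (γ₀ γ₁ γ₂ : Gamma0 N), (γ₀ : SL(2, ℤ)) = γ →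
    !![(q : ℤ), 0; 0, 1] * ((γ : SL(2, ℤ)) : Matrix (Fin 2) (Fin 2) ℤ) =
      ((γ₁ : SL(2, ℤ)) : Matrix (Fin 2) (Fin 2) ℤ) * !![(q : ℤ), 0; 0, 1] →
    !![((q : ℤ) ^ 2), 0; 0, 1] * ((γ : SL(2, ℤ)) : Matrix (Fin 2) (Fin 2) ℤ) =
      ((γ₂ : SL(2, ℤ)) : Matrix (Fin 2) (Fin 2) ℤ) * !![((q : ℤ) ^ 2), 0; 0, 1] →
    residue O (y (Additive.ofMul γ)) =
      c * x₀ (Additive.ofMul γ₁) - x₀ (Additive.ofMul γ₀) - x₀ (Additive.ofMul γ₂)
  irreducible : ∀ s : GQ →* ResidueField O, ¬ ∀ σ,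
    s σ ^ 2 - residue O (LinearMap.trace O ρ.V (ρ.ρ σ)) * s σ +
      residue O (LinearMap.det (ρ.ρ σ)) = 0

/-- The conclusion: inertia at `q` has eigenvalues `κ^{±1}`. -/
def InertiaTrace {O : Type} [CommRing O] [IsLocalRing O] {q : ℕ} (ρ : GaloisRepAdic O)
    (κ : (ZMod q)ˣ →* O) : Prop :=
  ∀ A : ValuationSubring Qb, A.LiesOverPrime q → ∀ τ ∈ A.inertiaSubgroupIn ℚ, ∀ u : (ZMod q)ˣ,
    (∀ ζ : Qb, ζ ^ q = 1 → τ ζ = ζ ^ (u : ZMod q).val) →
      LinearMap.trace O ρ.V (ρ.ρ τ) = κ u + κ u⁻¹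

end FermatAgent.TWLocal

end
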