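import Fermat.Agent.TWLocal.Descend
import Fermat.Agent.ES.Main

/-!
Torsion points of `J₀(N)` whose function has the reduction of an `n`-th power of a `gOne`-invariant
function: the decomposition group acts on the root by a character of a cyclic group, and the point
is zero when this character is trivial. Hence at most a line of such points.
-/

set_option autoImplicit false
set_option linter.style.haveILetI false
set_option linter.unusedSectionVars false
set_option maxHeartbeats 800000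

noncomputable section

namespace FermatAgent.TWLocal

open UpperHalfPlane hiding I
open ModularCurve AlgebraicCurve CongruenceSubgroup IsLocalRing
open FermatAgent.ModCurveTorsion
open FermatAgent.Curve (divisorOf divisorOf_apply divisorOf_mul)
open scoped MatrixGroups

local notation "Qb" => AlgebraicClosure ℚ

attribute [local instance] qbarAlgebraC qbarAlgebraFieldC fieldBarAlgebraC
  qbar_isScalarTower_const qbar_isScalarTower_ext qbar_isConstantExtension

variable {N q : ℕ} [NeZero N] [NeZero q] [hq : Fact q.Prime] {n : ℕ} [NeZero n]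
  {A : ValuationSubring Qb} (hA : A.LiesOverPrime q)

theorem IsReprN.zero_one : IsReprN N n (0 : JZero N) 1 := by
  haveI := FermatAgent.ES.isFunctionField1_fieldBar N
  refine ⟨0, one_ne_zero, rfl, ?_⟩
  rw [AddSubgroup.coe_zero, smul_zero]
  exact Finsupp.ext fun v => Place.ord_one v

theorem IsReprN.nsmul {x : JZero N} {f : modularFunctionFieldBar N} (h : IsReprN N n x f)
    (i : ℕ) : IsReprN N n (i • x) (f ^ i) := by
  induction i with
  | zero => rw [zero_nsmul, pow_zero]; exact IsReprN.zero_one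
  | succ i ih => rw [succ_nsmul, pow_succ]; exact ih.add h

variable (q n) in
/-- The function of `v` has the reduction of an `n`-th power. -/
def HasPow (A : ValuationSubring Qb) (v : JZero N) : Prop :=
  ∃ f, IsReprN N n v f ∧ ∃ Y : GF (N * q), Y ≠ 0 ∧ IsInv (gOne N q) Y ∧
    redGF A (eA N q f) = redGF A Y ^ n

variable (N q) in
/-- The decomposition group at level `N`. -/
def dZero : Subgroup SL(2, ℤ) := gStab (N * q) hA ⊓ Gamma0 N

variable (N q) in
theorem T_zpow_mem_dZero (v : ℤ) : ModularGroup.T ^ v ∈ dZero N q hA :=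
  ⟨zpow_mem T_mem_gStab v, by
    show ModularGroup.T ^ v ∈ Gamma0 N
    rw [Gamma0_mem, ModularGroup.coe_T_zpow]
    simp⟩

theorem qEnt_lower_of_mem_dZero {δ : SL(2, ℤ)} (hδ : δ ∈ dZero N q hA) : qEnt q δ 1 0 = 0 :=
  (ZMod.intCast_zmod_eq_zero_iff_dvd _ _).mpr (dvd_of_mem_gStab (dvd_mul_left q N) hδ.1)

variable (N q) in
/-- The lower right entry modulo `q`. -/
def dEnt : dZero N q hA →* (ZMod q)ˣ :=
  MonoidHom.toHomUnits
    { toFun := fun δ => qEnt q (δ : SL(2, ℤ)) 1 1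
      map_one' := by rw [OneMemClass.coe_one, qEnt_one, if_pos rfl]
      map_mul' := fun a b => by
        rw [Subgroup.coe_mul, qEnt_mul, qEnt_lower_of_mem_dZero hA a.2, zero_mul, zero_add] }

theorem coe_dEnt (δ : dZero N q hA) :
    ((dEnt N q hA δ : (ZMod q)ˣ) : ZMod q) = qEnt q (δ : SL(2, ℤ)) 1 1 := rfl

/-- A function is multiplied by `z` modulo the maximal ideal. -/
def ChiAt (Y : GF (N * q)) (r : LaurentSeries (ResidueField A)) (δ : SL(2, ℤ))
    (z : ResidueField A) : Prop :=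
  GRed A (δ • Y) (HahnSeries.C z * r)

variable {hA}

theorem smul_sub_gRed_zero {δ : SL(2, ℤ)} (hδ : δ ∈ gStab (N * q) hA) {x : GF (N * q)}
    (hx : GRed A x 0) : GRed A (δ • x) 0 := by
  have h := (valuation_smul_lt_one_iff hδ x).mpr ((hx.valuation_lt_one_iff (hA := hA)).mpr rfl)
  obtain ⟨s, hs⟩ := exists_gRed_of_valuation_le h.le
  rwa [(hs.valuation_lt_one_iff (hA := hA)).mp h] at hs

theorem smul_constGF (δ : SL(2, ℤ)) (c : Qb) :
    δ • (constGF (M := N * q) c) = constGF c := smulGF_constGF _ c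

theorem chiAt_mul {Y : GF (N * q)} {r : LaurentSeries (ResidueField A)} (hY : GRed A Y r)
    {δ δ' : SL(2, ℤ)} (hδ : δ ∈ gStab (N * q) hA) {z z' : ResidueField A}
    (h : ChiAt Y r δ z) (h' : ChiAt Y r δ' z') : ChiAt Y r (δ * δ') (z * z') := by
  obtain ⟨a', rfl⟩ := residue_surjective z'
  have h0 : GRed A (δ' • Y - constGF (a' : Qb) * Y) 0 := by
    have h1 := GRed.sub h' ((GRed.const a').mul hY)
    rwa [sub_self] at h1
  have h1 := (smul_sub_gRed_zero hδ h0).add ((GRed.const a').mul h)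
  rw [smul_sub, smul_mul', smul_constGF, sub_add_cancel, zero_add, ← mul_assoc, ← map_mul,
    ← mul_smul] at h1
  show GRed A _ _
  rwa [mul_comm z]

theorem chiAt_unique {Y : GF (N * q)} {r : LaurentSeries (ResidueField A)} (hr : r ≠ 0)
    {δ : SL(2, ℤ)} {z z' : ResidueField A} (h : ChiAt Y r δ z) (h' : ChiAt Y r δ z') : z = z' :=
  HahnSeries.C_injective (mul_right_cancel₀ hr (h.unique h'))

variable (hA) in
/-- The character of the decomposition group on a root. -/
theorem exists_chi_hom {f : modularFunctionFieldBar N} (hf : f ≠ 0) {Y : GF (N * q)}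
    {r : LaurentSeries (ResidueField A)} (hY : GRed A Y r) (hr : r ≠ 0)
    (hYf : redGF A (eA N q f) = redGF A Y ^ n) (hn : (n : ResidueField A) ≠ 0) :
    ∃ χ : dZero N q hA →* ResidueField A,
      (∀ δ : dZero N q hA, ChiAt Y r (δ : SL(2, ℤ)) (χ δ)) ∧ ∀ δ, χ δ ^ n = 1 := by
  haveI := Igusa.Down.isAlgClosed_residueField A
  obtain ⟨c, s, hc, hs, hF⟩ := exists_const_mul_gRed hA ((map_ne_zero (eA N q)).mpr hf)
  have hred : clsOf (r ^ n) (pow_ne_zero n hr) = clsOf s hs := by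
    rw [← hF.redGF_eq_clsOf hs, ← (hY.pow n).redGF_eq_clsOf (pow_ne_zero n hr),
      redGF_pow hq.out hA (hY.ne_zero hr), redGF_mul hq.out hA ((map_ne_zero _).mpr hc)
        ((map_ne_zero _).mpr hf), redGF_constGF hc, one_mul, hYf]
  obtain ⟨u, hu, hsu⟩ := (clsOf_eq_iff _ _).mp hred
  obtain ⟨a, rfl⟩ := residue_surjective u
  have h0 : GRed A (constGF c * eA N q f - constGF (a : Qb) * Y ^ n) 0 := by
    have h1 := hF.sub ((GRed.const a).mul (hY.pow n))
    rwa [← hsu, sub_self] at h1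
  have : NeZero (n : ResidueField A) := ⟨hn⟩
  obtain ⟨ξ, hξ⟩ := HasEnoughRootsOfUnity.exists_primitiveRoot (ResidueField A) n
  have key : ∀ δ : dZero N q hA, ∃ z, ChiAt Y r (δ : SL(2, ℤ)) z ∧ z ^ n = 1 := by
    rintro ⟨δ, hδ, hδN⟩
    have hfix : δ • (eA N q f) = eA N q f := isInv_eA f _ (inv_mem hδN)
    obtain ⟨t, ht⟩ := exists_gRed_of_valuation_le
      ((valuation_smul_le_one_iff hδ Y).mpr (hY.valuation_le_one (hA := hA)))
    have h1 := smul_sub_gRed_zero hδ h0
    rw [smul_sub, smul_mul', smul_mul', smul_pow', smul_constGF, smul_constGF, hfix] at h1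
    have h2 := h1.unique (hF.sub ((GRed.const a).mul (ht.pow n)))
    rw [eq_comm, sub_eq_zero, hsu] at h2
    have h3 : (t / r) ^ n = 1 := by
      rw [div_pow, div_eq_one_iff_eq (pow_ne_zero n hr)]
      exact (mul_left_cancel₀ ((map_ne_zero _).mpr hu) h2).symm
    obtain ⟨i, -, hi⟩ := (hξ.map_of_injective
      (f := (HahnSeries.C : ResidueField A →+* LaurentSeries (ResidueField A)))
      HahnSeries.C_injective).eq_pow_of_pow_eq_one h3
    refine ⟨ξ ^ i, ?_, by rw [← pow_mul, mul_comm, pow_mul, hξ.pow_eq_one, one_pow]⟩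
    show GRed A (δ • Y) (HahnSeries.C (ξ ^ i) * r)
    rwa [map_pow, hi, div_mul_cancel₀ t hr]
  choose χ hχ hχn using key
  refine ⟨{ toFun := χ, map_one' := chiAt_unique hr (hχ 1) ?_, map_mul' := fun a b => ?_ },
    hχ, hχn⟩
  · show GRed A _ _
    rw [OneMemClass.coe_one, one_smul, map_one, one_mul]
    exact hY
  · exact chiAt_unique hr (hχ (a * b)) (chiAt_mul hY a.2.1 (hχ a) (hχ b))

/-- The character depends only on the lower right entry. -/
theorem chi_eq_one_of_dEnt {Y : GF (N * q)} {r : LaurentSeries (ResidueField A)}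
    (hY : GRed A Y r) (hr : r ≠ 0) (hYi : IsInv (gOne N q) Y)
    {χ : dZero N q hA →* ResidueField A} (hχ : ∀ δ : dZero N q hA, ChiAt Y r (δ : SL(2, ℤ)) (χ δ))
    (hχn : ∀ δ, χ δ ^ n = 1) {m : ℕ} (hnq : q = n * m + 1) {δ : dZero N q hA}
    (hd : dEnt N q hA δ = 1) : χ δ = 1 := by
  have hone : ∀ η : dZero N q hA, (η : SL(2, ℤ)) ∈ gOne N q → χ η = 1 := fun η hη => by
    refine chiAt_unique hr (hχ η) ?_
    show GRed A _ _
    rw [map_one, one_mul, smul_gf_def, hYi _ (inv_mem hη)]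
    exact hY
  let Tr : ℕ → dZero N q hA := fun v => ⟨ModularGroup.T ^ (v : ℤ), T_zpow_mem_dZero N q hA _⟩
  have hTr : ∀ v, χ (Tr v) = 1 := fun v => by
    have hq1 : χ (Tr v) ^ q = 1 := by
      rw [← map_pow]
      refine hone _ ⟨(Tr v ^ q).2.2, ?_, ?_⟩ <;>
      · simp only [qEnt, Subgroup.coe_pow, Tr, ← zpow_natCast (ModularGroup.T ^ (v : ℤ)), ← zpow_mul,
          ModularGroup.coe_T_zpow]
        simp
    have h2 := (congrArg (χ (Tr v) ^ ·) hnq).symm.trans hq1
    simp only [pow_succ, pow_mul, hχn, one_pow, one_mul] at h2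
    exact h2
  have h10 := qEnt_lower_of_mem_dZero hA δ.2
  have h11 : qEnt q (δ : SL(2, ℤ)) 1 1 = 1 := by
    rw [← coe_dEnt hA, hd, Units.val_one]
  set v := (qEnt q (δ : SL(2, ℤ)) 0 1).val with hv
  set η : dZero N q hA := (Tr v)⁻¹ * δ
  have hη : (η : SL(2, ℤ)) ∈ gOne N q := by
    refine ⟨η.2.2, ?_, ?_⟩
    · simp only [η, Tr, Subgroup.coe_mul, Subgroup.coe_inv]
      rw [qEnt_mul, (qEnt_inv q _).1, (qEnt_inv q _).2.1, h11]
      simp [-zpow_natCast, qEnt, ModularGroup.coe_T_zpow, hv]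
    · simp only [η, Tr, Subgroup.coe_mul, Subgroup.coe_inv]
      rw [qEnt_mul, (qEnt_inv q _).2.2.1, (qEnt_inv q _).2.2.2, h11]
      simp [-zpow_natCast, qEnt, ModularGroup.coe_T_zpow]
  rw [show δ = Tr v * η by simp [η], map_mul, hTr, hone η hη, one_mul]

variable (hA) in
/-- A point whose root is fixed by the decomposition group is zero. -/
theorem eq_zero_of_chi_eq_one (hqN : ¬ q ∣ N) (hnq' : ¬ q ∣ n) {m : ℕ} (hnq : q = n * m + 1)
    {x : JZero N} {f : modularFunctionFieldBar N} (hfx : IsReprN N n x f) {Y : GF (N * q)}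
    {r : LaurentSeries (ResidueField A)} (hY : GRed A Y r) (hr : r ≠ 0)
    (hYf : redGF A (eA N q f) = redGF A Y ^ n)
    (hfix : ∀ δ : dZero N q hA, ChiAt Y r (δ : SL(2, ℤ)) 1) : x = 0 := by
  haveI := FermatAgent.ES.isFunctionField1_fieldBar N
  set G : Subgroup SL(2, ℤ) := Gamma0 N
  obtain ⟨a, Z, ZB, hZ, hZB, hZB1, hZZ⟩ := exists_fixed_congr (G := G) (K := GF (N * q))
    (O := gaussVal (N * q) hA) (Kr := (genStab (N * q)).subgroupOf G)
    (fun k hk x => smul_eq_of_mem_genStab (M := N * q) _ hk x) (q := q) (y := Y)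
    hY.valuation_le_one fun h hh => by
      have h1 : GRed A ((h : SL(2, ℤ)) • Y - Y) 0 := by
        have := GRed.sub (hfix ⟨(h : SL(2, ℤ)), hh, h.2⟩) hY
        rwa [map_one, one_mul, sub_self] at this
      exact h1.valuation_lt_one_iff.mpr rfl
  obtain ⟨rB, hrB⟩ := exists_gRed_of_valuation_le hZB1.le
  have hrB0 : rB ≠ 0 := fun h => hZB1.not_lt (hrB.valuation_lt_one_iff.mpr h)
  obtain ⟨r0, hr0⟩ := exists_gRed_of_valuation_le hZZ.le
  rw [(hr0.valuation_lt_one_iff (hA := hA)).mp hZZ] at hr0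
  have hw : GRed A (Z / ZB) (r ^ (q ^ a)) := by
    have h1 := (hr0.add ((hY.pow (q ^ a)).mul hrB)).mul (hrB.inv hrB0)
    rwa [sub_add_cancel, zero_add, mul_inv_cancel_right₀ hrB0, ← div_eq_mul_inv] at h1
  have hinv : IsInv (Gamma0 N) (Z / ZB) := fun γ hγ => by
    rw [map_div₀, ← inv_inv γ]
    exact congrArg₂ (· / ·) (hZ ⟨γ⁻¹, inv_mem hγ⟩) (hZB ⟨γ⁻¹, inv_mem hγ⟩)
  obtain ⟨s, hs⟩ := exists_eA_eq hinv
  obtain ⟨l, hl⟩ : ∃ l, q ^ a = n * l + 1 := by
    clear * - hnq
    induction a with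
    | zero => exact ⟨0, by simp⟩
    | succ a ih =>
      obtain ⟨l, hl⟩ := ih
      exact ⟨n * l * m + l + m, by rw [pow_succ, hl, hnq]; ring⟩
  have hr' := pow_ne_zero (q ^ a) hr
  have hs0 : s ≠ 0 := fun h => hw.ne_zero hr' (by rw [← hs, h, map_zero])
  have hf0 := hfx.ne_zero
  set t := s / f ^ l
  have ht0 : t ≠ 0 := div_ne_zero hs0 (pow_ne_zero _ hf0)
  have hY0 := hY.ne_zero hr
  have heq : redGF A (eA N q t) = redGF A Y := by
    rw [map_div₀, map_pow, redGF_div hq.out hA ((map_ne_zero _).mpr hs0)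
        (pow_ne_zero _ ((map_ne_zero _).mpr hf0)),
      redGF_pow hq.out hA ((map_ne_zero _).mpr hf0), hYf, hs, hw.redGF_eq_clsOf hr',
      ← (hY.pow (q ^ a)).redGF_eq_clsOf hr', redGF_pow hq.out hA hY0, hl, pow_succ', pow_mul,
      mul_div_cancel_right]
  have hg0 : f / t ^ n ≠ 0 := div_ne_zero hf0 (pow_ne_zero _ ht0)
  have hg1 : redGF A (eA N q (f / t ^ n)) = 1 := by
    rw [map_div₀, map_pow, redGF_div hq.out hA ((map_ne_zero _).mpr hf0)
        (pow_ne_zero _ ((map_ne_zero _).mpr ht0)),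
      redGF_pow hq.out hA ((map_ne_zero _).mpr ht0), heq, hYf, div_self']
  obtain ⟨D, -, rfl, hD⟩ := hfx
  obtain ⟨hin, hinj⟩ := ES.reductionInputs_and_injective N q hq.out hqN A hA
  have h0 := mapDomain_divisorOf_eq_zero hA hqN
    (isPlaceReductionModL_placeReductionModL hin) hg0 hg1
  have htn : divisorOf (K := Qb) (t ^ n) = n • divisorOf t := by
    refine Finsupp.ext fun v => ?_
    rw [Finsupp.smul_apply, divisorOf_apply, divisorOf_apply, Curve.ord_pow', nsmul_eq_mul]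
  have hdiv : divisorOf (K := Qb) (f / t ^ n) =
      n • ((D : Divisor Qb (FieldBar N)) - divisorOf t) := by
    refine eq_sub_of_add_eq ?_ |>.trans (nsmul_sub _ _ n).symm
    rw [← htn, ← divisorOf_mul hg0 (pow_ne_zero _ ht0), div_mul_cancel₀ _ (pow_ne_zero _ ht0), hD,
      natCast_zsmul]
  rw [hdiv, ← Finsupp.mapDomain.addMonoidHom_apply, map_nsmul, map_sub] at h0
  have hDt : Finsupp.mapDomain (placeReductionModL hin) (D : Divisor Qb (FieldBar N)) =
      Finsupp.mapDomain (placeReductionModL hin) (divisorOf (K := Qb) t) := by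
    refine Finsupp.ext fun v => ?_
    have := DFunLike.congr_fun h0 v
    rw [Finsupp.smul_apply, Finsupp.sub_apply, Finsupp.zero_apply, nsmul_eq_mul] at this
    exact sub_eq_zero.mp ((mul_eq_zero.mp this).resolve_left (Nat.cast_ne_zero.mpr (NeZero.ne n)))
  refine hinj n hnq' _ ?_ ?_
  · show (n : ℕ) • Pic0.mk D = 0
    refine (show n • Pic0.mk D = Pic0.mk (n • D) from rfl).trans
      ((QuotientAddGroup.eq_zero_iff _).mpr ?_)
    rw [AddSubgroup.mem_addSubgroupOf, AddSubgroup.coe_nsmul, ← natCast_zsmul, ← hD]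
    exact FermatAgent.Curve.divisorOf_mem_principal hf0
  · rw [reductionModL_mk hin]
    refine (QuotientAddGroup.eq_zero_iff _).mpr ?_
    rw [AddSubgroup.mem_addSubgroupOf, coe_reductionDegZeroAlong]
    show Finsupp.mapDomain (placeReductionModL hin) (D : Divisor Qb (FieldBar N)) ∈ _
    rw [hDt]
    exact (isPlaceReductionModL_placeReductionModL hin).mapDomain_mem_principal
      hin.choose_spec.2 (FermatAgent.Curve.divisorOf_mem_principal ht0)

include hA in
/-- **At most a line of points with such reductions.** -/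
theorem exists_combination_eq_zero {p : ℕ} [hp : Fact p.Prime] (hqN : ¬ q ∣ N) (hpn : n = p)
    {m : ℕ} (hnq : q = n * m + 1) {x y : JZero N} (hx : HasPow q n A x) (hy : HasPow q n A y) :
    ∃ i j : ℕ, (¬ p ∣ i ∨ ¬ p ∣ j) ∧ i • x + j • y = 0 := by
  subst hpn
  have hk := ES.charP_residueField hq.out hA
  have hm : m ≠ 0 := fun h => hq.out.ne_one (by rw [hnq, h]; simp)
  have hlt : n < q := by
    have := Nat.le_mul_of_pos_right n (Nat.pos_of_ne_zero hm)
    omega
  have hnk : (n : ResidueField A) ≠ 0 := fun h => by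
    have := Nat.le_of_dvd hp.out.pos ((CharP.cast_eq_zero_iff (ResidueField A) q n).mp h)
    omega
  have hqn : ¬ q ∣ n := fun h => by
    have := Nat.le_of_dvd hp.out.pos h
    omega
  have norm : ∀ {z : JZero N}, HasPow q n A z → ∃ (f : modularFunctionFieldBar N)
      (Y : GF (N * q)) (r : LaurentSeries (ResidueField A))
      (χ : dZero N q hA →* ResidueField A),
      IsReprN N n z f ∧ IsInv (gOne N q) Y ∧ GRed A Y r ∧ r ≠ 0 ∧
      redGF A (eA N q f) = redGF A Y ^ n ∧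
      (∀ δ : dZero N q hA, ChiAt Y r (δ : SL(2, ℤ)) (χ δ)) ∧ ∀ δ, χ δ ^ n = 1 := by
    rintro z ⟨f, hf, Y, hY, hYi, hYf⟩
    obtain ⟨c, r, hc, hr, hG⟩ := exists_const_mul_gRed hA hY
    have hred : redGF A (eA N q f) = redGF A (constGF c * Y) ^ n := by
      rw [redGF_mul hq.out hA ((map_ne_zero _).mpr hc) hY, redGF_constGF hc, one_mul, hYf]
    obtain ⟨χ, h1, h2⟩ := exists_chi_hom hA hf.ne_zero hG hr hred hnk
    exact ⟨f, _, r, χ, hf, fun γ hγ => by rw [map_mul, smulGF_constGF, hYi γ hγ], hG, hr, hred,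
      h1, h2⟩
  obtain ⟨fx, Yx, rx, χx, hfx, hYxi, hYx, hrx, hredx, hχx, hnx⟩ := norm hx
  obtain ⟨fy, Yy, ry, χy, hfy, hYyi, hYy, hry, hredy, hχy, hny⟩ := norm hy
  obtain ⟨g, hg⟩ := IsCyclic.exists_zpow_surjective (G := (dEnt N q hA).range)
  obtain ⟨γ₀, hγ₀⟩ := g.2
  have triv : ∀ {z : JZero N} {f : modularFunctionFieldBar N} {Y : GF (N * q)}
      {r : LaurentSeries (ResidueField A)} {χ : dZero N q hA →* ResidueField A},
      IsReprN N n z f → IsInv (gOne N q) Y → GRed A Y r → r ≠ 0 →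
      redGF A (eA N q f) = redGF A Y ^ n → (∀ δ : dZero N q hA, ChiAt Y r (δ : SL(2, ℤ)) (χ δ)) →
      (∀ δ, χ δ ^ n = 1) → χ γ₀ = 1 → z = 0 := by
    intro z f Y r χ hf hYi hY hr hred hχ hχn h1
    refine eq_zero_of_chi_eq_one hA hqN hqn hnq hf hY hr hred fun δ => ?_
    obtain ⟨i, hi⟩ := hg ⟨dEnt N q hA δ, δ, rfl⟩
    have hd : dEnt N q hA ((γ₀ ^ i)⁻¹ * δ) = 1 := by
      have hi' := congrArg Subtype.val hi
      simp only [Subgroup.coe_zpow] at hi'
      rw [map_mul, map_inv, map_zpow, hγ₀, hi', inv_mul_cancel]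
    have h2 := chi_eq_one_of_dEnt hY hr hYi hχ hχn hnq hd
    have h3 : χ.toHomUnits γ₀ = 1 := Units.ext h1
    have h4 : χ (γ₀ ^ i) = 1 := by
      have := congrArg Units.val ((map_zpow χ.toHomUnits γ₀ i).trans (by rw [h3, one_zpow]))
      exact this
    have h5 : χ δ = 1 := by
      rw [← mul_inv_cancel_left (γ₀ ^ i) δ, map_mul, h4, h2, one_mul]
    exact h5 ▸ hχ δ
  by_cases hx1 : χx γ₀ = 1
  · refine ⟨1, 0, Or.inl fun h => hp.out.ne_one (Nat.dvd_one.mp h), ?_⟩
    rw [one_smul, zero_nsmul, add_zero]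
    exact triv hfx hYxi hYx hrx hredx hχx hnx hx1
  have hprim : IsPrimitiveRoot (χx γ₀) n :=
    IsPrimitiveRoot.iff_orderOf.mpr (orderOf_eq_prime (hnx γ₀) hx1)
  obtain ⟨l, -, hl⟩ := hprim.eq_pow_of_pow_eq_one (hny γ₀)
  refine ⟨(n - 1) * l, 1, Or.inr fun h => hp.out.ne_one (Nat.dvd_one.mp h), ?_⟩
  set i := (n - 1) * l
  have hred : redGF A (eA N q (fx ^ i * fy ^ 1)) = redGF A (Yx ^ i * Yy ^ 1) ^ n := by
    have h1 := (map_ne_zero (eA N q)).mpr hfx.ne_zero
    have h2 := (map_ne_zero (eA N q)).mpr hfy.ne_zero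
    have h3 := hYx.ne_zero hrx
    have h4 := hYy.ne_zero hry
    rw [map_mul, map_pow, map_pow, pow_one, pow_one, redGF_mul hq.out hA (pow_ne_zero _ h1) h2,
      redGF_pow hq.out hA h1, hredx, hredy, redGF_mul hq.out hA (pow_ne_zero _ h3) h4,
      redGF_pow hq.out hA h3, mul_pow, pow_right_comm]
  have hr0 : rx ^ i * ry ^ 1 ≠ 0 := mul_ne_zero (pow_ne_zero _ hrx) (pow_ne_zero _ hry)
  obtain ⟨χ, hχ, hχn⟩ := exists_chi_hom hA (n := n)
    (mul_ne_zero (pow_ne_zero _ hfx.ne_zero) (pow_ne_zero _ hfy.ne_zero))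
    ((hYx.pow i).mul (hYy.pow 1)) hr0 hred hnk
  refine triv ((hfx.nsmul i).add (hfy.nsmul 1)) ((hYxi.pow i).mul (hYyi.pow 1))
    ((hYx.pow i).mul (hYy.pow 1)) hr0 hred hχ hχn ?_
  refine (chiAt_unique hr0 (hχ γ₀)
      (z' := χx γ₀ ^ i * χy γ₀) ?_).trans ?_
  · show GRed A _ _
    rw [smul_mul', smul_pow', smul_pow', map_mul, map_pow, pow_one, pow_one,
      mul_mul_mul_comm, ← mul_pow]
    exact (GRed.pow (hχx γ₀) i).mul (hχy γ₀)
  · rw [← hl, ← pow_add, show i + l = n * l by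
      have := hp.out.one_le
      simp only [i]
      rw [← Nat.succ_mul]
      congr 1
      omega, pow_mul, hnx, one_pow]

end FermatAgent.TWLocal

end
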