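import Fermat.Agent.TWLocal.WConj
import Fermat.Agent.ModCurve.Torsion.Interface
import Fermat.Agent.ModCurve.Torsion.HeckeChar
import Fermat.Agent.GalRep.Construct.Inputs
import Fermat.Prelude.Def_GaloisRep_Adic
import Mathlib.LinearAlgebra.Matrix.Charpoly.Coeff

/-!
The torsion points attached to a homomorphism `y : Γ₀(L) → O` with eigenvalues `a l` satisfy the
characteristic equation of the Galois representation at every element.
-/

set_option autoImplicit false
set_option linter.unusedSectionVars false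

noncomputable section

namespace FermatAgent.TWLocal

open ModularCurve AlgebraicCurve CongruenceSubgroup IsLocalRing
open Polynomial hiding map_add
open FermatAgent.ModCurveTorsion
open FermatAgent.ModCurveGroup (KillsEP)
open scoped MatrixGroups

local notation "Qb" => AlgebraicClosure ℚ
local notation "GQ" => AlgebraicClosure ℚ ≃ₐ[ℚ] AlgebraicClosure ℚ

/-! ### Two by two matrices -/

theorem trace_det_of_charpoly {R : Type*} [CommRing R] [Nontrivial R]
    {M : Matrix (Fin 2) (Fin 2) R} {a l : R} (h : M.charpoly = X ^ 2 - C a * X + C l) :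
    M.trace = a ∧ M.det = l := by
  rw [Matrix.charpoly_fin_two] at h
  have h1 := congrArg (fun P : R[X] => P.coeff 1) h
  have h0 := congrArg (fun P : R[X] => P.coeff 0) h
  simp at h1 h0
  exact ⟨h1, h0⟩

/-- The characteristic polynomial of a power, composed with the power, is divisible by the
characteristic polynomial. -/
theorem charpoly_dvd_pow {R : Type*} [CommRing R] [Nontrivial R]
    (M : Matrix (Fin 2) (Fin 2) R) {a l : R} (h : M.charpoly = X ^ 2 - C a * X + C l) (m : ℕ) :
    X ^ 2 - C a * X + C l ∣ (X ^ m) ^ 2 - C (M ^ m).trace * X ^ m + C (M ^ m).det := by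
  obtain ⟨htr, hdet⟩ := trace_det_of_charpoly h
  set χ : R[X] := X ^ 2 - C a * X + C l with hχ
  have hmon : χ.Monic := h ▸ Matrix.charpoly_monic M
  set r : R[X] := X ^ m %ₘ χ with hr
  have hdeg : r.natDegree ≤ 1 := by
    have h2 : χ.natDegree = 2 := h ▸ Matrix.charpoly_natDegree_eq_dim M
    have := natDegree_modByMonic_lt (X ^ m) hmon (fun e => by rw [e] at h2; simp at h2)
    rw [hr]
    omega
  have hCH : aeval M χ = 0 := h ▸ Matrix.aeval_self_charpoly M
  have hMm : M ^ m = aeval M r := by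
    rw [hr, modByMonic_eq_sub_mul_div, map_sub, map_mul, hCH, zero_mul, sub_zero, map_pow, aeval_X]
  set u := r.coeff 1
  set v := r.coeff 0
  have hruv : r = C u * X + C v := eq_X_add_C_of_natDegree_le_one hdeg
  have hM2 : M ^ m = u • M + v • (1 : Matrix (Fin 2) (Fin 2) R) := by
    rw [hMm, hruv, map_add, map_mul, aeval_C, aeval_C, aeval_X, Algebra.smul_def, Algebra.smul_def,
      mul_one]
  have ht : (M ^ m).trace = u * a + 2 * v := by
    rw [hM2, Matrix.trace_add, Matrix.trace_smul, Matrix.trace_smul, htr, Matrix.trace_one]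
    simp
    ring
  have hd : (M ^ m).det = u ^ 2 * l + u * v * a + v ^ 2 := by
    rw [hM2, ← htr, ← hdet, Matrix.det_fin_two, Matrix.trace_fin_two, Matrix.det_fin_two]
    simp
    ring
  obtain ⟨w, hw⟩ : χ ∣ X ^ m - r :=
    ⟨X ^ m /ₘ χ, by rw [hr, modByMonic_eq_sub_mul_div]; ring⟩
  refine ⟨(X ^ m + r - C (M ^ m).trace) * w + C (u ^ 2), ?_⟩
  rw [mul_add, mul_left_comm, ← hw, ht, hd, hruv, hχ]
  simp only [map_add, map_mul, map_pow, map_ofNat]
  ring

/-! ### Torsion points attached to a homomorphism -/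

theorem gal_smul_zero {L : ℕ} [NeZero L] (g : GQ) : g • (0 : JZero L) = 0 :=
  map_zero (DistribSMul.toAddMonoidHom (JZero L) g)

theorem gal_smul_zsmul {L : ℕ} [NeZero L] (g : GQ) (c : ℤ) (x : JZero L) :
    g • (c • x) = c • (g • x) :=
  map_zsmul (DistribSMul.toAddMonoidHom (JZero L) g) c x

variable {O : Type} [CommRing O] [IsDomain O] {p L : ℕ} [hp : Fact p.Prime] [NeZero L] {k : ℕ}

theorem comp_mulLeft_congr {A : Type*} [AddCommGroup A] {n : ℕ} (f : O →+ A)
    (hA : ∀ x : A, n • x = 0) {t t' : O} (h : (n : O) ∣ t - t') :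
    f.comp (AddMonoidHom.mulLeft t) = f.comp (AddMonoidHom.mulLeft t') := by
  obtain ⟨c, hc⟩ := h
  refine AddMonoidHom.ext fun x => ?_
  show f (t * x) = f (t' * x)
  rw [← sub_eq_zero, ← map_sub, ← sub_mul, hc, mul_assoc, ← nsmul_eq_mul, map_nsmul, hA]

theorem killsEP_comp {A : Type*} [AddCommGroup A] (f : O →+ A) {y : Additive (Gamma0 L) →+ O}
    (hy : KillsEP (Gamma0 L) y) : KillsEP (Gamma0 L) (f.comp y) := fun γ hγ => by
  rw [AddMonoidHom.comp_apply, hy γ hγ, map_zero]

variable (y : Additive (Gamma0 L) →+ O) (hy : KillsEP (Gamma0 L) y)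

instance : NeZero (p ^ k) := ⟨pow_ne_zero k hp.out.ne_zero⟩

theorem exists_kummerClass (f : O →+ ZMod (p ^ k)) :
    ∃ x : JZero L, KillsEP (Gamma0 L) y → IsKummerChar (p ^ k) (jBaseC L x) (f.comp y) := by
  by_cases hy : KillsEP (Gamma0 L) y
  · have h := isKummerChar_classOfChar (killsEP_comp f hy)
    obtain ⟨x, hx⟩ := exists_jBaseC_eq L (Nat.pos_of_ne_zero (NeZero.ne (p ^ k))) h.zsmul_eq_zero
    exact ⟨x, fun _ => hx ▸ h⟩
  · exact ⟨0, fun h => absurd h hy⟩

/-- The torsion point with Kummer character `f ∘ y`. -/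
def kClass (f : O →+ ZMod (p ^ k)) : JZero L := (exists_kummerClass y f).choose

variable {y}

include hy

theorem isKummerChar_kClass (f : O →+ ZMod (p ^ k)) :
    IsKummerChar (p ^ k) (jBaseC L (kClass y f)) (f.comp y) :=
  (exists_kummerClass y f).choose_spec hy

theorem kClass_eq {f : O →+ ZMod (p ^ k)} {x : JZero L}
    (h : IsKummerChar (p ^ k) (jBaseC L x) (f.comp y)) : x = kClass y f :=
  jBaseC_injective L (h.injective (isKummerChar_kClass hy f))

theorem kClass_add (f g : O →+ ZMod (p ^ k)) :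
    kClass y (f + g) = kClass y f + kClass y g := by
  refine (kClass_eq hy ?_).symm
  rw [map_add, AddMonoidHom.add_comp]
  exact (isKummerChar_kClass hy f).add (isKummerChar_kClass hy g)

theorem kClass_zero : kClass y (0 : O →+ ZMod (p ^ k)) = 0 := by
  have h := kClass_add hy (0 : O →+ ZMod (p ^ k)) 0
  rw [add_zero] at h
  exact right_eq_add.mp h |> fun e => e

theorem kClass_mulLeft_add (f : O →+ ZMod (p ^ k)) (s t : O) :
    kClass y (f.comp (AddMonoidHom.mulLeft (s + t))) =
      kClass y (f.comp (AddMonoidHom.mulLeft s)) + kClass y (f.comp (AddMonoidHom.mulLeft t)) := by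
  rw [← kClass_add hy]
  congr 1
  exact AddMonoidHom.ext fun x => by simp [add_mul]

theorem kClass_mulLeft_natCast (f : O →+ ZMod (p ^ k)) (l : ℕ) :
    kClass y (f.comp (AddMonoidHom.mulLeft (l : O))) = l • kClass y f := by
  induction l with
  | zero =>
    rw [zero_nsmul, Nat.cast_zero,
      show f.comp (AddMonoidHom.mulLeft (0 : O)) = 0 from AddMonoidHom.ext fun x => by simp]
    exact kClass_zero hy
  | succ l ih =>
    rw [Nat.cast_succ, kClass_mulLeft_add hy, ih, succ_nsmul]
    congr 2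
    exact AddMonoidHom.ext fun x => by simp

theorem zsmul_kClass (f : O →+ ZMod (p ^ k)) : ((p ^ k : ℕ) : ℤ) • kClass y f = 0 :=
  jBaseC_injective L (by rw [map_zsmul, (isKummerChar_kClass hy f).zsmul_eq_zero, map_zero])

theorem heckeOperatorBar_kClass {l : ℕ} (hl : l.Prime) (hlL : ¬ l ∣ L) {a : O}
    (heig : Periods.heckeHomT O L hl hlL y = a • y) (f : O →+ ZMod (p ^ k)) :
    heckeOperatorBar L ⟨l, hl⟩ (kClass y f) = kClass y (f.comp (AddMonoidHom.mulLeft a)) := by
  have : NeZero l := ⟨hl.ne_zero⟩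
  refine kClass_eq hy ?_
  rw [show heckeOperatorBar L (⟨l, hl⟩ : Nat.Primes) (kClass y f) =
      heckeOperatorAlong Qb L l (kClass y f) from heckeOperatorBar_apply L ⟨l, hl⟩ _,
    jBaseC_heckeOperatorAlong]
  convert isKummerChar_heckeT hl hlL (isKummerChar_kClass hy f) using 1
  rw [wInvolution_heckeHomT, Periods.heckeHomT_map]
  refine AddMonoidHom.ext fun γ => ?_
  show f (a * y γ) = f (Periods.heckeHomT ℤ L hl hlL y γ)
  exact congrArg f (DFunLike.congr_fun heig γ).symm

/-- The pairing of polynomials with the translates of the classes. -/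
def polyClass (τ : GQ) (f : O →+ ZMod (p ^ k)) : O[X] →+ JZero L where
  toFun P := P.sum fun i c => τ ^ i • kClass y (f.comp (AddMonoidHom.mulLeft c))
  map_zero' := sum_zero_index _
  map_add' P Q := sum_add_index P Q _ (fun i => by
      have h0 : f.comp (AddMonoidHom.mulLeft (0 : O)) = 0 := AddMonoidHom.ext fun x => by simp
      rw [h0, kClass_zero hy]
      exact gal_smul_zero _)
    fun i a b => by rw [kClass_mulLeft_add hy, smul_add]

theorem polyClass_monomial (τ : GQ) (f : O →+ ZMod (p ^ k)) (i : ℕ) (c : O) :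
    polyClass hy τ f (monomial i c) = τ ^ i • kClass y (f.comp (AddMonoidHom.mulLeft c)) :=
  sum_monomial_index c (fun i c => τ ^ i • kClass y (f.comp (AddMonoidHom.mulLeft c))) (by
    have h0 : f.comp (AddMonoidHom.mulLeft (0 : O)) = 0 := AddMonoidHom.ext fun x => by simp
    simp only [h0, kClass_zero hy]
    exact gal_smul_zero _)

theorem polyClass_mul_eq_zero {τ : GQ} {a d : O}
    (hτ : ∀ f : O →+ ZMod (p ^ k), τ • τ • kClass y f -
      τ • kClass y (f.comp (AddMonoidHom.mulLeft a)) +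
        kClass y (f.comp (AddMonoidHom.mulLeft d)) = 0)
    (f : O →+ ZMod (p ^ k)) (P : O[X]) :
    polyClass hy τ f (P * (X ^ 2 - C a * X + C d)) = 0 := by
  induction P using Polynomial.induction_on' with
  | add P Q hP hQ => rw [add_mul, map_add, hP, hQ, add_zero]
  | monomial i c =>
    have e : monomial i c * (X ^ 2 - C a * X + C d) =
        monomial (i + 2) c - monomial (i + 1) (c * a) + monomial i (c * d) := by
      simp only [← C_mul_X_pow_eq_monomial, map_mul]
      ring
    rw [e, map_add, map_sub, polyClass_monomial, polyClass_monomial, polyClass_monomial]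
    have e2 : ∀ s : O, f.comp (AddMonoidHom.mulLeft (c * s)) =
        (f.comp (AddMonoidHom.mulLeft c)).comp (AddMonoidHom.mulLeft s) := fun s =>
      AddMonoidHom.ext fun x => by simp [mul_assoc]
    have h := congrArg (τ ^ i • ·) (hτ (f.comp (AddMonoidHom.mulLeft c)))
    simp only [smul_add, smul_sub, smul_smul] at h
    rw [e2, e2, pow_add, pow_add, pow_two, pow_one]
    exact h.trans (gal_smul_zero _)

omit hy in
theorem map_quotient_eq_of_smul_sub_mem {R : Type} [CommRing R] {V : Type} [AddCommGroup V]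
    [Module R V] (b : Module.Basis (Fin 2) R V) (I : Ideal R) {F G : Module.End R V}
    (h : ∀ v, F v - G v ∈ I • (⊤ : Submodule R V)) :
    (LinearMap.toMatrix b b F).map (Ideal.Quotient.mk I) =
      (LinearMap.toMatrix b b G).map (Ideal.Quotient.mk I) := by
  ext i j
  rw [Matrix.map_apply, Matrix.map_apply, Ideal.Quotient.mk_eq_mk_iff_sub_mem,
    LinearMap.toMatrix_apply, LinearMap.toMatrix_apply, ← Finsupp.sub_apply, ← map_sub]
  refine Submodule.smul_induction_on (p := fun v => b.repr v i ∈ I) (h (b j)) ?_ ?_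
  · intro r hr v _
    rw [map_smul, Finsupp.smul_apply, smul_eq_mul]
    exact I.mul_mem_right _ hr
  · intro v w hv hw
    rw [map_add, Finsupp.add_apply]
    exact I.add_mem hv hw

variable [IsDiscreteValuationRing O] [CharZero O]

/-- **The characteristic equation on the classes.** -/
theorem quad_kClass {ρ : GaloisRepAdic O} {S : Finset ℕ} {a : ℕ → O}
    (heig : ∀ (l : ℕ) (hl : l.Prime) (hlL : ¬ l ∣ L), l ∉ S →
      Periods.heckeHomT O L hl hlL y = a l • y)
    (hchar : ∀ (l : ℕ) (_ : l.Prime), ¬ l ∣ L → l ∉ S →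
      ∀ A : ValuationSubring Qb, A.LiesOverPrime l → ∀ σ : GQ, A.IsFrobeniusAt σ l →
        LinearMap.charpoly (ρ.ρ σ) = X ^ 2 - C (a l) * X + C (l : O))
    (σ : GQ) (f : O →+ ZMod (p ^ k)) :
    σ • σ • kClass y f - σ • kClass y (f.comp (AddMonoidHom.mulLeft (LinearMap.trace O ρ.V (ρ.ρ σ))))
      + kClass y (f.comp (AddMonoidHom.mulLeft (LinearMap.det (ρ.ρ σ)))) = 0 := by
  classical
  obtain ⟨j, hj⟩ : ∃ j, maximalIdeal O ^ j ≤ Ideal.span {((p ^ k : ℕ) : O)} := by
    obtain ⟨π, hπ⟩ := IsDiscreteValuationRing.exists_irreducible O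
    have hne : ((p ^ k : ℕ) : O) ≠ 0 := Nat.cast_ne_zero.mpr (NeZero.ne _)
    obtain ⟨j, u, hu⟩ := IsDiscreteValuationRing.eq_unit_mul_pow_irreducible hne hπ
    refine ⟨j, ?_⟩
    rw [hπ.maximalIdeal_eq, Ideal.span_singleton_pow, hu,
      Ideal.span_singleton_mul_left_unit u.isUnit]
  obtain ⟨E₁, hE₁, hρE⟩ := ρ.isAdicContinuous j
  have htor : {x : JZero L | ((p ^ k : ℕ) : ℤ) • x = 0}.Finite :=
    (torsionModel L).torsion_finite (Nat.pos_of_ne_zero (NeZero.ne _))
  choose E hEfin hE using fun x : JZero L => exists_finiteDimensional_fixing L x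
  have := fun x => hEfin x
  let E₂ : IntermediateField ℚ Qb := htor.toFinset.sup E
  have : FiniteDimensional ℚ E₂ := by
    refine Finset.sup_induction (p := fun F : IntermediateField ℚ Qb => FiniteDimensional ℚ F)
      inferInstance (fun F hF G hG => IntermediateField.finiteDimensional_sup F G)
      fun x _ => hEfin x
  have := IntermediateField.finiteDimensional_sup E₁ E₂
  obtain ⟨l, hl, hlS, A, hA, τ, hτ, m, -, hm, -⟩ := GalRep.exists_isFrobeniusAt_pow_eq (E₁ ⊔ E₂) σ
    (S := {r | r ∈ S} ∪ {r | r ∣ L * p})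
    (S.finite_toSet.union (Set.Finite.subset (Set.finite_le_nat (L * p)) fun r hr =>
      Nat.le_of_dvd (Nat.mul_pos (NeZero.pos L) hp.out.pos) hr))
  simp only [Set.mem_union, Set.mem_ofPred_eq, not_or] at hlS
  have hlL : ¬ l ∣ L := fun h => hlS.2 (h.mul_right p)
  have hlp : ¬ l ∣ L * p := hlS.2
  have hFrob : ∀ g : O →+ ZMod (p ^ k), τ • τ • kClass y g -
      τ • kClass y (g.comp (AddMonoidHom.mulLeft (a l))) +
        kClass y (g.comp (AddMonoidHom.mulLeft (l : O))) = 0 := by
    intro g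
    have h := ES.torsionFrobQuadratic L p l hl hlp A hA τ hτ k (kClass y g)
      (by rw [← natCast_zsmul]; exact zsmul_kClass hy g)
    rw [← galois_smul_heckeOperatorBar L τ (⟨l, hl⟩ : Nat.Primes),
      heckeOperatorBar_kClass hy hl hlL (heig l hl hlL hlS.1), ← kClass_mulLeft_natCast hy] at h
    exact h
  obtain b := (Module.finBasisOfFinrankEq O ρ.V ρ.finrank_eq)
  set Mat := LinearMap.toMatrix b b with hMat
  have hcp : (Mat (ρ.ρ τ)).charpoly = X ^ 2 - C (a l) * X + C (l : O) := by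
    rw [hMat, LinearMap.charpoly_toMatrix]; exact hchar l hl hlL hlS.1 A hA τ hτ
  obtain ⟨w, hw⟩ := charpoly_dvd_pow (Mat (ρ.ρ τ)) hcp m
  have hpow : (Mat (ρ.ρ τ)) ^ m = Mat (ρ.ρ (τ ^ m)) := by
    rw [map_pow]
    exact (map_pow (LinearMap.toMatrixAlgEquiv b) (ρ.ρ τ) m).symm
  have hzero := polyClass_mul_eq_zero hy hFrob f w
  rw [mul_comm, ← hw, hpow] at hzero
  rw [show (X ^ m) ^ 2 - C (Mat (ρ.ρ (τ ^ m))).trace * X ^ m + C (Mat (ρ.ρ (τ ^ m))).det =
      monomial (2 * m) 1 - monomial m (Mat (ρ.ρ (τ ^ m))).trace +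
        monomial 0 (Mat (ρ.ρ (τ ^ m))).det by
    simp only [← C_mul_X_pow_eq_monomial, map_one]; ring,
    map_add, map_sub, polyClass_monomial, polyClass_monomial, polyClass_monomial, pow_zero,
    one_smul] at hzero
  -- compare `σ` with `τ ^ m`
  have hmE : ∀ x ∈ E₁ ⊔ E₂, (τ ^ m) x = σ x := hm
  have hact : ∀ x : JZero L, ((p ^ k : ℕ) : ℤ) • x = 0 → (τ ^ m) • x = σ • x := by
    intro x hx
    have hfix : (σ⁻¹ * τ ^ m) • x = x := hE x _ fun z => by
      have hz : (z : Qb) ∈ E₁ ⊔ E₂ :=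
        SetLike.le_def.mp (le_sup_right (a := E₁))
          (SetLike.le_def.mp (Finset.le_sup (f := E) (htor.mem_toFinset.mpr hx)) z.2)
      rw [AlgEquiv.smul_def, AlgEquiv.mul_apply, hmE _ hz, ← AlgEquiv.mul_apply, inv_mul_cancel,
        AlgEquiv.one_apply]
    rw [mul_smul, inv_smul_eq_iff] at hfix
    exact hfix
  have htors : ∀ g : GQ, ∀ h : O →+ ZMod (p ^ k), ((p ^ k : ℕ) : ℤ) • (g • kClass y h) = 0 :=
    fun g h => by
      rw [← gal_smul_zsmul, zsmul_kClass hy, gal_smul_zero]
  have hsub : ∀ v, ρ.ρ σ v - ρ.ρ (τ ^ m) v ∈ maximalIdeal O ^ j • (⊤ : Submodule O ρ.V) := by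
    intro v
    have h1 := hρE ((τ ^ m)⁻¹ * σ) (fun x hx => by
      rw [AlgEquiv.mul_apply, ← hmE x (SetLike.le_def.mp (le_sup_left (b := E₂)) hx),
        ← AlgEquiv.mul_apply, inv_mul_cancel, AlgEquiv.one_apply]) v
    have h2 : ρ.ρ (τ ^ m) (ρ.ρ ((τ ^ m)⁻¹ * σ) v - v) ∈
        maximalIdeal O ^ j • (⊤ : Submodule O ρ.V) :=
      Submodule.smul_induction_on (p := fun w => ρ.ρ (τ ^ m) w ∈ _) h1
        (fun r hr w _ => by rw [map_smul]; exact Submodule.smul_mem_smul hr Submodule.mem_top)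
        fun _ _ h h' => by rw [map_add]; exact add_mem h h'
    rwa [map_sub, ← Module.End.mul_apply, ← map_mul, mul_inv_cancel_left] at h2
  have hmat := map_quotient_eq_of_smul_sub_mem b (maximalIdeal O ^ j) hsub
  have htr : ((p ^ k : ℕ) : O) ∣ (Mat (ρ.ρ (τ ^ m))).trace - LinearMap.trace O ρ.V (ρ.ρ σ) := by
    rw [← Ideal.mem_span_singleton]
    refine hj ?_
    rw [← Ideal.Quotient.mk_eq_mk_iff_sub_mem, LinearMap.trace_eq_matrix_trace O b,
      Matrix.trace, Matrix.trace, map_sum, map_sum]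
    exact Finset.sum_congr rfl fun i _ => (congrFun (congrFun hmat i) i).symm
  have hde : ((p ^ k : ℕ) : O) ∣ (Mat (ρ.ρ (τ ^ m))).det - LinearMap.det (ρ.ρ σ) := by
    rw [← Ideal.mem_span_singleton]
    refine hj ?_
    rw [← Ideal.Quotient.mk_eq_mk_iff_sub_mem, ← LinearMap.det_toMatrix b, RingHom.map_det,
      RingHom.map_det]
    exact congrArg Matrix.det hmat.symm
  have hn : ∀ x : ZMod (p ^ k), (p ^ k) • x = 0 := fun x => ZModModule.char_nsmul_eq_zero _ x
  rw [comp_mulLeft_congr f hn htr, comp_mulLeft_congr f hn hde,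
    show f.comp (AddMonoidHom.mulLeft (1 : O)) = f from AddMonoidHom.ext fun x => by simp,
    mul_comm 2 m, pow_mul, pow_two, mul_smul] at hzero
  rw [hact _ (zsmul_kClass hy f)] at hzero
  rwa [hact _ (htors σ f), hact _ (zsmul_kClass hy _)] at hzero

end FermatAgent.TWLocal

end
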