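import Fermat.Agent.TWLocal.Special
import Fermat.Agent.TWLocal.Decomp
import Fermat.Agent.TWLocal.Quadratic
import Fermat.Agent.RT.Frobenius

/-!
The local compatibility at an auxiliary prime where the character is the twist `κ`: inertia has
eigenvalues `κ^{±1}`. Otherwise the points of level `N` with residual Kummer character would be a
Galois stable line on which a Frobenius element gives a root of the characteristic polynomial,
against irreducibility.
-/

set_option autoImplicit false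
set_option linter.unusedSectionVars false
set_option maxHeartbeats 800000

noncomputable section

namespace FermatAgent.TWLocal

open ModularCurve AlgebraicCurve CongruenceSubgroup IsLocalRing
open Polynomial hiding map_add map_ne_zero
open FermatAgent.ModCurveTorsion
open scoped MatrixGroups

local notation "Qb" => AlgebraicClosure ℚ
local notation "GQ" => AlgebraicClosure ℚ ≃ₐ[ℚ] AlgebraicClosure ℚ

theorem nsmul_congr_mod {G : Type*} [AddCommGroup G] {n : ℕ} {x : G} (hx : n • x = 0) {a b : ℕ}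
    (h : (a : ZMod n) = b) : a • x = b • x := by
  have h' := (ZMod.natCast_eq_natCast_iff _ _ _).mp h
  conv_lhs => rw [← Nat.mod_add_div a n]
  conv_rhs => rw [← Nat.mod_add_div b n]
  rw [add_smul, add_smul, mul_smul, mul_smul, smul_comm n, smul_comm n (b / n), hx, smul_zero,
    smul_zero, show a % n = b % n from h']

theorem gal_smul_nsmul {L : ℕ} [NeZero L] (g : GQ) (i : ℕ) (x : JZero L) :
    g • (i • x) = i • (g • x) :=
  map_nsmul (DistribSMul.toAddMonoidHom (JZero L) g) i x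

theorem gal_smul_add {L : ℕ} [NeZero L] (g : GQ) (x y : JZero L) :
    g • (x + y) = g • x + g • y :=
  map_add (DistribSMul.toAddMonoidHom (JZero L) g) x y

section Main

variable {O : Type} [CommRing O] [IsDomain O] [IsDiscreteValuationRing O] [CharZero O]
  {p N q : ℕ} [hp : Fact p.Prime] [NeZero N] [NeZero q] [hq : Fact q.Prime]
  {ρ : GaloisRepAdic O} {κ : (ZMod q)ˣ →* O} (D : TwistData O p N q ρ κ)

include D in
theorem TwistData.charP_residue : CharP (ResidueField O) p := by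
  refine (CharP.charP_iff_prime_eq_zero hp.out).mpr ?_
  rw [← map_natCast (residue O), residue_eq_zero_iff]
  exact D.p_mem

theorem nsmul_wPt (g : ResidueField O →+ ZMod (p ^ 1)) : p • wPt D g = 0 := by
  have h := zsmul_kClass D.x₀_killsEP g
  rwa [natCast_zsmul, pow_one] at h

/-- Only zero annihilates all the points. -/
theorem eq_zero_of_forall_wPt {z : ResidueField O}
    (h : ∀ g : ResidueField O →+ ZMod (p ^ 1), wPt D (g.comp (AddMonoidHom.mulLeft z)) = 0) :
    z = 0 := by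
  have := D.charP_residue
  by_contra hz
  obtain ⟨γ, hγ⟩ : ∃ γ, D.x₀ γ ≠ 0 := by
    by_contra hc
    push Not at hc
    exact D.x₀_ne_zero (AddMonoidHom.ext hc)
  set w := z * D.x₀ γ
  have hw : w ≠ 0 := mul_ne_zero hz hγ
  obtain ⟨g, hg⟩ := exists_zmod_extension (p ^ 1) (zmultiplesHom (ResidueField O) w)
    (Int.castAddHom (ZMod (p ^ 1))) fun m c hmc => by
      rw [zmultiplesHom_apply, zsmul_eq_mul, nsmul_eq_mul, Nat.cast_pow,
        CharP.cast_eq_zero (ResidueField O) p, zero_pow one_ne_zero, zero_mul, mul_eq_zero,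
        or_iff_left hw, CharP.intCast_eq_zero_iff (ResidueField O) p] at hmc
      rw [Int.coe_castAddHom, ZMod.intCast_zmod_eq_zero_iff_dvd, pow_one]
      exact hmc
  have hg1 : g w = 1 := by simpa using hg 1
  have h1 : IsKummerChar (p ^ 1) (jBaseC N (wPt D (g.comp (AddMonoidHom.mulLeft z))))
      ((0 : ResidueField O →+ ZMod (p ^ 1)).comp D.x₀) := by
    rw [h g, ← kClass_zero D.x₀_killsEP (p := p) (k := 1)]
    exact isKummerChar_kClass D.x₀_killsEP _
  have h2 := DFunLike.congr_fun ((isKummerChar_kClass D.x₀_killsEP _).unique h1) γ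
  simp only [AddMonoidHom.comp_apply, AddMonoidHom.zero_apply] at h2
  have h3 : g w = 0 := h2
  rw [hg1] at h3
  have : Fact (1 < p ^ 1) := ⟨by rw [pow_one]; exact hp.out.one_lt⟩
  exact one_ne_zero h3

theorem heckeQ_smul_wPt (σ : GQ) (g : ResidueField O →+ ZMod (p ^ 1)) :
    heckeOperatorBar N ⟨q, D.q_prime⟩ (σ • wPt D g) =
      σ • wPt D (g.comp (AddMonoidHom.mulLeft D.c)) := by
  rw [← galois_smul_heckeOperatorBar N σ (⟨q, D.q_prime⟩ : Nat.Primes),
    heckeOperatorBar_kClass D.x₀_killsEP D.q_prime D.q_not_dvd D.x₀_eigen_q]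

variable {A : ValuationSubring Qb} (hA : A.LiesOverPrime q)
  (hvan : ∀ (σ : GQ) (g₀ : O →+ ZMod (p ^ 1)), (∀ b ∈ maximalIdeal O, g₀ b = 0) →
    phiQ N (p ^ 1) hA 1 (σ • kClass D.y g₀) = 0)

include hA hvan

theorem hasPow_frob {F : GQ} (hF : A.IsFrobeniusAt F q) (σ : GQ)
    (g : ResidueField O →+ ZMod (p ^ 1)) :
    HasPow q (p ^ 1) A
      (2 • (F • σ • wPt D g) - heckeOperatorBar N ⟨q, D.q_prime⟩ (σ • wPt D g)) := by
  obtain ⟨f, hf⟩ := exists_isReprN (zsmul_kClass D.x₀_killsEP g)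
  obtain ⟨f', hf'⟩ := exists_isReprN
    (zsmul_kClass D.x₀_killsEP (g.comp (AddMonoidHom.mulLeft D.c)))
  obtain ⟨Y, hY, hYi, hYn⟩ := exists_red_eq_pow D hA hvan σ hF hf hf'
  rw [heckeQ_smul_wPt, two_nsmul]
  refine ⟨_, (((hf.galois σ).galois F).add ((hf.galois σ).galois F)).sub (hf'.galois σ),
    Y, hY, hYi, ?_⟩
  rw [← hYn, map_div₀, map_mul, galGF_eA σ f, galGF_eA σ f', galGF_eA F, pow_two]

/-- All translates of the points lie on one line. -/
theorem exists_nsmul_eq (σ : GQ) (g g₀ : ResidueField O →+ ZMod (p ^ 1)) (h₀ : wPt D g₀ ≠ 0) :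
    ∃ t : ℕ, σ • wPt D g = t • wPt D g₀ := by
  obtain ⟨F, hF⟩ := RT.exists_isFrobeniusAt hq.out hA
  have := D.charP_residue
  set Tq := heckeOperatorBar N ⟨q, D.q_prime⟩ with hTq
  have hu : D.c ^ 2 - 4 ≠ 0 := sub_ne_zero.mpr D.c_sq_ne
  set u := (D.c ^ 2 - 4)⁻¹
  set v := σ • wPt D (g.comp (AddMonoidHom.mulLeft u)) with hv
  set w := (1 : GQ) • wPt D (g₀.comp (AddMonoidHom.mulLeft u)) with hw
  obtain ⟨m, hm⟩ : ∃ m, q = p ^ 1 * m + 1 := by
    obtain ⟨m, hm⟩ : p ∣ q - 1 :=
      (Nat.modEq_iff_dvd' hq.out.one_le).mp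
        ((ZMod.natCast_eq_natCast_iff q 1 p).mp (by rw [Nat.cast_one, D.q_one])).symm
    exact ⟨m, by have := hq.out.one_le; rw [pow_one]; omega⟩
  obtain ⟨i, j, hij, hsum⟩ := exists_combination_eq_zero (hA := hA) (n := p ^ 1) (p := p) D.q_not_dvd
    (pow_one p) hm (hasPow_frob D hA hvan hF σ (g.comp (AddMonoidHom.mulLeft u)))
    (hasPow_frob D hA hvan hF 1 (g₀.comp (AddMonoidHom.mulLeft u)))
  rw [← hv, ← hw, ← hTq] at hsum
  set x := i • v + j • w with hx
  have hΛ : Tq x = 2 • (F • x) := by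
    rw [eq_comm, ← sub_eq_zero, ← hsum, hx, map_add, map_nsmul, map_nsmul, gal_smul_add F,
      gal_smul_nsmul F i, gal_smul_nsmul F j, nsmul_add, nsmul_sub, nsmul_sub, smul_comm i 2,
      smul_comm j 2]
    abel
  have hpx : p • x = 0 := by
    rw [hx, nsmul_add, smul_comm p i, smul_comm p j, hv, hw, ← gal_smul_nsmul σ p,
      ← gal_smul_nsmul (1 : GQ) p, nsmul_wPt, nsmul_wPt, gal_smul_zero, gal_smul_zero, smul_zero,
      smul_zero, add_zero]
  have hqN : ¬ q ∣ N * p := fun h => (D.q_prime.dvd_mul.mp h).elim D.q_not_dvd fun h' =>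
    D.q_ne ((Nat.prime_dvd_prime_iff_eq D.q_prime hp.out).mp h')
  have hquad := ES.torsionFrobQuadratic N p q D.q_prime hqN A hA F hF 1 x (by rwa [pow_one])
  rw [← galois_smul_heckeOperatorBar N F (⟨q, D.q_prime⟩ : Nat.Primes), ← hTq, hΛ,
    nsmul_congr_mod hpx (a := q) (b := 1) (by rw [D.q_one, Nat.cast_one]), one_smul,
    gal_smul_nsmul F 2] at hquad
  have hFF : F • F • x = x := by
    rw [two_nsmul] at hquad
    exact (sub_eq_zero.mp (by rw [← neg_eq_zero, ← hquad]; abel) : F • F • x = x)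
  have hTT : Tq (Tq x) = 4 • x := by
    rw [hΛ, map_nsmul, hTq, ← galois_smul_heckeOperatorBar N F (⟨q, D.q_prime⟩ : Nat.Primes),
      ← hTq, hΛ, gal_smul_nsmul F 2, hFF, smul_smul]
    norm_num
  have key : ∀ (s : GQ) (f : ResidueField O →+ ZMod (p ^ 1)),
      Tq (Tq (s • wPt D (f.comp (AddMonoidHom.mulLeft u)))) -
        4 • (s • wPt D (f.comp (AddMonoidHom.mulLeft u))) = s • wPt D f := by
    intro s f
    rw [hTq, heckeQ_smul_wPt, heckeQ_smul_wPt, ← gal_smul_nsmul s 4,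
      ← kClass_mulLeft_natCast D.x₀_killsEP, sub_eq_iff_eq_add, ← gal_smul_add]
    unfold wPt
    rw [← kClass_add D.x₀_killsEP]
    congr 2
    refine AddMonoidHom.ext fun y => ?_
    simp only [AddMonoidHom.comp_apply, AddMonoidHom.coe_mulLeft, AddMonoidHom.add_apply,
      ← map_add]
    congr 1
    have h1 : (D.c ^ 2 - 4) * u = 1 := mul_inv_cancel₀ hu
    push_cast
    linear_combination y * h1
  have hlin : i • (σ • wPt D g) + j • wPt D g₀ = 0 := by
    have h := sub_eq_zero.mpr hTT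
    rw [hx, map_add, map_add, map_nsmul, map_nsmul, map_nsmul, map_nsmul, nsmul_add,
      smul_comm 4 i, smul_comm 4 j, add_sub_add_comm, ← nsmul_sub, ← nsmul_sub, hv, hw, key,
      key, one_smul] at h
    exact h
  have hp1 : p • (σ • wPt D g) = 0 := by
    rw [← gal_smul_nsmul σ p, nsmul_wPt, gal_smul_zero]
  by_cases hi : p ∣ i
  · exfalso
    have hj : ¬ p ∣ j := hij.resolve_left (not_not.mpr hi)
    obtain ⟨d, rfl⟩ := hi
    rw [mul_smul, smul_comm p d, hp1, smul_zero, zero_add] at hlin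
    refine h₀ ?_
    rw [← one_smul ℕ (wPt D g₀), nsmul_congr_mod (nsmul_wPt D g₀)
      (b := ((j : ZMod p)⁻¹).val * j) ?_, mul_smul, hlin, smul_zero]
    rw [Nat.cast_mul, ZMod.natCast_zmod_val, Nat.cast_one,
      inv_mul_cancel₀ (fun h => hj ((ZMod.natCast_eq_zero_iff _ _).mp h))]
  · refine ⟨(-(i : ZMod p)⁻¹ * j).val, ?_⟩
    have hi' : (i : ZMod p) ≠ 0 := fun h => hi ((ZMod.natCast_eq_zero_iff _ _).mp h)
    set a := ((i : ZMod p)⁻¹).val
    have h1 : a • i • (σ • wPt D g) + a • j • wPt D g₀ = 0 := by rw [← nsmul_add, hlin, smul_zero]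
    rw [← mul_smul, ← mul_smul, nsmul_congr_mod hp1 (a := a * i) (b := 1) (by
      rw [Nat.cast_mul, ZMod.natCast_zmod_val, Nat.cast_one, inv_mul_cancel₀ hi']), one_smul,
      add_eq_zero_iff_eq_neg] at h1
    rw [h1, neg_eq_iff_add_eq_zero, ← add_smul,
      nsmul_congr_mod (nsmul_wPt D g₀) (b := 0) ?_, zero_nsmul]
    rw [Nat.cast_add, Nat.cast_mul, ZMod.natCast_zmod_val, ZMod.natCast_zmod_val, Nat.cast_zero]
    ring

/-- A Galois stable line contradicts irreducibility. -/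
theorem false_of_vanishing : False := by
  classical
  have := D.charP_residue
  obtain ⟨g₀, h₀⟩ : ∃ g : ResidueField O →+ ZMod (p ^ 1), wPt D g ≠ 0 := by
    by_contra hc
    push Not at hc
    exact one_ne_zero (eq_zero_of_forall_wPt D (z := 1) fun g => hc _)
  set e := wPt D g₀ with he
  have hline := fun σ g => exists_nsmul_eq D hA hvan σ g g₀ h₀
  choose t ht using fun σ => hline σ g₀
  have heq : ∀ a b : ℕ, a • e = b • e → (a : ResidueField O) = b := by
    intro a b hab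
    rw [CharP.natCast_eq_natCast (ResidueField O) p]
    have hab' : (a : ℤ) • e = (b : ℤ) • e := by rwa [natCast_zsmul, natCast_zsmul]
    rw [← sub_eq_zero, ← sub_smul, ← addOrderOf_dvd_iff_zsmul_eq_zero,
      addOrderOf_eq_prime (nsmul_wPt D g₀) h₀] at hab'
    exact ((Nat.modEq_iff_dvd).mpr hab').symm
  have hsmul : ∀ σ g, σ • wPt D g = wPt D (g.comp (AddMonoidHom.mulLeft (t σ : ResidueField O))) := by
    intro σ g
    obtain ⟨r, hr⟩ := hline 1 g
    rw [one_smul] at hr
    unfold wPt at hr ⊢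
    rw [kClass_mulLeft_natCast D.x₀_killsEP, hr, gal_smul_nsmul σ r]
    exact (congrArg (r • ·) (ht σ)).trans (smul_comm r (t σ) _)
  let s : GQ →* ResidueField O :=
    { toFun := fun σ => (t σ : ResidueField O)
      map_one' := by
        rw [← Nat.cast_one]
        exact heq _ _ (by rw [one_smul, ← ht, one_smul])
      map_mul' := fun σ τ => by
        rw [← Nat.cast_mul]
        refine heq _ _ ?_
        rw [← ht, mul_smul σ τ, ht, gal_smul_nsmul σ, ht, ← mul_smul, mul_comm] }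
  refine D.irreducible s fun σ => ?_
  obtain ⟨E₁, hE₁, hρE⟩ := ρ.isAdicContinuous 1
  obtain ⟨E₂, hE₂, hfix⟩ := exists_finiteDimensional_fixing N e
  have := IntermediateField.finiteDimensional_sup E₁ E₂
  obtain ⟨l, hl, hlS, B, hB, τ, hτ, m, -, hm, -⟩ := GalRep.exists_isFrobeniusAt_pow_eq (E₁ ⊔ E₂) σ
    (S := {r | r ∈ D.S} ∪ {r | r ∣ N * q ^ 2 * p})
    (D.S.finite_toSet.union (Set.Finite.subset (Set.finite_le_nat (N * q ^ 2 * p)) fun r hr =>
      Nat.le_of_dvd (Nat.mul_pos (NeZero.pos _) hp.out.pos) hr))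
  simp only [Set.mem_union, Set.mem_ofPred_eq, not_or] at hlS
  have hlM : ¬ l ∣ N * q ^ 2 := fun h => hlS.2 (h.mul_right p)
  have hlN : ¬ l ∣ N := fun h => hlM (h.mul_right _)
  have hlp : ¬ l ∣ N * p := fun h => hlS.2 (h.trans ⟨q ^ 2, by ring⟩)
  set al := residue O (D.a l)
  -- the relation at `l`
  have hrel : s τ ^ 2 - al * s τ + (l : ResidueField O) = 0 := by
    refine eq_zero_of_forall_wPt D fun g => ?_
    have h := ES.torsionFrobQuadratic N p l hl hlp B hB τ hτ 1 (wPt D g)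
      (by rw [pow_one]; exact nsmul_wPt D g)
    rw [← galois_smul_heckeOperatorBar N τ (⟨l, hl⟩ : Nat.Primes),
      heckeOperatorBar_kClass D.x₀_killsEP hl hlN (D.x₀_eigen l hl hlN hlM hlS.1),
      ← kClass_mulLeft_natCast D.x₀_killsEP, hsmul, hsmul, hsmul, sub_eq_add_neg] at h
    rw [← h, sub_eq_add_neg]
    unfold wPt
    rw [kClass_mulLeft_add D.x₀_killsEP, kClass_mulLeft_add D.x₀_killsEP]
    congr 1
    congr 1
    · congr 1
      exact AddMonoidHom.ext fun y => by
        show g (s τ ^ 2 * y) = g (s τ * (s τ * y))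
        rw [pow_two, mul_assoc]
    · rw [eq_neg_iff_add_eq_zero, ← kClass_add D.x₀_killsEP, ← kClass_zero D.x₀_killsEP (p := p) (k := 1)]
      congr 1
      exact AddMonoidHom.ext fun y => by
        show g (-(al * s τ) * y) + g (al * (s τ * y)) = 0
        rw [← map_add, neg_mul, mul_assoc, neg_add_cancel, map_zero]
  -- the characteristic polynomial of `τ ^ m`
  obtain b := (Module.finBasisOfFinrankEq O ρ.V ρ.finrank_eq)
  set Mat := LinearMap.toMatrix b b with hMat
  have hcp : (Mat (ρ.ρ τ)).charpoly = X ^ 2 - C (D.a l) * X + C (l : O) := by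
    rw [hMat, LinearMap.charpoly_toMatrix]; exact D.charpoly_eq l hl hlM hlS.1 B hB τ hτ
  obtain ⟨w, hw⟩ := charpoly_dvd_pow (Mat (ρ.ρ τ)) hcp m
  have h0 := congrArg (fun P : O[X] => eval₂ (residue O) (s τ) P) hw
  simp only [eval₂_add, eval₂_sub, eval₂_mul, eval₂_pow, eval₂_X, eval₂_C] at h0
  rw [map_natCast (residue O) l, hrel, zero_mul, ← map_pow s] at h0
  have hpow : (Mat (ρ.ρ τ)) ^ m = Mat (ρ.ρ (τ ^ m)) := by
    rw [map_pow]
    exact (map_pow (LinearMap.toMatrixAlgEquiv b) (ρ.ρ τ) m).symm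
  rw [hpow] at h0
  have hmE : ∀ x ∈ E₁ ⊔ E₂, (τ ^ m) x = σ x := hm
  have hinv : ∀ x ∈ E₁ ⊔ E₂, ((τ ^ m)⁻¹ * σ) x = x := fun x hx => by
    rw [AlgEquiv.mul_apply, ← hmE x hx, ← AlgEquiv.mul_apply, inv_mul_cancel, AlgEquiv.one_apply]
  have hst : s (τ ^ m) = s σ := heq _ _ (by
    rw [← ht, ← ht, eq_comm, ← inv_smul_eq_iff, ← mul_smul]
    exact hfix _ fun z => hinv z (SetLike.le_def.mp (le_sup_right (a := E₁)) z.2))
  have hsub : ∀ v, ρ.ρ σ v - ρ.ρ (τ ^ m) v ∈ maximalIdeal O ^ 1 • (⊤ : Submodule O ρ.V) := by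
    intro v
    have h1 := hρE ((τ ^ m)⁻¹ * σ)
      (fun x hx => hinv x (SetLike.le_def.mp (le_sup_left (b := E₂)) hx)) v
    have h2 : ρ.ρ (τ ^ m) (ρ.ρ ((τ ^ m)⁻¹ * σ) v - v) ∈
        maximalIdeal O ^ 1 • (⊤ : Submodule O ρ.V) :=
      Submodule.smul_induction_on (p := fun w => ρ.ρ (τ ^ m) w ∈ _) h1
        (fun r hr w _ => by rw [map_smul]; exact Submodule.smul_mem_smul hr Submodule.mem_top)
        fun _ _ h h' => by rw [map_add]; exact add_mem h h'
    rwa [map_sub, ← Module.End.mul_apply, ← map_mul, mul_inv_cancel_left] at h2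
  rw [pow_one] at hsub
  have hmat := map_quotient_eq_of_smul_sub_mem b (maximalIdeal O) hsub
  have htr : residue O (Mat (ρ.ρ (τ ^ m))).trace =
      residue O (LinearMap.trace O ρ.V (ρ.ρ σ)) := by
    rw [LinearMap.trace_eq_matrix_trace O b, Matrix.trace, Matrix.trace, map_sum, map_sum]
    exact Finset.sum_congr rfl fun i _ => (congrFun (congrFun hmat i) i).symm
  have hde : residue O (Mat (ρ.ρ (τ ^ m))).det = residue O (LinearMap.det (ρ.ρ σ)) := by
    rw [← LinearMap.det_toMatrix b, RingHom.map_det, RingHom.map_det]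
    exact congrArg Matrix.det hmat.symm
  rw [hst, htr, hde] at h0
  exact h0

end Main

/-- **Local compatibility at `q`.** Inertia at `q` has eigenvalues `κ^{±1}`. -/
theorem inertiaTrace_of_twistData {O : Type} [CommRing O] [IsDomain O] [IsDiscreteValuationRing O]
    [CharZero O] {p N q : ℕ} [NeZero N] [NeZero q] {ρ : GaloisRepAdic O} {κ : (ZMod q)ˣ →* O}
    (D : TwistData O p N q ρ κ) : InertiaTrace ρ κ := by
  have hp : Fact p.Prime := ⟨D.p_prime⟩
  have hq : Fact q.Prime := ⟨D.q_prime⟩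
  intro A hA τ hτ u hu
  have hchi : chiU (N * q) (dvd_mul_left q N) τ = u := chiU_eq (M := N * q) _ hu
  by_contra hne
  rw [← hchi] at hne
  exact false_of_vanishing D hA fun σ g₀ hg₀ => phiQ_eq_zero_of_trace_ne D hA hτ hne σ 1 g₀ hg₀

end FermatAgent.TWLocal

end
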