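import Fermat.Agent.TWLocal.GaussVal
import Fermat.Agent.Igusa.Down.LevelLift
import Fermat.Agent.Igusa.Down.Model

/-!
Invariant functions come from level `N`; a function of level `N` with trivial reduction class has a
divisor which vanishes on the special fibre.
-/

set_option autoImplicit false
set_option linter.style.haveILetI false
set_option maxHeartbeats 800000

noncomputable section

namespace FermatAgent.TWLocal

open UpperHalfPlane hiding I
open ModularCurve AlgebraicCurve CongruenceSubgroup IsLocalRing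
open FermatAgent.ModCurveTorsion
open FermatAgent.Igusa (intFun intExp gev gevC IsGaussRep gaussRed)
open FermatAgent.Curve (divisorOf divisorOf_apply divisorOf_mul)
open scoped MatrixGroups

local notation "Qb" => AlgebraicClosure ℚ

attribute [local instance] qbarAlgebraC qbarAlgebraFieldC fieldBarAlgebraC
  qbar_isScalarTower_const qbar_isScalarTower_ext qbar_isConstantExtension

variable {N q : ℕ} [NeZero N] [NeZero q]

theorem exists_level_series (α : genRing (N * q))
    (hα : ∀ γ ∈ Gamma0 N, genSmul γ α = α) :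
    ∃ y : modularFunctionFieldBar N, genExp α = qExpand Qb (N * q) (y : LaurentSeries Qb) := by
  let g : intFun (N * q) (iotaC).range := ⟨(α : ℍ → ℂ), genRing_le_intFun α.2⟩
  have hg : ∀ γ ∈ Gamma0 N, γ • g = g := fun γ hγ =>
    Subtype.ext (congrArg Subtype.val (hα γ⁻¹ (inv_mem hγ)) :)
  obtain ⟨s, hs, hsC⟩ := Igusa.Down.exists_series_of_invariant g hg
  obtain ⟨y₀, hy₀⟩ := mem_range_coeffMap iotaC_injective
    (s := coeffMap (iotaC).range.subtype s) fun n => (s.coeff n).2
  have hy : y₀ ∈ laurentBaseChange Qb (modularFunctionFieldFull N) := by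
    rw [← ModFun.coeffMap_mem_laurentBaseChange_iff _ ModFun.qbarToC,
      FermatAgent.ModFun.laurentBaseChange_full_eq]
    exact hy₀ ▸ hsC
  refine ⟨⟨y₀, hy⟩, Igusa.coeffMap_injective iotaC_injective ?_⟩
  rw [coeffMap_genExp, coeffMap_qExpand, hy₀, ← coeffMap_qExpand, ← hs]
  exact (Igusa.coeffMap_intExp (N * q) _ g).symm

theorem subgroup_smul_gf {M : ℕ} [NeZero M] (G : Subgroup SL(2, ℤ)) (g : G) (x : GF M) :
    g • x = smulGF (g : SL(2, ℤ))⁻¹ x := rfl

theorem smul_prod_out {G α : Type*} [Group G] [CommMonoid α] [MulDistribMulAction G α]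
    {H : Subgroup G} [Fintype (G ⧸ H)] {x : α} (hx : ∀ h ∈ H, h • x = x) (γ : G) :
    γ • ∏ c : G ⧸ H, c.out • x = ∏ c : G ⧸ H, c.out • x := by
  rw [Finset.smul_prod']
  exact Fintype.prod_equiv (MulAction.toPerm γ) _ _ fun c => Igusa.smul_out_smul hx γ c

/-- **Descent.** -/
theorem exists_eA_eq {x : GF (N * q)} (hx : IsInv (Gamma0 N) x) :
    ∃ f : modularFunctionFieldBar N, eA N q f = x := by
  classical
  obtain ⟨a, b, hb, hab⟩ := exists_num_den x
  set G : Subgroup SL(2, ℤ) := Gamma0 N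
  set Kr := (genStab (N * q)).subgroupOf G
  let : Fintype (G ⧸ Kr) := Fintype.ofFinite _
  have hK : ∀ k ∈ Kr, k • (toGF b : GF (N * q)) = toGF b := fun k hk =>
    smul_eq_of_mem_genStab (M := N * q) _ hk _
  set c₁ : G ⧸ Kr := QuotientGroup.mk 1
  have hc₁ : c₁.out • (toGF b : GF (N * q)) = toGF b := hK _ (by
    have := QuotientGroup.eq.mp (QuotientGroup.out_eq' c₁)
    rwa [mul_one, inv_mem_iff] at this)
  set rest : genRing (N * q) :=
    ∏ c ∈ Finset.univ.erase c₁, genSmul ((c.out : SL(2, ℤ)))⁻¹ b with hrest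
  set B := b * rest
  have hB : (toGF B : GF (N * q)) = ∏ c : G ⧸ Kr, c.out • (toGF b : GF (N * q)) := by
    rw [← Finset.mul_prod_erase _ _ (Finset.mem_univ c₁), hc₁, map_mul, hrest, map_prod]
    exact congrArg _ (Finset.prod_congr rfl fun c _ => by
      rw [subgroup_smul_gf, smulGF_toGF])
  have hB0 : B ≠ 0 := mul_ne_zero hb (Finset.prod_ne_zero_iff.mpr fun c _ =>
    (map_ne_zero_iff _ (genSmul_injective _)).mpr hb)
  have hBinv : ∀ γ ∈ G, genSmul γ B = B := fun γ hγ => toGF_injective (by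
    rw [← smulGF_toGF, hB]
    have h : (⟨γ, hγ⟩⁻¹ : G) • (∏ c : G ⧸ Kr, c.out • (toGF b : GF (N * q))) =
        ∏ c : G ⧸ Kr, c.out • (toGF b : GF (N * q)) :=
      smul_prod_out (G := G) (α := GF (N * q)) (H := Kr) (x := toGF b) hK (⟨γ, hγ⟩⁻¹ : G)
    rw [subgroup_smul_gf G (⟨γ, hγ⟩⁻¹ : G), Subgroup.coe_inv, inv_inv] at h
    exact h)
  have hAB : x * toGF B = toGF (a * rest) := by
    rw [hab, map_mul, map_mul, ← mul_assoc,
      div_mul_cancel₀ _ ((map_ne_zero_iff _ toGF_injective).mpr hb)]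
  have hAinv : ∀ γ ∈ G, genSmul γ (a * rest) = a * rest := fun γ hγ => toGF_injective (by
    rw [← smulGF_toGF, ← hAB, map_mul, hx γ hγ, smulGF_toGF, hBinv γ hγ])
  obtain ⟨yA, hyA⟩ := exists_level_series (a * rest) hAinv
  obtain ⟨yB, hyB⟩ := exists_level_series B hBinv
  refine ⟨yA / yB, gExp_injective ?_⟩
  rw [map_div₀, map_div₀, gExp_eA, gExp_eA, ← hyA, ← hyB, ← gExp_toGF, ← gExp_toGF, ← map_div₀,
    ← hAB, mul_div_cancel_right₀ _ ((map_ne_zero_iff _ toGF_injective).mpr hB0)]

/-! ### Reduction of divisors -/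

theorem clsExpand_injective {k : Type*} [Field k] (n : ℕ) [NeZero n] :
    Function.Injective (clsExpand (k := k) n) := by
  refine (injective_iff_map_eq_one _).mpr fun W hW => ?_
  obtain ⟨u, rfl⟩ : ∃ u, clsHom u = W := QuotientGroup.mk_surjective W
  rw [show clsHom u = clsOf (u : LaurentSeries k) u.ne_zero from congrArg clsHom (Units.ext rfl)]
    at hW ⊢
  rw [clsExpand_clsOf, ← clsOf_one, clsOf_eq_iff _ one_ne_zero] at hW
  obtain ⟨a, ha, e⟩ := hW
  rw [← clsOf_one, clsOf_eq_iff _ one_ne_zero]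
  refine ⟨a, ha, qExpand_injective (R := k) n ?_⟩
  rw [map_one, map_mul, qExpand_C, ← e]

variable [hq : Fact q.Prime] {A : ValuationSubring Qb} (hA : A.LiesOverPrime q)

include hA in
/-- A function with trivial reduction class has a divisor vanishing on the special fibre. -/
theorem mapDomain_divisorOf_eq_zero (hqN : ¬ q ∣ N)
    {r : Place Qb (modularFunctionFieldBar N) →
      Place (ResidueField A) (modularFunctionFieldFullC (ResidueField A) N)}
    (hr : IsPlaceReductionModL A N r) {g : modularFunctionFieldBar N} (hg : g ≠ 0)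
    (h1 : redGF A (eA N q g) = 1) : Finsupp.mapDomain r (divisorOf (K := Qb) g) = 0 := by
  have := ES.charP_residueField hq.out hA
  let π : A →+* ResidueField A := residue A
  have : Fact (Function.Surjective (residue A)) := ⟨residue_surjective⟩
  have hgC : (g : LaurentSeries Qb) ∈ modularFunctionFieldC Qb N := by
    rw [← FermatAgent.ModFun.laurentBaseChange_full_eq]; exact g.2
  obtain ⟨c, o, P, Q, hrep, hc, heq, -, hred⟩ :=
    Igusa.exists_eq_C_mul A (residue A) N q hqN hgC fun h => hg (Subtype.ext h)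
  rw [Igusa.gaussRed_eq A (residue A) N ⟨o, P, Q, hrep⟩ hrep, div_ne_zero_iff] at hred
  obtain ⟨hP0, hQ0⟩ := hred
  set ra := coeffMap (residue A) (gev A N P)
  set rb := coeffMap (residue A) (gevC A Q)
  set sa := coeffMap A.subtype (gev A N P) with hsa
  set sb := coeffMap A.subtype (gevC A Q) with hsb
  have hmemL : ∀ R : Polynomial (Polynomial Qb),
      gev Qb N R ∈ laurentBaseChange Qb (modularFunctionFieldFull N) := fun R => by
    rw [FermatAgent.ModFun.laurentBaseChange_full_eq]
    exact Igusa.Down.gev_mem Qb N R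
  have hsaM : sa ∈ laurentBaseChange Qb (modularFunctionFieldFull N) := by
    rw [hsa, Igusa.coeffMap_gev]; exact hmemL _
  have hsbM : sb ∈ laurentBaseChange Qb (modularFunctionFieldFull N) := by
    rw [hsb, Igusa.coeffMap_gevC, ← Igusa.gev_C Qb N]; exact hmemL _
  have hraM : ra ∈ modularFunctionFieldFullC (ResidueField A) N := by
    rw [Igusa.Down.fullC_eq A N hqN]
    simp only [ra, Igusa.coeffMap_gev]
    exact Igusa.Down.gev_mem _ _ _
  have hrbM : rb ∈ modularFunctionFieldFullC (ResidueField A) N := by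
    rw [Igusa.Down.fullC_eq A N hqN]
    simp only [rb, Igusa.coeffMap_gevC, ← Igusa.gev_C (ResidueField A) N]
    exact Igusa.Down.gev_mem _ _ _
  have heq' : (g : LaurentSeries Qb) * sb = HahnSeries.C c * sa := by
    rw [heq, mul_assoc, hsb, hsa, hrep.2]
  have hW : HasRed A (g : LaurentSeries Qb) (clsOf ra hP0 / clsOf rb hQ0) :=
    ⟨sa, sb, ra, rb, hP0, hQ0, c, hc, ⟨_, rfl, rfl⟩, ⟨_, rfl, rfl⟩, heq', rfl⟩
  have hW1 : clsOf ra hP0 / clsOf rb hQ0 = 1 := by
    refine clsExpand_injective (N * q) ?_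
    rw [map_one, ← h1]
    refine (redGF_eq ?_).symm
    rw [gExp_eA]
    exact hW.qExpand' (N * q)
  rw [div_eq_one, clsOf_eq_iff] at hW1
  obtain ⟨u, hu, hba⟩ := hW1
  set a' : modularFunctionFieldBar N := ⟨sa, hsaM⟩
  set b' : modularFunctionFieldBar N := ⟨sb, hsbM⟩
  have hsane : sa ≠ 0 := RedsTo.ne_zero (A := A) ⟨_, rfl, rfl⟩ hP0
  have hsbne : sb ≠ 0 := RedsTo.ne_zero (A := A) ⟨_, rfl, rfl⟩ hQ0
  have ha' : a' ≠ 0 := fun h => hsane (congrArg Subtype.val h)
  have hb' : b' ≠ 0 := fun h => hsbne (congrArg Subtype.val h)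
  haveI := FermatAgent.ES.isFunctionField1_fieldBar N
  set ra' : modularFunctionFieldFullC (ResidueField A) N := ⟨ra, hraM⟩
  set rb' : modularFunctionFieldFullC (ResidueField A) N := ⟨rb, hrbM⟩
  have hA' := hr.2 (gev A N P) hsaM hraM hP0 (divisorOf (K := Qb) a') fun v => rfl
  have hB' := hr.2 (gevC A Q) hsbM hrbM hQ0 (divisorOf (K := Qb) b') fun v => rfl
  have hab : Finsupp.mapDomain r (divisorOf (K := Qb) a') =
      Finsupp.mapDomain r (divisorOf (K := Qb) b') := Finsupp.ext fun v => by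
    rw [hA', hB']
    show v.ord ra' = v.ord rb'
    have e : rb' = algebraMap (ResidueField A) _ u * ra' := Subtype.ext (by
      rw [MulMemClass.coe_mul, Igusa.Down.coe_algebraMap_series]
      exact hba)
    rw [e, v.ord_mul ((map_ne_zero _).mpr hu) (fun h => hP0 (congrArg Subtype.val h)),
      Curve.RR.ord_algebraMap v hu, zero_add]
  have hg' : g * b' = algebraMap Qb (modularFunctionFieldBar N) c * a' := Subtype.ext (by
    rw [MulMemClass.coe_mul, MulMemClass.coe_mul, Igusa.Down.coe_algebraMap_series]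
    exact heq')
  have hdiv : divisorOf (K := Qb) g + divisorOf b' = divisorOf a' := by
    rw [← divisorOf_mul hg hb', hg', divisorOf_mul ((map_ne_zero _).mpr hc) ha']
    refine Finsupp.ext fun v => ?_
    rw [Finsupp.add_apply, divisorOf_apply, Curve.RR.ord_algebraMap v hc, zero_add]
  have h2 := congrArg (Finsupp.mapDomain r) hdiv
  rw [Finsupp.mapDomain_add, hab] at h2
  exact add_eq_right.mp h2

end FermatAgent.TWLocal

end
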