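import Fermat.Agent.TWLocal.Group
import Fermat.Agent.ModCurve.Torsion.Mobius

/-!
Conjugation by `diag (q, 1)`: from `Γ₀(N)` with upper right entry divisible by `q` to `Γ₀(N q)`.
-/

set_option autoImplicit false

noncomputable section

namespace FermatAgent.TWLocal

open scoped MatrixGroups
open CongruenceSubgroup
open FermatAgent.Periods (mob mob_mul)

local notation "M₂" => Matrix (Fin 2) (Fin 2) ℤ

variable {N q : ℕ}

/-- `Γ₀(N)` with upper right entry divisible by `q`. -/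
def gUp (N q : ℕ) : Subgroup SL(2, ℤ) where
  carrier := {γ | γ ∈ Gamma0 N ∧ qEnt q γ 0 1 = 0}
  one_mem' := ⟨one_mem _, by simp [qEnt_one]⟩
  mul_mem' {a b} ha hb := ⟨mul_mem ha.1 hb.1, by simp [qEnt_mul, ha.2, hb.2]⟩
  inv_mem' {a} ha := ⟨inv_mem ha.1, by rw [(qEnt_inv q a).2.1, ha.2, neg_zero]⟩

theorem gTwo_le_gUp : gTwo N q ≤ gUp N q := fun _ h => ⟨h.1, h.2.1⟩

theorem dvd_of_mem_gUp {γ : SL(2, ℤ)} (h : γ ∈ gUp N q) : (q : ℤ) ∣ γ 0 1 :=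
  (ZMod.intCast_zmod_eq_zero_iff_dvd _ _).mp h.2

/-- `diag (q, 1)⁻¹ γ diag (q, 1)`. -/
def downMat (q : ℕ) (γ : SL(2, ℤ)) : M₂ := !![γ 0 0, γ 0 1 / q; (q : ℤ) * γ 1 0, γ 1 1]

theorem det_downMat {γ : SL(2, ℤ)} (h : (q : ℤ) ∣ γ 0 1) : (downMat q γ).det = 1 := by
  rw [downMat, Matrix.det_fin_two_of, ← mul_assoc, Int.ediv_mul_cancel h]
  have hd := γ.det_coe
  rwa [Matrix.det_fin_two] at hd

theorem downMat_mul (hq : q ≠ 0) {a b : SL(2, ℤ)} (ha : (q : ℤ) ∣ a 0 1) (hb : (q : ℤ) ∣ b 0 1) :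
    downMat q (a * b) = downMat q a * downMat q b := by
  obtain ⟨s, hs⟩ := ha
  obtain ⟨t, ht⟩ := hb
  have hq' : (q : ℤ) ≠ 0 := by exact_mod_cast hq
  have e1 : (q : ℤ) * s / q = s := Int.mul_ediv_cancel_left _ hq'
  have e2 : (q : ℤ) * t / q = t := Int.mul_ediv_cancel_left _ hq'
  have e3 : (a 0 0 * ((q : ℤ) * t) + (q : ℤ) * s * b 1 1) / q = a 0 0 * t + s * b 1 1 := by
    rw [show a 0 0 * ((q : ℤ) * t) + (q : ℤ) * s * b 1 1 = (q : ℤ) * (a 0 0 * t + s * b 1 1) by ring,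
      Int.mul_ediv_cancel_left _ hq']
  ext i j
  fin_cases i <;> fin_cases j <;>
    simp [downMat, Matrix.mul_apply, Fin.sum_univ_two, hs, ht, e1, e2, e3] <;> ring

theorem downMat_spec {γ : SL(2, ℤ)} (h : (q : ℤ) ∣ γ 0 1) :
    !![(1 : ℤ), 0; 0, (q : ℤ)] * (γ : M₂) = downMat q γ * !![(1 : ℤ), 0; 0, (q : ℤ)] := by
  ext i j
  fin_cases i <;> fin_cases j <;>
    simp [downMat, Matrix.mul_apply, Fin.sum_univ_two, Int.ediv_mul_cancel h, mul_comm]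

variable [NeZero q]

/-- The conjugation into `Γ₀(N q)`. -/
def downG : gUp N q →* Gamma0 (N * q) where
  toFun γ := ⟨⟨downMat q γ, det_downMat (dvd_of_mem_gUp γ.2)⟩, by
    refine Gamma0_mem.mpr ((ZMod.intCast_zmod_eq_zero_iff_dvd _ _).mpr ?_)
    show ((N * q : ℕ) : ℤ) ∣ (q : ℤ) * (γ : SL(2, ℤ)) 1 0
    rw [Nat.cast_mul, mul_comm (N : ℤ)]
    exact mul_dvd_mul_left _ ((ZMod.intCast_zmod_eq_zero_iff_dvd _ _).mp (Gamma0_mem.mp γ.2.1))⟩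
  map_one' := Subtype.ext (Subtype.ext (by
    ext i j
    fin_cases i <;> fin_cases j <;> simp [downMat]))
  map_mul' a b := Subtype.ext (Subtype.ext
    (downMat_mul (NeZero.ne q) (dvd_of_mem_gUp a.2) (dvd_of_mem_gUp b.2)))

@[simp] theorem coe_downG (γ : gUp N q) :
    (((downG γ : Gamma0 (N * q)) : SL(2, ℤ)) : M₂) = downMat q (γ : SL(2, ℤ)) := rfl

variable (hNq : N.Coprime q)

/-- The conjugation into `Γ₀(N q²)`. -/
def downTwo : gTwo N q →* Gamma0 (N * q ^ 2) where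
  toFun γ := ⟨(downG (Subgroup.inclusion gTwo_le_gUp γ) : SL(2, ℤ)), by
    refine Gamma0_mem.mpr ((ZMod.intCast_zmod_eq_zero_iff_dvd _ _).mpr ?_)
    show ((N * q ^ 2 : ℕ) : ℤ) ∣ (q : ℤ) * (γ : SL(2, ℤ)) 1 0
    rw [show ((N * q ^ 2 : ℕ) : ℤ) = (q : ℤ) * ((N : ℤ) * q) by push_cast; ring]
    refine mul_dvd_mul_left _ (IsCoprime.mul_dvd ?_
      ((ZMod.intCast_zmod_eq_zero_iff_dvd _ _).mp (Gamma0_mem.mp γ.2.1))
      ((ZMod.intCast_zmod_eq_zero_iff_dvd _ _).mp γ.2.2.2))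
    exact Int.isCoprime_iff_nat_coprime.mpr (by simpa using hNq)⟩
  map_one' := Subtype.ext (by simp)
  map_mul' a b := Subtype.ext (by simp)

@[simp] theorem coe_downTwo (γ : gTwo N q) :
    (((downTwo hNq γ : Gamma0 (N * q ^ 2)) : SL(2, ℤ)) : M₂) = downMat q (γ : SL(2, ℤ)) := rfl

end FermatAgent.TWLocal

end
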