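import Fermat.Agent.TWLocal.Kummer
import Fermat.Agent.Periods.HeckeHom

/-!
The three embeddings of `ℚ̄(X₀(N))` into the level `N q` field: `f (z)`, `f (z / q)`, `f (q z)`, and
the roots of the functions attached to torsion points of `J₀(N)`.
-/

set_option autoImplicit false
set_option linter.unusedSectionVars false
set_option maxHeartbeats 800000

noncomputable section

namespace FermatAgent.TWLocal

open UpperHalfPlane hiding I
open Filter Topology
open ModularCurve AlgebraicCurve CongruenceSubgroup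
open FermatAgent.ModCurveTorsion
open FermatAgent.Curve (divisorOf divisorOf_apply divisorOf_mul)
open FermatAgent.Periods (mob mob_mul)
open FermatAgent.ModCurve.Points (FieldC)
open scoped MatrixGroups

local notation "M₂" => Matrix (Fin 2) (Fin 2) ℤ
local notation "Qb" => AlgebraicClosure ℚ
local notation "GQ" => AlgebraicClosure ℚ ≃ₐ[ℚ] AlgebraicClosure ℚ
local notation "ℍo" => UpperHalfPlane.upperHalfPlaneSet

attribute [local instance] qbarAlgebraC qbarAlgebraFieldC fieldBarAlgebraC
  qbar_isScalarTower_const qbar_isScalarTower_ext qbar_isConstantExtension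

variable {N q : ℕ} [NeZero N] [NeZero q]

theorem qExpand_mem_bar {d : ℕ} [NeZero d] (hd : d ∣ q ^ 2) {x : LaurentSeries Qb}
    (hx : x ∈ modularFunctionFieldBar N) :
    qExpand Qb d x ∈ modularFunctionFieldBar (N * q ^ 2) := by
  have hgen : ∀ e : ℕ, [NeZero e] → e ∣ N * q ^ 2 →
      qExpand Qb e (jqModC Qb) ∈ modularFunctionFieldBar (N * q ^ 2) := fun e _ he => by
    show _ ∈ laurentBaseChange Qb (modularFunctionFieldFull (N * q ^ 2))
    rw [FermatAgent.ModFun.laurentBaseChange_full_eq_fullC]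
    exact jqModCd_mem_full _ (N * q ^ 2) he
  change x ∈ laurentBaseChange Qb (modularFunctionFieldFull N) at hx
  rw [FermatAgent.ModFun.laurentBaseChange_full_eq] at hx
  induction hx using IntermediateField.adjoin_induction with
  | mem y hy =>
    rcases hy with rfl | rfl
    · exact hgen d (hd.trans (dvd_mul_left _ _))
    · rw [jqNModC, qExpand_qExpand]
      exact hgen (d * N) (by rw [mul_comm N]; exact mul_dvd_mul_right hd N)
  | algebraMap c =>
    rw [algebraMap_laurentSeries_eq_single, ← HahnSeries.C_apply, qExpand_C, HahnSeries.C_apply,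
      ← algebraMap_laurentSeries_eq_single]
    exact IntermediateField.algebraMap_mem _ c
  | add a b _ _ ha hb => rw [map_add]; exact add_mem ha hb
  | inv a _ ha => rw [map_inv₀]; exact inv_mem ha
  | mul a b _ _ ha hb => rw [map_mul]; exact mul_mem ha hb

variable (N q) in
/-- `x (q) ↦ x (q ^ d)` from level `N` to level `N q²`. -/
def degen (d : ℕ) [NeZero d] (hd : d ∣ q ^ 2) :
    modularFunctionFieldBar N →+* modularFunctionFieldBar (N * q ^ 2) :=
  ((qExpand Qb d).comp (modularFunctionFieldBar N).val.toRingHom).codRestrict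
    (modularFunctionFieldBar (N * q ^ 2)) fun x => qExpand_mem_bar hd x.2

theorem coe_degen (d : ℕ) [NeZero d] (hd : d ∣ q ^ 2) (x : modularFunctionFieldBar N) :
    (degen N q d hd x : LaurentSeries Qb) = qExpand Qb d (x : LaurentSeries Qb) := rfl

variable (N q) in
/-- `f (z)`. -/
def eA : modularFunctionFieldBar N →+* GF (N * q) :=
  (embS N q).comp (degen N q q (dvd_pow_self q two_ne_zero))

variable (N q) in
/-- `f (z / q)`. -/
def eB : modularFunctionFieldBar N →+* GF (N * q) :=
  (embS N q).comp (degen N q 1 (one_dvd _))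

variable (N q) in
/-- `f (q z)`. -/
def eC : modularFunctionFieldBar N →+* GF (N * q) :=
  (embS N q).comp (degen N q (q ^ 2) dvd_rfl)

theorem gExp_eA (x : modularFunctionFieldBar N) :
    gExp (eA N q x) = qExpand Qb (N * q) (x : LaurentSeries Qb) := by
  rw [eA, RingHom.comp_apply, gExp_embS, coe_degen, qExpand_qExpand]

theorem gExp_eB (x : modularFunctionFieldBar N) :
    gExp (eB N q x) = qExpand Qb N (x : LaurentSeries Qb) := by
  rw [eB, RingHom.comp_apply, gExp_embS, coe_degen, qExpand_qExpand]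
  exact qExpand_congr (mul_one N) _

theorem galGF_comp_degen (σ : GQ) (d : ℕ) [NeZero d] (hd : d ∣ q ^ 2)
    (x : modularFunctionFieldBar N) :
    galGF σ (embS N q (degen N q d hd x)) =
      embS N q (degen N q d hd (arithmeticGalois (modularFunctionFieldFull N) σ • x)) := by
  rw [galGF_embS]
  congr 1
  refine Subtype.ext ?_
  rw [coe_degen]
  show coeffMap (σ : Qb →+* Qb) _ = qExpand Qb d (coeffMap (σ : Qb →+* Qb) _)
  rw [coe_degen, coeffMap_qExpand]

theorem galGF_eA (σ : GQ) (x : modularFunctionFieldBar N) :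
    galGF σ (eA N q x) = eA N q (arithmeticGalois (modularFunctionFieldFull N) σ • x) :=
  galGF_comp_degen σ _ _ x

theorem galGF_eB (σ : GQ) (x : modularFunctionFieldBar N) :
    galGF σ (eB N q x) = eB N q (arithmeticGalois (modularFunctionFieldFull N) σ • x) :=
  galGF_comp_degen σ _ _ x

/-- The function on `ℂ` of an element of `ℚ̄(X₀(N))`. -/
abbrev evB (x : modularFunctionFieldBar N) : ℂ → ℂ :=
  evalFun (algebraMap (FieldBar N) (FieldC N) x)

theorem evalFun_degen (d : ℕ) [NeZero d] (hd : d ∣ q ^ 2) (x : modularFunctionFieldBar N) :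
    GermEq (evG (embS N q (degen N q d hd x)))
      ((evB x ∘ mob !![(d : ℤ), 0; 0, 1]) ∘ mob (dnQ q)) := by
  refine (evG_embS' (degen N q d hd x)).trans
    ((evalFun_eq_comp_dil d (algebraMap (FieldBar N) (FieldC N) x) _ ?_).comp_mob det_upQ_pos.2)
  rw [coe_algebraMap_fieldBar, coe_algebraMap_fieldBar, coe_degen, coeffMap_qExpand]

theorem mob_dnQ (w : ℂ) : mob (dnQ q) w = w / q := by simp [mob, dnQ]

theorem evG_eA (x : modularFunctionFieldBar N) : GermEq (evG (eA N q x)) (evB x) := by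
  rw [eA, RingHom.comp_apply]
  refine (evalFun_degen q (dvd_pow_self q two_ne_zero) x).trans (GermEq.of_eqOn fun w _ => ?_)
  simp only [Function.comp_apply, mob_diag, mob_dnQ]
  rw [mul_div_cancel₀ _ (Nat.cast_ne_zero.mpr (NeZero.ne q))]

theorem evG_eB (x : modularFunctionFieldBar N) :
    GermEq (evG (eB N q x)) (evB x ∘ mob (dnQ q)) := by
  rw [eB, RingHom.comp_apply]
  refine (evalFun_degen 1 (one_dvd _) x).trans (GermEq.of_eqOn fun w _ => ?_)
  simp only [Function.comp_apply, mob_dnQ]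
  rw [mob_diag 1, Nat.cast_one, one_mul]

theorem evG_eC (x : modularFunctionFieldBar N) :
    GermEq (evG (eC N q x)) (evB x ∘ mob (upQ q)) := by
  rw [eC, RingHom.comp_apply]
  refine (evalFun_degen (q ^ 2) dvd_rfl x).trans (GermEq.of_eqOn fun w _ => ?_)
  simp only [Function.comp_apply, upQ, mob_diag, mob_dnQ]
  congr 1
  push_cast
  field_simp [NeZero.ne q]

theorem evB_invariant (x : modularFunctionFieldBar N) (γ : Gamma0 N) :
    GermEq (evB x ∘ mob ((γ : SL(2, ℤ)) : M₂)) (evB x) :=
  evalFun_invariant _ γ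

theorem isInv_eA (x : modularFunctionFieldBar N) : IsInv (Gamma0 N) (eA N q x) :=
  isInv_of_germEq fun γ hγ => ((evG_eA x).comp_mob (by simp)).trans
    ((evB_invariant x ⟨γ, hγ⟩).trans (evG_eA x).symm)

theorem isInv_eB (x : modularFunctionFieldBar N) : IsInv (gUp N q) (eB N q x) :=
  isInv_of_germEq fun γ hγ => by
    set δ : Gamma0 N := ⟨(downG ⟨γ, hγ⟩ : SL(2, ℤ)), Gamma0_mem.mpr <| by
      have h := Gamma0_mem.mp (downG ⟨γ, hγ⟩ : Gamma0 (N * q)).2
      simpa using congrArg (ZMod.castHom (dvd_mul_right N q) (ZMod N)) h⟩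
    refine ((evG_eB x).comp_mob (by simp)).trans (GermEq.trans ?_ (evG_eB x).symm)
    refine (germEq_comp_mob_mul _ (dnQ q) (B := (γ : M₂)) (by simp)).symm.trans ?_
    rw [dnQ, downMat_spec (dvd_of_mem_gUp hγ), ← dnQ]
    refine (germEq_comp_mob_mul _ (downMat q γ) det_upQ_pos.2.ne').trans ?_
    exact (evB_invariant x δ).comp_mob det_upQ_pos.2

/-! ### Torsion points of level `N` -/

variable (N) in
/-- `f` is a function attached to the `n`-torsion point `x` of `J₀(N)`. -/
def IsReprN (n : ℕ) (x : JZero N) (f : modularFunctionFieldBar N) : Prop :=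
  ∃ D : Divisor.degZero (K := Qb) (F := FieldBar N), f ≠ 0 ∧ Pic0.mk D = x ∧
    divisorOf (K := Qb) f = (n : ℤ) • (D : Divisor Qb (FieldBar N))

namespace IsReprN

variable {n : ℕ} {x y : JZero N} {f g : modularFunctionFieldBar N}

theorem ne_zero (h : IsReprN N n x f) : f ≠ 0 := h.choose_spec.1

theorem add (h : IsReprN N n x f) (h' : IsReprN N n y g) : IsReprN N n (x + y) (f * g) := by
  obtain ⟨D, hf, rfl, hD⟩ := h
  obtain ⟨D', hg, rfl, hD'⟩ := h'
  refine ⟨D + D', mul_ne_zero hf hg, rfl, ?_⟩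
  rw [divisorOf_mul hf hg, hD, hD', AddSubgroup.coe_add, smul_add]

theorem neg (h : IsReprN N n x f) : IsReprN N n (-x) f⁻¹ := by
  obtain ⟨D, hf, rfl, hD⟩ := h
  refine ⟨-D, inv_ne_zero hf, rfl, ?_⟩
  rw [AddSubgroup.coe_neg, smul_neg, ← hD]
  exact Finsupp.ext fun v => by simp [v.ord_inv]

theorem sub (h : IsReprN N n x f) (h' : IsReprN N n y g) : IsReprN N n (x - y) (f / g) := by
  rw [sub_eq_add_neg, div_eq_mul_inv]
  exact h.add h'.neg

theorem galois (σ : GQ) (h : IsReprN N n x f) :
    IsReprN N n (σ • x) (arithmeticGalois (modularFunctionFieldFull N) σ • f) := by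
  obtain ⟨D, hf, rfl, hD⟩ := h
  rw [galois_smul_pic0_def, SemilinearAut.pic0_smul_mk]
  refine ⟨_, (smul_ne_zero_iff_ne _).mpr hf, rfl, ?_⟩
  rw [← smul_divisorOf, hD]
  exact map_zsmul (semilinearDiv (arithmeticGalois (modularFunctionFieldFull N) σ)) _ _

end IsReprN

theorem exists_isReprN {n : ℕ} {x : JZero N} (hx : (n : ℤ) • x = 0) : ∃ f, IsReprN N n x f := by
  obtain ⟨D, rfl⟩ := Pic0.mk_surjective x
  have h0 : Pic0.mk ((n : ℤ) • D) = 0 := by rw [← hx]; rfl
  obtain ⟨f, hf, hfD⟩ := AddSubgroup.mem_addSubgroupOf.mp ((QuotientAddGroup.eq_zero_iff _).mp h0)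
  exact ⟨f, D, hf, rfl, Finsupp.ext fun v => by rw [divisorOf_apply, ← hfD v]; rfl⟩

/-- A root of a function attached to a point, with the Kummer character as multiplier. -/
theorem IsReprN.exists_root {n : ℕ} [NeZero n] {x : JZero N} {f : modularFunctionFieldBar N}
    (h : IsReprN N n x f) {φ : Additive (Gamma0 N) →+ ZMod n}
    (hφ : IsKummerChar n (jBaseC N x) φ) :
    ∃ G : ℂ → ℂ, MeromorphicOn G ℍo ∧ GermEq (G ^ n) (evB f) ∧
      HasMultiplier G fun γ => ZMod.stdAddChar (φ (Additive.ofMul γ)) := by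
  obtain ⟨D, hf, rfl, hdiv⟩ := h
  have hfC : algebraMap (FieldBar N) (FieldC N) f ≠ 0 :=
    (map_ne_zero (algebraMap (FieldBar N) (FieldC N))).mpr hf
  obtain ⟨g, hg⟩ := exists_kummerRoot_of_divisor (n := n) hfC (ord_algebraMap_fieldBar hdiv)
  obtain ⟨χ, hχ, hχn⟩ := exists_multiplier (Γ := Gamma0 N) (NeZero.ne n) hg.mero hg.pow_eq
    (nowhereZero_evalFun hfC) (evalFun_invariant (algebraMap (FieldBar N) (FieldC N) f))
  choose a ha using fun γ => exists_eq_stdAddChar (n := n) (hχn γ)
  have hg0 := hg.nowhereZero (NeZero.ne n)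
  let ψ : Additive (Gamma0 N) →+ ZMod n :=
    AddMonoidHom.mk' (fun γ => a γ.toMul) fun γ δ => ZMod.injective_stdAddChar (by
      rw [AddChar.map_add_eq_mul, ha, ha, ha, ← hχ.map_mul hg.mero hg0]
      rfl)
  have hψχ : HasMultiplier g fun γ => ZMod.stdAddChar (ψ (Additive.ofMul γ)) := by
    convert hχ using 1
    funext γ
    exact ha γ
  have hψ : IsKummerChar n (jBaseC N (Pic0.mk D)) ψ :=
    ⟨⟨divBaseC N (D : Divisor Qb (FieldBar N)), by
      rw [Divisor.mem_degZero, degree_divBaseC]; exact D.2⟩, _, g, (jBaseC_mk N D).symm, hg,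
      hψχ⟩
  obtain rfl : ψ = φ := hψ.unique hφ
  exact ⟨g, hg.mero, hg.pow_eq, hψχ⟩

end FermatAgent.TWLocal

end
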