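import Fermat.Agent.TWLocal.GFField
import Fermat.Agent.ModCurve.Torsion.EvalFun
import Fermat.Agent.ModCurve.Torsion.BaseToComplex

/-!
Elements of the level `M` field as meromorphic functions on the upper half plane, and comparison
with the functions on `X₀(N q²)` and with degeneracy maps.
-/

set_option autoImplicit false
set_option linter.unusedSectionVars false
set_option maxHeartbeats 1000000

noncomputable section

namespace FermatAgent.TWLocal

open UpperHalfPlane hiding I
open Filter Topology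
open ModularCurve
open FermatAgent.ModCurveTorsion
open FermatAgent.ModCurve.Points (FieldC evalH evalC toField regRing evalH_mdiff)
open FermatAgent.Periods (mob mob_mul im_mob_pos)
open scoped MatrixGroups Manifold

local notation "M₂" => Matrix (Fin 2) (Fin 2) ℤ
local notation "Qb" => AlgebraicClosure ℚ
local notation "ℍo" => UpperHalfPlane.upperHalfPlaneSet

variable {M : ℕ} [NeZero M]

theorem genRing_mdiff (f : genRing M) : MDiff (f : ℍ → ℂ) := by
  have h : ((f : ℍ → ℂ) ∘ ModFun.dil M) ∈ ModFun.cuspRing :=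
    ((Igusa.mem_expSubring M _).mp (genRing_le_expSubring f.2)).1
  have hM : (0 : ℝ) < M := Nat.cast_pos.mpr (NeZero.pos M)
  let g : ℍ → ℍ := fun τ => (⟨((M : ℝ))⁻¹, inv_pos.mpr hM⟩ : {x : ℝ // 0 < x}) • τ
  have hd : MDiff fun τ => (g τ : ℂ) := by
    simp only [g, coe_pos_real_smul, Complex.real_smul]
    exact mdifferentiable_const.mul mdifferentiable_coe
  convert ModFun.mdiff_comp h.1 hd using 1
  funext τ
  show (f : ℍ → ℂ) τ = (f : ℍ → ℂ) (ModFun.dil M (g τ))
  refine congrArg (f : ℍ → ℂ) (UpperHalfPlane.ext ?_)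
  simp [g, NeZero.ne M]

/-- A member of the ring as a function on `ℂ`. -/
def evR (f : genRing M) : ℂ → ℂ := (f : ℍ → ℂ) ∘ ofComplex

theorem analyticAt_evR (f : genRing M) {z : ℂ} (hz : z ∈ ℍo) : AnalyticAt ℂ (evR f) z :=
  (UpperHalfPlane.mdifferentiable_iff.mp (genRing_mdiff f)).analyticAt
    (isOpen_upperHalfPlaneSet.mem_nhds hz)

theorem nowhereZero_evR {f : genRing M} (hf : f ≠ 0) : NowhereZero (evR f) := by
  intro z hz htop
  refine hf (Subtype.ext (funext fun τ => ?_))
  have h0 : evR f =ᶠ[𝓝[≠] z] 0 := meromorphicOrderAt_eq_top_iff.mp htop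
  have h1 : evR f =ᶠ[𝓝 z] 0 :=
    ((analyticAt_evR f hz).continuousAt.eventuallyEq_nhds_iff_eventuallyEq_nhdsNE
      continuousAt_const).1 h0
  have han : AnalyticOnNhd ℂ (evR f) ℍo := fun w hw => analyticAt_evR f hw
  have h2 := han.eqOn_zero_of_preconnected_of_eventuallyEq_zero isPreconnected_halfPlane hz h1
    τ.im_pos
  simpa [evR] using h2

/-- Numerator of a chosen presentation. -/
def gNum (x : GF M) : genRing M := (exists_num_den x).choose

/-- Denominator of a chosen presentation. -/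
def gDen (x : GF M) : genRing M := (exists_num_den x).choose_spec.choose

theorem gDen_ne_zero (x : GF M) : gDen x ≠ 0 := (exists_num_den x).choose_spec.choose_spec.1

theorem eq_gNum_div_gDen (x : GF M) : x = toGF (gNum x) / toGF (gDen x) :=
  (exists_num_den x).choose_spec.choose_spec.2

theorem mul_toGF_gDen (x : GF M) : x * toGF (gDen x) = toGF (gNum x) :=
  (eq_div_iff ((map_ne_zero_iff _ toGF_injective).mpr (gDen_ne_zero x))).mp (eq_gNum_div_gDen x)

/-- An element of the field as a function on `ℂ`. -/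
def evG (x : GF M) : ℂ → ℂ := evR (gNum x) / evR (gDen x)

theorem meromorphicOn_evG (x : GF M) : MeromorphicOn (evG x) ℍo := fun _ hz =>
  (analyticAt_evR _ hz).meromorphicAt.div (analyticAt_evR _ hz).meromorphicAt

theorem germEq_evG_of_eq {x : GF M} {a b : genRing M} (hb : b ≠ 0) (h : x * toGF b = toGF a) :
    GermEq (evG x) (evR a / evR b) := by
  have e : gNum x * b = a * gDen x := by
    refine toGF_injective ?_
    rw [map_mul, map_mul, ← h, ← mul_toGF_gDen x]
    ring
  intro z hz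
  filter_upwards [(nowhereZero_evR hb).eventually_ne
      (fun w hw => (analyticAt_evR b hw).meromorphicAt) hz,
    (nowhereZero_evR (gDen_ne_zero x)).eventually_ne
      (fun w hw => (analyticAt_evR _ hw).meromorphicAt) hz] with w hw hw'
  rw [evG, Pi.div_apply, Pi.div_apply, div_eq_div_iff hw' hw]
  exact congrFun (congrArg Subtype.val e) (ofComplex w)

theorem evG_toGF (a : genRing M) : GermEq (evG (toGF a)) (evR a) := by
  refine (germEq_evG_of_eq (a := a) (b := 1) one_ne_zero (by rw [map_one, mul_one])).trans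
    (GermEq.of_eqOn fun z _ => ?_)
  simp only [Pi.div_apply, evR, Function.comp_apply, OneMemClass.coe_one, Pi.one_apply, div_one]

theorem evG_mul (x y : GF M) : GermEq (evG (x * y)) (evG x * evG y) := by
  refine (germEq_evG_of_eq (a := gNum x * gNum y)
    (mul_ne_zero (gDen_ne_zero x) (gDen_ne_zero y)) ?_).trans (GermEq.of_eqOn fun z _ => ?_)
  · rw [map_mul, map_mul, ← mul_toGF_gDen x, ← mul_toGF_gDen y]
    ring
  · simp only [evG, evR, Pi.div_apply, Pi.mul_apply, Function.comp_apply, Subring.coe_mul,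
      mul_div_mul_comm]

theorem evG_one : GermEq (evG (1 : GF M)) 1 := by
  rw [← map_one (toGF (M := M))]
  exact evG_toGF 1

theorem evG_pow (x : GF M) (n : ℕ) : GermEq (evG (x ^ n)) (evG x ^ n) := by
  induction n with
  | zero => rw [pow_zero, pow_zero]; exact evG_one
  | succ n ih => rw [pow_succ, pow_succ]; exact (evG_mul _ _).trans (ih.mul (GermEq.refl _))

theorem evG_prod {ι : Type*} (s : Finset ι) (f : ι → GF M) :
    GermEq (evG (∏ i ∈ s, f i)) (∏ i ∈ s, evG (f i)) := by
  classical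
  induction s using Finset.induction_on with
  | empty => rw [Finset.prod_empty, Finset.prod_empty]; exact evG_one
  | @insert a s ha ih =>
    rw [Finset.prod_insert ha, Finset.prod_insert ha]
    exact (evG_mul _ _).trans ((GermEq.refl _).mul ih)

theorem nowhereZero_evG {x : GF M} (hx : x ≠ 0) : NowhereZero (evG x) := by
  have hn : gNum x ≠ 0 := fun h => hx (by
    rw [eq_gNum_div_gDen x, h, map_zero, zero_div])
  intro z hz
  rw [evG, div_eq_mul_inv,
    meromorphicOrderAt_mul (analyticAt_evR _ hz).meromorphicAt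
      (analyticAt_evR _ hz).meromorphicAt.inv, meromorphicOrderAt_inv]
  obtain ⟨i, hi⟩ := WithTop.ne_top_iff_exists.mp (nowhereZero_evR hn z hz)
  obtain ⟨j, hj⟩ := WithTop.ne_top_iff_exists.mp (nowhereZero_evR (gDen_ne_zero x) z hz)
  rw [← hi, ← hj]
  exact WithTop.coe_ne_top (a := i + -j)

theorem evG_inv {x : GF M} (hx : x ≠ 0) : GermEq (evG x⁻¹) (evG x)⁻¹ := by
  intro z hz
  have h1 : GermEq (evG x⁻¹ * evG x) 1 := by
    refine (evG_mul _ _).symm.trans ?_
    rw [inv_mul_cancel₀ hx]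
    exact evG_one
  filter_upwards [h1 z hz, (nowhereZero_evG hx).eventually_ne (meromorphicOn_evG x) hz] with w hw hw'
  simp only [Pi.mul_apply, Pi.one_apply] at hw
  rw [Pi.inv_apply]
  exact eq_inv_of_mul_eq_one_left hw

theorem evG_injective {x y : GF M} (h : GermEq (evG x) (evG y)) : x = y := by
  have hd := mul_ne_zero (gDen_ne_zero x) (gDen_ne_zero y)
  have e : gNum x * gDen y = gNum y * gDen x := by
    by_contra hne
    refine nowhereZero_evR (sub_ne_zero.mpr hne) Complex.I (show 0 < Complex.I.im by simp)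
      (meromorphicOrderAt_eq_top_iff.mpr ?_)
    have hI : Complex.I ∈ ℍo := show 0 < Complex.I.im by simp
    filter_upwards [h _ hI, (nowhereZero_evR (gDen_ne_zero x)).eventually_ne
        (fun w hw => (analyticAt_evR _ hw).meromorphicAt) hI,
      (nowhereZero_evR (gDen_ne_zero y)).eventually_ne
        (fun w hw => (analyticAt_evR _ hw).meromorphicAt) hI] with w hw h1 h2
    simp only [evG, Pi.div_apply, div_eq_div_iff h1 h2] at hw
    show ((gNum x * gDen y - gNum y * gDen x : genRing M) : ℍ → ℂ) (ofComplex w) = 0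
    exact sub_eq_zero.mpr hw
  rw [eq_gNum_div_gDen x, eq_gNum_div_gDen y, div_eq_div_iff
    ((map_ne_zero_iff _ toGF_injective).mpr (gDen_ne_zero x))
    ((map_ne_zero_iff _ toGF_injective).mpr (gDen_ne_zero y)), ← map_mul, ← map_mul, e]

theorem evR_genSmul (γ : SL(2, ℤ)) (a : genRing M) :
    GermEq (evR (genSmul γ a)) (evR a ∘ mob (γ : M₂)) :=
  GermEq.of_eqOn fun w hw => by
    simp only [evR, Function.comp_apply, coe_genSmul, Igusa.compSmul_apply]
    rw [ofComplex_mob γ hw]

theorem evG_smulGF (γ : SL(2, ℤ)) (x : GF M) :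
    GermEq (evG (smulGF γ x)) (evG x ∘ mob (γ : M₂)) := by
  have hb : genSmul γ (gDen x) ≠ 0 := (map_ne_zero_iff _ (genSmul_injective γ)).mpr (gDen_ne_zero x)
  refine (germEq_evG_of_eq (a := genSmul γ (gNum x)) hb ?_).trans ?_
  · rw [← smulGF_toGF, ← smulGF_toGF, ← map_mul, mul_toGF_gDen]
  · exact fun z hz => (evR_genSmul γ (gNum x) z hz).div (evR_genSmul γ (gDen x) z hz)

/-! ### Comparison with the function field of `X₀` -/

theorem evR_eq_of_qExp {f g : ℍ → ℂ} (hf : f ∈ Igusa.cuspRingAt M) (hg : g ∈ Igusa.cuspRingAt M)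
    (h : Igusa.qExp M f = Igusa.qExp M g) : f = g :=
  congrArg Subtype.val (Igusa.qExpHom_injective M (a₁ := ⟨f, hf⟩) (a₂ := ⟨g, hg⟩) h)

theorem mob_diag (d : ℕ) (w : ℂ) : mob !![(d : ℤ), 0; 0, 1] w = (d : ℂ) * w := by
  simp [mob]

theorem evalC_one_apply {L : ℕ} (f : regRing L) (w : ℂ) :
    evalC 1 f w = evalH f (ofComplex w) := by
  simp [evalC]

section Emb

attribute [local instance] qbarAlgebraC qbarAlgebraFieldC fieldBarAlgebraC

variable {N q : ℕ} [NeZero N] [NeZero q]

theorem evG_embS (x : modularFunctionFieldBar (N * q ^ 2)) :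
    GermEq (evG (embS N q x) ∘ mob !![(q : ℤ), 0; 0, 1])
      (evalFun (algebraMap (FieldBar (N * q ^ 2)) (FieldC (N * q ^ 2)) x)) := by
  set X : FieldC (N * q ^ 2) := algebraMap (FieldBar (N * q ^ 2)) (FieldC (N * q ^ 2)) x
  set c := evalNum X
  set d := evalDen X
  set a := gNum (embS N q x)
  set b := gDen (embS N q x)
  have e1 : qExpand Qb N (x : LaurentSeries Qb) * genExp b = genExp a := by
    rw [← gExp_embS, ← gExp_toGF, ← gExp_toGF, ← map_mul, mul_toGF_gDen]
  have e2 : (X : LaurentSeries ℂ) * ModFun.qLaurent (evalH d) = ModFun.qLaurent (evalH c) := by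
    have h0 : X * toField _ d = toField _ c := (eq_div_iff (fun h => evalDen_ne_zero X
      (FermatAgent.ModCurve.Points.toField_injective _ (h.trans (map_zero _).symm)))).mp
      (eq_evalNum_div_evalDen X)
    exact congrArg Subtype.val h0
  have hX : (X : LaurentSeries ℂ) = coeffMap iotaC (x : LaurentSeries Qb) :=
    coe_algebraMap_fieldBar _ x
  have hc : q * N = N * q := mul_comm q N
  have hcusp : ∀ f : regRing (N * q ^ 2), evalH f ∈ ModFun.cuspRing := fun f =>
    ((f : ModFun.cuspRing)).2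
  have hmem : ∀ f : regRing (N * q ^ 2),
      evalH f ∘ Igusa.ut 1 q 0 ∈ Igusa.cuspRingAt (N * q) := fun f =>
    Igusa.mem_cuspRingAt_comp_ut (hcusp f) 0 hc
  have hexp : ∀ f : regRing (N * q ^ 2), Igusa.qExp (N * q) (evalH f ∘ Igusa.ut 1 q 0) =
      qExpand ℂ N (ModFun.qLaurent (evalH f)) := fun f => by
    rw [Igusa.qExp_comp_ut (hcusp f) 0 hc, qExpand_congr (one_mul N)]
    congr 1
    ext n
    rw [ModFun.twist_coeff]
    simp [ModFun.expUnit]
  have hgen : ∀ f : genRing (N * q), (f : ℍ → ℂ) ∈ Igusa.cuspRingAt (N * q) := fun f =>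
    ((Igusa.mem_expSubring _ _).mp (genRing_le_expSubring f.2)).1
  have key : (a : ℍ → ℂ) * (evalH d ∘ Igusa.ut 1 q 0) =
      (b : ℍ → ℂ) * (evalH c ∘ Igusa.ut 1 q 0) := by
    refine evR_eq_of_qExp (mul_mem (hgen a) (hmem d)) (mul_mem (hgen b) (hmem c)) ?_
    have hm : ∀ {f g : ℍ → ℂ}, f ∈ Igusa.cuspRingAt (N * q) → g ∈ Igusa.cuspRingAt (N * q) →
        Igusa.qExp (N * q) (f * g) = Igusa.qExp (N * q) f * Igusa.qExp (N * q) g := fun hf hg =>
      map_mul (Igusa.qExpHom (N * q)) ⟨_, hf⟩ ⟨_, hg⟩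
    rw [hm (hgen a) (hmem d), hm (hgen b) (hmem c), hexp, hexp, ← coeffMap_genExp,
      ← coeffMap_genExp, ← e1, ← e2, hX, map_mul, coeffMap_qExpand, map_mul]
    ring
  intro z hz
  have hq : (0 : ℝ) < q := Nat.cast_pos.mpr (NeZero.pos q)
  have hdet : (0 : ℤ) < (!![(q : ℤ), 0; 0, 1] : M₂).det := by
    simp [NeZero.pos q]
  have hd0 : ∀ᶠ w in 𝓝[≠] z, evalC 1 d w ≠ 0 := by
    refine (meromorphicOrderAt_ne_top_iff_eventually_ne_zero
      (FermatAgent.ModCurve.Points.analyticAt_evalC 1 d ⟨z, hz⟩).meromorphicAt).mp fun htop => ?_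
    refine evalDen_ne_zero X (FermatAgent.ModCurve.Points.germHom_injective ⟨z, hz⟩ 1 ?_)
    rw [map_zero, FermatAgent.ModCurve.Points.germHom_apply,
      FermatAgent.ModCurve.Points.MeroGerm.mk_eq_zero_iff]
    exact htop
  have hb0 : ∀ᶠ w in 𝓝[≠] z, evR b (mob !![(q : ℤ), 0; 0, 1] w) ≠ 0 :=
    ((nowhereZero_evR (gDen_ne_zero _)).comp_mob hdet).eventually_ne
      (meromorphicOn_comp_mob (fun w hw => (analyticAt_evR b hw).meromorphicAt) hdet) hz
  filter_upwards [hd0, hb0,
    mem_nhdsWithin_of_mem_nhds (isOpen_upperHalfPlaneSet.mem_nhds hz)] with w h1 h2 hw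
  have hw' : 0 < (mob !![(q : ℤ), 0; 0, 1] w).im := im_mob_pos _ hdet hw
  have hut : Igusa.ut 1 q 0 (ofComplex (mob !![(q : ℤ), 0; 0, 1] w)) = ofComplex w := by
    ext
    rw [Igusa.coe_ut, ofComplex_apply_of_im_pos hw', ofComplex_apply_of_im_pos hw]
    simp [mob_diag, mul_div_cancel_left₀ w (Nat.cast_ne_zero.mpr (NeZero.ne q) : (q : ℂ) ≠ 0)]
  have hk := congrFun key (ofComplex (mob !![(q : ℤ), 0; 0, 1] w))
  simp only [Pi.mul_apply, Function.comp_apply, hut] at hk
  simp only [Function.comp_apply, evG, evR, Pi.div_apply, evalFun, evalC_one_apply] at h1 h2 ⊢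
  rw [div_eq_div_iff h2 h1, hk, mul_comm]

end Emb

theorem evalFun_eq_comp_dil {L L' : ℕ} [NeZero L] [NeZero L'] (d : ℕ) [NeZero d] (x : FieldC L)
    (x' : FieldC L') (h : (x' : LaurentSeries ℂ) = qExpand ℂ d (x : LaurentSeries ℂ)) :
    GermEq (evalFun x') (evalFun x ∘ mob !![(d : ℤ), 0; 0, 1]) := by
  have hL : ∀ {K : ℕ} (y : FieldC K), (y : LaurentSeries ℂ) *
      ModFun.qLaurent (evalH (evalDen y)) = ModFun.qLaurent (evalH (evalNum y)) := fun {K} y => by
    have h0 : y * toField _ (evalDen y) = toField _ (evalNum y) :=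
      (eq_div_iff (fun h => evalDen_ne_zero y
        (FermatAgent.ModCurve.Points.toField_injective _ (h.trans (map_zero _).symm)))).mp
      (eq_evalNum_div_evalDen y)
    exact congrArg Subtype.val h0
  set c := evalH (evalNum x)
  set e := evalH (evalDen x)
  set c' := evalH (evalNum x')
  set e' := evalH (evalDen x')
  have hc : ∀ {K : ℕ} (f : regRing K), evalH f ∈ ModFun.cuspRing := fun f =>
    ((f : ModFun.cuspRing)).2
  have key : c' * (e ∘ ModFun.dil d) = e' * (c ∘ ModFun.dil d) := by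
    refine congrArg Subtype.val (ModFun.qLaurentHom_injective
      (a₁ := ⟨_, mul_mem (hc (evalNum x')) (ModFun.mem_cuspRing_comp_dil (hc (evalDen x)) d)⟩)
      (a₂ := ⟨_, mul_mem (hc (evalDen x')) (ModFun.mem_cuspRing_comp_dil (hc (evalNum x)) d)⟩) ?_)
    have hm : ∀ {f g : ℍ → ℂ}, f ∈ ModFun.cuspRing → g ∈ ModFun.cuspRing →
        ModFun.qLaurent (f * g) = ModFun.qLaurent f * ModFun.qLaurent g := fun hf hg =>
      map_mul ModFun.qLaurentHom ⟨_, hf⟩ ⟨_, hg⟩
    rw [ModFun.qLaurentHom_apply, ModFun.qLaurentHom_apply,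
      hm (hc _) (ModFun.mem_cuspRing_comp_dil (hc _) d),
      hm (hc _) (ModFun.mem_cuspRing_comp_dil (hc _) d),
      ModFun.qLaurent_comp_dil (hc _), ModFun.qLaurent_comp_dil (hc _), ← hL x, ← hL x', h,
      map_mul]
    ring
  intro z hz
  have hdet : (0 : ℤ) < (!![(d : ℤ), 0; 0, 1] : M₂).det := by
    simp [NeZero.pos d]
  have hne : ∀ {K : ℕ} (y : FieldC K) {v : ℂ} (_ : v ∈ ℍo),
      ∀ᶠ w in 𝓝[≠] v, evalC 1 (evalDen y) w ≠ 0 := fun {K} y v hv => by
    refine (meromorphicOrderAt_ne_top_iff_eventually_ne_zero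
      (FermatAgent.ModCurve.Points.analyticAt_evalC 1 _ ⟨v, hv⟩).meromorphicAt).mp fun htop => ?_
    refine evalDen_ne_zero y (FermatAgent.ModCurve.Points.germHom_injective ⟨v, hv⟩ 1 ?_)
    rw [map_zero, FermatAgent.ModCurve.Points.germHom_apply,
      FermatAgent.ModCurve.Points.MeroGerm.mk_eq_zero_iff]
    exact htop
  filter_upwards [hne x' hz,
    (tendsto_mob_nhdsNE hdet hz).eventually (hne x (mob_mem hdet hz)),
    mem_nhdsWithin_of_mem_nhds (isOpen_upperHalfPlaneSet.mem_nhds hz)] with w h1 h2 hw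
  have hw' : 0 < (mob !![(d : ℤ), 0; 0, 1] w).im := im_mob_pos _ hdet hw
  have hdil : ModFun.dil d (ofComplex w) = ofComplex (mob !![(d : ℤ), 0; 0, 1] w) := by
    ext
    rw [ModFun.coe_dil, ofComplex_apply_of_im_pos hw', ofComplex_apply_of_im_pos hw]
    simp [mob_diag]
  have hk := congrFun key (ofComplex w)
  simp only [Pi.mul_apply, Function.comp_apply, hdil] at hk
  simp only [Function.comp_apply, evalFun, evalC_one_apply] at h1 h2 ⊢
  rw [div_eq_div_iff h1 h2, hk, mul_comm]

end FermatAgent.TWLocal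

end
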