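import Fermat.Agent.TW.ValueGroup
import Fermat.Agent.Igusa.IntFun
import Fermat.Agent.ES.Galois

/-!
Reduction of Laurent series over `ℚ̄` at a place, as a class modulo constants; normalisation of
series with coefficients in a number field and bounded denominators.
-/

set_option autoImplicit false

noncomputable section

namespace FermatAgent.TWLocal

open ModularCurve IsLocalRing

local notation "Qb" => AlgebraicClosure ℚ

section Cls

variable (k : Type*) [Field k]

/-- Nonzero constants among the units of Laurent series. -/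
def cstUnits : Subgroup (LaurentSeries k)ˣ :=
  (Units.map ((HahnSeries.C : k →+* LaurentSeries k) : k →* LaurentSeries k)).range

/-- Laurent series modulo nonzero constants. -/
def Cls : Type _ := (LaurentSeries k)ˣ ⧸ cstUnits k

instance : CommGroup (Cls k) := QuotientGroup.Quotient.commGroup (cstUnits k)

variable {k}

/-- The projection. -/
def clsHom : (LaurentSeries k)ˣ →* Cls k := QuotientGroup.mk' (cstUnits k)

theorem clsHom_eq_iff {u v : (LaurentSeries k)ˣ} : clsHom u = clsHom v ↔ u⁻¹ * v ∈ cstUnits k :=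
  QuotientGroup.eq

theorem clsHom_eq_one_iff {u : (LaurentSeries k)ˣ} : clsHom u = 1 ↔ u ∈ cstUnits k :=
  QuotientGroup.eq_one_iff u

/-- The class of a nonzero series. -/
def clsOf (r : LaurentSeries k) (h : r ≠ 0) : Cls k := clsHom (Units.mk0 r h)

theorem clsOf_mul {r r' : LaurentSeries k} (h : r ≠ 0) (h' : r' ≠ 0) :
    clsOf (r * r') (mul_ne_zero h h') = clsOf r h * clsOf r' h' := by
  rw [clsOf, clsOf, clsOf, ← map_mul]
  congr 1
  exact Units.ext rfl

theorem clsOf_congr {r r' : LaurentSeries k} (e : r = r') (h : r ≠ 0) (h' : r' ≠ 0) :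
    clsOf r h = clsOf r' h' := by subst e; rfl

theorem clsOf_one : clsOf (1 : LaurentSeries k) one_ne_zero = 1 := by
  rw [clsOf, show Units.mk0 (1 : LaurentSeries k) one_ne_zero = 1 from Units.ext rfl,
    map_one]

theorem clsOf_C {a : k} (ha : a ≠ 0) (h : (HahnSeries.C a : LaurentSeries k) ≠ 0) :
    clsOf (HahnSeries.C a) h = 1 :=
  clsHom_eq_one_iff.mpr ⟨Units.mk0 a ha, Units.ext rfl⟩

theorem clsOf_C_mul {a : k} (ha : a ≠ 0) {r : LaurentSeries k} (hr : r ≠ 0)
    (h : HahnSeries.C a * r ≠ 0) : clsOf (HahnSeries.C a * r) h = clsOf r hr := by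
  rw [clsOf_mul ((map_ne_zero _).mpr ha) hr, clsOf_C ha, one_mul]

theorem clsOf_eq_iff {r r' : LaurentSeries k} (h : r ≠ 0) (h' : r' ≠ 0) :
    clsOf r h = clsOf r' h' ↔ ∃ a : k, a ≠ 0 ∧ r' = HahnSeries.C a * r := by
  constructor
  · intro e
    obtain ⟨u, hu⟩ := clsHom_eq_iff.mp e
    refine ⟨u, u.ne_zero, ?_⟩
    have := congrArg Units.val hu
    simp only [Units.val_mul, Units.val_inv_eq_inv_val, Units.val_mk0] at this
    change (HahnSeries.C (u : k) : LaurentSeries k) = _ at this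
    rw [this, mul_comm, ← mul_assoc, mul_inv_cancel₀ h, one_mul]
  · rintro ⟨a, ha, rfl⟩
    exact (clsOf_C_mul ha h h').symm

/-- A ring endomorphism of series preserving constants acts on classes. -/
def clsMap (f : LaurentSeries k →+* LaurentSeries k)
    (hf : ∀ a : k, f (HahnSeries.C a) ∈ Set.range (HahnSeries.C : k → LaurentSeries k)) :
    Cls k →* Cls k :=
  QuotientGroup.map _ _ (Units.map (f : LaurentSeries k →* LaurentSeries k)) (by
    rintro _ ⟨a, rfl⟩
    obtain ⟨b, hb⟩ := hf a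
    have hb0 : b ≠ 0 := by
      rintro rfl
      rw [map_zero] at hb
      exact (Units.map (f : LaurentSeries k →* LaurentSeries k)
        (Units.map ((HahnSeries.C : k →+* LaurentSeries k) : k →* LaurentSeries k) a)).ne_zero
        hb.symm
    exact ⟨Units.mk0 b hb0, Units.ext hb⟩)

theorem clsMap_clsOf (f : LaurentSeries k →+* LaurentSeries k)
    (hf : ∀ a : k, f (HahnSeries.C a) ∈ Set.range (HahnSeries.C : k → LaurentSeries k))
    {r : LaurentSeries k} (h : r ≠ 0) :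
    clsMap f hf (clsOf r h) = clsOf (f r) ((map_ne_zero f).mpr h) :=
  congrArg clsHom (Units.ext rfl)

/-- Coefficientwise maps on classes. -/
def clsCoeff (τ : k →+* k) : Cls k →* Cls k :=
  clsMap (coeffMap τ) fun a => ⟨τ a, by
    rw [HahnSeries.C_apply, HahnSeries.C_apply, coeffMap_single]⟩

/-- Substituting a power of the variable. -/
def clsExpand (n : ℕ) [NeZero n] : Cls k →* Cls k :=
  clsMap (qExpand k n) fun a => ⟨a, (qExpand_C n a).symm⟩

theorem clsCoeff_clsOf (τ : k →+* k) {r : LaurentSeries k} (h : r ≠ 0) :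
    clsCoeff τ (clsOf r h) = clsOf (coeffMap τ r) ((map_ne_zero _).mpr h) :=
  clsMap_clsOf _ _ h

theorem clsExpand_clsOf (n : ℕ) [NeZero n] {r : LaurentSeries k} (h : r ≠ 0) :
    clsExpand n (clsOf r h) = clsOf (qExpand k n r) ((map_ne_zero _).mpr h) :=
  clsMap_clsOf _ _ h

end Cls

variable (A : ValuationSubring Qb)

/-- `s` is integral with residual series `r`. -/
def RedsTo (s : LaurentSeries Qb) (r : LaurentSeries (ResidueField A)) : Prop :=
  ∃ y : LaurentSeries A, coeffMap A.subtype y = s ∧ coeffMap (residue A) y = r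

variable {A}

namespace RedsTo

variable {s s' : LaurentSeries Qb} {r r' : LaurentSeries (ResidueField A)}

theorem mul (h : RedsTo A s r) (h' : RedsTo A s' r') : RedsTo A (s * s') (r * r') := by
  obtain ⟨y, rfl, rfl⟩ := h
  obtain ⟨y', rfl, rfl⟩ := h'
  exact ⟨y * y', map_mul _ _ _, map_mul _ _ _⟩

theorem add (h : RedsTo A s r) (h' : RedsTo A s' r') : RedsTo A (s + s') (r + r') := by
  obtain ⟨y, rfl, rfl⟩ := h
  obtain ⟨y', rfl, rfl⟩ := h'
  exact ⟨y + y', map_add _ _ _, map_add _ _ _⟩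

theorem C (a : A) : RedsTo A (HahnSeries.C (a : Qb)) (HahnSeries.C (residue A a)) :=
  ⟨HahnSeries.C a, by rw [HahnSeries.C_apply, HahnSeries.C_apply, coeffMap_single]; rfl,
    by rw [HahnSeries.C_apply, HahnSeries.C_apply, coeffMap_single]⟩

theorem one : RedsTo A (1 : LaurentSeries Qb) 1 := ⟨1, map_one _, map_one _⟩

theorem unique (h : RedsTo A s r) (h' : RedsTo A s r') : r = r' := by
  obtain ⟨y, hy, rfl⟩ := h
  obtain ⟨y', hy', rfl⟩ := h'
  rw [Igusa.coeffMap_injective A.subtype_injective (hy.trans hy'.symm)]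

theorem ne_zero (h : RedsTo A s r) (hr : r ≠ 0) : s ≠ 0 := by
  rintro rfl
  exact hr (h.unique ⟨0, map_zero _, map_zero _⟩)

theorem qExpand' (n : ℕ) [NeZero n] (h : RedsTo A s r) :
    RedsTo A (qExpand Qb n s) (qExpand (ResidueField A) n r) := by
  obtain ⟨y, rfl, rfl⟩ := h
  exact ⟨qExpand A n y, coeffMap_qExpand _ _ _, coeffMap_qExpand _ _ _⟩

theorem galois (g : A.decompositionSubgroup ℚ) (h : RedsTo A s r) :
    RedsTo A (coeffMap ((g : Qb ≃ₐ[ℚ] Qb) : Qb →+* Qb) s)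
      (coeffMap (ES.residueAut g : ResidueField A →+* ResidueField A) r) := by
  obtain ⟨y, rfl, rfl⟩ := h
  refine ⟨coeffMap (MulSemiringAction.toRingHom (A.decompositionSubgroup ℚ) A g) y, ?_, ?_⟩
  · rw [coeffMap_coeffMap, coeffMap_coeffMap]
    exact coeffMap_congr (RingHom.ext fun a => rfl) y
  · rw [coeffMap_coeffMap, coeffMap_coeffMap]
    exact coeffMap_congr (RingHom.ext fun a => (ES.residueAut_residue g a).symm) y

end RedsTo

theorem redsTo_residue_ne_zero_iff {c : A} : residue A c ≠ 0 ↔ A.valuation (c : Qb) = 1 := by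
  rw [Ne, residue_eq_zero_iff, mem_maximalIdeal, mem_nonunits_iff, not_not,
    A.valuation_eq_one_iff]

/-- Two normalisations of the same series differ by a unit. -/
theorem exists_unit_of_two {a a' : LaurentSeries Qb} {r r' : LaurentSeries (ResidueField A)}
    (h : RedsTo A a r) (h' : RedsTo A a' r') (hr : r ≠ 0) (hr' : r' ≠ 0) {d : Qb} (hd : d ≠ 0)
    (e : a' = HahnSeries.C d * a) : ∃ u : ResidueField A, u ≠ 0 ∧ r' = HahnSeries.C u * r := by
  rcases A.mem_or_inv_mem d with hm | hm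
  · have := (RedsTo.C (A := A) ⟨d, hm⟩).mul h
    rw [show HahnSeries.C ((⟨d, hm⟩ : A) : Qb) * a = a' from e.symm] at this
    exact ⟨_, fun h0 => hr' (by rw [h'.unique this, h0, map_zero, zero_mul]), h'.unique this⟩
  · have := (RedsTo.C (A := A) ⟨d⁻¹, hm⟩).mul h'
    rw [show HahnSeries.C ((⟨d⁻¹, hm⟩ : A) : Qb) * a' = a by
      rw [e, ← mul_assoc, ← map_mul]
      simp [inv_mul_cancel₀ hd]] at this
    have hu : residue A ⟨d⁻¹, hm⟩ ≠ 0 := fun h0 => hr (by
      rw [h.unique this, h0, map_zero, zero_mul])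
    refine ⟨(residue A ⟨d⁻¹, hm⟩)⁻¹, inv_ne_zero hu, ?_⟩
    rw [h.unique this, ← mul_assoc, ← map_mul, inv_mul_cancel₀ hu, map_one, one_mul]

variable (A) in
/-- The series `s` reduces to the class `W` after scaling. -/
def HasRed (s : LaurentSeries Qb) (W : Cls (ResidueField A)) : Prop :=
  ∃ (a b : LaurentSeries Qb) (ra rb : LaurentSeries (ResidueField A)) (ha : ra ≠ 0) (hb : rb ≠ 0)
    (c : Qb), c ≠ 0 ∧ RedsTo A a ra ∧ RedsTo A b rb ∧ s * b = HahnSeries.C c * a ∧
      W = clsOf ra ha / clsOf rb hb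

namespace HasRed

variable {s s' : LaurentSeries Qb} {W W' : Cls (ResidueField A)}

theorem of_redsTo {r : LaurentSeries (ResidueField A)} (h : RedsTo A s r) (hr : r ≠ 0) :
    HasRed A s (clsOf r hr) :=
  ⟨s, 1, r, 1, hr, one_ne_zero, 1, one_ne_zero, h, RedsTo.one, by rw [mul_one, map_one, one_mul],
    by rw [clsOf_one, div_one]⟩

theorem const {c : Qb} (hc : c ≠ 0) : HasRed A (HahnSeries.C c) 1 :=
  ⟨1, 1, 1, 1, one_ne_zero, one_ne_zero, c, hc, RedsTo.one, RedsTo.one, rfl, (div_self' _).symm⟩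

theorem one : HasRed A 1 1 := by simpa using const (A := A) (c := (1 : Qb)) one_ne_zero

theorem ne_zero (h : HasRed A s W) : s ≠ 0 := by
  obtain ⟨a, b, ra, rb, ha, hb, c, hc, hA, hB, e, -⟩ := h
  rintro rfl
  rw [zero_mul, eq_comm, mul_eq_zero] at e
  exact e.elim ((map_ne_zero _).mpr hc) (hA.ne_zero ha)

theorem mul (h : HasRed A s W) (h' : HasRed A s' W') : HasRed A (s * s') (W * W') := by
  obtain ⟨a, b, ra, rb, ha, hb, c, hc, hA, hB, e, rfl⟩ := h
  obtain ⟨a', b', ra', rb', ha', hb', c', hc', hA', hB', e', rfl⟩ := h'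
  refine ⟨a * a', b * b', ra * ra', rb * rb', mul_ne_zero ha ha', mul_ne_zero hb hb', c * c',
    mul_ne_zero hc hc', hA.mul hA', hB.mul hB', ?_, ?_⟩
  · rw [map_mul, mul_mul_mul_comm, e, e', mul_mul_mul_comm]
  · rw [clsOf_mul ha ha', clsOf_mul hb hb', div_mul_div_comm]

theorem inv (h : HasRed A s W) : HasRed A s⁻¹ W⁻¹ := by
  have hs := h.ne_zero
  obtain ⟨a, b, ra, rb, ha, hb, c, hc, hA, hB, e, rfl⟩ := h
  refine ⟨b, a, rb, ra, hb, ha, c⁻¹, inv_ne_zero hc, hB, hA, ?_, inv_div _ _⟩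
  rw [map_inv₀, ← mul_right_inj' hs, ← mul_assoc, mul_inv_cancel₀ hs, one_mul, mul_left_comm, e,
    ← mul_assoc, inv_mul_cancel₀ ((map_ne_zero _).mpr hc), one_mul]

theorem div (h : HasRed A s W) (h' : HasRed A s' W') : HasRed A (s / s') (W / W') := by
  rw [div_eq_mul_inv, div_eq_mul_inv]; exact h.mul h'.inv

theorem pow (h : HasRed A s W) (n : ℕ) : HasRed A (s ^ n) (W ^ n) := by
  induction n with
  | zero => simpa using one
  | succ n ih => rw [pow_succ, pow_succ]; exact ih.mul h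

theorem unique (h : HasRed A s W) (h' : HasRed A s W') : W = W' := by
  obtain ⟨a, b, ra, rb, ha, hb, c, hc, hA, hB, e, rfl⟩ := h
  obtain ⟨a', b', ra', rb', ha', hb', c', hc', hA', hB', e', rfl⟩ := h'
  have key : a' * b = HahnSeries.C (c / c') * (a * b') := by
    refine mul_left_cancel₀ ((map_ne_zero (HahnSeries.C : Qb →+* LaurentSeries Qb)).mpr hc') ?_
    rw [← mul_assoc, ← e', ← mul_assoc, ← map_mul, mul_div_cancel₀ c hc', ← mul_assoc, ← e]
    ring
  obtain ⟨u, hu, hru⟩ := exists_unit_of_two (hA.mul hB') (hA'.mul hB) (mul_ne_zero ha hb')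
    (mul_ne_zero ha' hb) (div_ne_zero hc hc') key
  rw [div_eq_div_iff_mul_eq_mul, ← clsOf_mul, ← clsOf_mul]
  exact ((clsOf_congr hru _ (mul_ne_zero ((map_ne_zero _).mpr hu) (mul_ne_zero ha hb'))).trans
    (clsOf_C_mul hu (mul_ne_zero ha hb') _)).symm

theorem qExpand' (n : ℕ) [NeZero n] (h : HasRed A s W) :
    HasRed A (qExpand Qb n s) (clsExpand n W) := by
  obtain ⟨a, b, ra, rb, ha, hb, c, hc, hA, hB, e, rfl⟩ := h
  refine ⟨_, _, _, _, (map_ne_zero _).mpr ha, (map_ne_zero _).mpr hb, c, hc, hA.qExpand' n,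
    hB.qExpand' n, ?_, ?_⟩
  · rw [← map_mul, e, map_mul, qExpand_C]
  · rw [map_div, clsExpand_clsOf, clsExpand_clsOf]

theorem galois (g : A.decompositionSubgroup ℚ) (h : HasRed A s W) :
    HasRed A (coeffMap ((g : Qb ≃ₐ[ℚ] Qb) : Qb →+* Qb) s)
      (clsCoeff (ES.residueAut g : ResidueField A →+* ResidueField A) W) := by
  obtain ⟨a, b, ra, rb, ha, hb, c, hc, hA, hB, e, rfl⟩ := h
  refine ⟨_, _, _, _, (map_ne_zero _).mpr ha, (map_ne_zero _).mpr hb,
    (g : Qb ≃ₐ[ℚ] Qb) c, (map_ne_zero _).mpr hc, hA.galois g, hB.galois g, ?_, ?_⟩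
  · rw [← map_mul, e, map_mul]
    congr 1
    rw [HahnSeries.C_apply, HahnSeries.C_apply, coeffMap_single]
    rfl
  · rw [map_div, clsCoeff_clsOf, clsCoeff_clsOf]

theorem galois_inertia {σ : Qb ≃ₐ[ℚ] Qb} (hσ : σ ∈ A.inertiaSubgroupIn ℚ) (h : HasRed A s W) :
    HasRed A (coeffMap (σ : Qb →+* Qb) s) W := by
  obtain ⟨hD, hg⟩ := ES.residueAut_of_mem_inertia hσ
  have h1 := h.galois ⟨σ, hD⟩
  obtain ⟨a, b, ra, rb, ha, hb, c, hc, hA, hB, e, rfl⟩ := h
  convert h1 using 1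
  rw [map_div, clsCoeff_clsOf, clsCoeff_clsOf]
  congr 1 <;> refine clsOf_congr ?_ _ _ <;> rw [hg] <;> ext n <;> rfl

end HasRed

variable (A) in
/-- Coefficients in a number field with bounded denominators. -/
def IsBdd (s : LaurentSeries Qb) : Prop :=
  ∃ L : IntermediateField ℚ Qb, FiniteDimensional ℚ L ∧ (∀ n, s.coeff n ∈ L) ∧
    ∃ d : Qb, d ≠ 0 ∧ d ∈ L ∧ ∃ r, RedsTo A (HahnSeries.C d * s) r

namespace IsBdd

variable {s s' : LaurentSeries Qb}

theorem coeff_mem_mul (L : IntermediateField ℚ Qb) (hs : ∀ n, s.coeff n ∈ L)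
    (hs' : ∀ n, s'.coeff n ∈ L) (n : ℤ) : (s * s').coeff n ∈ L := by
  rw [HahnSeries.coeff_mul]
  exact sum_mem fun ij _ => mul_mem (hs _) (hs' _)

theorem mul (h : IsBdd A s) (h' : IsBdd A s') : IsBdd A (s * s') := by
  obtain ⟨L, hL, hs, d, hd, hdL, r, hr⟩ := h
  obtain ⟨L', hL', hs', d', hd', hdL', r', hr'⟩ := h'
  refine ⟨L ⊔ L', IntermediateField.finiteDimensional_sup L L',
    coeff_mem_mul _ (fun n => (le_sup_left : L ≤ L ⊔ L') (hs n))
      (fun n => (le_sup_right : L' ≤ L ⊔ L') (hs' n)),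
    d * d', mul_ne_zero hd hd', mul_mem ((le_sup_left : L ≤ L ⊔ L') hdL)
      ((le_sup_right : L' ≤ L ⊔ L') hdL'), r * r', ?_⟩
  rw [map_mul, mul_mul_mul_comm]
  exact hr.mul hr'

theorem scale {d : Qb} {r : LaurentSeries (ResidueField A)}
    (hr : RedsTo A (HahnSeries.C d * s) r) {d' : Qb} (hd' : d' ∈ A) :
    ∃ r', RedsTo A (HahnSeries.C (d' * d) * s) r' :=
  ⟨_, by rw [map_mul, mul_assoc]; exact (RedsTo.C (A := A) ⟨d', hd'⟩).mul hr⟩

theorem add (h : IsBdd A s) (h' : IsBdd A s') : IsBdd A (s + s') := by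
  obtain ⟨L, hL, hs, d, hd, hdL, r, hr⟩ := h
  obtain ⟨L', hL', hs', d', hd', hdL', r', hr'⟩ := h'
  have key : ∃ D : Qb, D ≠ 0 ∧ D ∈ L ⊔ L' ∧ (∃ t, RedsTo A (HahnSeries.C D * s) t) ∧
      ∃ t, RedsTo A (HahnSeries.C D * s') t := by
    rcases A.mem_or_inv_mem (d / d') with hm | hm
    · refine ⟨d, hd, (le_sup_left : L ≤ L ⊔ L') hdL, ⟨r, hr⟩, ?_⟩
      have := scale hr' hm
      rwa [div_mul_cancel₀ d hd'] at this
    · refine ⟨d', hd', (le_sup_right : L' ≤ L ⊔ L') hdL', ?_, ⟨r', hr'⟩⟩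
      have := scale hr hm
      rwa [inv_div, div_mul_cancel₀ d' hd] at this
  obtain ⟨D, hD, hDL, ⟨t, ht⟩, t', ht'⟩ := key
  refine ⟨L ⊔ L', IntermediateField.finiteDimensional_sup L L', fun n => ?_, D, hD, hDL,
    t + t', by rw [mul_add]; exact ht.add ht'⟩
  rw [HahnSeries.coeff_add]
  exact add_mem ((le_sup_left : L ≤ L ⊔ L') (hs n)) ((le_sup_right : L' ≤ L ⊔ L') (hs' n))

theorem C (c : Qb) : IsBdd A (HahnSeries.C c) := by
  have : Algebra.IsAlgebraic ℚ Qb := AlgebraicClosure.isAlgebraic ℚ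
  refine ⟨IntermediateField.adjoin ℚ {c}, IntermediateField.adjoin.finiteDimensional
    (Algebra.IsAlgebraic.isAlgebraic (R := ℚ) c).isIntegral, fun n => ?_, ?_⟩
  · rw [HahnSeries.C_apply, HahnSeries.coeff_single]
    split
    · exact IntermediateField.mem_adjoin_simple_self ℚ c
    · exact zero_mem _
  · rcases A.mem_or_inv_mem c with hm | hm
    · exact ⟨1, one_ne_zero, one_mem _, _, by
        rw [map_one, one_mul]; exact RedsTo.C (A := A) ⟨c, hm⟩⟩
    · rcases eq_or_ne c 0 with rfl | hc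
      · exact ⟨1, one_ne_zero, one_mem _, 0, 0, by simp, by simp⟩
      · refine ⟨c⁻¹, inv_ne_zero hc, inv_mem (IntermediateField.mem_adjoin_simple_self ℚ c),
          1, ?_⟩
        rw [← map_mul, inv_mul_cancel₀ hc, map_one]
        exact RedsTo.one

theorem neg (h : IsBdd A s) : IsBdd A (-s) := by
  have := (IsBdd.C (A := A) (-1)).mul h
  rwa [map_neg, map_one, neg_one_mul] at this

end IsBdd

/-- A nonzero bounded series can be normalised. -/
theorem IsBdd.exists_normal {ℓ : ℕ} (hℓ : ℓ.Prime) (hA : A.LiesOverPrime ℓ)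
    {s : LaurentSeries Qb} (h : IsBdd A s) (hs : s ≠ 0) :
    ∃ (c : Qb) (r : LaurentSeries (ResidueField A)), c ≠ 0 ∧ r ≠ 0 ∧
      RedsTo A (HahnSeries.C c * s) r := by
  classical
  obtain ⟨L, hL, hsL, d, hd, hdL, r, y, hy, -⟩ := h
  obtain ⟨π, hπL, hπ0, hπ1, hπ⟩ := TW.exists_uniformiser hℓ hA L
  have hco : ∀ n, ((y.coeff n : A) : Qb) = d * s.coeff n := fun n => by
    have := congrArg (fun z : LaurentSeries Qb => z.coeff n) hy
    simpa [HahnSeries.C_mul_eq_smul] using this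
  have hv0 : A.valuation π ≠ 0 := (map_ne_zero _).mpr hπ0
  let P : ℕ → Prop := fun e => ∃ n, s.coeff n ≠ 0 ∧ A.valuation (d * s.coeff n) = A.valuation π ^ e
  have hval : ∀ n, s.coeff n ≠ 0 → ∃ e : ℕ, A.valuation (d * s.coeff n) = A.valuation π ^ e := by
    intro n hn
    obtain ⟨k, hk⟩ := hπ _ (mul_mem hdL (hsL n)) (mul_ne_zero hd hn)
    have h1 : A.valuation (d * s.coeff n) ≤ 1 :=
      (A.valuation_le_one_iff _).mpr (hco n ▸ (y.coeff n).2)
    obtain ⟨e, rfl⟩ : ∃ e : ℕ, k = e := Int.eq_ofNat_of_zero_le (by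
      by_contra hneg
      rw [hk] at h1
      exact absurd h1 (not_le.mpr
        (one_lt_zpow_of_neg₀ (zero_lt_iff.mpr hv0) hπ1 (not_le.mp hneg))))
    exact ⟨e, by rw [hk, zpow_natCast]⟩
  obtain ⟨n₀, hn₀⟩ : ∃ n, s.coeff n ≠ 0 := by
    by_contra hc
    push Not at hc
    exact hs (HahnSeries.ext (funext hc))
  have hP : ∃ e, P e := ⟨_, n₀, hn₀, (hval n₀ hn₀).choose_spec⟩
  obtain ⟨n₁, hn₁, hv₁⟩ := Nat.find_spec hP
  set e := Nat.find hP
  have hint : ∀ n, d / π ^ e * s.coeff n ∈ A := by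
    intro n
    rcases eq_or_ne (s.coeff n) 0 with h0 | h0
    · rw [h0, mul_zero]; exact A.zero_mem
    obtain ⟨e', he'⟩ := hval n h0
    rw [← A.valuation_le_one_iff, div_mul_eq_mul_div, map_div₀, he', map_pow]
    exact div_le_one_of_le₀ (pow_le_pow_right_of_le_one' hπ1.le (Nat.find_min' hP ⟨n, h0, he'⟩))
      zero_le
  let y' : LaurentSeries A := ⟨fun n => ⟨_, hint n⟩, s.isPWO_support'.mono fun n hn hs' => hn (by
    ext; simp [hs'])⟩
  refine ⟨d / π ^ e, coeffMap (residue A) y', div_ne_zero hd (pow_ne_zero _ hπ0), fun h0 => ?_,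
    y', ?_, rfl⟩
  · have h1 := congrArg (fun z : LaurentSeries (ResidueField A) => z.coeff n₁) h0
    simp only [coeffMap_coeff, HahnSeries.coeff_zero] at h1
    have h2 : residue A (y'.coeff n₁) ≠ 0 := by
      rw [redsTo_residue_ne_zero_iff]
      show A.valuation (d / π ^ e * s.coeff n₁) = 1
      rw [div_mul_eq_mul_div, map_div₀, hv₁, map_pow, div_self (pow_ne_zero _ hv0)]
    exact h2 h1
  · ext n
    rw [HahnSeries.C_mul_eq_smul, coeffMap_coeff, HahnSeries.coeff_smul]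
    rfl

theorem IsBdd.exists_hasRed {ℓ : ℕ} (hℓ : ℓ.Prime) (hA : A.LiesOverPrime ℓ)
    {s : LaurentSeries Qb} (h : IsBdd A s) (hs : s ≠ 0) : ∃ W, HasRed A s W := by
  obtain ⟨c, r, hc, hr, h'⟩ := h.exists_normal hℓ hA hs
  have := (HasRed.const (A := A) (inv_ne_zero hc)).mul (HasRed.of_redsTo h' hr)
  rw [← mul_assoc, ← map_mul, inv_mul_cancel₀ hc, map_one, one_mul] at this
  exact ⟨_, this⟩

end FermatAgent.TWLocal

end
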