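import Fermat.Agent.TWLocal.Gen
import Fermat.Agent.TWLocal.Residue
import Fermat.Agent.Igusa.Down.Concrete
import Fermat.Agent.ModCurve.Fun.Degree

/-!
The field of level `M` functions with algebraic coefficients: expansion at `∞`, actions of Galois
and of `SL(2, ℤ)`, reduction at a place, and the embedding of `ℚ̄(X₀(N q²))`.
-/

set_option autoImplicit false
set_option linter.unusedSectionVars false
set_option synthInstance.maxHeartbeats 100000

noncomputable section

namespace FermatAgent.TWLocal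

open UpperHalfPlane hiding I
open ModularCurve IsLocalRing
open FermatAgent.ModFun (twist twist_coeff expUnit)
open scoped MatrixGroups

local notation "M₂" => Matrix (Fin 2) (Fin 2) ℤ
local notation "Qb" => AlgebraicClosure ℚ

variable (M : ℕ) [NeZero M]

/-- The field of level `M` functions with algebraic coefficients. -/
abbrev GF : Type := FractionRing (genRing M)

variable {M}

/-- The inclusion of the ring. -/
def toGF : genRing M →+* GF M := algebraMap (genRing M) (GF M)

theorem toGF_injective : Function.Injective (toGF (M := M)) := IsFractionRing.injective _ _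

theorem exists_num_den (x : GF M) : ∃ a b : genRing M, b ≠ 0 ∧ x = toGF a / toGF b := by
  obtain ⟨a, b, hb, rfl⟩ := IsFractionRing.div_surjective (A := genRing M) x
  exact ⟨a, b, nonZeroDivisors.ne_zero hb, rfl⟩

theorem genSmul_injective (γ : SL(2, ℤ)) : Function.Injective (genSmul (M := M) γ) := by
  intro f g h
  refine Subtype.ext (funext fun τ => ?_)
  have := congrFun (congrArg Subtype.val h) (γ⁻¹ • τ)
  simpa using this

theorem genSmul_mul (γ δ : SL(2, ℤ)) (f : genRing M) :
    genSmul (γ * δ) f = genSmul δ (genSmul γ f) :=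
  Subtype.ext (funext fun τ => by simp [mul_smul])

theorem genSmul_one (f : genRing M) : genSmul 1 f = f := Subtype.ext (funext fun τ => by simp)

theorem galAct_injective (σ : Qb ≃ₐ[ℚ] Qb) : Function.Injective (galAct (M := M) σ) := by
  intro f g h
  rw [← galAct_one f, ← galAct_one g, ← inv_mul_cancel σ, galAct_mul, galAct_mul, h]

theorem toGF_comp_injective {f : genRing M →+* genRing M} (hf : Function.Injective f) :
    Function.Injective ((toGF (M := M)).comp f) := fun _ _ h => hf (toGF_injective h)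

/-- The expansion at `∞`. -/
def gExp : GF M →+* LaurentSeries Qb :=
  IsFractionRing.lift (A := genRing M) (K := GF M) (genExp_injective (M := M))

theorem gExp_toGF (a : genRing M) : gExp (toGF a) = genExp a :=
  IsFractionRing.lift_algebraMap (A := genRing M) (K := GF M) (genExp_injective (M := M)) a

theorem gExp_injective : Function.Injective (gExp (M := M)) := (gExp (M := M)).injective

/-- The action of Galois. -/
def galGF (σ : Qb ≃ₐ[ℚ] Qb) : GF M →+* GF M :=
  IsFractionRing.lift (A := genRing M) (K := GF M) (g := toGF.comp (galAct σ)) (toGF_comp_injective (galAct_injective σ))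

theorem galGF_toGF (σ : Qb ≃ₐ[ℚ] Qb) (a : genRing M) : galGF σ (toGF a) = toGF (galAct σ a) :=
  IsFractionRing.lift_algebraMap (A := genRing M) (K := GF M) (toGF_comp_injective (galAct_injective σ)) a

/-- The action of `SL(2, ℤ)`. -/
def smulGF (γ : SL(2, ℤ)) : GF M →+* GF M :=
  IsFractionRing.lift (A := genRing M) (K := GF M) (g := toGF.comp (genSmul γ)) (toGF_comp_injective (genSmul_injective γ))

theorem smulGF_toGF (γ : SL(2, ℤ)) (a : genRing M) : smulGF γ (toGF a) = toGF (genSmul γ a) :=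
  IsFractionRing.lift_algebraMap (A := genRing M) (K := GF M) (toGF_comp_injective (genSmul_injective γ)) a

theorem ext_toGF {R : Type} [CommSemiring R] (f g : GF M →+* R)
    (h : ∀ a, f (toGF a) = g (toGF a)) : f = g :=
  IsLocalization.ringHom_ext (nonZeroDivisors (genRing M)) (RingHom.ext h)

theorem gExp_galGF (σ : Qb ≃ₐ[ℚ] Qb) (x : GF M) :
    gExp (galGF σ x) = coeffMap (σ : Qb →+* Qb) (gExp x) := by
  have key : gExp.comp (galGF σ) = (coeffMap (σ : Qb →+* Qb)).comp (gExp (M := M)) := by
    refine IsLocalization.ringHom_ext (nonZeroDivisors (genRing M)) ?_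
    ext1 a
    show gExp (galGF σ (toGF a)) = coeffMap (σ : Qb →+* Qb) (gExp (toGF a))
    rw [galGF_toGF, gExp_toGF, gExp_toGF, genExp_galAct]
    rfl
  exact RingHom.congr_fun key x

theorem smulGF_mul (γ δ : SL(2, ℤ)) (x : GF M) : smulGF (γ * δ) x = smulGF δ (smulGF γ x) := by
  have key : smulGF (M := M) (γ * δ) = (smulGF δ).comp (smulGF γ) := by
    refine ext_toGF _ _ fun a => ?_
    rw [RingHom.comp_apply, smulGF_toGF, smulGF_toGF, smulGF_toGF, genSmul_mul]
  exact RingHom.congr_fun key x

theorem smulGF_one (x : GF M) : smulGF 1 x = x := by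
  have key : smulGF (M := M) 1 = RingHom.id _ := by
    refine ext_toGF _ _ fun a => ?_
    rw [smulGF_toGF, genSmul_one]
    rfl
  exact RingHom.congr_fun key x

theorem galGF_smulGF (σ : Qb ≃ₐ[ℚ] Qb) {γ γ' : SL(2, ℤ)}
    (h : GalRel M (chiM M σ) (γ : M₂) (γ' : M₂)) (x : GF M) :
    galGF σ (smulGF γ x) = smulGF γ' (galGF σ x) := by
  have key : (galGF σ).comp (smulGF γ) = (smulGF γ').comp (galGF (M := M) σ) := by
    refine ext_toGF _ _ fun a => ?_
    rw [RingHom.comp_apply, RingHom.comp_apply, smulGF_toGF, galGF_toGF, galGF_toGF, smulGF_toGF,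
      galAct_genSmul σ h]
  exact RingHom.congr_fun key x

/-- The constants. -/
def constGF : Qb →+* GF M where
  toFun c := toGF ⟨_, const_mem_genRing c⟩
  map_one' := by
    rw [← map_one (toGF (M := M))]
    exact congrArg toGF (Subtype.ext (funext fun _ => map_one iotaC))
  map_mul' a b := by
    rw [← map_mul]
    exact congrArg toGF (Subtype.ext (funext fun _ => map_mul iotaC a b))
  map_zero' := by
    rw [← map_zero (toGF (M := M))]
    exact congrArg toGF (Subtype.ext (funext fun _ => map_zero iotaC))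
  map_add' a b := by
    rw [← map_add]
    exact congrArg toGF (Subtype.ext (funext fun _ => map_add iotaC a b))

theorem gExp_constGF (c : Qb) : gExp (constGF (M := M) c) = HahnSeries.C c := by
  show gExp (toGF _) = _
  rw [gExp_toGF, genExp_const]

theorem smulGF_constGF (γ : SL(2, ℤ)) (c : Qb) : smulGF γ (constGF (M := M) c) = constGF c := by
  show smulGF γ (toGF _) = toGF _
  rw [smulGF_toGF]
  rfl

/-! ### Reduction -/

variable {A : ValuationSubring Qb} {ℓ : ℕ}

theorem zetaQ_zpow_mem (A : ValuationSubring Qb) (n : ℤ) :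
    ((zetaQ M ^ n : Qbˣ) : Qb) ∈ A := by
  have h1 : (zetaQ M : Qb) ^ M = 1 := by
    refine iotaC_injective ?_
    rw [map_pow, iotaC_zetaQ, map_one]
    simp only [expUnit, Units.val_mk0, ← Complex.exp_nat_mul]
    rw [Complex.exp_eq_one_iff]
    exact ⟨1, by push_cast; field_simp [NeZero.ne M]⟩
  have hu : zetaQ M ^ M = 1 := Units.ext (by rw [Units.val_pow_eq_pow_val, h1, Units.val_one])
  rw [← A.valuation_le_one_iff]
  refine le_of_eq (TW.eq_one_of_pow_eq_one (NeZero.ne M) ?_)
  rw [← map_pow, ← Units.val_pow_eq_pow_val, ← zpow_natCast (zetaQ M ^ n), ← zpow_mul,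
    mul_comm, zpow_mul, zpow_natCast, hu, one_zpow, Units.val_one, map_one]

theorem isBdd_genExp (f : genRing M) : IsBdd A (genExp f) := by
  obtain ⟨f, hf⟩ := f
  induction hf using Subring.closure_induction with
  | mem g hg =>
    rcases hg with ⟨B, hB, rfl⟩ | ⟨c, rfl⟩
    · obtain ⟨δ, a, e, b, ha, he, hae, -, hj⟩ := hB.exists_tri
      have : NeZero a := ⟨ha.ne'⟩
      have : NeZero e := ⟨he.ne'⟩
      obtain ⟨c, hc⟩ := (dvd_mul_left e a).trans hae
      have : NeZero c := ⟨fun h0 => NeZero.ne M (by simp [hc, h0])⟩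
      rw [show (⟨_, Subring.subset_closure (Or.inl ⟨B, hB, rfl⟩)⟩ : genRing M) =
          ⟨_, jAt_mem_genRing (.of_tri b ha he hae)⟩ from Subtype.ext hj,
        genExp_tri a e c b hc.symm (.of_tri b ha he hae)]
      refine ⟨IntermediateField.adjoin ℚ {(zetaQ M : Qb)}, ?_, fun n => ?_, 1, one_ne_zero,
        one_mem _, ?_⟩
      · have : Algebra.IsAlgebraic ℚ Qb := AlgebraicClosure.isAlgebraic ℚ
        exact IntermediateField.adjoin.finiteDimensional
          (Algebra.IsAlgebraic.isAlgebraic (R := ℚ) _).isIntegral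
      · by_cases hd : ((a * c : ℕ) : ℤ) ∣ n
        · obtain ⟨m, rfl⟩ := hd
          rw [qExpand_coeff_mul, twist_coeff]
          refine mul_mem ?_ ?_
          · rw [← zpow_mul, Units.val_zpow_eq_zpow_val]
            exact zpow_mem (IntermediateField.mem_adjoin_simple_self ℚ _) _
          · rw [← coeffMap_jqModC (Int.castRingHom Qb), coeffMap_coeff]
            exact intCast_mem _ _
        · rw [qExpand_coeff_of_not_dvd _ _ hd]
          exact zero_mem _
      · let u : Aˣ :=
          ⟨⟨_, zetaQ_zpow_mem (M := M) A (b * c)⟩, ⟨_, zetaQ_zpow_mem (M := M) A (-(b * c))⟩,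
            Subtype.ext (by
              show ((zetaQ M ^ (b * c) : Qbˣ) : Qb) * _ = (1 : Qb)
              rw [← Units.val_mul, ← zpow_add, add_neg_cancel, zpow_zero, Units.val_one]),
            Subtype.ext (by
              show ((zetaQ M ^ (-(b * c)) : Qbˣ) : Qb) * _ = (1 : Qb)
              rw [← Units.val_mul, ← zpow_add, neg_add_cancel, zpow_zero, Units.val_one])⟩
        refine ⟨_, qExpand A (a * c) (twist u (jqModC A)), ?_, rfl⟩
        rw [map_one, one_mul, coeffMap_qExpand, coeffMap_twist, coeffMap_jqModC]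
        congr 3
        exact Units.ext rfl
    · rw [show (⟨_, Subring.subset_closure (Or.inr ⟨c, rfl⟩)⟩ : genRing M) =
        ⟨_, const_mem_genRing c⟩ from rfl, genExp_const]
      exact IsBdd.C c
  | zero =>
    rw [show (⟨0, _⟩ : genRing M) = 0 from rfl, map_zero, ← map_zero (HahnSeries.C (Γ := ℤ))]
    exact IsBdd.C 0
  | one =>
    rw [show (⟨1, _⟩ : genRing M) = 1 from rfl, map_one, ← map_one (HahnSeries.C (Γ := ℤ))]
    exact IsBdd.C 1
  | add x y hx hy h1 h2 =>
    rw [show (⟨x + y, _⟩ : genRing M) = ⟨x, hx⟩ + ⟨y, hy⟩ from rfl, map_add]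
    exact h1.add h2
  | neg x hx h1 =>
    rw [show (⟨-x, _⟩ : genRing M) = -⟨x, hx⟩ from rfl, map_neg]
    exact h1.neg
  | mul x y hx hy h1 h2 =>
    rw [show (⟨x * y, _⟩ : genRing M) = ⟨x, hx⟩ * ⟨y, hy⟩ from rfl, map_mul]
    exact h1.mul h2

theorem exists_hasRed_gExp (hℓ : ℓ.Prime) (hA : A.LiesOverPrime ℓ) {x : GF M} (hx : x ≠ 0) :
    ∃ W, HasRed A (gExp x) W := by
  obtain ⟨a, b, hb, rfl⟩ := exists_num_den x
  have ha : a ≠ 0 := by rintro rfl; exact hx (by rw [map_zero, zero_div])
  obtain ⟨W, hW⟩ := (isBdd_genExp (A := A) a).exists_hasRed hℓ hA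
    ((map_ne_zero_iff _ genExp_injective).mpr ha)
  obtain ⟨W', hW'⟩ := (isBdd_genExp (A := A) b).exists_hasRed hℓ hA
    ((map_ne_zero_iff _ genExp_injective).mpr hb)
  exact ⟨W / W', by rw [map_div₀, gExp_toGF, gExp_toGF]; exact hW.div hW'⟩

open Classical in
variable (A) in
/-- The reduction class of a function (`1` by convention at zero). -/
def redGF (x : GF M) : Cls (ResidueField A) :=
  if h : ∃ W, HasRed A (gExp x) W then h.choose else 1

theorem redGF_eq {x : GF M} {W : Cls (ResidueField A)} (h : HasRed A (gExp x) W) :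
    redGF A x = W := by
  have h' : ∃ W, HasRed A (gExp x) W := ⟨W, h⟩
  rw [redGF, dif_pos h']
  exact h'.choose_spec.unique h

theorem hasRed_redGF (hℓ : ℓ.Prime) (hA : A.LiesOverPrime ℓ) {x : GF M} (hx : x ≠ 0) :
    HasRed A (gExp x) (redGF A x) := by
  obtain ⟨W, hW⟩ := exists_hasRed_gExp hℓ hA hx
  rwa [redGF_eq hW]

theorem redGF_one : redGF A (1 : GF M) = 1 := redGF_eq (by rw [map_one]; exact HasRed.one)

theorem redGF_constGF {c : Qb} (hc : c ≠ 0) : redGF A (constGF (M := M) c) = 1 :=
  redGF_eq (by rw [gExp_constGF]; exact HasRed.const hc)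

theorem redGF_mul (hℓ : ℓ.Prime) (hA : A.LiesOverPrime ℓ) {x y : GF M} (hx : x ≠ 0) (hy : y ≠ 0) :
    redGF A (x * y) = redGF A x * redGF A y :=
  redGF_eq (by rw [map_mul]; exact (hasRed_redGF hℓ hA hx).mul (hasRed_redGF hℓ hA hy))

theorem redGF_inv (hℓ : ℓ.Prime) (hA : A.LiesOverPrime ℓ) {x : GF M} (hx : x ≠ 0) :
    redGF A x⁻¹ = (redGF A x)⁻¹ :=
  redGF_eq (by rw [map_inv₀]; exact (hasRed_redGF hℓ hA hx).inv)

theorem redGF_div (hℓ : ℓ.Prime) (hA : A.LiesOverPrime ℓ) {x y : GF M} (hx : x ≠ 0) (hy : y ≠ 0) :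
    redGF A (x / y) = redGF A x / redGF A y := by
  rw [div_eq_mul_inv, div_eq_mul_inv, redGF_mul hℓ hA hx (inv_ne_zero hy), redGF_inv hℓ hA hy]

theorem redGF_pow (hℓ : ℓ.Prime) (hA : A.LiesOverPrime ℓ) {x : GF M} (hx : x ≠ 0) (n : ℕ) :
    redGF A (x ^ n) = redGF A x ^ n :=
  redGF_eq (by rw [map_pow]; exact (hasRed_redGF hℓ hA hx).pow n)

theorem redGF_galGF_inertia (hℓ : ℓ.Prime) (hA : A.LiesOverPrime ℓ) {σ : Qb ≃ₐ[ℚ] Qb}
    (hσ : σ ∈ A.inertiaSubgroupIn ℚ) {x : GF M} (hx : x ≠ 0) :
    redGF A (galGF σ x) = redGF A x :=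
  redGF_eq (by rw [gExp_galGF]; exact (hasRed_redGF hℓ hA hx).galois_inertia hσ)

/-! ### The embedding of `ℚ̄(X₀(N q²))` -/

section Emb

theorem twist_one_apply {R : Type*} [CommRing R] (x : LaurentSeries R) : twist (1 : Rˣ) x = x := by
  ext n
  simp

variable (N q : ℕ) [NeZero N] [NeZero q]

theorem qExpand_mem_range {x : LaurentSeries Qb}
    (hx : x ∈ modularFunctionFieldBar (N * q ^ 2)) :
    qExpand Qb N x ∈ (gExp (M := N * q)).range := by
  have hj : qExpand Qb N (jqModC Qb) ∈ (gExp (M := N * q)).fieldRange := by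
    have h := IsGenMat.of_tri (M := N * q) (a := 1) (e := q) 0 one_pos (NeZero.pos q)
      (by rw [one_mul]; exact dvd_mul_left q N)
    refine ⟨toGF ⟨_, jAt_mem_genRing h⟩, ?_⟩
    rw [gExp_toGF, genExp_tri 1 q N 0 (mul_comm q N) h, zero_mul, zpow_zero, twist_one_apply]
    exact qExpand_congr (one_mul N) _
  have hjN : qExpand Qb N (jqNModC Qb (N * q ^ 2)) ∈ (gExp (M := N * q)).fieldRange := by
    have h := IsGenMat.of_tri (M := N * q) (a := N * q) (e := 1) 0 (NeZero.pos _) one_pos
      (by rw [mul_one])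
    refine ⟨toGF ⟨_, jAt_mem_genRing h⟩, ?_⟩
    rw [gExp_toGF, genExp_tri (N * q) 1 (N * q) 0 (one_mul _) h, zero_mul, zpow_zero,
      twist_one_apply, jqNModC, qExpand_qExpand]
    exact qExpand_congr (by ring) _
  change x ∈ laurentBaseChange Qb (modularFunctionFieldFull (N * q ^ 2)) at hx
  rw [FermatAgent.ModFun.laurentBaseChange_full_eq] at hx
  induction hx using IntermediateField.adjoin_induction with
  | mem y hy =>
    rcases hy with rfl | rfl
    · exact hj
    · exact hjN
  | algebraMap c =>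
    exact ⟨constGF c, by
      rw [gExp_constGF, algebraMap_laurentSeries_eq_single, ← HahnSeries.C_apply, qExpand_C]⟩
  | add a b _ _ ha hb =>
    rw [map_add]
    exact add_mem (s := (gExp (M := N * q)).fieldRange) ha hb
  | inv a _ ha =>
    rw [map_inv₀]
    exact inv_mem (s := (gExp (M := N * q)).fieldRange) ha
  | mul a b _ _ ha hb =>
    rw [map_mul]
    exact mul_mem (s := (gExp (M := N * q)).fieldRange) ha hb

/-- `f ↦ f (z / q)`: the embedding of `ℚ̄(X₀(N q²))` in coordinates `z = q τ`. -/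
def embS : modularFunctionFieldBar (N * q ^ 2) →+* GF (N * q) :=
  liftRange gExp_injective ((qExpand Qb N).comp (modularFunctionFieldBar (N * q ^ 2)).val.toRingHom)
    fun x => qExpand_mem_range N q x.2

theorem gExp_embS (x : modularFunctionFieldBar (N * q ^ 2)) :
    gExp (embS N q x) = qExpand Qb N (x : LaurentSeries Qb) :=
  liftRange_spec gExp_injective
    ((qExpand Qb N).comp (modularFunctionFieldBar (N * q ^ 2)).val.toRingHom)
    (fun x => qExpand_mem_range N q x.2) x

theorem galGF_embS (σ : Qb ≃ₐ[ℚ] Qb) (x : modularFunctionFieldBar (N * q ^ 2)) :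
    galGF σ (embS N q x) =
      embS N q (arithmeticGalois (modularFunctionFieldFull (N * q ^ 2)) σ • x) := by
  refine gExp_injective ?_
  rw [gExp_galGF, gExp_embS, gExp_embS, coeffMap_qExpand]
  rfl

end Emb

end FermatAgent.TWLocal

end
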