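import Fermat.Agent.TWLocal.Lift
import Mathlib.Tactic.FinCases

/-!
Conjugation of integral matrices by `diag (1, χ)` modulo `d`, as a relation.
-/

set_option autoImplicit false

namespace FermatAgent.TWLocal

open scoped MatrixGroups

local notation "M₂" => Matrix (Fin 2) (Fin 2) ℤ

/-- `A'` is `diag (1, χ)⁻¹ * A * diag (1, χ)` modulo `d`. -/
structure GalRel (d : ℕ) (χ : ℤ) (A A' : M₂) : Prop where
  e00 : (A' 0 0 : ZMod d) = A 0 0
  e01 : (A' 0 1 : ZMod d) = (χ : ZMod d) * A 0 1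
  e10 : (χ : ZMod d) * A' 1 0 = A 1 0
  e11 : (A' 1 1 : ZMod d) = A 1 1

theorem GalRel.of_dvd {d M : ℕ} {χ : ℤ} {A A' : M₂} (h : GalRel M χ A A') (hd : d ∣ M) :
    GalRel d χ A A' := by
  have hc : ∀ x : ℤ, ((x : ZMod M).cast : ZMod d) = (x : ZMod d) := fun x => ZMod.cast_intCast hd x
  constructor
  · simpa [hc] using congrArg (fun x : ZMod M => (x.cast : ZMod d)) h.e00
  · simpa [hc, ZMod.cast_mul hd] using congrArg (fun x : ZMod M => (x.cast : ZMod d)) h.e01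
  · simpa [hc, ZMod.cast_mul hd] using congrArg (fun x : ZMod M => (x.cast : ZMod d)) h.e10
  · simpa [hc] using congrArg (fun x : ZMod M => (x.cast : ZMod d)) h.e11

theorem GalRel.mul {d : ℕ} {χ : ℤ} {A A' B B' : M₂} (h : GalRel d χ A A') (h' : GalRel d χ B B') :
    GalRel d χ (A * B) (A' * B') := by
  obtain ⟨a0, a1, a2, a3⟩ := h
  obtain ⟨b0, b1, b2, b3⟩ := h'
  constructor <;> simp only [Matrix.mul_apply, Fin.sum_univ_two, Int.cast_add, Int.cast_mul] <;>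
    grobner

/-- The upper triangular matrices related to a given one. -/
theorem galRel_triangular (d : ℕ) (χ a b e : ℤ) : GalRel d χ !![a, b; 0, e] !![a, χ * b; 0, e] := by
  constructor <;> simp

theorem GalRel.symm {d : ℕ} {χ χ' : ℤ} {A A' : M₂} (h : GalRel d χ A A')
    (hχ : (χ : ZMod d) * χ' = 1) : GalRel d χ' A' A := by
  obtain ⟨a0, a1, a2, a3⟩ := h
  constructor
  · exact a0.symm
  · linear_combination (-(χ' : ZMod d)) * a1 - (A 0 1 : ZMod d) * hχ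
  · linear_combination (-(χ' : ZMod d)) * a2 + (A' 1 0 : ZMod d) * hχ
  · exact a3.symm

/-- Every element of `SL(2, ℤ)` has a conjugate by `diag (1, χ)` modulo `M`. -/
theorem exists_galRel_sl (M : ℕ) [NeZero M] {χ : ℤ} (hχ : IsUnit (χ : ZMod M)) (γ : SL(2, ℤ)) :
    ∃ γ' : SL(2, ℤ), GalRel M χ (γ : M₂) (γ' : M₂) := by
  obtain ⟨u, hu⟩ := hχ
  have hdet : (γ 0 0 : ZMod M) * γ 1 1 - γ 0 1 * γ 1 0 = 1 := by
    have hd := γ.det_coe
    rw [Matrix.det_fin_two] at hd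
    have h := congrArg (fun x : ℤ => (x : ZMod M)) hd
    simpa using h
  have huv : (u : ZMod M) * ((u⁻¹ : (ZMod M)ˣ) : ZMod M) = 1 := Units.mul_inv u
  obtain ⟨γ', hγ'⟩ := redSL_surjective M
    ⟨!![(γ 0 0 : ZMod M), u * γ 0 1; ((u⁻¹ : (ZMod M)ˣ) : ZMod M) * γ 1 0, (γ 1 1 : ZMod M)], by
      rw [Matrix.det_fin_two_of]; linear_combination hdet - (γ 0 1 * γ 1 0 : ZMod M) * huv⟩
  have h : ∀ i k, ((γ' i k : ℤ) : ZMod M) = (!![(γ 0 0 : ZMod M), u * γ 0 1;
      ((u⁻¹ : (ZMod M)ˣ) : ZMod M) * γ 1 0, (γ 1 1 : ZMod M)]) i k := fun i k => by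
    have := congrFun (congrFun (congrArg Subtype.val hγ') i) k
    simpa [redSL] using this
  refine ⟨γ', ?_, ?_, ?_, ?_⟩
  · simpa using h 0 0
  · rw [← hu]; simpa using h 0 1
  · rw [← hu, h 1 0]; simp [← mul_assoc, huv]
  · simpa using h 1 1

end FermatAgent.TWLocal
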