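import Fermat.Agent.TWLocal.Kummer
import Fermat.Agent.TWLocal.Quadratic
import Fermat.Agent.GalRep.Construct.Cyclotomic
import Fermat.Agent.Igusa.Down.Concrete
import Mathlib.Algebra.Module.CharacterModule
import Mathlib.GroupTheory.Index

/-!
Auxiliary facts for the relation: classes of series have no torsion, roots with trivial multiplier
on the stabiliser, extension of homomorphisms into `ℤ/n`, the determinant on inertia, and the
classes of the reductions of `Φ_u` as functions of a torsion point.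
-/

set_option autoImplicit false

noncomputable section

namespace FermatAgent.TWLocal

open ModularCurve AlgebraicCurve CongruenceSubgroup IsLocalRing
open FermatAgent.ModCurveTorsion
open Polynomial hiding map_add
open scoped MatrixGroups

local notation "M₂" => Matrix (Fin 2) (Fin 2) ℤ
local notation "Qb" => AlgebraicClosure ℚ
local notation "GQ" => AlgebraicClosure ℚ ≃ₐ[ℚ] AlgebraicClosure ℚ

/-- Classes of series over an algebraically closed field have no torsion. -/
theorem cls_eq_one_of_pow_eq_one {k : Type*} [Field k] [IsAlgClosed k] {m : ℕ} (hm : m ≠ 0)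
    {x : Cls k} (h : x ^ m = 1) : x = 1 := by
  obtain ⟨u, rfl⟩ : ∃ u, clsHom u = x := QuotientGroup.mk_surjective x
  rw [← map_pow] at h
  obtain ⟨c, hc⟩ := clsHom_eq_one_iff.mp h
  refine clsHom_eq_one_iff.mpr ?_
  have hc' : (HahnSeries.C (c : k) : LaurentSeries k) = (u : LaurentSeries k) ^ m := by
    have := congrArg Units.val hc
    simpa using this
  set P : k[X] := X ^ m - Polynomial.C (c : k)
  have hP : P.Monic := monic_X_pow_sub_C _ hm
  have hz : (P.map HahnSeries.C).eval (u : LaurentSeries k) = 0 := by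
    simp [P, hc']
  rw [(IsAlgClosed.splits P).eq_prod_roots_of_monic hP, Polynomial.map_multiset_prod,
    eval_multiset_prod, Multiset.map_map, Multiset.map_map, Multiset.prod_eq_zero_iff,
    Multiset.mem_map] at hz
  obtain ⟨a, -, ha⟩ := hz
  simp [sub_eq_zero] at ha
  have ha0 : a ≠ 0 := fun e => u.ne_zero (by rw [ha, e, map_zero])
  exact ⟨Units.mk0 a ha0, Units.ext ha.symm⟩

/-- A homomorphism on a subgroup extends to `ℤ/n`-valued ones when it respects multiples of `n`. -/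
theorem exists_zmod_extension {B C : Type*} [AddCommGroup B] [AddCommGroup C] (n : ℕ) [NeZero n]
    (f : B →+ C) (φ : B →+ ZMod n) (h : ∀ b c, f b = n • c → φ b = 0) :
    ∃ g : C →+ ZMod n, ∀ b, g (f b) = φ b := by
  let ψ : ZMod n →+ AddCircle (1 : ℚ) := ZMod.lift n
    ⟨zmultiplesHom _ (((n : ℚ)⁻¹ : ℚ) : AddCircle (1 : ℚ)), by
      show (n : ℤ) • (((n : ℚ)⁻¹ : ℚ) : AddCircle (1 : ℚ)) = 0
      rw [← AddCircle.coe_zsmul, AddCircle.coe_eq_zero_iff]
      exact ⟨1, by simp [NeZero.ne n]⟩⟩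
  have hψ : ∀ m : ℤ, ψ (m : ZMod n) = (((m : ℚ) / n : ℚ) : AddCircle (1 : ℚ)) := fun m => by
    simp only [ψ, ZMod.lift_coe]
    rw [zmultiplesHom_apply, ← AddCircle.coe_zsmul, zsmul_eq_mul, div_eq_mul_inv]
  have hinj : Function.Injective ψ := by
    rw [injective_iff_map_eq_zero]
    intro x hx
    obtain ⟨m, rfl⟩ := ZMod.intCast_surjective x
    rw [hψ, AddCircle.coe_eq_zero_iff] at hx
    obtain ⟨j, hj⟩ := hx
    rw [ZMod.intCast_zmod_eq_zero_iff_dvd]
    refine ⟨j, ?_⟩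
    have hn0 : (n : ℚ) ≠ 0 := Nat.cast_ne_zero.mpr (NeZero.ne n)
    rw [zsmul_eq_mul, mul_one, eq_div_iff hn0] at hj
    exact_mod_cast (hj.symm.trans (mul_comm _ _))
  let F : B × C →+ C := f.coprod (nsmulAddMonoidHom n)
  let Φ : B × C →+ AddCircle (1 : ℚ) := (ψ.comp φ).comp (AddMonoidHom.fst B C)
  have hker : F.ker ≤ Φ.ker := fun x hx => by
    have hx' : f x.1 + n • x.2 = 0 := hx
    show ψ (φ x.1) = 0
    rw [h x.1 (-x.2) (by rw [smul_neg, ← sub_eq_zero, sub_neg_eq_add, hx']), map_zero]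
  let L : F.range →+ AddCircle (1 : ℚ) :=
    F.rangeRestrict.liftOfSurjective F.rangeRestrict_surjective
      ⟨Φ, by rwa [AddMonoidHom.ker_rangeRestrict]⟩
  obtain ⟨G, hG⟩ := (Module.Baer.of_divisible (AddCircle (1 : ℚ))).extension_property_addMonoidHom
    F.range.subtype (AddSubgroup.subtype_injective _) L
  have hGF : ∀ x : B × C, G (F x) = Φ x := fun x => by
    have h1 := DFunLike.congr_fun hG (F.rangeRestrict x)
    exact h1.trans (AddMonoidHom.liftOfRightInverse_comp_apply _ _ _ _ x)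
  have htor : ∀ c, ∃ x, ψ x = G c := fun c => by
    have h0 : n • G c = 0 := by
      rw [← map_nsmul]
      have := hGF (0, c)
      simpa [F, Φ] using this
    obtain ⟨r, hr⟩ := QuotientAddGroup.mk_surjective (G c)
    change ((r : ℚ) : AddCircle (1 : ℚ)) = G c at hr
    rw [← hr, ← AddCircle.coe_nsmul, AddCircle.coe_eq_zero_iff] at h0
    obtain ⟨m, hm⟩ := h0
    refine ⟨(m : ZMod n), ?_⟩
    rw [hψ, ← hr]
    congr 1
    rw [zsmul_eq_mul, mul_one, nsmul_eq_mul] at hm
    rw [hm, mul_div_cancel_left₀ _ (Nat.cast_ne_zero.mpr (NeZero.ne n))]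
  choose g hg using htor
  refine ⟨AddMonoidHom.mk' g fun a b => hinj (by rw [hg, map_add, map_add, hg, hg]), fun b => ?_⟩
  refine hinj ?_
  show ψ (g (f b)) = ψ (φ b)
  rw [hg]
  have := hGF (b, 0)
  simpa [F, Φ] using this

/-- The determinant is one modulo `pⁿ` on inertia away from `p`. -/
theorem dvd_det_sub_one {O : Type} [CommRing O] [IsDomain O] [IsDiscreteValuationRing O]
    [CharZero O] {p : ℕ} [hp : Fact p.Prime] {ρ : GaloisRepAdic O} {S : Set ℕ} (hS : S.Finite)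
    {a : ℕ → O}
    (hchar : ∀ (l : ℕ) (_ : l.Prime), l ∉ S →
      ∀ A : ValuationSubring Qb, A.LiesOverPrime l → ∀ σ : GQ, A.IsFrobeniusAt σ l →
        LinearMap.charpoly (ρ.ρ σ) = X ^ 2 - Polynomial.C (a l) * X + Polynomial.C (l : O))
    {q : ℕ} (hq : q.Prime) (hqp : q ≠ p) {A : ValuationSubring Qb} (hA : A.LiesOverPrime q)
    {σ : GQ} (hσ : σ ∈ A.inertiaSubgroupIn ℚ) (n : ℕ) :
    ((p ^ n : ℕ) : O) ∣ LinearMap.det (ρ.ρ σ) - 1 := by
  classical
  obtain ⟨j, hj⟩ : ∃ j, maximalIdeal O ^ j ≤ Ideal.span {((p ^ n : ℕ) : O)} := by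
    obtain ⟨π, hπ⟩ := IsDiscreteValuationRing.exists_irreducible O
    have hne : ((p ^ n : ℕ) : O) ≠ 0 := Nat.cast_ne_zero.mpr (pow_ne_zero n hp.out.ne_zero)
    obtain ⟨j, u, hu⟩ := IsDiscreteValuationRing.eq_unit_mul_pow_irreducible hne hπ
    refine ⟨j, ?_⟩
    rw [hπ.maximalIdeal_eq, Ideal.span_singleton_pow, hu,
      Ideal.span_singleton_mul_left_unit u.isUnit]
  obtain ⟨E₁, hE₁, hρE⟩ := ρ.isAdicContinuous j
  have := GalRep.hasEnoughRootsOfUnity_pow p n
  have : NeZero (p ^ n) := ⟨pow_ne_zero n hp.out.ne_zero⟩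
  obtain ⟨ζ, hζ⟩ := HasEnoughRootsOfUnity.exists_primitiveRoot Qb (p ^ n)
  let E₂ := IntermediateField.adjoin ℚ {ζ}
  have : FiniteDimensional ℚ E₂ := IntermediateField.adjoin.finiteDimensional
    ((hζ.isIntegral (Nat.pos_of_neZero _)).tower_top)
  obtain ⟨l, hl, hlS, B, hB, τ, hτ, m, -, hm, -⟩ :=
    GalRep.exists_isFrobeniusAt_pow_eq (E₁ ⊔ E₂) σ (hS.union (Set.finite_singleton p))
  simp only [Set.mem_union, Set.mem_singleton_iff, not_or] at hlS
  have hdetτ : LinearMap.det (ρ.ρ τ) = (l : O) := by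
    have := hchar l hl hlS.1 B hB τ hτ
    rw [LinearMap.det_eq_sign_charpoly_coeff, this, ρ.finrank_eq]
    simp
  have hlm : ((l ^ m : ℕ) : ZMod (p ^ n)) = 1 := by
    have h1 : GalRep.cycChar p (τ ^ m) = ((l ^ m : ℕ) : ℤ_[p]) := by
      rw [map_pow, GalRep.cycChar_frobenius p hl hlS.2 hB hτ, Nat.cast_pow]
    have h2 : (τ ^ m) ζ = ζ := by
      rw [hm ζ (SetLike.le_def.mp (le_sup_right (a := E₁))
        (IntermediateField.mem_adjoin_simple_self ℚ ζ)),
        GalRep.cycChar_spec p σ n hζ.pow_eq_one, GalRep.cycChar_inertia p hq hqp hA hσ, map_one,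
        ZMod.val_one_eq_one_mod, hζ.eq_orderOf, pow_mod_orderOf, pow_one]
    have h3 : (GalRep.cycChar p (τ ^ m)).toZModPow n = ((1 : ℕ) : ZMod (p ^ n)) := by
      refine GalRep.toZModPow_cycChar_eq p fun x hx => ?_
      obtain ⟨i, -, rfl⟩ := hζ.eq_pow_of_pow_eq_one hx
      rw [map_pow, h2, pow_one]
    rwa [h1, map_natCast, Nat.cast_one] at h3
  have hlm' : ((p ^ n : ℕ) : O) ∣ (l : O) ^ m - 1 := by
    have h4 : ((p ^ n : ℕ) : ℤ) ∣ ((l ^ m : ℕ) : ℤ) - 1 := by
      rw [← ZMod.intCast_zmod_eq_zero_iff_dvd]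
      push_cast
      push_cast at hlm
      rw [hlm, sub_self]
    simpa using map_dvd (Int.castRingHom O) h4
  have hsub : ∀ v, ρ.ρ σ v - ρ.ρ (τ ^ m) v ∈ maximalIdeal O ^ j • (⊤ : Submodule O ρ.V) := by
    intro v
    have h1 := hρE ((τ ^ m)⁻¹ * σ) (fun x hx => by
      rw [AlgEquiv.mul_apply, ← hm x (SetLike.le_def.mp (le_sup_left (b := E₂)) hx),
        ← AlgEquiv.mul_apply, inv_mul_cancel, AlgEquiv.one_apply]) v
    have h2 : ρ.ρ (τ ^ m) (ρ.ρ ((τ ^ m)⁻¹ * σ) v - v) ∈
        maximalIdeal O ^ j • (⊤ : Submodule O ρ.V) :=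
      Submodule.smul_induction_on (p := fun w => ρ.ρ (τ ^ m) w ∈ _) h1
        (fun r hr w _ => by rw [map_smul]; exact Submodule.smul_mem_smul hr Submodule.mem_top)
        fun _ _ h h' => by rw [map_add]; exact add_mem h h'
    rwa [map_sub, ← Module.End.mul_apply, ← map_mul, mul_inv_cancel_left] at h2
  let b := Module.finBasisOfFinrankEq O ρ.V ρ.finrank_eq
  have hmat := map_quotient_eq_of_smul_sub_mem b (maximalIdeal O ^ j) hsub
  have hde : ((p ^ n : ℕ) : O) ∣ LinearMap.det (ρ.ρ σ) - LinearMap.det (ρ.ρ (τ ^ m)) := by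
    rw [← Ideal.mem_span_singleton]
    refine hj ?_
    rw [← Ideal.Quotient.mk_eq_mk_iff_sub_mem, ← LinearMap.det_toMatrix b,
      ← LinearMap.det_toMatrix b, RingHom.map_det, RingHom.map_det]
    exact congrArg Matrix.det hmat
  rw [map_pow, map_pow, hdetτ] at hde
  have := dvd_add hde hlm'
  rwa [sub_add_sub_cancel] at this

/-! ### Roots on the stabiliser -/

section Index

variable {M : ℕ} [NeZero M]

theorem smulGF_eq_of_mem_genStab {γ : SL(2, ℤ)} (hγ : γ ∈ genStab M) (x : GF M) :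
    smulGF γ x = x := by
  obtain ⟨a, b, -, rfl⟩ := exists_num_den x
  rw [map_div₀, smulGF_toGF, smulGF_toGF, hγ, hγ]

variable (M) in
/-- The index of the stabiliser. -/
def stabIndex : ℕ := (genStab M).index

theorem stabIndex_ne_zero : stabIndex M ≠ 0 := Nat.card_pos.ne'

/-- If `Y ^ n` is invariant then so is `Y ^ stabIndex`. -/
theorem isInv_pow_stabIndex {n : ℕ} (hn : n ≠ 0) {Γ : Subgroup SL(2, ℤ)} {Y : GF M} (hY : Y ≠ 0)
    (h : IsInv Γ (Y ^ n)) : IsInv Γ (Y ^ stabIndex M) := by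
  intro γ hγ
  have : NeZero n := ⟨hn⟩
  have : NeZero (n : Qb) := ⟨Nat.cast_ne_zero.mpr hn⟩
  obtain ⟨ξ, hξ⟩ := HasEnoughRootsOfUnity.exists_primitiveRoot Qb n
  have hz : (smulGF γ Y / Y) ^ n = 1 := by
    rw [div_pow, ← map_pow, h γ hγ, div_self (pow_ne_zero _ hY)]
  obtain ⟨i, -, hi⟩ := (hξ.map_of_injective (f := constGF (M := M))
    (constGF (M := M)).injective).eq_pow_of_pow_eq_one hz
  set c := constGF (M := M) (ξ ^ i)
  have hc : smulGF γ Y = c * Y := by
    rw [show c = smulGF γ Y / Y from (map_pow (constGF (M := M)) ξ i).trans hi, div_mul_cancel₀ _ hY]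
  have hk : ∀ k : ℕ, smulGF (γ ^ k) Y = c ^ k * Y := by
    intro k
    induction k with
    | zero => rw [pow_zero, pow_zero, one_mul, smulGF_one]
    | succ k ih =>
      rw [pow_succ' γ, smulGF_mul, hc, map_mul, ih, smulGF_constGF, pow_succ']
      ring
  have hcm : c ^ stabIndex M = 1 := by
    have := hk (stabIndex M)
    rw [stabIndex, smulGF_eq_of_mem_genStab ((genStab M).pow_index_mem γ)] at this
    rw [stabIndex]
    exact (mul_left_eq_self₀.mp this.symm).resolve_right hY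
  rw [map_pow, hc, mul_pow, hcm, one_mul]

end Index

end FermatAgent.TWLocal

end
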