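import Fermat.Agent.Igusa.Decomposition
import Mathlib.Algebra.CharP.Lemmas
import Mathlib.RingTheory.Valuation.ValuationSubring
import Mathlib.Algebra.Polynomial.Expand

/-!
A group acting on a field through a finite quotient and a valuation ring `O`: separating `O` from
its other translates, and fixed lifts, up to a power of the residue characteristic, of residues
fixed by the stabiliser of `O`.
-/

set_option autoImplicit false
set_option linter.unusedSectionVars false

noncomputable section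

namespace FermatAgent.TWLocal

open IsLocalRing
open Polynomial hiding map_ne_zero

variable {K G : Type*} [Field K] [Group G] [MulSemiringAction G K]

variable (G) in
/-- The elements preserving `O`. -/
def valStab (O : ValuationSubring K) : Subgroup G where
  carrier := {g | ∀ x, g • x ∈ O ↔ x ∈ O}
  one_mem' x := by rw [one_smul]
  mul_mem' {g h} hg hh x := by rw [mul_smul]; exact (hg _).trans (hh x)
  inv_mem' {g} hg x := by
    have h := hg (g⁻¹ • x)
    rw [smul_inv_smul] at h
    exact h.symm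

variable {O : ValuationSubring K}

theorem valuation_lt_one_iff_not_inv_mem {x : K} (hx : x ≠ 0) :
    O.valuation x < 1 ↔ x⁻¹ ∉ O := by
  rw [← O.valuation_le_one_iff, map_inv₀, inv_le_one₀ (zero_lt_iff.mpr ((map_ne_zero _).mpr hx)),
    not_le]

theorem valuation_smul_le_one_iff {g : G} (hg : g ∈ valStab G O) (x : K) :
    O.valuation (g • x) ≤ 1 ↔ O.valuation x ≤ 1 := by
  rw [O.valuation_le_one_iff, O.valuation_le_one_iff]
  exact hg x

theorem valuation_smul_lt_one_iff {g : G} (hg : g ∈ valStab G O) (x : K) :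
    O.valuation (g • x) < 1 ↔ O.valuation x < 1 := by
  rcases eq_or_ne x 0 with rfl | hx
  · rw [smul_zero]
  rw [valuation_lt_one_iff_not_inv_mem hx,
    valuation_lt_one_iff_not_inv_mem ((smul_ne_zero_iff_ne _).mpr hx), ← smul_inv'', not_iff_not]
  exact hg _

theorem valuation_smul_eq_one_iff {g : G} (hg : g ∈ valStab G O) (x : K) :
    O.valuation (g • x) = 1 ↔ O.valuation x = 1 := by
  rw [le_antisymm_iff, le_antisymm_iff, valuation_smul_le_one_iff hg]
  exact and_congr_right fun _ =>
    not_lt.symm.trans ((not_congr (valuation_smul_lt_one_iff hg x)).trans not_lt)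

theorem residue_eq_zero_iff_valuation (a : O) :
    residue O a = 0 ↔ O.valuation (a : K) < 1 := by
  rw [residue_eq_zero_iff, ValuationSubring.valuation_lt_one_iff]

variable {Kr : Subgroup G} [Kr.Normal] [Kr.FiniteIndex] (hKr : ∀ k ∈ Kr, ∀ x : K, k • x = x)

include hKr

theorem kr_le_valStab : Kr ≤ valStab G O := fun k hk x => by rw [hKr k hk]

theorem mem_valStab_of_forall {g : G} (h : ∀ x ∈ O, g • x ∈ O) : g ∈ valStab G O := by
  intro x
  refine ⟨fun hx => ?_, h x⟩
  obtain ⟨m, hm⟩ : ∃ m, Kr.index = m + 1 :=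
    Nat.exists_eq_succ_of_ne_zero Subgroup.FiniteIndex.index_ne_zero
  have hpow : ∀ (n : ℕ) (y : K), y ∈ O → g ^ n • y ∈ O := by
    intro n
    induction n with
    | zero => simp
    | succ n ih => intro y hy; rw [pow_succ, mul_smul]; exact ih _ (h y hy)
  have h1 := hpow m _ hx
  rwa [← mul_smul, ← pow_succ, hKr _ (hm ▸ Kr.pow_index_mem g)] at h1

theorem out_smul_eq (g : G) (x : K) : (g : G ⧸ Kr).out • x = g • x := by
  have h : g⁻¹ * (g : G ⧸ Kr).out ∈ Kr :=
    QuotientGroup.eq.mp (QuotientGroup.out_eq' (g : G ⧸ Kr)).symm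
  rw [← mul_inv_cancel_left g ((g : G ⧸ Kr).out), mul_smul, hKr _ h]

variable {q : ℕ} [hq : Fact q.Prime] [hchar : CharP (ResidueField O) q]

section
include hq hchar

/-- An element which is integral at every translate, a unit where `x` is integral, and small
where it is not, also after multiplication by `x`. -/
theorem exists_bounded (x : K) : ∃ e : K, ∀ g : G,
    O.valuation (g • e) ≤ 1 ∧ O.valuation (g • (e * x)) ≤ 1 ∧
      (O.valuation (g • x) ≤ 1 → O.valuation (g • e) = 1) ∧
      (1 < O.valuation (g • x) → O.valuation (g • e) < 1 ∧ O.valuation (g • (e * x)) < 1) := by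
  classical
  let : Fintype (G ⧸ Kr) := Fintype.ofFinite _
  let bad : G ⧸ Kr → ℕ := fun c =>
    if h : c.out • x ∈ O then orderOf (residue O ⟨_, h⟩) else 0
  obtain ⟨P, hP, hPp⟩ := Nat.exists_infinite_primes (Finset.univ.sup bad + q + 3)
  refine ⟨(∑ i ∈ Finset.range P, x ^ i)⁻¹, fun g => ?_⟩
  set y := g • x with hy
  set S := ∑ i ∈ Finset.range P, y ^ i with hS
  have he : g • (∑ i ∈ Finset.range P, x ^ i)⁻¹ = S⁻¹ := by
    rw [smul_inv'', Finset.smul_sum]
    simp only [smul_pow', ← hy, hS]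
  rw [smul_mul', he, ← hy, map_mul, map_inv₀]
  rcases le_or_gt (O.valuation y) 1 with hy1 | hy1
  · have hmem : y ∈ O := (O.valuation_le_one_iff _).mp hy1
    set t := residue O ⟨y, hmem⟩
    have hbad : orderOf t < P := by
      have h1 : bad (g : G ⧸ Kr) ≤ Finset.univ.sup bad := Finset.le_sup (Finset.mem_univ _)
      have h2 : bad (g : G ⧸ Kr) = orderOf t := by
        have e := out_smul_eq hKr g x
        simp only [bad]
        rw [dif_pos (e.symm ▸ hmem)]
        exact congrArg _ (congrArg _ (Subtype.ext e))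
      omega
    have hvS : O.valuation S = 1 := by
      have hSmem : O.valuation S ≤ 1 := (O.valuation_le_one_iff _).mpr
        (sum_mem fun i _ => pow_mem hmem i)
      refine hSmem.eq_of_not_lt fun hlt => ?_
      have h0 : ∑ i ∈ Finset.range P, t ^ i = 0 := by
        have h1 : residue O (∑ i ∈ Finset.range P, (⟨y, hmem⟩ : O) ^ i) = 0 :=
          (residue_eq_zero_iff_valuation _).mpr (by push_cast; exact hlt)
        simpa [t, ← map_pow] using h1
      rcases eq_or_ne t 1 with ht | ht
      · rw [ht] at h0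
        simp only [one_pow, Finset.sum_const, Finset.card_range, nsmul_eq_mul, mul_one] at h0
        have := (Nat.prime_dvd_prime_iff_eq hq.out hPp).mp
          ((CharP.cast_eq_zero_iff (ResidueField O) q P).mp h0)
        omega
      · have h1 := geom_sum_mul t P
        rw [h0, zero_mul, eq_comm, sub_eq_zero] at h1
        have : Fact P.Prime := ⟨hPp⟩
        rw [orderOf_eq_prime h1 ht] at hbad
        exact lt_irrefl _ hbad
    rw [hvS, inv_one, one_mul]
    exact ⟨le_rfl, hy1, fun _ => rfl, fun h => absurd hy1 (not_le.mpr h)⟩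
  · set a := O.valuation y
    have hy0 : 1 < O.valuation y := hy1
    have h1 : O.valuation (y - 1) = a := O.valuation.map_sub_eq_of_lt_left (by rwa [map_one])
    have h2 : O.valuation (y ^ P - 1) = a ^ P := by
      rw [O.valuation.map_sub_eq_of_lt_left, map_pow]
      rw [map_one, map_pow]
      exact one_lt_pow₀ hy1 hPp.ne_zero
    have h3 := congrArg O.valuation (geom_sum_mul y P)
    rw [map_mul, h1, h2] at h3
    obtain ⟨m, hm⟩ : ∃ m, P = m + 3 := ⟨P - 3, by omega⟩
    rw [hm, pow_succ] at h3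
    have ha0 : a ≠ 0 := (zero_lt_one.trans hy1).ne'
    have h4 : O.valuation S = a ^ (m + 2) := by
      rw [hS, hm]
      exact mul_right_cancel₀ ha0 h3
    have hlt : (O.valuation S)⁻¹ * a < 1 := by
      rw [h4, inv_mul_lt_iff₀ (zero_lt_iff.mpr (pow_ne_zero _ ha0)), mul_one, pow_succ]
      exact lt_mul_of_one_lt_left (zero_lt_iff.mpr ha0) (one_lt_pow₀ hy1 (by omega))
    have hlt' : (O.valuation S)⁻¹ < 1 := by
      rw [h4]
      exact inv_lt_one_of_one_lt₀ (one_lt_pow₀ hy1 (by omega))
    exact ⟨hlt'.le, hlt.le, fun h => absurd h (not_le.mpr hy1), fun _ => ⟨hlt', hlt⟩⟩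

/-- An element fixed by the stabiliser which separates `O` from its other translates, also
after multiplication by a given fixed integral element. -/
theorem exists_valSeparator {y : K} (hy : O.valuation y ≤ 1)
    (hyf : ∀ h ∈ valStab G O, h • y = y) :
    ∃ e : K, (∀ h ∈ valStab G O, h • e = e) ∧ O.valuation e = 1 ∧
      ∀ g ∉ valStab G O, O.valuation (g • e) < 1 ∧ O.valuation (g • (e * y)) < 1 := by
  classical
  let : Fintype (G ⧸ Kr) := Fintype.ofFinite _
  obtain ⟨e₁, he₁⟩ := exists_bounded hKr (q := q) (O := O) y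
  set T := Finset.univ.filter fun c : G ⧸ Kr => c.out ∉ valStab G O with hT
  have hx : ∀ c ∈ T, ∃ x : K, O.valuation x ≤ 1 ∧ 1 < O.valuation (c.out • x) := by
    intro c hc
    by_contra hne
    push Not at hne
    refine (Finset.mem_filter.mp hc).2 (mem_valStab_of_forall hKr fun x hx => ?_)
    exact (O.valuation_le_one_iff _).mp (hne x ((O.valuation_le_one_iff _).mpr hx))
  choose! x hx1 hx2 using hx
  choose e₂ he₂ using fun c => exists_bounded hKr (q := q) (O := O) (x c)
  set e₀ := e₁ * ∏ c ∈ T, e₂ c with he₀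
  have hint : ∀ g : G, O.valuation (g • e₀) ≤ 1 ∧ O.valuation (g • (e₀ * y)) ≤ 1 := by
    intro g
    have hP : O.valuation (g • ∏ c ∈ T, e₂ c) ≤ 1 := by
      rw [Finset.smul_prod', map_prod]
      exact Finset.prod_le_one' fun c _ => (he₂ c g).1
    constructor
    · rw [he₀, smul_mul', map_mul]
      exact mul_le_one' (he₁ g).1 hP
    · rw [he₀, mul_right_comm, smul_mul', map_mul]
      exact mul_le_one' (he₁ g).2.1 hP
  have hunit : O.valuation e₀ = 1 := by
    rw [he₀, map_mul, map_prod]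
    have h1 := (he₁ 1).2.2.1
    rw [one_smul, one_smul] at h1
    rw [h1 hy, one_mul]
    refine Finset.prod_eq_one fun c hc => ?_
    have h2 := (he₂ c 1).2.2.1
    rw [one_smul, one_smul] at h2
    exact h2 (hx1 c hc)
  have hsmall : ∀ g ∉ valStab G O,
      O.valuation (g • e₀) < 1 ∧ O.valuation (g • (e₀ * y)) < 1 := by
    intro g hg
    have hc : (g : G ⧸ Kr) ∈ T := Finset.mem_filter.mpr ⟨Finset.mem_univ _, fun h => hg (by
      have h' : (g : G ⧸ Kr).out⁻¹ * g ∈ Kr :=
        QuotientGroup.eq.mp (QuotientGroup.out_eq' (g : G ⧸ Kr))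
      simpa using mul_mem h (kr_le_valStab hKr (O := O) h'))⟩
    set c : G ⧸ Kr := (g : G ⧸ Kr)
    have h2 : O.valuation (g • e₂ c) < 1 := by
      refine ((he₂ c g).2.2.2 ?_).1
      rw [← out_smul_eq hKr g (x c)]
      exact hx2 c hc
    have hrest : O.valuation (g • ∏ d ∈ T.erase c, e₂ d) ≤ 1 := by
      rw [Finset.smul_prod', map_prod]
      exact Finset.prod_le_one' fun d _ => (he₂ d g).1
    constructor
    · rw [he₀, ← Finset.mul_prod_erase _ _ hc, smul_mul', smul_mul', map_mul, map_mul]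
      exact lt_of_le_of_lt (mul_le_of_le_one_left' (he₁ g).1)
        (lt_of_le_of_lt (mul_le_of_le_one_right' hrest) h2)
    · rw [he₀, ← Finset.mul_prod_erase _ _ hc, mul_right_comm, smul_mul' g (e₁ * y),
        smul_mul' g (e₂ c), map_mul, map_mul, ← mul_assoc]
      exact lt_of_le_of_lt (mul_le_of_le_one_right' hrest)
        (lt_of_le_of_lt (mul_le_of_le_one_left' (he₁ g).2.1) h2)
  -- make it fixed by the stabiliser
  set H := valStab G O
  set Kh := Kr.subgroupOf H
  let : Fintype (H ⧸ Kh) := Fintype.ofFinite _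
  have hKh : ∀ k ∈ Kh, k • e₀ = e₀ := fun k hk => hKr _ hk _
  refine ⟨∏ d : H ⧸ Kh, d.out • e₀, fun h hh => ?_, ?_, fun g hg => ?_⟩
  · suffices hs : (⟨h, hh⟩ : H) • (∏ d : H ⧸ Kh, d.out • e₀) = ∏ d : H ⧸ Kh, d.out • e₀ from hs
    rw [Finset.smul_prod']
    exact Fintype.prod_equiv (MulAction.toPerm (⟨h, hh⟩ : H)) _ _
      fun d => Igusa.smul_out_smul hKh _ d
  · rw [map_prod]
    refine Finset.prod_eq_one fun d _ => ?_
    exact (valuation_smul_eq_one_iff d.out.2 _).mpr hunit
  · have hne : ∀ d : H ⧸ Kh, g * (d.out : G) ∉ H := fun d hd =>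
      hg ((H.mul_mem_cancel_right d.out.2).mp hd)
    have hd1 : O.valuation (g • ((⟦1⟧ : H ⧸ Kh).out • e₀)) < 1 ∧
        O.valuation (g • (((⟦1⟧ : H ⧸ Kh).out • e₀) * y)) < 1 := by
      set d : H ⧸ Kh := ⟦1⟧
      constructor
      · show O.valuation (g • (d.out : G) • e₀) < 1
        rw [← mul_smul]
        exact (hsmall _ (hne d)).1
      · show O.valuation (g • (((d.out : G) • e₀) * y)) < 1
        rw [← hyf _ d.out.2, ← smul_mul', ← mul_smul]
        exact (hsmall _ (hne d)).2
    have hrest : O.valuation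
        (g • ∏ d ∈ Finset.univ.erase (⟦1⟧ : H ⧸ Kh), d.out • e₀) ≤ 1 := by
      rw [Finset.smul_prod', map_prod]
      refine Finset.prod_le_one' fun d _ => ?_
      show O.valuation (g • (d.out : G) • e₀) ≤ 1
      rw [← mul_smul]
      exact (hint _).1
    rw [← Finset.mul_prod_erase Finset.univ (fun d : H ⧸ Kh => d.out • e₀)
      (Finset.mem_univ ⟦1⟧)]
    constructor
    · rw [smul_mul', map_mul]
      exact lt_of_le_of_lt (mul_le_of_le_one_right' hrest) hd1.1
    · rw [mul_right_comm, smul_mul', map_mul]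
      exact lt_of_le_of_lt (mul_le_of_le_one_right' hrest) hd1.2

end

omit hKr in
theorem coeff_X_sub_C_pow_char {k : Type*} [CommRing k] [CharP k q] (t : k) (a n' : ℕ) :
    ((X - C t) ^ (q ^ a * (n' + 1))).coeff (q ^ a * n') =
      -((n' + 1 : ℕ) : k) * t ^ (q ^ a) := by
  rw [pow_mul, sub_pow_char_pow, ← C_pow,
    show (X ^ q ^ a - C (t ^ q ^ a)) ^ (n' + 1) =
      expand k (q ^ a) ((X - C (t ^ q ^ a)) ^ (n' + 1)) by simp,
    coeff_expand_mul' (pow_pos hq.out.pos a), sub_eq_add_neg, ← C_neg, coeff_X_add_C_pow,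
    Nat.choose_succ_self_right, show n' + 1 - n' = 1 by omega]
  ring

/-- **Fixed lifts.** -/
theorem exists_fixed_congr {y : K} (hy : O.valuation y ≤ 1)
    (hyH : ∀ h ∈ valStab G O, O.valuation (h • y - y) < 1) :
    ∃ (a : ℕ) (Z ZB : K), (∀ g : G, g • Z = Z) ∧ (∀ g : G, g • ZB = ZB) ∧
      O.valuation ZB = 1 ∧ O.valuation (Z - y ^ (q ^ a) * ZB) < 1 := by
  classical
  set H := valStab G O with hH
  set Kh := Kr.subgroupOf H
  let : Fintype (H ⧸ Kh) := Fintype.ofFinite _
  have : Finite (G ⧸ H) := by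
    have := Subgroup.finiteIndex_of_le (kr_le_valStab hKr (O := O))
    exact Subgroup.finite_quotient_of_finiteIndex
  let : Fintype (G ⧸ H) := Fintype.ofFinite _
  have hKy : ∀ k ∈ Kh, k • y = y := fun k hk => hKr _ hk _
  set F : K[X] := ∏ d : H ⧸ Kh, (X - C (d.out • y)) with hF
  have hFinv : ∀ h : H, F.map (MulSemiringAction.toRingHom H K h) = F := by
    intro h
    rw [hF, Polynomial.map_prod]
    refine Fintype.prod_equiv (MulAction.toPerm h) _ _ fun d => ?_
    simp only [Polynomial.map_sub, Polynomial.map_X, Polynomial.map_C,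
      MulSemiringAction.toRingHom_apply, MulAction.toPerm_apply]
    rw [Igusa.smul_out_smul hKy]
  have hmem : ∀ d : H ⧸ Kh, d.out • y ∈ O := fun d =>
    (O.valuation_le_one_iff _).mp ((valuation_smul_le_one_iff d.out.2 y).mpr hy)
  set FO : O[X] := ∏ d : H ⧸ Kh, (X - C (⟨_, hmem d⟩ : O)) with hFO
  have hFmap : FO.map O.subtype = F := by
    rw [hFO, hF, Polynomial.map_prod]
    exact Finset.prod_congr rfl fun d _ => by
      simp only [Polynomial.map_sub, Polynomial.map_X, Polynomial.map_C]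
      rfl
  set n := Fintype.card (H ⧸ Kh)
  obtain ⟨a, m, hm, hn⟩ := Nat.exists_eq_pow_mul_and_not_dvd
    (Fintype.card_ne_zero : n ≠ 0) q hq.out.ne_one
  obtain ⟨n', rfl⟩ : ∃ n', m = n' + 1 :=
    Nat.exists_eq_succ_of_ne_zero fun h => hm (h ▸ dvd_zero q)
  set i := q ^ a * n'
  set Y := F.coeff i with hY
  have hYf : ∀ h ∈ H, h • Y = Y := fun h hh => by
    conv_rhs => rw [hY, ← hFinv ⟨h, hh⟩, Polynomial.coeff_map]
    rfl
  have hYO : Y = ((FO.coeff i : O) : K) := by rw [hY, ← hFmap, Polynomial.coeff_map]; rfl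
  have hY1 : O.valuation Y ≤ 1 := by rw [hYO]; exact O.valuation_le_one _
  have hYres : O.valuation (Y + ((n' + 1 : ℕ) : K) * y ^ (q ^ a)) < 1 := by
    set yO : O := ⟨y, (O.valuation_le_one_iff _).mp hy⟩
    rw [hYO, show ((FO.coeff i : O) : K) + ((n' + 1 : ℕ) : K) * y ^ (q ^ a) =
      ((FO.coeff i + ((n' + 1 : ℕ) : O) * yO ^ (q ^ a) : O) : K) by push_cast; rfl]
    rw [← residue_eq_zero_iff_valuation, map_add, map_mul, map_pow, map_natCast]
    have hd : ∀ d : H ⧸ Kh, residue O ⟨_, hmem d⟩ = residue O yO := fun d => by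
      rw [← sub_eq_zero, ← map_sub, residue_eq_zero_iff_valuation]
      exact hyH _ d.out.2
    have hc : residue O (FO.coeff i) =
        -((n' + 1 : ℕ) : ResidueField O) * residue O yO ^ (q ^ a) := by
      rw [← Polynomial.coeff_map, hFO, Polynomial.map_prod]
      simp only [Polynomial.map_sub, Polynomial.map_X, Polynomial.map_C, hd, Finset.prod_const,
        Finset.card_univ]
      rw [show Fintype.card (H ⧸ Kh) = q ^ a * (n' + 1) from hn]
      exact coeff_X_sub_C_pow_char _ a n'
    rw [hc, neg_mul, neg_add_cancel]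
  obtain ⟨e, hef, he1, hesmall⟩ := exists_valSeparator hKr (q := q) hY1 hYf
  have hval_n : O.valuation ((n' + 1 : ℕ) : K) = 1 := by
    refine le_antisymm ((O.valuation_le_one_iff _).mpr (natCast_mem O _)) (not_lt.mp fun h => hm ?_)
    have h' : residue O ((n' + 1 : ℕ) : O) = 0 :=
      (residue_eq_zero_iff_valuation _).mpr (by push_cast at h ⊢; exact h)
    rw [map_natCast] at h'
    exact (CharP.cast_eq_zero_iff (ResidueField O) q _).mp h'
  refine ⟨a, -∑ c : G ⧸ H, c.out • (e * Y),
    ((n' + 1 : ℕ) : K) * ∑ c : G ⧸ H, c.out • e, fun g => ?_, fun g => ?_, ?_⟩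
  · rw [smul_neg, Igusa.smul_sum_out fun h hh => by rw [smul_mul', hef h hh, hYf h hh]]
  · rw [smul_mul', Igusa.smul_sum_out hef, show g • ((n' + 1 : ℕ) : K) = _ from map_natCast (MulSemiringAction.toRingHom G K g) _]
  set c₁ : G ⧸ H := QuotientGroup.mk 1
  have hc₁ : c₁.out ∈ H := by
    have := QuotientGroup.eq.mp (QuotientGroup.out_eq' c₁)
    rwa [mul_one, inv_mem_iff] at this
  have hout : ∀ c ∈ Finset.univ.erase c₁, c.out ∉ H := fun c hc h =>
    (Finset.mem_erase.mp hc).1 (by
      rw [← QuotientGroup.out_eq' c]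
      exact QuotientGroup.eq.mpr (by simpa using h))
  have hrest : ∀ f : K, (∀ c ∈ Finset.univ.erase c₁, O.valuation ((c : G ⧸ H).out • f) < 1) →
      O.valuation (∑ c ∈ Finset.univ.erase c₁, c.out • f) < 1 := fun f hf =>
    O.valuation.map_sum_lt one_ne_zero hf
  have hE := hrest e fun c hc => (hesmall _ (hout c hc)).1
  have hEY := hrest (e * Y) fun c hc => (hesmall _ (hout c hc)).2
  rw [← Finset.add_sum_erase _ _ (Finset.mem_univ c₁),
    ← Finset.add_sum_erase _ _ (Finset.mem_univ c₁), hef _ hc₁, smul_mul', hef _ hc₁, hYf _ hc₁]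
  constructor
  · rw [map_mul, hval_n, one_mul, O.valuation.map_add_eq_of_lt_left (by rwa [he1]), he1]
  · set r := ∑ c ∈ Finset.univ.erase c₁, c.out • e
    set r' := ∑ c ∈ Finset.univ.erase c₁, c.out • (e * Y)
    rw [show -(e * Y + r') - y ^ q ^ a * (((n' + 1 : ℕ) : K) * (e + r)) =
      -((Y + ((n' + 1 : ℕ) : K) * y ^ q ^ a) * e + (r' + ((n' + 1 : ℕ) : K) * y ^ q ^ a * r)) by
        ring, Valuation.map_neg]
    refine O.valuation.map_add_lt ?_ (O.valuation.map_add_lt hEY ?_)
    · rw [map_mul, he1, mul_one]; exact hYres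
    · rw [map_mul, map_mul, hval_n, one_mul, map_pow]
      exact lt_of_le_of_lt (mul_le_of_le_one_left' (pow_le_one₀ zero_le hy)) hE

end FermatAgent.TWLocal

end
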