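import Fermat.Agent.TWLocal.Embed
import Fermat.Agent.TWLocal.RelationAux
import Fermat.Agent.TWLocal.ValApprox

/-!
The Gauss valuation ring at `∞` of the field of level `M` functions, its residual series, and the
stabiliser of this ring in `SL(2, ℤ)`: it contains `T` and lies in `Γ₀(q)`.
-/

set_option autoImplicit false
set_option maxHeartbeats 800000

noncomputable section

namespace FermatAgent.TWLocal

open UpperHalfPlane hiding I
open ModularCurve IsLocalRing
open FermatAgent.ModFun (twist expUnit)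
open scoped MatrixGroups

local notation "M₂" => Matrix (Fin 2) (Fin 2) ℤ
local notation "Qb" => AlgebraicClosure ℚ

variable {M : ℕ} [NeZero M]

instance instMulSemiringActionGF : MulSemiringAction SL(2, ℤ) (GF M) where
  smul γ x := smulGF γ⁻¹ x
  one_smul x := by show smulGF 1⁻¹ x = x; rw [inv_one, smulGF_one]
  mul_smul γ δ x := by
    show smulGF (γ * δ)⁻¹ x = smulGF γ⁻¹ (smulGF δ⁻¹ x)
    rw [mul_inv_rev, smulGF_mul]
  smul_zero γ := map_zero (smulGF γ⁻¹)
  smul_add γ := map_add (smulGF γ⁻¹)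
  smul_one γ := map_one (smulGF γ⁻¹)
  smul_mul γ := map_mul (smulGF γ⁻¹)

theorem smul_gf_def (γ : SL(2, ℤ)) (x : GF M) : γ • x = smulGF γ⁻¹ x := rfl

variable (A : ValuationSubring Qb)

/-- `x` is integral at `∞` with residual series `r`. -/
def GRed (x : GF M) (r : LaurentSeries (ResidueField A)) : Prop :=
  ∃ a b ra rb, RedsTo A a ra ∧ RedsTo A b rb ∧ rb ≠ 0 ∧ gExp x * b = a ∧ r = ra / rb

variable {A}

namespace GRed

variable {x y : GF M} {r s : LaurentSeries (ResidueField A)}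

theorem of_redsTo {z : LaurentSeries (ResidueField A)} (h : RedsTo A (gExp x) z) : GRed A x z :=
  ⟨_, 1, z, 1, h, RedsTo.one, one_ne_zero, mul_one _, (div_one _).symm⟩

theorem one : GRed A (1 : GF M) 1 := of_redsTo (by rw [map_one]; exact RedsTo.one)

theorem zero : GRed A (0 : GF M) 0 := of_redsTo (by
  rw [map_zero]
  exact ⟨0, map_zero _, map_zero _⟩)

theorem const (a : A) : GRed A (constGF (M := M) (a : Qb)) (HahnSeries.C (residue A a)) :=
  of_redsTo (by rw [gExp_constGF]; exact RedsTo.C a)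

theorem add (h : GRed A x r) (h' : GRed A y s) : GRed A (x + y) (r + s) := by
  obtain ⟨a, b, ra, rb, hA, hB, hb, e, rfl⟩ := h
  obtain ⟨a', b', ra', rb', hA', hB', hb', e', rfl⟩ := h'
  refine ⟨a * b' + b * a', b * b', _, _, (hA.mul hB').add (hB.mul hA'), hB.mul hB',
    mul_ne_zero hb hb', ?_, div_add_div _ _ hb hb'⟩
  rw [map_add, ← e, ← e']
  ring

theorem mul (h : GRed A x r) (h' : GRed A y s) : GRed A (x * y) (r * s) := by
  obtain ⟨a, b, ra, rb, hA, hB, hb, e, rfl⟩ := h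
  obtain ⟨a', b', ra', rb', hA', hB', hb', e', rfl⟩ := h'
  refine ⟨a * a', b * b', _, _, hA.mul hA', hB.mul hB', mul_ne_zero hb hb', ?_,
    div_mul_div_comm _ _ _ _⟩
  rw [map_mul, ← e, ← e']
  ring

theorem neg (h : GRed A x r) : GRed A (-x) (-r) := by
  simpa using (const (M := M) (-1 : A)).mul h

theorem sub (h : GRed A x r) (h' : GRed A y s) : GRed A (x - y) (r - s) := by
  rw [sub_eq_add_neg, sub_eq_add_neg]
  exact h.add h'.neg

theorem pow (h : GRed A x r) (n : ℕ) : GRed A (x ^ n) (r ^ n) := by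
  induction n with
  | zero => simpa using one
  | succ n ih => rw [pow_succ, pow_succ]; exact ih.mul h

theorem unique (h : GRed A x r) (h' : GRed A x s) : r = s := by
  obtain ⟨a, b, ra, rb, hA, hB, hb, e, rfl⟩ := h
  obtain ⟨a', b', ra', rb', hA', hB', hb', e', rfl⟩ := h'
  rw [div_eq_div_iff hb hb']
  refine (hA.mul hB').unique ?_
  convert hA'.mul hB using 1
  rw [← e, ← e']
  ring

theorem inv (h : GRed A x r) (hr : r ≠ 0) : GRed A x⁻¹ r⁻¹ := by
  obtain ⟨a, b, ra, rb, hA, hB, hb, e, rfl⟩ := h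
  have hx : gExp x ≠ 0 := fun h0 => hr (by
    rw [h0, zero_mul] at e
    rw [show ra = 0 from hA.unique (e ▸ ⟨0, map_zero _, map_zero _⟩), zero_div])
  refine ⟨b, a, rb, ra, hB, hA, fun h0 => hr (by rw [h0, zero_div]), ?_, inv_div _ _⟩
  rw [map_inv₀, ← e, inv_mul_cancel_left₀ hx]

theorem ne_zero (h : GRed A x r) (hr : r ≠ 0) : x ≠ 0 := fun h0 => hr (h.unique (h0 ▸ zero))

theorem redGF_eq_clsOf (h : GRed A x r) (hr : r ≠ 0) : redGF A x = clsOf r hr := by
  obtain ⟨a, b, ra, rb, hA, hB, hb, e, rfl⟩ := h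
  have ha : ra ≠ 0 := fun h0 => hr (by rw [h0, zero_div])
  refine redGF_eq ⟨a, b, ra, rb, ha, hb, 1, one_ne_zero, hA, hB,
    by rw [map_one, one_mul, e], ?_⟩
  rw [eq_div_iff_mul_eq', ← clsOf_mul hr hb]
  exact clsOf_congr (div_mul_cancel₀ ra hb) _ _

end GRed

section Val

variable {q : ℕ} [hq : Fact q.Prime] (hA : A.LiesOverPrime q)

include hA in
/-- Every nonzero function can be normalised. -/
theorem exists_const_mul_gRed {x : GF M} (hx : x ≠ 0) :
    ∃ (c : Qb) (r : LaurentSeries (ResidueField A)), c ≠ 0 ∧ r ≠ 0 ∧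
      GRed A (constGF c * x) r := by
  obtain ⟨a, b, ra, rb, ha, hb, c, hc, hA', hB, e, -⟩ := hasRed_redGF hq.out hA hx
  refine ⟨c⁻¹, ra / rb, inv_ne_zero hc, div_ne_zero ha hb, a, b, ra, rb, hA', hB, hb, ?_, rfl⟩
  rw [map_mul, gExp_constGF, mul_assoc, e, ← mul_assoc, ← map_mul, inv_mul_cancel₀ hc, map_one,
    one_mul]

variable (M) in
/-- The Gauss valuation ring. -/
def gaussVal : ValuationSubring (GF M) where
  carrier := {x | ∃ r, GRed A x r}
  one_mem' := ⟨_, GRed.one⟩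
  zero_mem' := ⟨_, GRed.zero⟩
  mul_mem' := fun ⟨_, h⟩ ⟨_, h'⟩ => ⟨_, h.mul h'⟩
  add_mem' := fun ⟨_, h⟩ ⟨_, h'⟩ => ⟨_, h.add h'⟩
  neg_mem' := fun ⟨_, h⟩ => ⟨_, h.neg⟩
  mem_or_inv_mem' x := by
    rcases eq_or_ne x 0 with rfl | hx
    · exact Or.inl ⟨_, GRed.zero⟩
    obtain ⟨c, r, hc, hr, h⟩ := exists_const_mul_gRed hA hx
    rcases A.mem_or_inv_mem c⁻¹ with hm | hm
    · have h' := (GRed.const (M := M) (⟨c⁻¹, hm⟩ : A)).mul h
      rw [← mul_assoc, ← map_mul, inv_mul_cancel₀ hc, map_one, one_mul] at h'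
      exact Or.inl ⟨_, h'⟩
    · rw [inv_inv] at hm
      have h' := (GRed.const (M := M) (⟨c, hm⟩ : A)).mul (h.inv hr)
      rw [mul_inv, ← mul_assoc, ← map_inv₀, ← map_mul, mul_inv_cancel₀ hc, map_one,
        one_mul] at h'
      exact Or.inr ⟨_, h'⟩

variable {hA}

theorem GRed.mem {x : GF M} {r : LaurentSeries (ResidueField A)} (h : GRed A x r) :
    x ∈ gaussVal M hA := ⟨r, h⟩

theorem GRed.valuation_lt_one_iff {x : GF M} {r : LaurentSeries (ResidueField A)}
    (h : GRed A x r) : (gaussVal M hA).valuation x < 1 ↔ r = 0 := by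
  rcases eq_or_ne x 0 with rfl | hx
  · exact ⟨fun _ => h.unique GRed.zero, fun _ => by rw [map_zero]; exact zero_lt_one⟩
  rw [valuation_lt_one_iff_not_inv_mem hx]
  constructor
  · intro hn
    by_contra hr
    exact hn ⟨_, h.inv hr⟩
  · rintro rfl ⟨s, hs⟩
    have h1 := h.mul hs
    rw [mul_inv_cancel₀ hx, zero_mul] at h1
    exact one_ne_zero (GRed.one.unique h1)

theorem exists_gRed_of_valuation_le {x : GF M} (h : (gaussVal M hA).valuation x ≤ 1) :
    ∃ r, GRed A x r := ((gaussVal M hA).valuation_le_one_iff x).mp h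

theorem GRed.valuation_le_one {x : GF M} {r : LaurentSeries (ResidueField A)} (h : GRed A x r) :
    (gaussVal M hA).valuation x ≤ 1 := ((gaussVal M hA).valuation_le_one_iff x).mpr h.mem

instance charP_residue_gaussVal : CharP (ResidueField (gaussVal M hA)) q := by
  have := ES.charP_residueField hq.out hA
  refine (CharP.charP_iff_prime_eq_zero hq.out).mpr ?_
  rw [← map_natCast (residue (gaussVal M hA)), residue_eq_zero_iff_valuation]
  have h : GRed A ((q : GF M)) (HahnSeries.C (residue A (q : A))) := by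
    have := GRed.const (M := M) (q : A)
    push_cast at this
    rwa [map_natCast] at this
  push_cast
  refine h.valuation_lt_one_iff.mpr ?_
  rw [map_natCast (residue A), CharP.cast_eq_zero, map_zero]

variable (M) in
/-- The stabiliser of the Gauss valuation ring. -/
abbrev gStab (hA : A.LiesOverPrime q) : Subgroup SL(2, ℤ) := valStab SL(2, ℤ) (gaussVal M hA)

theorem smul_eq_of_mem_genStab : ∀ γ ∈ genStab M, ∀ x : GF M, γ • x = x := fun _ hγ x =>
  smulGF_eq_of_mem_genStab (inv_mem hγ) x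

instance genStab_finiteIndex : (genStab M).FiniteIndex :=
  Subgroup.finiteIndex_of_le (gamma_le_genStab M)

theorem genExp_genSmul_T (a : genRing M) :
    genExp (genSmul ModularGroup.T a) = twist (zetaQ M) (genExp a) := by
  refine Igusa.coeffMap_injective iotaC_injective ?_
  rw [coeffMap_twist, coeffMap_genExp, coeffMap_genExp,
    show Units.map (iotaC : Qb →* ℂ) (zetaQ M) = expUnit ((1 : ℝ) / M) from
      Units.ext (iotaC_zetaQ M)]
  have hxc := ((Igusa.mem_expSubring M _).mp (genRing_le_expSubring a.2)).1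
  rw [Igusa.qExp, Igusa.qExp, ← ModFun.qLaurent_comp_vadd (f := (a : ℍ → ℂ) ∘ ModFun.dil M) hxc]
  congr 1
  funext τ
  simp only [Function.comp_apply, coe_genSmul, Igusa.compSmul_apply, modular_T_smul]
  refine congrArg _ (UpperHalfPlane.ext ?_)
  simp only [UpperHalfPlane.coe_vadd, ModFun.coe_dil, Complex.ofReal_one, Complex.ofReal_div,
    Complex.ofReal_natCast]
  rw [mul_add, mul_one_div_cancel (Nat.cast_ne_zero.mpr (NeZero.ne M))]

theorem gExp_smulGF_T (x : GF M) :
    gExp (smulGF ModularGroup.T x) = twist (zetaQ M) (gExp x) := by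
  obtain ⟨a, b, -, rfl⟩ := exists_num_den x
  simp only [map_div₀, smulGF_toGF, gExp_toGF, genExp_genSmul_T]

variable (A) in
/-- A power of `ζ_M` as a unit of `A`. -/
def zetaA (n : ℤ) : Aˣ :=
  ⟨⟨_, zetaQ_zpow_mem (M := M) A n⟩, ⟨_, zetaQ_zpow_mem (M := M) A (-n)⟩,
    Subtype.ext (by
      show ((zetaQ M ^ n : Qbˣ) : Qb) * _ = (1 : Qb)
      rw [← Units.val_mul, ← zpow_add, add_neg_cancel, zpow_zero, Units.val_one]),
    Subtype.ext (by
      show ((zetaQ M ^ (-n) : Qbˣ) : Qb) * _ = (1 : Qb)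
      rw [← Units.val_mul, ← zpow_add, neg_add_cancel, zpow_zero, Units.val_one])⟩

theorem map_zetaA (n : ℤ) :
    Units.map (A.subtype : A →* Qb) (zetaA (M := M) A n) = zetaQ M ^ n := Units.ext rfl

theorem RedsTo.twist_zeta {s : LaurentSeries Qb} {r : LaurentSeries (ResidueField A)}
    (h : RedsTo A s r) (n : ℤ) : RedsTo A (twist (zetaQ M ^ n) s)
      (twist (Units.map (residue A : A →* ResidueField A) (zetaA (M := M) A n)) r) := by
  obtain ⟨y, rfl, rfl⟩ := h
  exact ⟨twist (zetaA A n) y, by rw [coeffMap_twist, map_zetaA (M := M)], (coeffMap_twist _ _ _)⟩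

theorem T_mem_gStab : ModularGroup.T ∈ gStab M hA := by
  suffices h : ModularGroup.T⁻¹ ∈ gStab M hA by simpa using inv_mem h
  refine mem_valStab_of_forall smul_eq_of_mem_genStab fun x ⟨r, hr⟩ => ?_
  rw [smul_gf_def, inv_inv]
  obtain ⟨a, b, ra, rb, hA', hB, hb, e, rfl⟩ := hr
  refine ⟨_, twist (zetaQ M ^ (1 : ℤ)) a, twist (zetaQ M ^ (1 : ℤ)) b, _, _,
    hA'.twist_zeta 1, hB.twist_zeta 1, (map_ne_zero _).mpr hb, ?_, rfl⟩
  rw [gExp_smulGF_T, zpow_one, ← map_mul, e]

theorem redsTo_genExp_tri (a e c : ℕ) [NeZero a] [NeZero e] [NeZero c] (b : ℤ) (hc : e * c = M)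
    (h : IsGenMat M !![(a : ℤ), b; 0, (e : ℤ)]) :
    RedsTo A (genExp ⟨_, jAt_mem_genRing h⟩) (qExpand (ResidueField A) (a * c)
      (twist (Units.map (residue A : A →* ResidueField A) (zetaA (M := M) A (b * c)))
        (jqModC (ResidueField A)))) := by
  rw [genExp_tri a e c b hc h]
  exact (RedsTo.twist_zeta (M := M) (show RedsTo A (jqModC Qb) (jqModC (ResidueField A)) from
    ⟨jqModC A, coeffMap_jqModC _, coeffMap_jqModC _⟩) (b * c)).qExpand' (a * c)

/-- **The stabiliser lies in `Γ₀(q)`.** -/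
theorem dvd_of_mem_gStab (hqM : q ∣ M) {δ : SL(2, ℤ)} (hδ : δ ∈ gStab M hA) :
    (q : ℤ) ∣ δ 1 0 := by
  by_contra hnd
  obtain ⟨c, hc⟩ := hqM
  have : NeZero q := ⟨hq.out.ne_zero⟩
  have : NeZero c := ⟨fun h => NeZero.ne M (by rw [hc, h, mul_zero])⟩
  have hk := ES.charP_residueField hq.out hA
  set k := ResidueField A
  -- the two generators
  have hJ : IsGenMat M !![((1 : ℕ) : ℤ), 0; 0, ((1 : ℕ) : ℤ)] :=
    .of_tri 0 one_pos one_pos (by simp)
  have hJ₁ : IsGenMat M !![(q : ℤ), 0; 0, ((1 : ℕ) : ℤ)] :=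
    .of_tri 0 hq.out.pos one_pos (by rw [mul_one]; exact ⟨c, hc⟩)
  have hz : Units.map (residue A : A →* k) (zetaA (M := M) A (0 * M)) = 1 := by
    rw [zero_mul, show zetaA (M := M) A 0 = 1 from Units.ext (Subtype.ext (by
      show ((zetaQ M ^ (0 : ℤ) : Qbˣ) : Qb) = 1
      rw [zpow_zero, Units.val_one])), map_one]
  have r1 : RedsTo A (genExp ⟨_, jAt_mem_genRing hJ⟩) (qExpand k M (jqModC k)) := by
    have h := redsTo_genExp_tri (A := A) 1 1 M 0 (one_mul M) hJ
    rwa [hz, twist_one_apply, qExpand_congr (one_mul M)] at h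
  have r2 : RedsTo A (genExp ⟨_, jAt_mem_genRing hJ₁⟩) (qExpand k (q * M) (jqModC k)) := by
    have h := redsTo_genExp_tri (A := A) q 1 M 0 (one_mul M) hJ₁
    rwa [hz, twist_one_apply] at h
  set J : GF M := toGF ⟨_, jAt_mem_genRing hJ⟩
  set J₁ : GF M := toGF ⟨_, jAt_mem_genRing hJ₁⟩
  have hfrob : qExpand k (q * M) (jqModC k) = qExpand k M (jqModC k) ^ q := by
    rw [← map_pow, ES.pow_char_eq q, coeffMap_qExpand, coeffMap_jqModC, qExpand_qExpand]
    exact qExpand_congr (mul_comm q M) _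
  have g : GRed A (J₁ - J ^ q) 0 := by
    have := (GRed.of_redsTo (x := J₁) (by rw [gExp_toGF]; exact r2)).sub
      ((GRed.of_redsTo (x := J) (by rw [gExp_toGF]; exact r1)).pow q)
    rwa [hfrob, sub_self] at this
  -- the translate
  have hlt := (valuation_smul_lt_one_iff (inv_mem hδ) _).mpr
    ((GRed.valuation_lt_one_iff (hA := hA) g).mpr rfl)
  rw [smul_gf_def, inv_inv, map_sub, map_pow, smulGF_toGF, smulGF_toGF] at hlt
  obtain ⟨b, hb⟩ : ∃ b : ℤ, (q : ℤ) ∣ δ 1 1 - b * δ 1 0 := by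
    have h0 : ((δ 1 0 : ℤ) : ZMod q) ≠ 0 := fun h =>
      hnd ((ZMod.intCast_zmod_eq_zero_iff_dvd _ _).mp h)
    refine ⟨(((δ 1 1 : ℤ) : ZMod q) / ((δ 1 0 : ℤ) : ZMod q)).val, ?_⟩
    rw [← ZMod.intCast_zmod_eq_zero_iff_dvd]
    push_cast
    rw [ZMod.natCast_zmod_val, div_mul_cancel₀ _ h0, sub_self]
  have hT : IsGenMat M !![((1 : ℕ) : ℤ), b; 0, (q : ℤ)] :=
    .of_tri b one_pos hq.out.pos (by rw [one_mul]; exact ⟨c, hc⟩)
  have e1 : genSmul δ ⟨_, jAt_mem_genRing hJ⟩ = ⟨_, jAt_mem_genRing hJ⟩ := Subtype.ext (funext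
    fun τ => by
      show jAt _ (δ • τ) = jAt _ τ
      rw [jAt_smul hJ.det_pos]
      have he : (!![((1 : ℕ) : ℤ), 0; 0, ((1 : ℕ) : ℤ)] : M₂) = 1 := by
        rw [Matrix.one_fin_two]; simp
      rw [he, one_mul]
      conv_lhs => rw [← mul_one (δ : M₂), jAt_sl_mul δ (by simp)])
  have e2 : genSmul δ ⟨_, jAt_mem_genRing hJ₁⟩ = ⟨_, jAt_mem_genRing hT⟩ := Subtype.ext (funext
    fun τ => by
      show jAt _ (δ • τ) = jAt _ τ
      rw [jAt_smul hJ₁.det_pos]
      refine congrFun (jAt_eq_of_dvd hT.det_pos (by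
        rw [Matrix.det_mul, δ.det_coe, mul_one]
        simp) ?_) τ
      obtain ⟨t, ht⟩ := hb
      intro i j
      fin_cases i <;> fin_cases j <;>
        simp [Matrix.mul_apply, Fin.sum_univ_two, Matrix.adjugate_fin_two, Matrix.det_fin_two,
          Matrix.vecMul, dotProduct]
      · exact (dvd_mul_right _ _).mul_right _
      · exact ⟨t, by linear_combination ht⟩)
  rw [e1, e2] at hlt
  have r3 : RedsTo A (genExp ⟨_, jAt_mem_genRing hT⟩) (qExpand k (1 * c)
      (twist (Units.map (residue A : A →* k) (zetaA (M := M) A (b * c))) (jqModC k))) :=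
    redsTo_genExp_tri 1 q c b hc.symm hT
  have g' := (GRed.of_redsTo (x := toGF _) (by rw [gExp_toGF]; exact r3)).sub
    ((GRed.of_redsTo (x := J) (by rw [gExp_toGF]; exact r1)).pow q)
  have h0 := congrArg (fun s : LaurentSeries k => s.coeff ((c : ℤ) * (-((q : ℤ) * q))))
    ((GRed.valuation_lt_one_iff (hA := hA) g').mp hlt)
  rw [← hfrob, qExpand_congr (one_mul c)] at h0
  simp only [HahnSeries.coeff_sub, HahnSeries.coeff_zero, qExpand_coeff_mul, ModFun.twist_coeff]
    at h0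
  rw [show (c : ℤ) * (-((q : ℤ) * q)) = ((q * M : ℕ) : ℤ) * (-1) by rw [hc]; push_cast; ring,
    qExpand_coeff_mul, coeff_jqModC_of_lt k
      (show -((q : ℤ) * q) < -1 by
        have := hq.out.two_le
        nlinarith),
    mul_zero, zero_sub, neg_eq_zero] at h0
  have h1 := coeff_jqModC_pow_self k 1
  rw [pow_one, Nat.cast_one, h0] at h1
  exact zero_ne_one h1

end Val

end FermatAgent.TWLocal

end
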