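import Fermat.Agent.TWLocal.JAt
import Fermat.Agent.TWLocal.GalRel
import Fermat.Agent.Igusa.Generators
import Fermat.Agent.ModCurve.Fun.BaseChange

/-!
The ring of functions on the upper half plane generated over `ℚ̄` by `j ∘ A`, `det A ∣ M`, its
expansion at `∞` in `exp (2 π i τ / M)`, and the coefficientwise Galois action.
-/

set_option autoImplicit false

noncomputable section

namespace FermatAgent.TWLocal

open UpperHalfPlane hiding I
open FermatAgent.ModFun FermatAgent.Igusa ModularCurve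
open scoped Real MatrixGroups

local notation "M₂" => Matrix (Fin 2) (Fin 2) ℤ
local notation "Qb" => AlgebraicClosure ℚ

/-- The chosen embedding `ℚ̄ → ℂ`. -/
def iotaC : Qb →+* ℂ := qbarToC.toRingHom

theorem iotaC_injective : Function.Injective iotaC := iotaC.injective

theorem exists_zetaQ (M : ℕ) [NeZero M] :
    ∃ z : Qbˣ, iotaC (z : Qb) = ((expUnit ((1 : ℝ) / M) : ℂˣ) : ℂ) := by
  obtain ⟨ξ, hξ⟩ := HasEnoughRootsOfUnity.exists_primitiveRoot Qb M
  have hpow : (((expUnit ((1 : ℝ) / M) : ℂˣ) : ℂ)) ^ M = 1 := by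
    simp only [expUnit, Units.val_mk0, ← Complex.exp_nat_mul]
    rw [Complex.exp_eq_one_iff]
    exact ⟨1, by push_cast; field_simp [NeZero.ne M]⟩
  obtain ⟨i, -, hi⟩ := (hξ.map_of_injective iotaC_injective).eq_pow_of_pow_eq_one hpow
  exact ⟨(hξ.isUnit (NeZero.ne M)).unit ^ i, by simp [map_pow, hi]⟩

/-- `exp (2 π i / M)` in `ℚ̄`. -/
def zetaQ (M : ℕ) [NeZero M] : Qbˣ := (exists_zetaQ M).choose

theorem iotaC_zetaQ (M : ℕ) [NeZero M] :
    iotaC (zetaQ M : Qb) = ((expUnit ((1 : ℝ) / M) : ℂˣ) : ℂ) := (exists_zetaQ M).choose_spec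

theorem map_zetaQ_zpow {M : ℕ} [NeZero M] {e c : ℕ} (hc : e * c = M) (b : ℤ) :
    Units.map (iotaC : Qb →* ℂ) (zetaQ M ^ (b * c)) = expUnit ((b : ℝ) / e) := by
  refine Units.ext ?_
  rw [map_zpow, Units.val_zpow_eq_zpow_val, Units.coe_map, MonoidHom.coe_coe, iotaC_zetaQ]
  have he : (e : ℂ) ≠ 0 := Nat.cast_ne_zero.mpr fun h => NeZero.ne M (by simp [← hc, h])
  have hc' : (c : ℂ) ≠ 0 := Nat.cast_ne_zero.mpr fun h => NeZero.ne M (by simp [← hc, h])
  subst hc
  simp only [expUnit, Units.val_mk0, ← Complex.exp_int_mul]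
  push_cast
  field_simp

theorem coeffMap_twist {R S : Type*} [CommRing R] [CommRing S] (f : R →+* S) (u : Rˣ)
    (s : LaurentSeries R) : coeffMap f (twist u s) = twist (Units.map (f : R →* S) u) (coeffMap f s) := by
  ext n
  rw [coeffMap_coeff, twist_coeff, map_mul, twist_coeff, coeffMap_coeff, ← map_zpow, Units.coe_map,
    MonoidHom.coe_coe]

theorem mem_range_coeffMap {R S : Type*} [CommRing R] [CommRing S] {f : R →+* S}
    (hf : Function.Injective f) {s : LaurentSeries S} (h : ∀ n, s.coeff n ∈ Set.range f) :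
    s ∈ (coeffMap f).range := by
  choose g hg using h
  refine ⟨⟨g, s.isPWO_support'.mono fun n hn hs => hn (hf ?_)⟩, HahnSeries.ext (funext hg)⟩
  rw [hg, hs, map_zero]

section LiftRange

variable {R S T : Type*} [CommRing R] [CommRing S] [CommRing T] {f : S →+* T}

/-- Factorisation through an injective ring homomorphism. -/
def liftRange (hf : Function.Injective f) (g : R →+* T) (h : ∀ x, g x ∈ f.range) : R →+* S where
  toFun x := (RingHom.mem_range.mp (h x)).choose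
  map_one' := hf (by rw [(RingHom.mem_range.mp (h 1)).choose_spec, map_one, map_one])
  map_zero' := hf (by rw [(RingHom.mem_range.mp (h 0)).choose_spec, map_zero, map_zero])
  map_mul' x y := hf (by
    rw [(RingHom.mem_range.mp (h (x * y))).choose_spec, map_mul, map_mul,
      (RingHom.mem_range.mp (h x)).choose_spec, (RingHom.mem_range.mp (h y)).choose_spec])
  map_add' x y := hf (by
    rw [(RingHom.mem_range.mp (h (x + y))).choose_spec, map_add, map_add,
      (RingHom.mem_range.mp (h x)).choose_spec, (RingHom.mem_range.mp (h y)).choose_spec])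

theorem liftRange_spec (hf : Function.Injective f) (g : R →+* T) (h : ∀ x, g x ∈ f.range) (x : R) :
    f (liftRange hf g h x) = g x :=
  (RingHom.mem_range.mp (h x)).choose_spec

end LiftRange

variable (M : ℕ) [NeZero M]

/-- Matrices whose determinant is a positive divisor of `M`. -/
def IsGenMat (A : M₂) : Prop := ∃ d : ℕ, 0 < d ∧ d ∣ M ∧ A.det = d

/-- Generators. -/
def genSet : Set (ℍ → ℂ) :=
  {f | ∃ A, IsGenMat M A ∧ f = jAt A} ∪ Set.range fun c : Qb => fun _ : ℍ => iotaC c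

/-- The ring of level `M` functions with algebraic coefficients. -/
def genRing : Subring (ℍ → ℂ) := Subring.closure (genSet M)

variable {M}

omit [NeZero M] in
theorem IsGenMat.mul_sl {A : M₂} (hA : IsGenMat M A) (γ : SL(2, ℤ)) : IsGenMat M (A * (γ : M₂)) := by
  obtain ⟨d, h1, h2, h3⟩ := hA
  exact ⟨d, h1, h2, by rw [Matrix.det_mul, h3, γ.det_coe, mul_one]⟩

omit [NeZero M] in
theorem IsGenMat.det_pos {A : M₂} (hA : IsGenMat M A) : 0 < A.det := by
  obtain ⟨d, h1, -, h3⟩ := hA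
  rw [h3]; exact_mod_cast h1

omit [NeZero M] in
theorem IsGenMat.of_tri {a e : ℕ} (b : ℤ) (ha : 0 < a) (he : 0 < e) (h : a * e ∣ M) :
    IsGenMat M !![(a : ℤ), b; 0, (e : ℤ)] :=
  ⟨a * e, Nat.mul_pos ha he, h, by simp⟩

omit [NeZero M] in
theorem jAt_mem_genRing {A : M₂} (hA : IsGenMat M A) : jAt A ∈ genRing M :=
  Subring.subset_closure (Or.inl ⟨A, hA, rfl⟩)

omit [NeZero M] in
theorem const_mem_genRing (c : Qb) : (fun _ : ℍ => iotaC c) ∈ genRing M :=
  Subring.subset_closure (Or.inr ⟨c, rfl⟩)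

theorem jAt_tri (a e : ℕ) [NeZero a] [NeZero e] (b : ℤ) :
    jAt !![(a : ℤ), b; 0, (e : ℤ)] = jFun ∘ ut a e b := by
  funext τ
  refine congrArg jFun (UpperHalfPlane.ext ?_)
  rw [coe_mobH (IsGenMat.det_pos (M := a * e) (.of_tri b (Nat.pos_of_neZero a) (Nat.pos_of_neZero e) dvd_rfl)), coe_ut]
  simp [FermatAgent.Periods.mob]

omit [NeZero M] in
/-- Triangular form of a generating matrix. -/
theorem IsGenMat.exists_tri {A : M₂} (hA : IsGenMat M A) :
    ∃ (δ : SL(2, ℤ)) (a e : ℕ) (b : ℤ), 0 < a ∧ 0 < e ∧ a * e ∣ M ∧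
      A = (δ : M₂) * !![(a : ℤ), b; 0, (e : ℤ)] ∧ jAt A = jAt !![(a : ℤ), b; 0, (e : ℤ)] := by
  obtain ⟨δ, a, e, b, ha, he, hdet, hAeq⟩ := exists_triangular A hA.det_pos
  obtain ⟨d, -, hdM, hd⟩ := hA
  have : a * e = d := by rw [hd] at hdet; exact_mod_cast hdet
  refine ⟨δ, a, e, b, ha, he, this ▸ hdM, hAeq, ?_⟩
  rw [hAeq, jAt_sl_mul δ (IsGenMat.det_pos (M := a * e) (.of_tri b ha he dvd_rfl))]

theorem hasRoots_range : HasRoots M iotaC.range := fun r =>
  ⟨((zetaQ M ^ r : Qbˣ) : Qb), by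
    have h := congrArg Units.val (map_zetaQ_zpow (mul_one M) r)
    simp only [Nat.cast_one, mul_one] at h
    exact h⟩

theorem genRing_le_expSubring : genRing M ≤ expSubring M iotaC.range := by
  refine Subring.closure_le.mpr ?_
  rintro f (⟨A, hA, rfl⟩ | ⟨c, rfl⟩)
  · obtain ⟨δ, a, e, b, ha, he, hae, -, hj⟩ := hA.exists_tri
    have : NeZero a := ⟨ha.ne'⟩
    have : NeZero e := ⟨he.ne'⟩
    rw [SetLike.mem_coe, hj, jAt_tri]
    exact qExp_comp_ut_mem jFun_mem_cuspRing jqModC_mem' hasRoots_range b ((dvd_mul_left e a).trans hae)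
  · exact intFun_le_expSubring M _ (const_mem_intFun M _ ⟨c, rfl⟩)

/-- The inclusion in the ring of functions meromorphic at `∞`. -/
def genInc : genRing M →+* cuspRingAt M :=
  (genRing M).subtype.codRestrict _ fun f =>
    ((mem_expSubring M _).mp (genRing_le_expSubring f.2)).1

theorem qExp_mem_range (f : genRing M) : qExp M (f : ℍ → ℂ) ∈ (coeffMap iotaC).range :=
  mem_range_coeffMap iotaC_injective ((mem_expSubring M _).mp (genRing_le_expSubring f.2)).2

/-- The expansion at `∞` with coefficients in `ℚ̄`. -/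
def genExp : genRing M →+* LaurentSeries Qb :=
  (RingEquiv.ofBijective (coeffMap iotaC).rangeRestrict
    ⟨fun _ _ h => coeffMap_injective iotaC_injective (congrArg Subtype.val h),
      RingHom.rangeRestrict_surjective _⟩).symm.toRingHom.comp
    (((qExpHom M).toRingHom.comp genInc).codRestrict _ fun f => qExp_mem_range f)

theorem coeffMap_genExp (f : genRing M) :
    coeffMap iotaC (genExp f) = qExp M (f : ℍ → ℂ) := by
  have h := RingEquiv.apply_symm_apply (RingEquiv.ofBijective (coeffMap iotaC).rangeRestrict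
    ⟨fun _ _ h => coeffMap_injective iotaC_injective (congrArg Subtype.val h),
      RingHom.rangeRestrict_surjective _⟩) ⟨qExp M (f : ℍ → ℂ), qExp_mem_range f⟩
  exact congrArg Subtype.val h

theorem genExp_injective : Function.Injective (genExp (M := M)) := by
  intro f g h
  have h1 : qExp M (f : ℍ → ℂ) = qExp M (g : ℍ → ℂ) := by
    rw [← coeffMap_genExp, h, coeffMap_genExp]
  exact Subtype.ext (congrArg Subtype.val (qExpHom_injective M (a₁ := genInc f) (a₂ := genInc g) h1) :)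

instance : IsDomain (genRing M) := Function.Injective.isDomain genExp genExp_injective

theorem genExp_tri (a e c : ℕ) [NeZero a] [NeZero e] [NeZero c] (b : ℤ) (hc : e * c = M)
    (h : IsGenMat M !![(a : ℤ), b; 0, (e : ℤ)]) :
    genExp ⟨_, jAt_mem_genRing h⟩ =
      qExpand Qb (a * c) (twist (zetaQ M ^ (b * c)) (jqModC Qb)) := by
  refine coeffMap_injective iotaC_injective ?_
  rw [coeffMap_genExp, coeffMap_qExpand, coeffMap_twist, map_zetaQ_zpow hc, coeffMap_jqModC]
  rw [← qLaurent_jFun, ← qExp_comp_ut jFun_mem_cuspRing b hc, ← jAt_tri]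

theorem genExp_const (z : Qb) :
    genExp (M := M) ⟨_, const_mem_genRing z⟩ = HahnSeries.C z := by
  refine coeffMap_injective iotaC_injective ?_
  rw [coeffMap_genExp, HahnSeries.C_apply, coeffMap_single]
  show qLaurent (algebraMap ℂ (ℍ → ℂ) (iotaC z)) = _
  rw [qLaurent_algebraMap, algebraMap_laurentSeries_eq_single]

/-! ### The Galois action -/

variable (M)

theorem exists_chi (σ : Qb ≃ₐ[ℚ] Qb) :
    ∃ n : ℕ, n.Coprime M ∧ σ (zetaQ M : Qb) = (zetaQ M : Qb) ^ n := by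
  have hprim : IsPrimitiveRoot (zetaQ M : Qb) M := by
    refine IsPrimitiveRoot.of_map_of_injective (f := iotaC) ?_ iotaC_injective
    rw [iotaC_zetaQ]
    have := Complex.isPrimitiveRoot_exp M (NeZero.ne M)
    convert this using 1
    simp [expUnit, div_eq_mul_inv, mul_assoc]
  have hσ : IsPrimitiveRoot (σ (zetaQ M : Qb)) M := hprim.map_of_injective σ.injective
  obtain ⟨n, -, hn⟩ := hprim.eq_pow_of_pow_eq_one hσ.pow_eq_one
  refine ⟨n, ?_, hn.symm⟩
  exact (hprim.pow_iff_coprime (NeZero.pos M) n).mp (hn ▸ hσ)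

/-- `σ ζ_M = ζ_M ^ chiM σ`. -/
def chiM (σ : Qb ≃ₐ[ℚ] Qb) : ℕ := (exists_chi M σ).choose

theorem chiM_coprime (σ : Qb ≃ₐ[ℚ] Qb) : (chiM M σ).Coprime M := (exists_chi M σ).choose_spec.1

theorem map_zetaQ (σ : Qb ≃ₐ[ℚ] Qb) : σ (zetaQ M : Qb) = (zetaQ M : Qb) ^ chiM M σ :=
  (exists_chi M σ).choose_spec.2

theorem isUnit_chiM {d : ℕ} (hd : d ∣ M) (σ : Qb ≃ₐ[ℚ] Qb) :
    IsUnit (((chiM M σ : ℕ) : ℤ) : ZMod d) := by
  rw [Int.cast_natCast, ZMod.isUnit_iff_coprime]
  exact (chiM_coprime M σ).coprime_dvd_right hd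

/-- Coefficientwise action of a Galois element. -/
def sAct (σ : Qb ≃ₐ[ℚ] Qb) : LaurentSeries Qb →+* LaurentSeries Qb := coeffMap (σ : Qb →+* Qb)

variable {M}

theorem sAct_genExp_tri (σ : Qb ≃ₐ[ℚ] Qb) (a e : ℕ) [NeZero a] [NeZero e] (b : ℤ)
    (h : IsGenMat M !![(a : ℤ), b; 0, (e : ℤ)])
    (h' : IsGenMat M !![(a : ℤ), (chiM M σ : ℤ) * b; 0, (e : ℤ)]) :
    sAct σ (genExp ⟨_, jAt_mem_genRing h⟩) = genExp ⟨_, jAt_mem_genRing h'⟩ := by
  obtain ⟨d, -, hdM, hd⟩ := h
  have hae : a * e = d := by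
    have h1 : (a : ℤ) * e = d := by simpa using hd
    exact_mod_cast h1
  obtain ⟨c, hc⟩ := (dvd_mul_left e a).trans (hae.symm ▸ hdM)
  have : NeZero c := ⟨fun h0 => NeZero.ne M (by simp [hc, h0])⟩
  rw [genExp_tri a e c b hc.symm ⟨d, Nat.pos_of_ne_zero (hae ▸ mul_ne_zero (NeZero.ne a) (NeZero.ne e)), hdM, hd⟩,
    genExp_tri a e c _ hc.symm h', sAct, coeffMap_qExpand, coeffMap_twist,
    coeffMap_jqModC]
  congr 3
  refine Units.ext ?_
  rw [map_zpow, Units.val_zpow_eq_zpow_val, Units.coe_map, MonoidHom.coe_coe,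
    RingHom.coe_coe, map_zetaQ, Units.val_zpow_eq_zpow_val, ← zpow_natCast, ← zpow_mul]
  ring_nf

/-- `A'` is related to `A`: the functions are conjugate. -/
theorem jAt_eq_of_galRel {d : ℕ} (hd : 0 < d) {χ : ℤ} (hχ : IsUnit (χ : ZMod d)) {A A' : M₂}
    (hA' : A'.det = d) {a e : ℕ} {b : ℤ} {δ : SL(2, ℤ)} (hae : a * e = d)
    (hA : A = (δ : M₂) * !![(a : ℤ), b; 0, (e : ℤ)]) (h : GalRel d χ A A') :
    jAt A' = jAt !![(a : ℤ), χ * b; 0, (e : ℤ)] := by
  refine jAt_eq_of_map_eq_zero hd (by simp [← hae]) hA' ?_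
  have hzero : (a : ZMod d) * e = 0 := by rw [← Nat.cast_mul, hae, ZMod.natCast_self]
  obtain ⟨h00, h01, h10, h11⟩ := h
  simp only [hA, Matrix.mul_apply, Fin.sum_univ_two, Matrix.of_apply, Matrix.cons_val',
    Matrix.cons_val_zero, Matrix.cons_val_one, Matrix.empty_val', Matrix.cons_val_fin_one,
    Int.cast_add, Int.cast_mul, mul_zero, add_zero, Int.cast_natCast] at h00 h01 h10 h11
  obtain ⟨u, hu⟩ := hχ
  have huv : (u : ZMod d) * ((u⁻¹ : (ZMod d)ˣ) : ZMod d) = 1 := Units.mul_inv u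
  ext i k
  fin_cases i <;> fin_cases k <;>
    simp [Matrix.mul_apply, Fin.sum_univ_two, Matrix.adjugate_fin_two]
  all_goals grobner

theorem sAct_genExp_mem_range (σ : Qb ≃ₐ[ℚ] Qb) (f : genRing M) :
    sAct σ (genExp f) ∈ (genExp (M := M)).range := by
  obtain ⟨f, hf⟩ := f
  induction hf using Subring.closure_induction with
  | mem g hg =>
    rcases hg with ⟨A, hA, rfl⟩ | ⟨c, rfl⟩
    · obtain ⟨δ, a, e, b, ha, he, hae, -, hj⟩ := hA.exists_tri
      have : NeZero a := ⟨ha.ne'⟩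
      have : NeZero e := ⟨he.ne'⟩
      refine ⟨⟨_, jAt_mem_genRing (.of_tri ((chiM M σ : ℤ) * b) ha he hae)⟩, ?_⟩
      rw [← sAct_genExp_tri σ a e b (.of_tri b ha he hae) (.of_tri _ ha he hae)]
      exact congrArg (sAct σ) (congrArg genExp (Subtype.ext hj.symm))
    · refine ⟨⟨_, const_mem_genRing (σ c)⟩, ?_⟩
      rw [genExp_const]
      show _ = sAct σ (genExp ⟨_, const_mem_genRing c⟩)
      simp only [genExp_const, sAct, HahnSeries.C_apply, coeffMap_single]
      rfl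
  | zero => exact ⟨0, by rw [map_zero]; exact (map_zero ((sAct σ).comp genExp)).symm⟩
  | one => exact ⟨1, by rw [map_one]; exact (map_one ((sAct σ).comp genExp)).symm⟩
  | add x y hx hy h1 h2 =>
    obtain ⟨u, hu⟩ := h1
    obtain ⟨v, hv⟩ := h2
    refine ⟨u + v, ?_⟩
    rw [map_add, hu, hv, ← map_add, ← map_add]
    rfl
  | neg x hx h1 =>
    obtain ⟨u, hu⟩ := h1
    refine ⟨-u, ?_⟩
    rw [map_neg, hu, ← map_neg, ← map_neg]
    rfl
  | mul x y hx hy h1 h2 =>
    obtain ⟨u, hu⟩ := h1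
    obtain ⟨v, hv⟩ := h2
    refine ⟨u * v, ?_⟩
    rw [map_mul, hu, hv, ← map_mul, ← map_mul]
    rfl

/-- The Galois action on level `M` functions. -/
def galAct (σ : Qb ≃ₐ[ℚ] Qb) : genRing M →+* genRing M :=
  liftRange genExp_injective ((sAct σ).comp genExp) (sAct_genExp_mem_range σ)

theorem genExp_galAct (σ : Qb ≃ₐ[ℚ] Qb) (f : genRing M) :
    genExp (galAct σ f) = sAct σ (genExp f) :=
  liftRange_spec genExp_injective ((sAct σ).comp genExp) (sAct_genExp_mem_range σ) f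

theorem galAct_mul (σ τ : Qb ≃ₐ[ℚ] Qb) (f : genRing M) :
    galAct (σ * τ) f = galAct σ (galAct τ f) := by
  refine genExp_injective ?_
  rw [genExp_galAct, genExp_galAct, genExp_galAct, sAct, sAct, sAct, coeffMap_coeffMap]
  exact coeffMap_congr (RingHom.ext fun _ => rfl) _

theorem galAct_one (f : genRing M) : galAct 1 f = f := by
  refine genExp_injective ?_
  rw [genExp_galAct, sAct]
  exact (coeffMap_congr (g := RingHom.id Qb) (RingHom.ext fun _ => rfl) _).trans (coeffMap_id _)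

theorem galAct_const (σ : Qb ≃ₐ[ℚ] Qb) (c : Qb) :
    galAct (M := M) σ ⟨_, const_mem_genRing c⟩ = ⟨_, const_mem_genRing (σ c)⟩ := by
  refine genExp_injective ?_
  simp only [genExp_galAct, genExp_const, sAct, HahnSeries.C_apply, coeffMap_single]
  rfl

theorem galAct_jAt (σ : Qb ≃ₐ[ℚ] Qb) {A A' : M₂} (hA : IsGenMat M A) (hA' : IsGenMat M A')
    {d : ℕ} (hdA : A.det = d) (hdA' : A'.det = d) (h : GalRel d (chiM M σ) A A') :
    galAct σ ⟨_, jAt_mem_genRing hA⟩ = ⟨_, jAt_mem_genRing hA'⟩ := by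
  obtain ⟨δ, a, e, b, ha, he, hae, hAeq, hj⟩ := hA.exists_tri
  have : NeZero a := ⟨ha.ne'⟩
  have : NeZero e := ⟨he.ne'⟩
  have hd : a * e = d := by
    have h1 := congrArg Matrix.det hAeq
    rw [Matrix.det_mul, δ.det_coe, one_mul, hdA] at h1
    simpa using (Int.natCast_inj.mp (h1.trans (by simp) : (d : ℤ) = ((a * e : ℕ) : ℤ))).symm
  have hj' := jAt_eq_of_galRel (hd ▸ Nat.mul_pos ha he) (isUnit_chiM M (hd ▸ hae) σ) hdA' hd hAeq h
  rw [show (⟨_, jAt_mem_genRing hA'⟩ : genRing M) = ⟨_, jAt_mem_genRing (.of_tri _ ha he hae)⟩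
      from Subtype.ext hj',
    show (⟨_, jAt_mem_genRing hA⟩ : genRing M) = ⟨_, jAt_mem_genRing (.of_tri b ha he hae)⟩
      from Subtype.ext hj]
  exact genExp_injective ((genExp_galAct σ _).trans
    (sAct_genExp_tri σ a e b (.of_tri b ha he hae) (.of_tri _ ha he hae)))

omit [NeZero M] in
/-- Precomposition with an element of `SL(2, ℤ)`. -/
theorem compSmul_mem_genRing (γ : SL(2, ℤ)) {f : ℍ → ℂ} (hf : f ∈ genRing M) :
    compSmul γ f ∈ genRing M := by
  refine (Subring.closure_le (t := (genRing M).comap (compSmul γ))).mpr ?_ hf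
  rintro f (⟨A, hA, rfl⟩ | ⟨c, rfl⟩)
  · rw [SetLike.mem_coe, Subring.mem_comap]
    convert jAt_mem_genRing (hA.mul_sl γ) using 1
    funext τ
    exact jAt_smul hA.det_pos γ τ
  · exact const_mem_genRing c

/-- The action of `SL(2, ℤ)` on level `M` functions, on the right. -/
def genSmul (γ : SL(2, ℤ)) : genRing M →+* genRing M :=
  ((compSmul γ).comp (genRing M).subtype).codRestrict _ fun f => compSmul_mem_genRing γ f.2

omit [NeZero M] in
@[simp] theorem coe_genSmul (γ : SL(2, ℤ)) (f : genRing M) :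
    (genSmul γ f : ℍ → ℂ) = compSmul γ f := rfl

theorem galAct_genSmul (σ : Qb ≃ₐ[ℚ] Qb) {γ γ' : SL(2, ℤ)}
    (h : GalRel M (chiM M σ) (γ : M₂) (γ' : M₂)) (f : genRing M) :
    galAct σ (genSmul γ f) = genSmul γ' (galAct σ f) := by
  suffices h' : ((galAct σ).comp (genSmul γ)) f = ((genSmul γ').comp (galAct σ)) f from h'
  obtain ⟨f, hf⟩ := f
  induction hf using Subring.closure_induction with
  | mem g hg =>
    rcases hg with ⟨A, hA, rfl⟩ | ⟨c, rfl⟩
    · obtain ⟨δ, a, e, b, ha, he, hae, -, hj⟩ := hA.exists_tri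
      have hT := IsGenMat.of_tri (M := M) b ha he hae
      have hT' := IsGenMat.of_tri (M := M) ((chiM M σ : ℤ) * b) ha he hae
      have hrel := galRel_triangular (a * e) (chiM M σ) (a : ℤ) b (e : ℤ)
      have e1 : genSmul γ ⟨_, jAt_mem_genRing hA⟩ = ⟨_, jAt_mem_genRing (hT.mul_sl γ)⟩ :=
        Subtype.ext (funext fun τ => by
          show jAt A (γ • τ) = _
          rw [hj]
          exact jAt_smul hT.det_pos γ τ)
      have e2 : galAct σ ⟨_, jAt_mem_genRing hA⟩ = ⟨_, jAt_mem_genRing hT'⟩ := by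
        rw [show (⟨_, jAt_mem_genRing hA⟩ : genRing M) = ⟨_, jAt_mem_genRing hT⟩ from Subtype.ext hj]
        exact galAct_jAt σ hT hT' (by simp) (by simp) hrel
      rw [RingHom.comp_apply, RingHom.comp_apply, e1, e2,
        galAct_jAt σ (hT.mul_sl γ) (hT'.mul_sl γ') (d := a * e) (by rw [Matrix.det_mul, γ.det_coe]; simp)
          (by rw [Matrix.det_mul, γ'.det_coe]; simp)
          (hrel.mul (h.of_dvd hae))]
      exact Subtype.ext (funext fun τ => (jAt_smul hT'.det_pos γ' τ).symm)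
    · have e1 : ∀ (γ : SL(2, ℤ)) (c : Qb), genSmul (M := M) γ ⟨_, const_mem_genRing c⟩ =
          ⟨_, const_mem_genRing c⟩ := fun γ c => Subtype.ext rfl
      rw [RingHom.comp_apply, RingHom.comp_apply]
      show galAct σ (genSmul γ ⟨_, const_mem_genRing c⟩) = genSmul γ' (galAct σ ⟨_, const_mem_genRing c⟩)
      rw [e1, galAct_const, e1]
  | zero => exact (map_zero ((galAct σ).comp (genSmul γ))).trans (map_zero ((genSmul γ').comp (galAct σ))).symm
  | one => exact (map_one ((galAct σ).comp (genSmul γ))).trans (map_one ((genSmul γ').comp (galAct σ))).symm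
  | add x y hx hy h1 h2 =>
    rw [show (⟨x + y, _⟩ : genRing M) = ⟨x, hx⟩ + ⟨y, hy⟩ from rfl, map_add, map_add, h1, h2]
  | neg x hx h1 => rw [show (⟨-x, _⟩ : genRing M) = -⟨x, hx⟩ from rfl, map_neg, map_neg, h1]
  | mul x y hx hy h1 h2 =>
    rw [show (⟨x * y, _⟩ : genRing M) = ⟨x, hx⟩ * ⟨y, hy⟩ from rfl, map_mul, map_mul, h1, h2]

end FermatAgent.TWLocal

end
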