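import Mathlib.NumberTheory.ModularForms.CongruenceSubgroups
import Fermat.Agent.TWLocal.GalRel
import Mathlib.Algebra.Field.ZMod
import Mathlib.Data.ZMod.QuotientRing
import Mathlib.Tactic.FieldSimp

/-!
The subgroups of `Γ₀(N)` cut out by congruences modulo `q` and the representatives `g_{u,r}`.
-/

set_option autoImplicit false
set_option linter.unusedSectionVars false

namespace FermatAgent.TWLocal

open scoped MatrixGroups
open CongruenceSubgroup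

local notation "M₂" => Matrix (Fin 2) (Fin 2) ℤ

/-- An entry modulo `q`. -/
abbrev qEnt (q : ℕ) (γ : SL(2, ℤ)) (i j : Fin 2) : ZMod q := ((γ i j : ℤ) : ZMod q)

theorem qEnt_mul (q : ℕ) (a b : SL(2, ℤ)) (i j : Fin 2) :
    qEnt q (a * b) i j = qEnt q a i 0 * qEnt q b 0 j + qEnt q a i 1 * qEnt q b 1 j := by
  simp [qEnt, Matrix.mul_apply, Fin.sum_univ_two]

theorem qEnt_det (q : ℕ) (a : SL(2, ℤ)) :
    qEnt q a 0 0 * qEnt q a 1 1 - qEnt q a 0 1 * qEnt q a 1 0 = 1 := by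
  have h := a.det_coe
  rw [Matrix.det_fin_two] at h
  simpa [qEnt] using congrArg (fun x : ℤ => (x : ZMod q)) h

theorem qEnt_inv (q : ℕ) (a : SL(2, ℤ)) :
    qEnt q a⁻¹ 0 0 = qEnt q a 1 1 ∧ qEnt q a⁻¹ 0 1 = -qEnt q a 0 1 ∧
      qEnt q a⁻¹ 1 0 = -qEnt q a 1 0 ∧ qEnt q a⁻¹ 1 1 = qEnt q a 0 0 := by
  simp [qEnt, Matrix.adjugate_fin_two]

theorem qEnt_one (q : ℕ) (i j : Fin 2) : qEnt q 1 i j = if i = j then 1 else 0 := by
  fin_cases i <;> fin_cases j <;> simp [qEnt]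

variable (N q : ℕ)

/-- `Γ₀(N)` with both off-diagonal entries divisible by `q`. -/
def gTwo : Subgroup SL(2, ℤ) where
  carrier := {γ | γ ∈ Gamma0 N ∧ qEnt q γ 0 1 = 0 ∧ qEnt q γ 1 0 = 0}
  one_mem' := ⟨one_mem _, by simp [qEnt_one], by simp [qEnt_one]⟩
  mul_mem' {a b} ha hb := ⟨mul_mem ha.1 hb.1, by simp [qEnt_mul, ha.2.1, hb.2.1],
    by simp [qEnt_mul, ha.2.2, hb.2.2]⟩
  inv_mem' {a} ha := ⟨inv_mem ha.1, by rw [(qEnt_inv q a).2.1, ha.2.1, neg_zero],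
    by rw [(qEnt_inv q a).2.2.1, ha.2.2, neg_zero]⟩

/-- `Γ₀(N)` with upper right entry divisible by `q` and lower right entry `±1` modulo `q`. -/
def gOne : Subgroup SL(2, ℤ) where
  carrier := {γ | γ ∈ Gamma0 N ∧ qEnt q γ 0 1 = 0 ∧ qEnt q γ 1 1 ^ 2 = 1}
  one_mem' := ⟨one_mem _, by simp [qEnt_one], by simp [qEnt_one]⟩
  mul_mem' {a b} ha hb := by
    refine ⟨mul_mem ha.1 hb.1, ?_, ?_⟩
    · rw [qEnt_mul, ha.2.1, hb.2.1]; simp
    · rw [qEnt_mul, hb.2.1, mul_zero, zero_add, mul_pow, ha.2.2, hb.2.2, one_mul]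
  inv_mem' {a} ha := by
    refine ⟨inv_mem ha.1, by rw [(qEnt_inv q a).2.1, ha.2.1, neg_zero], ?_⟩
    rw [(qEnt_inv q a).2.2.2]
    have hd := qEnt_det q a
    rw [ha.2.1, zero_mul, sub_zero] at hd
    linear_combination (qEnt q a 0 0 * qEnt q a 1 1 + 1) * hd - qEnt q a 0 0 ^ 2 * ha.2.2

variable {N q}

/-- Rows proportional modulo `q` give the same coset of `gTwo`. -/
theorem mul_inv_mem_gTwo {g g' : SL(2, ℤ)} (hg : g ∈ Gamma0 N) (hg' : g' ∈ Gamma0 N)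
    {s t : ZMod q} (h0 : qEnt q g' 0 0 = s * qEnt q g 0 0) (h1 : qEnt q g' 0 1 = s * qEnt q g 0 1)
    (h2 : qEnt q g' 1 0 = t * qEnt q g 1 0) (h3 : qEnt q g' 1 1 = t * qEnt q g 1 1) :
    g' * g⁻¹ ∈ gTwo N q := by
  obtain ⟨i00, i01, i10, i11⟩ := qEnt_inv q g
  refine ⟨mul_mem hg' (inv_mem hg), ?_, ?_⟩
  · rw [qEnt_mul, i01, i11, h0, h1]; ring
  · rw [qEnt_mul, i00, i10, h2, h3]; ring

/-- The invariant `g₀₁ g₁₁` of a coset of `gTwo`. -/
def uInv (q : ℕ) (g : SL(2, ℤ)) : ZMod q := qEnt q g 0 1 * qEnt q g 1 1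

theorem uInv_mul_gOne {h : SL(2, ℤ)} (hh : h ∈ gOne N q) (g : SL(2, ℤ)) :
    uInv q (g * h) = uInv q g := by
  rw [uInv, uInv, qEnt_mul, qEnt_mul, hh.2.1]
  linear_combination (qEnt q g 0 1 * qEnt q g 1 1) * hh.2.2

/-- Lifting to `Γ₀(N)` from a matrix modulo `q`. -/
theorem exists_gamma0_lift [NeZero N] [NeZero q] (hNq : N.Coprime q)
    (m : Matrix.SpecialLinearGroup (Fin 2) (ZMod q)) :
    ∃ g : SL(2, ℤ), g ∈ Gamma0 N ∧ ∀ i j, qEnt q g i j = m.1 i j := by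
  set e := ZMod.chineseRemainder hNq
  let one' : Matrix (Fin 2) (Fin 2) (ZMod N) := 1
  let mM : Matrix (Fin 2) (Fin 2) (ZMod (N * q)) :=
    Matrix.of fun i j => e.symm (one' i j, m.1 i j)
  have hdet : mM.det = 1 := by
    apply e.injective
    rw [Matrix.det_fin_two, map_one, map_sub, map_mul, map_mul]
    simp only [mM, Matrix.of_apply, RingEquiv.apply_symm_apply]
    have hm : m.1 0 0 * m.1 1 1 - m.1 0 1 * m.1 1 0 = 1 := by
      rw [← Matrix.det_fin_two]; exact m.2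
    exact Prod.ext (by simp [one']) (by simpa using hm)
  obtain ⟨g, hg⟩ := redSL_surjective (N * q) ⟨mM, hdet⟩
  have h : ∀ i j, e ((g i j : ℤ) : ZMod (N * q)) = (one' i j, m.1 i j) := fun i j => by
    have h1 : ((g i j : ℤ) : ZMod (N * q)) = mM i j :=
      congrFun (congrFun (congrArg Subtype.val hg) i) j
    rw [h1]
    simp [mM]
  refine ⟨g, Gamma0_mem.mpr ?_, fun i j => ?_⟩
  · have := congrArg Prod.fst (h 1 0)
    simpa [one', map_intCast] using this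
  · have := congrArg Prod.snd (h i j)
    simpa [qEnt, map_intCast] using this

/-! ### The representatives -/

variable (N q) [NeZero N] [NeZero q]

open Classical in
/-- `g_{u, r} ≡ !![1 + u r, u; r, 1]`. -/
noncomputable def gRep (u r : ZMod q) : SL(2, ℤ) :=
  if h : N.Coprime q then
    (exists_gamma0_lift h ⟨!![1 + u * r, u; r, 1], by rw [Matrix.det_fin_two_of]; ring⟩).choose
  else 1

variable {N q}

theorem gRep_mem (hNq : N.Coprime q) (u r : ZMod q) : gRep N q u r ∈ Gamma0 N := by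
  rw [gRep, dif_pos hNq]
  exact (exists_gamma0_lift hNq _).choose_spec.1

theorem qEnt_gRep (hNq : N.Coprime q) (u r : ZMod q) :
    qEnt q (gRep N q u r) 0 0 = 1 + u * r ∧ qEnt q (gRep N q u r) 0 1 = u ∧
      qEnt q (gRep N q u r) 1 0 = r ∧ qEnt q (gRep N q u r) 1 1 = 1 := by
  rw [gRep, dif_pos hNq]
  have h := (exists_gamma0_lift hNq
    ⟨!![1 + u * r, u; r, 1], by rw [Matrix.det_fin_two_of]; ring⟩).choose_spec.2
  exact ⟨h 0 0, h 0 1, h 1 0, h 1 1⟩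

theorem uInv_gRep (hNq : N.Coprime q) (u r : ZMod q) : uInv q (gRep N q u r) = u := by
  obtain ⟨-, h1, -, h3⟩ := qEnt_gRep hNq u r
  rw [uInv, h1, h3, mul_one]

variable [hq : Fact q.Prime]

/-- The index of the coset of `g`. -/
def rInv (q : ℕ) [Fact q.Prime] (g : SL(2, ℤ)) : ZMod q := qEnt q g 1 0 / qEnt q g 1 1

theorem mul_gRep_inv_mem (hNq : N.Coprime q) {g : SL(2, ℤ)} (hg : g ∈ Gamma0 N)
    (hu : uInv q g ≠ 0) : g * (gRep N q (uInv q g) (rInv q g))⁻¹ ∈ gTwo N q := by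
  obtain ⟨h0, h1, h2, h3⟩ := qEnt_gRep hNq (uInv q g) (rInv q g)
  have hd := qEnt_det q g
  have hu' : qEnt q g 0 1 ≠ 0 ∧ qEnt q g 1 1 ≠ 0 := mul_ne_zero_iff.mp hu
  refine mul_inv_mem_gTwo (gRep_mem hNq _ _) hg (s := (qEnt q g 1 1)⁻¹) (t := qEnt q g 1 1)
    ?_ ?_ ?_ ?_
  · rw [h0, rInv, uInv, eq_inv_mul_iff_mul_eq₀ hu'.2]
    field_simp [hu'.2]
    linear_combination hd
  · rw [h1, uInv]
    field_simp [hu'.2]
  · rw [h2, rInv]
    field_simp [hu'.2]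
  · rw [h3, mul_one]

theorem gRep_inj (hNq : N.Coprime q) {u u' r r' : ZMod q}
    (h : gRep N q u r * (gRep N q u' r')⁻¹ ∈ gTwo N q) : u = u' ∧ r = r' := by
  obtain ⟨h0, h1, h2, h3⟩ := qEnt_gRep hNq u r
  obtain ⟨k0, k1, k2, k3⟩ := qEnt_gRep hNq u' r'
  obtain ⟨i00, i01, i10, i11⟩ := qEnt_inv q (gRep N q u' r')
  have e2 := h.2.2
  have e1 := h.2.1
  rw [qEnt_mul, i00, i10, h2, h3, k3, k2] at e2
  have hr : r = r' := by linear_combination e2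
  rw [qEnt_mul, i01, i11, h0, h1, k1, k0, hr] at e1
  exact ⟨by linear_combination e1, hr⟩

/-- Right multiplication by an element of `gOne` permutes the cosets with invariant `u`. -/
theorem exists_perm_gRep (hNq : N.Coprime q) {u : ZMod q} (hu : u ≠ 0) {h : SL(2, ℤ)}
    (hh : h ∈ gOne N q) : ∃ σ : Equiv.Perm (ZMod q),
      ∀ r, gRep N q u r * h * (gRep N q u (σ r))⁻¹ ∈ gTwo N q := by
  have hmem : ∀ r, gRep N q u r * h ∈ Gamma0 N := fun r => mul_mem (gRep_mem hNq u r) hh.1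
  have hui : ∀ r, uInv q (gRep N q u r * h) = u := fun r => by
    rw [uInv_mul_gOne hh, uInv_gRep hNq]
  let f : ZMod q → ZMod q := fun r => rInv q (gRep N q u r * h)
  have hf : ∀ r, gRep N q u r * h * (gRep N q u (f r))⁻¹ ∈ gTwo N q := fun r => by
    have := mul_gRep_inv_mem hNq (hmem r) (by rw [hui]; exact hu)
    rwa [hui] at this
  have hinj : Function.Injective f := fun r r' e => by
    have h2 := mul_mem (hf r) (inv_mem (hf r'))
    rw [e] at h2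
    refine (gRep_inj hNq (u := u) (u' := u) ?_).2
    convert h2 using 1
    group
  exact ⟨Equiv.ofBijective f ⟨hinj, Finite.injective_iff_surjective.mp hinj⟩, hf⟩

/-- A Galois conjugate of an element of `Γ₀(N)` lies in `Γ₀(N)`. -/
theorem galRel_mem_gamma0 {χ : ℤ} (hχ : IsUnit (χ : ZMod N)) {γ γ' : SL(2, ℤ)}
    (h : GalRel (N * q) χ (γ : M₂) (γ' : M₂)) (hγ : γ ∈ Gamma0 N) : γ' ∈ Gamma0 N := by
  refine Gamma0_mem.mpr (hχ.mul_right_eq_zero.mp ?_)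
  rw [(h.of_dvd (dvd_mul_right N q)).e10]
  exact Gamma0_mem.mp hγ

theorem galRel_mem_gTwo {χ : ℤ} (hN : IsUnit (χ : ZMod N)) (hq' : IsUnit (χ : ZMod q))
    {γ γ' : SL(2, ℤ)} (h : GalRel (N * q) χ (γ : M₂) (γ' : M₂)) (hγ : γ ∈ gTwo N q) :
    γ' ∈ gTwo N q := by
  have hh := h.of_dvd (dvd_mul_left q N)
  refine ⟨galRel_mem_gamma0 hN h hγ.1, ?_, hq'.mul_right_eq_zero.mp ?_⟩
  · show (γ' 0 1 : ZMod q) = 0
    rw [hh.e01]
    exact mul_eq_zero_of_right _ hγ.2.1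
  · show (χ : ZMod q) * (γ' 1 0 : ZMod q) = 0
    rw [hh.e10]
    exact hγ.2.2

theorem galRel_mem_gOne {χ : ℤ} (hN : IsUnit (χ : ZMod N)) {γ γ' : SL(2, ℤ)}
    (h : GalRel (N * q) χ (γ : M₂) (γ' : M₂)) (hγ : γ ∈ gOne N q) : γ' ∈ gOne N q := by
  have hh := h.of_dvd (dvd_mul_left q N)
  refine ⟨galRel_mem_gamma0 hN h hγ.1, ?_, ?_⟩
  · show (γ' 0 1 : ZMod q) = 0
    rw [hh.e01]
    exact mul_eq_zero_of_right _ hγ.2.1
  · show (γ' 1 1 : ZMod q) ^ 2 = 1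
    rw [hh.e11]
    exact hγ.2.2

/-- A Galois conjugate of a representative represents the conjugate coset. -/
theorem galRel_gRep (hNq : N.Coprime q) {χ : ℤ} (hN : IsUnit (χ : ZMod N))
    (hχ : IsUnit (χ : ZMod q)) (u r : ZMod q) {γ' : SL(2, ℤ)}
    (h : GalRel (N * q) χ (gRep N q u r : M₂) (γ' : M₂)) :
    γ' * (gRep N q ((χ : ZMod q) * u) (r / (χ : ZMod q)))⁻¹ ∈ gTwo N q := by
  obtain ⟨h0, h1, h2, h3⟩ := qEnt_gRep hNq u r
  obtain ⟨k0, k1, k2, k3⟩ := qEnt_gRep hNq ((χ : ZMod q) * u) (r / χ)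
  have hh := h.of_dvd (dvd_mul_left q N)
  have hχ0 : (χ : ZMod q) ≠ 0 := hχ.ne_zero
  refine mul_inv_mem_gTwo (gRep_mem hNq _ _) (galRel_mem_gamma0 hN h (gRep_mem hNq u r))
    (s := 1) (t := 1) ?_ ?_ ?_ ?_
  · show (γ' 0 0 : ZMod q) = _
    rw [one_mul, k0, hh.e00, show ((gRep N q u r) 0 0 : ZMod q) = 1 + u * r from h0]
    field_simp
  · show (γ' 0 1 : ZMod q) = _
    rw [one_mul, k1, hh.e01, show ((gRep N q u r) 0 1 : ZMod q) = u from h1]
  · show (γ' 1 0 : ZMod q) = _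
    rw [one_mul, k2, eq_div_iff hχ0, mul_comm, hh.e10]
    exact h2
  · show (γ' 1 1 : ZMod q) = _
    rw [one_mul, k3, hh.e11]
    exact h3

end FermatAgent.TWLocal
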