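import Fermat.Agent.Periods.EichlerPeriods
import Fermat.Agent.ModCurve.Torsion.Mobius
import Fermat.Agent.ModCurve.Fun.Level

/-!
The functions `j ∘ A` for integral matrices `A` of positive determinant: they depend on `A` only
up to left multiplication by `SL(2, ℤ)`, so only on `A` modulo its determinant.
-/

set_option autoImplicit false

noncomputable section

namespace FermatAgent.TWLocal

open UpperHalfPlane hiding I
open FermatAgent.Periods (mob mob_mul im_mob_pos)
open FermatAgent.ModFun (jFun jFun_smul)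
open scoped MatrixGroups

local notation "M₂" => Matrix (Fin 2) (Fin 2) ℤ

/-- The Möbius action of an integral matrix on the upper half plane. -/
def mobH (A : M₂) (τ : ℍ) : ℍ := ofComplex (mob A τ)

theorem coe_mobH {A : M₂} (hA : 0 < A.det) (τ : ℍ) : (mobH A τ : ℂ) = mob A τ := by
  rw [mobH, ofComplex_apply_of_im_pos (im_mob_pos A hA τ.2)]

theorem mobH_mul {A B : M₂} (hA : 0 < A.det) (hB : 0 < B.det) (τ : ℍ) :
    mobH (A * B) τ = mobH A (mobH B τ) := by
  ext
  rw [coe_mobH (by rw [Matrix.det_mul]; exact mul_pos hA hB), coe_mobH hA, coe_mobH hB,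
    mob_mul A B hB.ne' τ.2]

theorem mobH_coe_sl (γ : SL(2, ℤ)) (τ : ℍ) : mobH (γ : M₂) τ = γ • τ := by
  ext
  rw [coe_mobH (by simp), coe_specialLinearGroup_apply]
  simp [mob]

/-- `j ∘ A`. -/
def jAt (A : M₂) : ℍ → ℂ := fun τ => jFun (mobH A τ)

theorem jAt_smul {A : M₂} (hA : 0 < A.det) (γ : SL(2, ℤ)) (τ : ℍ) :
    jAt A (γ • τ) = jAt (A * (γ : M₂)) τ := by
  rw [jAt, jAt, mobH_mul hA (by simp), mobH_coe_sl]

theorem jAt_sl_mul (δ : SL(2, ℤ)) {A : M₂} (hA : 0 < A.det) : jAt ((δ : M₂) * A) = jAt A := by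
  funext τ
  rw [jAt, jAt, mobH_mul (by simp) hA, mobH_coe_sl, jFun_smul]

/-- `A'` and `A` differ on the left by an element of `SL(2, ℤ)`. -/
theorem exists_sl_mul_eq {A A' : M₂} (hA : 0 < A.det) (hdet : A'.det = A.det)
    (hdvd : ∀ i k, A.det ∣ (A' * A.adjugate) i k) : ∃ δ : SL(2, ℤ), A' = (δ : M₂) * A := by
  choose c hc using hdvd
  set P : M₂ := Matrix.of fun i k => c i k with hP
  have hPd : A' * A.adjugate = A.det • P := by
    ext i k
    rw [Matrix.smul_apply, hP, Matrix.of_apply, smul_eq_mul]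
    exact hc i k
  have hPA : P * A = A' := by
    have h := congrArg (· * A) hPd
    simp only [mul_assoc, Matrix.adjugate_mul, Matrix.smul_mul, Matrix.mul_smul, mul_one] at h
    exact (smul_right_injective _ hA.ne' h).symm
  have hdetP : P.det = 1 := by
    have h := congrArg Matrix.det hPA
    rw [Matrix.det_mul, hdet] at h
    exact mul_right_cancel₀ hA.ne' (h.trans (one_mul _).symm)
  exact ⟨⟨P, hdetP⟩, hPA.symm⟩

theorem jAt_eq_of_dvd {A A' : M₂} (hA : 0 < A.det) (hdet : A'.det = A.det)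
    (hdvd : ∀ i k, A.det ∣ (A' * A.adjugate) i k) : jAt A' = jAt A := by
  obtain ⟨δ, rfl⟩ := exists_sl_mul_eq hA hdet hdvd
  exact jAt_sl_mul δ hA

/-- The congruence criterion, in a ring `ZMod d` with `d = det A`. -/
theorem jAt_eq_of_map_eq_zero {A A' : M₂} {d : ℕ} (hd : 0 < d) (hA : A.det = d) (hA' : A'.det = d)
    (h : (A'.map (Int.castRingHom (ZMod d))) * (A.map (Int.castRingHom (ZMod d))).adjugate = 0) :
    jAt A' = jAt A := by
  refine jAt_eq_of_dvd (hA ▸ by exact_mod_cast hd) (hA'.trans hA.symm) fun i k => ?_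
  rw [hA, ← ZMod.intCast_zmod_eq_zero_iff_dvd]
  have h' := congrFun (congrFun h i) k
  rw [← RingHom.mapMatrix_apply, ← RingHom.mapMatrix_apply, ← RingHom.map_adjugate,
    ← map_mul] at h'
  exact h'

/-- `j ∘ A` depends only on `A` modulo its determinant. -/
theorem jAt_congr {A A' : M₂} {d : ℕ} (hd : 0 < d) (hA : A.det = d) (hA' : A'.det = d)
    (h : A'.map (Int.castRingHom (ZMod d)) = A.map (Int.castRingHom (ZMod d))) :
    jAt A' = jAt A := by
  refine jAt_eq_of_map_eq_zero hd hA hA' ?_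
  rw [h, Matrix.mul_adjugate, ← RingHom.mapMatrix_apply, ← RingHom.map_det, hA]
  simp

/-- Every integral matrix of positive determinant is an upper triangular one up to `SL(2, ℤ)`. -/
theorem exists_triangular (A : M₂) (hA : 0 < A.det) :
    ∃ (δ : SL(2, ℤ)) (a e : ℕ) (b : ℤ), 0 < a ∧ 0 < e ∧ ((a * e : ℕ) : ℤ) = A.det ∧
      A = (δ : M₂) * !![(a : ℤ), b; 0, (e : ℤ)] := by
  have hdet : A 0 0 * A 1 1 - A 0 1 * A 1 0 = A.det := (Matrix.det_fin_two A).symm
  have hgne : Int.gcd (A 0 0) (A 1 0) ≠ 0 := by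
    intro h
    obtain ⟨h1, h2⟩ := Int.gcd_eq_zero_iff.mp h
    rw [h1, h2] at hdet
    simp at hdet
    omega
  obtain ⟨x, hx⟩ : (Int.gcd (A 0 0) (A 1 0) : ℤ) ∣ A 0 0 := Int.gcd_dvd_left _ _
  obtain ⟨y, hy⟩ : (Int.gcd (A 0 0) (A 1 0) : ℤ) ∣ A 1 0 := Int.gcd_dvd_right _ _
  have hbz := Int.gcd_eq_gcd_ab (A 0 0) (A 1 0)
  set g := Int.gcd (A 0 0) (A 1 0) with hg
  set s := Int.gcdA (A 0 0) (A 1 0)
  set t := Int.gcdB (A 0 0) (A 1 0)
  have hg0 : (g : ℤ) ≠ 0 := by exact_mod_cast hgne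
  have hxy : x * s + y * t = 1 := by
    apply mul_left_cancel₀ hg0
    rw [mul_one]
    conv_rhs => rw [hbz, hx, hy]
    ring
  let δ : SL(2, ℤ) := ⟨!![x, -t; y, s], by rw [Matrix.det_fin_two_of]; linarith⟩
  set e' : ℤ := -y * A 0 1 + x * A 1 1 with he'
  have hge : (g : ℤ) * e' = A.det := by
    rw [← hdet, hx, hy, he']; ring
  have he0 : 0 < e' := pos_of_mul_pos_right (hge.symm ▸ hA) (Int.natCast_nonneg g)
  refine ⟨δ, g, e'.toNat, s * A 0 1 + t * A 1 1, Nat.pos_of_ne_zero hgne, by omega, ?_, ?_⟩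
  · rw [Nat.cast_mul, Int.toNat_of_nonneg he0.le, hge]
  · rw [Int.toNat_of_nonneg he0.le]
    have e1 : x * (s * A 0 1 + t * A 1 1) + -t * e' = A 0 1 := by
      rw [he']; linear_combination (A 0 1) * hxy
    have e2 : y * (s * A 0 1 + t * A 1 1) + s * e' = A 1 1 := by
      rw [he']; linear_combination (A 1 1) * hxy
    ext i k
    fin_cases i <;> fin_cases k <;>
      simp [δ, Matrix.mul_apply, Fin.sum_univ_two, hx, hy] <;> linarith

end FermatAgent.TWLocal

end
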