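import Fermat.Agent.TWLocal.GFEval
import Fermat.Agent.Igusa.Invariant
import Fermat.Agent.ModCurve.Torsion.Descend
import Mathlib.GroupTheory.QuotientGroup.Basic
import Mathlib.RingTheory.PowerSeries.Trunc

/-!
A meromorphic root of an element of the level `M` field which is invariant under the stabiliser of
the level `M` functions lies in that field: clear the denominator, interpolate over the cosets.
-/

set_option autoImplicit false
set_option maxHeartbeats 1000000

noncomputable section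

namespace FermatAgent.TWLocal

open UpperHalfPlane hiding I
open Filter Topology Asymptotics
open ModularCurve
open FermatAgent.ModCurveTorsion
open FermatAgent.Igusa (intFun expSubring compSmul cuspRingAt qExp qExpHom polyInt)
open FermatAgent.Periods (mob mob_mul)
open scoped MatrixGroups Manifold Real

local notation "M₂" => Matrix (Fin 2) (Fin 2) ℤ
local notation "Qb" => AlgebraicClosure ℚ
local notation "ℍo" => UpperHalfPlane.upperHalfPlaneSet

/-! ### Coefficients of a root -/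

theorem coeff_mem_range_of_pow {K L : Type*} [Field K] [IsAlgClosed K] [Field L] [CharZero L]
    (φ : K →+* L) {n : ℕ} (hn : n ≠ 0) {P : PowerSeries L}
    (h0 : PowerSeries.constantCoeff P ≠ 0)
    (h : ∀ i, PowerSeries.coeff i (P ^ n) ∈ φ.range) (i : ℕ) :
    PowerSeries.coeff i P ∈ φ.range := by
  have hc : PowerSeries.constantCoeff P ∈ φ.range := by
    obtain ⟨w, hw⟩ := h 0
    rw [PowerSeries.coeff_zero_eq_constantCoeff, map_pow] at hw
    obtain ⟨v, hv⟩ := IsAlgClosed.exists_pow_nat_eq w (Nat.pos_of_ne_zero hn)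
    have hv0 : φ v ≠ 0 := fun h1 => h0 (by
      have : w = 0 := by rw [← hv, φ.injective (h1.trans (map_zero φ).symm), zero_pow hn]
      rw [this, map_zero] at hw
      exact (pow_eq_zero_iff hn).mp hw.symm)
    have : NeZero n := ⟨hn⟩
    have : NeZero (n : K) := ⟨fun h1 => Nat.cast_ne_zero (R := L).mpr hn (by
      rw [← map_natCast φ, h1, map_zero])⟩
    obtain ⟨ξ, hξ⟩ := HasEnoughRootsOfUnity.exists_primitiveRoot K n
    obtain ⟨j, -, hj⟩ := (hξ.map_of_injective φ.injective).eq_pow_of_pow_eq_one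
      (ξ := PowerSeries.constantCoeff P / φ v)
      (by rw [div_pow, ← hw, ← hv, map_pow, div_self (pow_ne_zero _ hv0)])
    exact ⟨ξ ^ j * v, by rw [map_mul, map_pow, hj, div_mul_cancel₀ _ hv0]⟩
  induction i using Nat.strong_induction_on with
  | _ i ih =>
  rcases Nat.eq_zero_or_pos i with rfl | hi
  · rwa [PowerSeries.coeff_zero_eq_constantCoeff]
  have hlow : ∀ k, (PowerSeries.trunc i P).coeff k ∈ φ.range := fun k => by
    rw [PowerSeries.coeff_trunc]
    split_ifs with hk
    · exact ih k hk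
    · exact zero_mem _
  obtain ⟨T, hT⟩ : ∃ T : PowerSeries K, PowerSeries.map φ T =
      ((PowerSeries.trunc i P : Polynomial L) : PowerSeries L) := by
    choose t ht using hlow
    exact ⟨PowerSeries.mk t, PowerSeries.ext fun k => by simp [ht]⟩
  set Lw : PowerSeries L := ((PowerSeries.trunc i P : Polynomial L) : PowerSeries L)
  obtain ⟨R, hR⟩ : (PowerSeries.X : PowerSeries L) ^ i ∣ P - Lw := by
    rw [PowerSeries.X_pow_dvd_iff]
    intro m hm
    simp [Lw, PowerSeries.coeff_trunc, hm]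
  have hLw0 : PowerSeries.constantCoeff Lw = PowerSeries.constantCoeff P := by
    simp [Lw, ← PowerSeries.coeff_zero_eq_constantCoeff, PowerSeries.coeff_trunc, hi]
  have hRi : PowerSeries.constantCoeff R = PowerSeries.coeff i P := by
    have := congrArg (PowerSeries.coeff i) hR
    rw [PowerSeries.coeff_X_pow_mul', if_pos le_rfl, Nat.sub_self,
      PowerSeries.coeff_zero_eq_constantCoeff, map_sub] at this
    rw [← this]
    simp [Lw, PowerSeries.coeff_trunc]
  have hdiff : P ^ n - Lw ^ n =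
      PowerSeries.X ^ i * (R * ∑ k ∈ Finset.range n, P ^ k * Lw ^ (n - 1 - k)) := by
    rw [← geom_sum₂_mul, hR]
    ring
  have hco : PowerSeries.coeff i (P ^ n - Lw ^ n) =
      PowerSeries.coeff i P * (n * PowerSeries.constantCoeff P ^ (n - 1)) := by
    rw [hdiff, PowerSeries.coeff_X_pow_mul', if_pos le_rfl, Nat.sub_self,
      PowerSeries.coeff_zero_eq_constantCoeff, map_mul, hRi, map_sum]
    congr 1
    rw [Finset.sum_eq_card_nsmul (b := PowerSeries.constantCoeff P ^ (n - 1)) fun k hk => by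
      rw [map_mul, map_pow, map_pow, hLw0, ← pow_add]
      congr 1
      have := Finset.mem_range.mp hk
      omega, Finset.card_range, nsmul_eq_mul]
  have hne : (n : L) * PowerSeries.constantCoeff P ^ (n - 1) ≠ 0 :=
    mul_ne_zero (Nat.cast_ne_zero.mpr hn) (pow_ne_zero _ h0)
  have hmem : PowerSeries.coeff i (P ^ n - Lw ^ n) ∈ φ.fieldRange := by
    rw [map_sub]
    refine sub_mem (h i) ⟨PowerSeries.coeff i (T ^ n), ?_⟩
    rw [← PowerSeries.coeff_map, map_pow, hT]
  rw [show PowerSeries.coeff i P = PowerSeries.coeff i (P ^ n - Lw ^ n) /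
    ((n : L) * PowerSeries.constantCoeff P ^ (n - 1)) by rw [hco, mul_div_cancel_right₀ _ hne]]
  exact φ.fieldRange.div_mem hmem
    (φ.fieldRange.mul_mem (natCast_mem φ.fieldRange n) (pow_mem (show _ ∈ φ.fieldRange from hc) _))

theorem coeff_mem_range_of_pow' {K L : Type*} [Field K] [IsAlgClosed K] [Field L] [CharZero L]
    (φ : K →+* L) {n : ℕ} (hn : n ≠ 0) {s : LaurentSeries L}
    (h : ∀ i, (s ^ n).coeff i ∈ φ.range) (i : ℤ) : s.coeff i ∈ φ.range := by
  rcases eq_or_ne s 0 with rfl | hs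
  · exact zero_mem _
  rcases lt_or_ge i s.order with hi | hi
  · rw [HahnSeries.coeff_eq_zero_of_lt_order hi]
    exact zero_mem _
  obtain ⟨k, rfl⟩ : ∃ k : ℕ, i = s.order + k := ⟨(i - s.order).toNat, by omega⟩
  rw [← LaurentSeries.powerSeriesPart_coeff]
  refine coeff_mem_range_of_pow φ hn ?_ (fun k => ?_) k
  · rw [← PowerSeries.coeff_zero_eq_constantCoeff, LaurentSeries.powerSeriesPart_coeff]
    simpa using hs
  · have h1 := h (n • s.order + k)
    conv at h1 =>
      enter [2, 1]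
      rw [← LaurentSeries.single_order_mul_powerSeriesPart s, mul_pow, HahnSeries.single_pow,
        one_pow, ← map_pow]
    rw [add_comm (n • s.order), HahnSeries.coeff_single_mul_add, one_mul] at h1
    rw [HahnSeries.ofPowerSeries_apply_coeff] at h1
    exact h1

variable (M : ℕ) [NeZero M]

/-- The elements of `SL(2, ℤ)` fixing all level `M` functions. -/
def genStab : Subgroup SL(2, ℤ) where
  carrier := {γ | ∀ f : genRing M, genSmul γ f = f}
  one_mem' := genSmul_one
  mul_mem' {a b} ha hb f := by rw [genSmul_mul, ha, hb]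
  inv_mem' {a} ha f := by
    conv_lhs => rw [← ha f]
    rw [← genSmul_mul, mul_inv_cancel, genSmul_one]

instance genStab_normal : (genStab M).Normal where
  conj_mem γ hγ g f := by
    rw [genSmul_mul, genSmul_mul, hγ, ← genSmul_mul, mul_inv_cancel, genSmul_one]

theorem gamma_le_genStab : CongruenceSubgroup.Gamma M ≤ genStab M := by
  intro γ hγ f
  refine Subtype.ext ?_
  obtain ⟨f, hf⟩ := f
  rw [coe_genSmul]
  refine Subring.closure_induction (p := fun g _ => compSmul γ g = g) ?_ (map_zero _) (map_one _)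
    (fun x y _ _ hx hy => by rw [map_add, hx, hy]) (fun x _ hx => by rw [map_neg, hx])
    (fun x y _ _ hx hy => by rw [map_mul, hx, hy]) hf
  rintro g (⟨A, hA, rfl⟩ | ⟨c, rfl⟩)
  · obtain ⟨d, hd, hdM, hdA⟩ := hA
    funext τ
    rw [Igusa.compSmul_apply, jAt_smul (by rw [hdA]; exact_mod_cast hd)]
    refine congrFun (jAt_congr hd hdA (by rw [Matrix.det_mul, hdA, γ.det_coe, mul_one]) ?_) τ
    obtain ⟨h00, h01, h10, h11⟩ := CongruenceSubgroup.Gamma_mem.mp hγ
    have hγ1 : (γ : M₂).map (Int.castRingHom (ZMod d)) = 1 := by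
      have e : ∀ x : ℤ, (Int.castRingHom (ZMod d)) x =
          ZMod.castHom hdM (ZMod d) ((x : ZMod M)) := fun x => (map_intCast _ x).symm
      ext i k
      fin_cases i <;> fin_cases k <;>
        simp only [Matrix.map_apply, e, Matrix.one_apply, Fin.zero_eta, Fin.mk_one, h00, h01, h10,
          h11, map_one, map_zero] <;> simp
    rw [← RingHom.mapMatrix_apply, map_mul, RingHom.mapMatrix_apply, RingHom.mapMatrix_apply, hγ1,
      mul_one]
  · rfl

instance : Finite (SL(2, ℤ) ⧸ genStab M) :=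
  have : (CongruenceSubgroup.Gamma M).FiniteIndex := inferInstance
  have := Subgroup.finiteIndex_of_le (gamma_le_genStab M)
  Subgroup.finite_quotient_of_finiteIndex

variable {M}

theorem jd_mem_genRing : ModFun.jd M ∈ genRing M := by
  have h := IsGenMat.of_tri (M := M) (a := M) (e := 1) 0 (NeZero.pos M) one_pos (by rw [mul_one])
  convert jAt_mem_genRing h using 1
  rw [jAt_tri]
  funext τ
  refine congrArg ModFun.jFun (UpperHalfPlane.ext ?_)
  simp [Igusa.coe_ut]

theorem genStab_le_gamma0 {γ : SL(2, ℤ)} (hγ : γ ∈ genStab M) :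
    γ ∈ CongruenceSubgroup.Gamma0 M :=
  (ModFun.jd_smul_eq_iff M γ).mp fun τ =>
    congrFun (congrArg Subtype.val (hγ ⟨_, jd_mem_genRing⟩)) τ

theorem genStab_congr {γ : SL(2, ℤ)} (hγ : γ ∈ genStab M) :
    (M : ℤ) ∣ γ 1 0 ∧ (M : ℤ) ∣ γ 0 1 ∧ (M : ℤ) ∣ γ 0 0 - γ 1 1 := by
  have key : ∀ g : SL(2, ℤ), (M : ℤ) ∣ (g * γ * g⁻¹) 1 0 := fun g => by
    rw [← ZMod.intCast_zmod_eq_zero_iff_dvd, ← CongruenceSubgroup.Gamma0_mem]
    exact genStab_le_gamma0 ((genStab_normal M).conj_mem γ hγ g)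
  have h1 := key 1
  let g2 : SL(2, ℤ) := ⟨!![0, -1; 1, 0], by simp [Matrix.det_fin_two]⟩
  let g3 : SL(2, ℤ) := ⟨!![1, 0; 1, 1], by simp [Matrix.det_fin_two]⟩
  rw [one_mul, inv_one, mul_one] at h1
  have e2 : ∀ g : SL(2, ℤ), (g : M₂) = !![0, -1; 1, 0] → (g * γ * g⁻¹) 1 0 = -γ 0 1 :=
    fun g hg => by
      simp [hg, Matrix.mul_apply, Fin.sum_univ_two, Matrix.adjugate_fin_two, Matrix.vecMul,
        dotProduct]
  have e3 : ∀ g : SL(2, ℤ), (g : M₂) = !![1, 0; 1, 1] →
      (g * γ * g⁻¹) 1 0 = γ 0 0 + γ 1 0 - γ 0 1 - γ 1 1 := fun g hg => by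
      simp [hg, Matrix.mul_apply, Fin.sum_univ_two, Matrix.adjugate_fin_two, Matrix.vecMul,
        dotProduct]
      ring
  have h2 := key g2
  have h3 := key g3
  rw [e2 g2 rfl, dvd_neg] at h2
  rw [e3 g3 rfl] at h3
  refine ⟨h1, h2, ?_⟩
  rw [show γ 0 0 - γ 1 1 =
      (γ 0 0 + γ 1 0 - γ 0 1 - γ 1 1) - γ 1 0 + γ 0 1 by ring]
  exact dvd_add (dvd_sub h3 h1) h2

/-! ### Interpolation -/

local notation "RQ" => RingHom.range iotaC

theorem genRing_le_intFun : genRing M ≤ intFun M RQ := fun f hf =>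
  ⟨fun _ hγ τ => congrFun (congrArg Subtype.val (gamma_le_genStab M hγ ⟨f, hf⟩)) τ,
    fun γ => genRing_le_expSubring (compSmul_mem_genRing γ hf)⟩

theorem polyInt_mem_genRing (P : Polynomial RQ) : (polyInt M RQ P : ℍ → ℂ) ∈ genRing M := by
  induction P using Polynomial.induction_on' with
  | add p q hp hq => rw [map_add]; exact add_mem hp hq
  | monomial k c =>
    obtain ⟨c, w, rfl⟩ := c
    rw [polyInt, Polynomial.coe_eval₂RingHom, Polynomial.eval₂_monomial]
    refine mul_mem (const_mem_genRing w) (pow_mem ?_ k)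
    convert jAt_mem_genRing (IsGenMat.of_tri (M := M) (a := 1) (e := 1) 0 one_pos one_pos
      (by rw [mul_one]; exact one_dvd M)) using 1
    rw [jAt_tri]
    funext τ
    refine congrArg ModFun.jFun (UpperHalfPlane.ext ?_)
    simp [Igusa.coe_ut]

/-- A function fixed by the stabiliser is a quotient of two members of the ring. -/
theorem exists_mul_mem_genRing (f : intFun M RQ) (hf : ∀ γ ∈ genStab M, γ • f = f) :
    ∃ D : genRing M, D ≠ 0 ∧ (f : ℍ → ℂ) * (D : ℍ → ℂ) ∈ genRing M := by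
  classical
  let : Fintype (SL(2, ℤ) ⧸ genStab M) := Fintype.ofFinite _
  let S : Subring (intFun M RQ) := (genRing M).comap (intFun M RQ).subtype
  have hS : ∀ (γ : SL(2, ℤ)) {g : intFun M RQ}, g ∈ S → γ • g ∈ S := fun γ g hg =>
    compSmul_mem_genRing γ⁻¹ hg
  have hfix : ∀ γ ∈ genStab M, ∀ g ∈ S, γ • g = g := fun γ hγ g hg =>
    Subtype.ext (congrArg Subtype.val ((genStab M).inv_mem hγ ⟨_, hg⟩) :)
  have hout : ∀ (x : intFun M RQ), (∀ γ ∈ genStab M, γ • x = x) →
      ∀ (γ : SL(2, ℤ)) (c : SL(2, ℤ) ⧸ genStab M),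
        γ • (c.out • x) = ((γ : SL(2, ℤ) ⧸ genStab M) * c).out • x := by
    intro x hx γ c
    have hm : ((γ : SL(2, ℤ) ⧸ genStab M) * c).out⁻¹ * (γ * c.out) ∈ genStab M := by
      rw [← QuotientGroup.eq_one_iff]
      simp
    conv_rhs => rw [← hx _ hm]
    rw [← mul_smul, ← mul_smul, mul_inv_cancel_left]
  have hTr : ∀ (x : intFun M RQ), (∀ γ ∈ genStab M, γ • x = x) →
      ∑ c : SL(2, ℤ) ⧸ genStab M, c.out • x ∈ S := by
    intro x hx
    obtain ⟨P, hP⟩ := Igusa.exists_polyInt_eq M RQ (∑ c : SL(2, ℤ) ⧸ genStab M, c.out • x)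
      fun γ => by
        rw [Finset.smul_sum]
        simp only [hout x hx]
        exact Equiv.sum_comp (Equiv.mulLeft (γ : SL(2, ℤ) ⧸ genStab M)) (fun c => c.out • x)
    rw [← hP]
    exact polyInt_mem_genRing P
  set I : Finset (SL(2, ℤ) ⧸ genStab M) := Finset.univ.erase 1
  have hg : ∀ c ∈ I, ∃ g : intFun M RQ, g ∈ S ∧ c.out • g ≠ g := by
    intro c hc
    by_contra hcon
    push Not at hcon
    have : c.out⁻¹ ∈ genStab M := fun a =>
      Subtype.ext (congrArg Subtype.val (hcon ⟨_, genRing_le_intFun a.2⟩ a.2) :)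
    refine (Finset.mem_erase.mp hc).1 ?_
    rw [← QuotientGroup.out_eq' c, QuotientGroup.eq_one_iff]
    exact inv_mem_iff.mp this
  choose! g hgS hgne using hg
  set D : intFun M RQ := ∏ c ∈ I, (g c - c.out • g c)
  have hDS : D ∈ S := prod_mem fun c hc => sub_mem (hgS c hc) (hS _ (hgS c hc))
  have h1 : (1 : SL(2, ℤ) ⧸ genStab M).out ∈ genStab M := by
    rw [← QuotientGroup.eq_one_iff, QuotientGroup.out_eq']
  have hfD : f * D = ∑ t ∈ I.powerset,
      (-1) ^ (I \ t).card * (∏ c ∈ I \ t, c.out • g c) *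
        ∑ d : SL(2, ℤ) ⧸ genStab M, d.out • (f * ∏ c ∈ t, g c) := by
    calc f * D = ∑ d : SL(2, ℤ) ⧸ genStab M,
          d.out • f * ∏ c ∈ I, (d.out • g c - c.out • g c) := by
          rw [Finset.sum_eq_single (1 : SL(2, ℤ) ⧸ genStab M)]
          · rw [hf _ h1]
            exact congrArg _ (Finset.prod_congr rfl fun c hc => by rw [hfix _ h1 _ (hgS c hc)])
          · intro d _ hd
            rw [Finset.prod_eq_zero (i := d) (Finset.mem_erase.mpr ⟨hd, Finset.mem_univ _⟩)
              (sub_self _), mul_zero]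
          · simp
      _ = _ := by
          simp only [sub_eq_add_neg, Finset.prod_add, Finset.prod_neg, Finset.mul_sum]
          rw [Finset.sum_comm]
          refine Finset.sum_congr rfl fun t _ => Finset.sum_congr rfl fun d _ => ?_
          rw [smul_mul', Finset.smul_prod']
          ring
  refine ⟨⟨(D : ℍ → ℂ), hDS⟩, fun h => ?_, ?_⟩
  · have : D = 0 := Subtype.ext (congrArg Subtype.val h :)
    rw [Finset.prod_eq_zero_iff] at this
    obtain ⟨c, hc, hc'⟩ := this
    exact hgne c hc (sub_eq_zero.mp hc').symm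
  · show ((f * D : intFun M RQ) : ℍ → ℂ) ∈ genRing M
    have hmem : f * D ∈ S := by
      rw [hfD]
      refine sum_mem fun t ht => mul_mem (mul_mem (pow_mem (neg_mem (one_mem _)) _)
        (prod_mem fun c hc => hS _ (hgS c (Finset.mem_sdiff.mp hc).1))) (hTr _ fun γ hγ => ?_)
      rw [smul_mul', hf γ hγ, hfix γ hγ _ (prod_mem fun c hc =>
        hgS c (Finset.mem_powerset.mp ht hc))]
    exact hmem

/-! ### Roots -/

theorem exists_evG_eq {n : ℕ} (hn : n ≠ 0) {x : GF M} {G : ℂ → ℂ}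
    (hG : MeromorphicOn G ℍo) (hGn : GermEq (G ^ n) (evG x))
    (hinv : ∀ γ ∈ genStab M, GermEq (G ∘ mob (γ : M₂)) G) :
    ∃ y : GF M, y ^ n = x ∧ GermEq (evG y) G := by
  suffices h : ∃ y : GF M, GermEq (evG y) G by
    obtain ⟨y, hy⟩ := h
    exact ⟨y, evG_injective ((evG_pow y n).trans ((hy.pow n).trans hGn)), hy⟩
  have hdet : ∀ γ : SL(2, ℤ), 0 < ((γ : M₂)).det := fun γ => by simp
  set b := gDen x with hb
  set u := gNum x * gDen x ^ (n - 1) with hu
  have hbm : MeromorphicOn (evR b) ℍo := fun z hz => (analyticAt_evR b hz).meromorphicAt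
  have hPm : MeromorphicOn (G * evR b) ℍo := hG.mul hbm
  set H := toMeromorphicNFOn (G * evR b) ℍo with hH
  have hHg : GermEq H (G * evR b) := fun z hz => hPm.toMeromorphicNFOn_eq_self_on_nhdsNE hz
  have hHn : GermEq (H ^ n) (evR u) := fun z hz => by
    filter_upwards [hHg z hz, hGn z hz, (nowhereZero_evR (gDen_ne_zero x)).eventually_ne hbm hz]
      with w h1 h2 h3
    simp only [Pi.pow_apply, Pi.mul_apply, evG, Pi.div_apply] at h1 h2 ⊢
    rw [h1, mul_pow, h2]
    simp only [evR, Function.comp_apply, hu, Subring.coe_mul, SubmonoidClass.coe_pow,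
      Pi.mul_apply, Pi.pow_apply] at h3 ⊢
    rw [div_mul_eq_mul_div, div_eq_iff h3, mul_assoc, pow_sub_one_mul hn]
  have hHan : ∀ z ∈ ℍo, AnalyticAt ℂ H z := by
    intro z hz
    rw [← (meromorphicNFOn_toMeromorphicNFOn (G * evR b) ℍo hz).meromorphicOrderAt_nonneg_iff_analyticAt]
    have h1 := (analyticAt_evR u hz).meromorphicOrderAt_nonneg
    have hHm : MeromorphicAt H z := (meromorphicNFOn_toMeromorphicNFOn (G * evR b) ℍo hz).meromorphicAt
    rw [← meromorphicOrderAt_congr (hHn z hz), meromorphicOrderAt_pow hHm] at h1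
    cases hk : meromorphicOrderAt H z with
    | top => exact le_top
    | coe k =>
      rw [hk] at h1
      have h2 : (0 : ℤ) ≤ n * k := WithTop.coe_le_coe.mp h1
      have hnpos : (0 : ℤ) < n := by exact_mod_cast Nat.pos_of_ne_zero hn
      exact WithTop.coe_le_coe.mpr (nonneg_of_mul_nonneg_right h2 hnpos)
  let f : ℍ → ℂ := fun τ => H τ
  have hfn : ∀ τ : ℍ, f τ ^ n = (u : ℍ → ℂ) τ := fun τ => by
    have := eq_of_germEq hHn τ.2 (((hHan τ τ.2).continuousAt).pow n)
      (analyticAt_evR u τ.2).continuousAt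
    simpa [evR, f] using this
  have hfinv : ∀ γ ∈ genStab M, ∀ τ : ℍ, f (γ • τ) = f τ := by
    intro γ hγ τ
    have hmob : mob (γ : M₂) (τ : ℂ) = ((γ • τ : ℍ) : ℂ) := by
      rw [← mobH_coe_sl, coe_mobH (hdet γ)]
    have hgb : GermEq (evR b ∘ mob (γ : M₂)) (evR b) := by
      have := evR_genSmul γ b
      rw [hγ] at this
      exact this.symm
    show H _ = H _
    rw [← hmob]
    refine eq_of_germEq (F := H ∘ mob (γ : M₂))
      ((hHg.comp_mob (hdet γ)).trans (((hinv γ hγ).mul hgb).trans hHg.symm)) τ.2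
      ?_ (hHan τ τ.2).continuousAt
    exact (hHan _ (mob_mem (hdet γ) τ.2)).continuousAt.comp
      (analyticAt_mob (hdet γ) τ.2).continuousAt
  have hfd : MDiff f := by
    refine UpperHalfPlane.mdifferentiable_iff.mpr ?_
    refine DifferentiableOn.congr (f := H) (fun z hz => ?_) fun z hz => ?_
    · exact (hHan z hz).differentiableAt.differentiableWithinAt
    · simp [f, ofComplex_apply_of_im_pos hz]
  have hcusp : ∀ γ : SL(2, ℤ), compSmul γ f ∈ cuspRingAt M := by
    intro γ
    refine ⟨?_, fun τ => ?_, ?_⟩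
    · refine ModFun.mdiff_comp (f := compSmul γ f) (ModFun.mdiff_comp_smul hfd γ) ?_
      simp only [ModFun.coe_dil]
      exact mdifferentiable_const.mul mdifferentiable_coe
    · show f (γ • ModFun.dil M ((1 : ℝ) +ᵥ τ)) = f (γ • ModFun.dil M τ)
      have hT : ModFun.dil M ((1 : ℝ) +ᵥ τ) = ModularGroup.T ^ (M : ℤ) • ModFun.dil M τ := by
        rw [ModFun.dil_vadd, mul_one, modular_T_zpow_smul, Int.cast_natCast]
      have hmem : γ * ModularGroup.T ^ (M : ℤ) * γ⁻¹ ∈ genStab M := by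
        refine gamma_le_genStab M ((CongruenceSubgroup.Gamma_normal M).conj_mem _ ?_ γ)
        simpa using CongruenceSubgroup.ModularGroup_T_pow_mem_Gamma M M dvd_rfl
      rw [hT, ← hfinv _ hmem (γ • ModFun.dil M τ), smul_smul, smul_smul, inv_mul_cancel_right]
    · obtain ⟨c, hc⟩ :=
        (((Igusa.mem_expSubring M _).mp (genRing_le_expSubring (genSmul γ u).2)).1).2.2
      refine ⟨c / n, Asymptotics.IsBigO.of_pow hn (hc.congr (fun τ => ?_) fun τ => ?_)⟩
      · simp only [Pi.pow_apply]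
        exact (hfn _).symm
      · rw [Pi.pow_apply, ← Real.exp_nat_mul]
        congr 1
        field_simp
  have hfint : f ∈ intFun M RQ := by
    refine ⟨fun γ hγ => hfinv γ (gamma_le_genStab M hγ), fun γ => ?_⟩
    refine (Igusa.mem_expSubring M _).mpr ⟨hcusp γ, coeff_mem_range_of_pow' iotaC hn fun i => ?_⟩
    have he : compSmul γ f ^ n = (genSmul γ u : ℍ → ℂ) := funext fun τ => hfn _
    have h1 : qExp M (compSmul γ f) ^ n = qExp M (genSmul γ u : ℍ → ℂ) := by
      rw [← he]
      exact (map_pow (qExpHom M) ⟨_, hcusp γ⟩ n).symm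
    rw [h1]
    exact ((Igusa.mem_expSubring M _).mp (genRing_le_expSubring (genSmul γ u).2)).2 i
  obtain ⟨D, hD0, hD⟩ := exists_mul_mem_genRing ⟨f, hfint⟩ fun γ hγ =>
    Subtype.ext (funext fun τ => hfinv _ ((genStab M).inv_mem hγ) τ)
  refine ⟨toGF ⟨_, hD⟩ / (toGF D * toGF b), ?_⟩
  refine (germEq_evG_of_eq (a := ⟨_, hD⟩) (mul_ne_zero hD0 (gDen_ne_zero x)) ?_).trans ?_
  · rw [map_mul, div_mul_cancel₀]
    exact mul_ne_zero ((map_ne_zero_iff _ toGF_injective).mpr hD0)
      ((map_ne_zero_iff _ toGF_injective).mpr (gDen_ne_zero x))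
  intro z hz
  filter_upwards [hHg z hz, (nowhereZero_evR hD0).eventually_ne
      (fun w hw => (analyticAt_evR D hw).meromorphicAt) hz,
    (nowhereZero_evR (gDen_ne_zero x)).eventually_ne hbm hz,
    mem_nhdsWithin_of_mem_nhds (isOpen_upperHalfPlaneSet.mem_nhds hz)] with w h1 h2 h3 hw
  simp only [Pi.div_apply, evR, Function.comp_apply, Subring.coe_mul, Pi.mul_apply] at h1 h2 h3 ⊢
  simp only [f, ofComplex_apply_of_im_pos (show 0 < w.im from hw)] at h1 h2 h3 ⊢
  rw [h1, div_eq_iff (mul_ne_zero h2 h3)]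
  ring

end FermatAgent.TWLocal

end
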