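import Fermat.Agent.TWLocal.Group
import Fermat.Agent.TWLocal.Root
import Mathlib.GroupTheory.Index

/-!
The products `Φ_u` over the cosets with invariant `u`, and the group of reductions of powers of
invariant functions.
-/

set_option autoImplicit false
set_option linter.unusedSectionVars false

noncomputable section

namespace FermatAgent.TWLocal

open UpperHalfPlane hiding I
open ModularCurve IsLocalRing CongruenceSubgroup
open FermatAgent.ModCurveTorsion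
open FermatAgent.Periods (mob mob_mul)
open scoped MatrixGroups

local notation "M₂" => Matrix (Fin 2) (Fin 2) ℤ
local notation "Qb" => AlgebraicClosure ℚ
local notation "GQ" => AlgebraicClosure ℚ ≃ₐ[ℚ] AlgebraicClosure ℚ

variable {M : ℕ} [NeZero M]

/-- Invariance under a subgroup. -/
def IsInv (Γ : Subgroup SL(2, ℤ)) (X : GF M) : Prop := ∀ γ ∈ Γ, smulGF γ X = X

theorem IsInv.mono {Γ Γ' : Subgroup SL(2, ℤ)} {X : GF M} (h : IsInv Γ X) (hle : Γ' ≤ Γ) :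
    IsInv Γ' X := fun γ hγ => h γ (hle hγ)

theorem IsInv.mul {Γ : Subgroup SL(2, ℤ)} {X Y : GF M} (hX : IsInv Γ X) (hY : IsInv Γ Y) :
    IsInv Γ (X * Y) := fun γ hγ => by rw [map_mul, hX γ hγ, hY γ hγ]

theorem IsInv.div {Γ : Subgroup SL(2, ℤ)} {X Y : GF M} (hX : IsInv Γ X) (hY : IsInv Γ Y) :
    IsInv Γ (X / Y) := fun γ hγ => by rw [map_div₀, hX γ hγ, hY γ hγ]

theorem IsInv.pow {Γ : Subgroup SL(2, ℤ)} {X : GF M} (hX : IsInv Γ X) (n : ℕ) :
    IsInv Γ (X ^ n) := fun γ hγ => by rw [map_pow, hX γ hγ]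

theorem isInv_one (Γ : Subgroup SL(2, ℤ)) : IsInv Γ (1 : GF M) := fun _ _ => map_one _

/-- Invariance can be read off the associated function. -/
theorem isInv_of_germEq {Γ : Subgroup SL(2, ℤ)} {X : GF M}
    (h : ∀ γ ∈ Γ, GermEq (evG X ∘ mob (γ : M₂)) (evG X)) : IsInv Γ X := fun γ hγ =>
  evG_injective ((evG_smulGF γ X).trans (h γ hγ))

theorem smulGF_mul_eq_of_isInv {Γ : Subgroup SL(2, ℤ)} {X : GF M} (hX : IsInv Γ X)
    {g g' : SL(2, ℤ)} (h : g' * g⁻¹ ∈ Γ) : smulGF g' X = smulGF g X := by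
  rw [show g' = g' * g⁻¹ * g by group, smulGF_mul, hX _ h]

variable (M) in
/-- `σ` acts on `ℤ/d` through `chiM`. -/
def chiU {d : ℕ} (hd : d ∣ M) (σ : GQ) : (ZMod d)ˣ :=
  (isUnit_chiM M hd σ).unit

theorem isPrimitiveRoot_zetaQ : IsPrimitiveRoot (zetaQ M : Qb) M := by
  refine IsPrimitiveRoot.of_map_of_injective (f := iotaC) ?_ iotaC_injective
  rw [iotaC_zetaQ]
  have := Complex.isPrimitiveRoot_exp M (NeZero.ne M)
  convert this using 1
  simp [ModFun.expUnit, div_eq_mul_inv, mul_assoc]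

theorem chiM_eq_of_map_zetaQ {σ : GQ} {n : ℕ}
    (h : σ (zetaQ M : Qb) = (zetaQ M : Qb) ^ n) : (chiM M σ : ZMod M) = n := by
  rw [map_zetaQ] at h
  rw [ZMod.natCast_eq_natCast_iff]
  have h' := ((isPrimitiveRoot_zetaQ (M := M)).isOfFinOrder (NeZero.ne M)).pow_eq_pow_iff_modEq.mp h
  rwa [← (isPrimitiveRoot_zetaQ (M := M)).eq_orderOf] at h'

theorem chiM_inv_mul (σ : GQ) :
    ((chiM M σ⁻¹ : ℤ) : ZMod M) * ((chiM M σ : ℤ) : ZMod M) = 1 := by
  have h : (1 : GQ) (zetaQ M : Qb) = (zetaQ M : Qb) ^ (chiM M σ⁻¹ * chiM M σ) := by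
    rw [← inv_mul_cancel σ, AlgEquiv.mul_apply, map_zetaQ, map_pow, map_zetaQ, ← pow_mul]
  have h1 := chiM_eq_of_map_zetaQ h
  have h2 : (chiM M (1 : GQ) : ZMod M) = (1 : ℕ) := chiM_eq_of_map_zetaQ (by rw [pow_one]; rfl)
  rw [h2] at h1
  push_cast at h1 ⊢
  exact h1.symm

theorem coe_chiU {d : ℕ} (hd : d ∣ M) (σ : GQ) :
    (chiU M hd σ : ZMod d) = ((chiM M σ : ℤ) : ZMod d) := rfl

theorem chiU_eq {d : ℕ} [NeZero d] (hd : d ∣ M) {σ : GQ} {u : (ZMod d)ˣ}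
    (h : ∀ ζ : Qb, ζ ^ d = 1 → σ ζ = ζ ^ (u : ZMod d).val) : chiU M hd σ = u := by
  obtain ⟨c, hc⟩ := hd
  have hprim : IsPrimitiveRoot ((zetaQ M : Qb) ^ c) d :=
    (isPrimitiveRoot_zetaQ (M := M)).pow (NeZero.pos M) (hc.trans (mul_comm d c))
  have h1 := h _ hprim.pow_eq_one
  rw [map_pow, map_zetaQ, ← pow_mul, mul_comm, pow_mul] at h1
  refine Units.ext ?_
  rw [coe_chiU, Int.cast_natCast, ← ZMod.natCast_zmod_val (u : ZMod d), ZMod.natCast_eq_natCast_iff]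
  have h' := (hprim.isOfFinOrder (NeZero.ne d)).pow_eq_pow_iff_modEq.mp h1
  rwa [← hprim.eq_orderOf] at h'

section Level

variable {N q : ℕ} [NeZero N] [NeZero q] [Fact q.Prime]

/-- The product of the translates by the representatives with invariant `u`. -/
def phi (u : (ZMod q)ˣ) (X : GF (N * q)) : GF (N * q) :=
  ∏ r : ZMod q, smulGF (gRep N q (u : ZMod q) r) X

theorem phi_mul (u : (ZMod q)ˣ) (X Y : GF (N * q)) : phi u (X * Y) = phi u X * phi u Y := by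
  simp only [phi, map_mul, Finset.prod_mul_distrib]

theorem phi_pow (u : (ZMod q)ˣ) (X : GF (N * q)) (n : ℕ) : phi u (X ^ n) = phi u X ^ n := by
  simp only [phi, map_pow, Finset.prod_pow]

theorem phi_div (u : (ZMod q)ˣ) (X Y : GF (N * q)) : phi u (X / Y) = phi u X / phi u Y := by
  simp only [phi, map_div₀, Finset.prod_div_distrib]

theorem phi_ne_zero (u : (ZMod q)ˣ) {X : GF (N * q)} (hX : X ≠ 0) : phi u X ≠ 0 :=
  Finset.prod_ne_zero_iff.mpr fun _ _ => (map_ne_zero _).mpr hX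

theorem evG_phi (u : (ZMod q)ˣ) (X : GF (N * q)) :
    GermEq (evG (phi u X)) (∏ r : ZMod q, evG X ∘ mob (gRep N q (u : ZMod q) r : M₂)) := by
  refine (evG_prod _ _).trans fun z hz => ?_
  have : ∀ r : ZMod q, evG (smulGF (gRep N q (u : ZMod q) r) X) =ᶠ[nhdsWithin z {z}ᶜ]
      evG X ∘ mob (gRep N q (u : ZMod q) r : M₂) := fun r => evG_smulGF _ X z hz
  filter_upwards [Filter.eventually_all.mpr this] with w hw
  simp only [Finset.prod_apply]
  exact Finset.prod_congr rfl fun r _ => hw r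

variable (hNq : N.Coprime q)
include hNq

/-- `Φ_u` of a `gTwo`-invariant function is `gOne`-invariant. -/
theorem isInv_phi (u : (ZMod q)ˣ) {X : GF (N * q)} (hX : IsInv (gTwo N q) X) :
    IsInv (gOne N q) (phi u X) := by
  intro h hh
  obtain ⟨σ, hσ⟩ := exists_perm_gRep hNq u.ne_zero hh
  rw [phi, map_prod]
  refine Fintype.prod_equiv σ _ _ fun r => ?_
  rw [← smulGF_mul, smulGF_mul_eq_of_isInv hX (hσ r)]

/-- `σ Φ_u = Φ_{χ u} σ`. -/
theorem galGF_phi (σ : GQ) (u : (ZMod q)ˣ) {X : GF (N * q)}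
    (hX : IsInv (gTwo N q) (galGF σ X)) :
    galGF σ (phi u X) = phi (chiU (N * q) (dvd_mul_left q N) σ * u) (galGF σ X) := by
  have hM : IsUnit (((chiM (N * q) σ : ℕ) : ℤ) : ZMod (N * q)) := isUnit_chiM _ dvd_rfl σ
  have hN := isUnit_chiM (N * q) (dvd_mul_right N q) σ
  have hq := isUnit_chiM (N * q) (dvd_mul_left q N) σ
  rw [phi, map_prod]
  refine Fintype.prod_equiv (Equiv.divRight₀ _ (chiU (N * q) (dvd_mul_left q N) σ).ne_zero) _ _
    fun r => ?_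
  obtain ⟨γ', hγ'⟩ := exists_galRel_sl (N * q) hM (gRep N q (u : ZMod q) r)
  rw [galGF_smulGF σ hγ']
  exact smulGF_mul_eq_of_isInv hX (galRel_gRep hNq hN hq (u : ZMod q) r hγ')

theorem isInv_galGF_gTwo (σ : GQ) {X : GF (N * q)} (hX : IsInv (gTwo N q) X) :
    IsInv (gTwo N q) (galGF σ X) := by
  intro γ hγ
  obtain ⟨δ, hδ, hrel⟩ := exists_galRel_rev σ γ
  rw [← galGF_smulGF σ hrel, hX δ (galRel_mem_gTwo (isUnit_chiM _ (dvd_mul_right N q) σ⁻¹)
    (isUnit_chiM _ (dvd_mul_left q N) σ⁻¹) hδ hγ)]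
where
  exists_galRel_rev (σ : GQ) (γ : SL(2, ℤ)) : ∃ δ : SL(2, ℤ),
      GalRel (N * q) (chiM (N * q) σ⁻¹) (γ : M₂) (δ : M₂) ∧
        GalRel (N * q) (chiM (N * q) σ) (δ : M₂) (γ : M₂) := by
    obtain ⟨δ, hδ⟩ := exists_galRel_sl (N * q) (isUnit_chiM _ dvd_rfl σ⁻¹) γ
    exact ⟨δ, hδ, hδ.symm (chiM_inv_mul σ)⟩

theorem isInv_galGF_gOne (σ : GQ) {X : GF (N * q)} (hX : IsInv (gOne N q) X) :
    IsInv (gOne N q) (galGF σ X) := by
  intro γ hγ
  obtain ⟨δ, hδ, hrel⟩ := isInv_galGF_gTwo.exists_galRel_rev (N := N) (q := q) σ γ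
  rw [← galGF_smulGF σ hrel,
    hX δ (galRel_mem_gOne (isUnit_chiM _ (dvd_mul_right N q) σ⁻¹) hδ hγ)]

end Level

/-! ### Reductions of powers of invariant functions -/

variable {A : ValuationSubring Qb} {ℓ : ℕ}

/-- The classes of reductions of `n`-th powers of nonzero invariant functions. -/
def powRed (hℓ : ℓ.Prime) (hA : A.LiesOverPrime ℓ) (Γ : Subgroup SL(2, ℤ)) (n : ℕ) :
    Subgroup (Cls (ResidueField A)) where
  carrier := {W | ∃ Y : GF M, Y ≠ 0 ∧ IsInv Γ Y ∧ W = redGF A Y ^ n}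
  one_mem' := ⟨1, one_ne_zero, isInv_one Γ, by rw [redGF_one, one_pow]⟩
  mul_mem' := by
    rintro _ _ ⟨Y, hY, hYi, rfl⟩ ⟨Z, hZ, hZi, rfl⟩
    exact ⟨Y * Z, mul_ne_zero hY hZ, hYi.mul hZi, by rw [redGF_mul hℓ hA hY hZ, mul_pow]⟩
  inv_mem' := by
    rintro _ ⟨Y, hY, hYi, rfl⟩
    exact ⟨1 / Y, div_ne_zero one_ne_zero hY, (isInv_one Γ).div hYi,
      by rw [redGF_div hℓ hA one_ne_zero hY, redGF_one, one_div, inv_pow]⟩

theorem mem_powRed_of_pow_eq {hℓ : ℓ.Prime} {hA : A.LiesOverPrime ℓ} {Γ : Subgroup SL(2, ℤ)}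
    {n : ℕ} {Y X : GF M} (hY : Y ≠ 0) (hYi : IsInv Γ Y) (h : Y ^ n = X) :
    redGF A X ∈ powRed (M := M) hℓ hA Γ n :=
  ⟨Y, hY, hYi, by rw [← h, redGF_pow hℓ hA hY]⟩

end FermatAgent.TWLocal

end
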