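import Fermat.Agent.TWLocal.Down
import Fermat.Agent.TWLocal.Phi
import Fermat.Agent.ModCurve.Torsion.Conjugation

/-!
Torsion points of `J₀(N q²)` as functions of level `N q` in the coordinate `q τ`, with the
multipliers of their roots on the conjugate of `Γ₀(N q²)`.
-/

set_option autoImplicit false
set_option linter.unusedSectionVars false
set_option maxHeartbeats 800000

noncomputable section

namespace FermatAgent.TWLocal

open UpperHalfPlane hiding I
open Filter Topology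
open ModularCurve AlgebraicCurve CongruenceSubgroup
open FermatAgent.ModCurveTorsion
open FermatAgent.ModCurveGroup (KillsEP)
open FermatAgent.Curve (divisorOf divisorOf_apply divisorOf_mul)
open FermatAgent.Periods (mob mob_mul)
open FermatAgent.ModCurve.Points (FieldC)
open scoped MatrixGroups

local notation "M₂" => Matrix (Fin 2) (Fin 2) ℤ
local notation "Qb" => AlgebraicClosure ℚ
local notation "GQ" => AlgebraicClosure ℚ ≃ₐ[ℚ] AlgebraicClosure ℚ
local notation "ℍo" => UpperHalfPlane.upperHalfPlaneSet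

attribute [local instance] qbarAlgebraC qbarAlgebraFieldC fieldBarAlgebraC
  qbar_isScalarTower_const qbar_isScalarTower_ext qbar_isConstantExtension

variable {N q : ℕ} [NeZero N] [NeZero q]

variable (q) in
/-- `diag (q, 1)`. -/
def upQ : M₂ := !![(q : ℤ), 0; 0, 1]

variable (q) in
/-- `diag (1, q)`. -/
def dnQ : M₂ := !![(1 : ℤ), 0; 0, (q : ℤ)]

theorem det_upQ_pos : 0 < (upQ q).det ∧ 0 < (dnQ q).det := by
  simp [upQ, dnQ, NeZero.pos q]

theorem germEq_comp_upQ_downQ {f : ℂ → ℂ} : GermEq ((f ∘ mob (upQ q)) ∘ mob (dnQ q)) f :=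
  GermEq.of_eqOn fun w hw => by
    have h : mob (dnQ q) w = w / q := by simp [mob, dnQ]
    show f (mob (upQ q) (mob (dnQ q) w)) = f w
    rw [h, upQ, mob_diag, mul_div_cancel₀ _ (Nat.cast_ne_zero.mpr (NeZero.ne q))]

/-- The function on `ℂ` of an element of `ℚ̄(X₀(N q²))` in the coordinate `q τ`. -/
theorem evG_embS' (x : modularFunctionFieldBar (N * q ^ 2)) :
    GermEq (evG (embS N q x))
      (evalFun (algebraMap (FieldBar (N * q ^ 2)) (FieldC (N * q ^ 2)) x) ∘ mob (dnQ q)) :=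
  (germEq_comp_upQ_downQ (q := q)).symm.trans ((evG_embS x).comp_mob det_upQ_pos.2)

/-- A root in the coordinate `q τ` with multiplier `φ`. -/
structure IsRoot (hNq : N.Coprime q) (n : ℕ) [NeZero n]
    (φ : Additive (Gamma0 (N * q ^ 2)) →+ ZMod n) (X : GF (N * q)) (R : ℂ → ℂ) : Prop where
  ne_zero : X ≠ 0
  mero : MeromorphicOn R ℍo
  pow_eq : GermEq (R ^ n) (evG X)
  mult : HasMultiplier (Γ := gTwo N q) R
    fun h => ZMod.stdAddChar (φ (Additive.ofMul (downTwo hNq h)))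

theorem germEq_comp_downQ {g : ℂ → ℂ} {c : ℂ} {h : SL(2, ℤ)} (hh : (q : ℤ) ∣ h 0 1)
    (hg : GermEq (g ∘ mob (downMat q h)) fun w => c * g w) :
    GermEq ((g ∘ mob (dnQ q)) ∘ mob (h : M₂)) fun w => c * (g ∘ mob (dnQ q)) w := by
  have hdet : 0 < (downMat q h).det := by rw [det_downMat hh]; exact one_pos
  refine (germEq_comp_mob_mul g (dnQ q) (B := (h : M₂)) (by simp)).symm.trans ?_
  rw [dnQ, downMat_spec hh, ← dnQ]
  refine (germEq_comp_mob_mul g (downMat q h) det_upQ_pos.2.ne').trans ?_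
  exact hg.comp_mob det_upQ_pos.2

theorem isInv_embS (hNq : N.Coprime q) (x : modularFunctionFieldBar (N * q ^ 2)) :
    IsInv (gTwo N q) (embS N q x) := by
  refine isInv_of_germEq fun h hh => ?_
  set F := evalFun (algebraMap (FieldBar (N * q ^ 2)) (FieldC (N * q ^ 2)) x)
  have h1 : GermEq (F ∘ mob (downMat q h)) fun w => (1 : ℂ) * F w :=
    ((evalFun_invariant (algebraMap (FieldBar (N * q ^ 2)) (FieldC (N * q ^ 2)) x))
      (downTwo hNq ⟨h, hh⟩)).trans (GermEq.of_eqOn fun w _ => (one_mul _).symm)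
  refine ((evG_embS' x).comp_mob (by simp)).trans
    ((germEq_comp_downQ (dvd_of_mem_gUp (gTwo_le_gUp hh)) h1).trans ?_)
  exact ((GermEq.of_eqOn fun w _ => by simp [F]) : GermEq _ _).trans (evG_embS' x).symm

theorem genStab_le_gTwo : genStab (N * q) ≤ gTwo N q := by
  intro γ hγ
  obtain ⟨h10, h01, -⟩ := genStab_congr hγ
  push_cast at h10 h01
  exact ⟨Gamma0_mem.mpr ((ZMod.intCast_zmod_eq_zero_iff_dvd _ _).mpr
      ((dvd_mul_right _ _).trans h10)),
    (ZMod.intCast_zmod_eq_zero_iff_dvd _ _).mpr ((dvd_mul_left _ _).trans h01),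
    (ZMod.intCast_zmod_eq_zero_iff_dvd _ _).mpr ((dvd_mul_left _ _).trans h10)⟩

namespace IsRoot

variable {hNq : N.Coprime q} {n : ℕ} [NeZero n]
  {φ ψ : Additive (Gamma0 (N * q ^ 2)) →+ ZMod n} {X Y : GF (N * q)} {R S : ℂ → ℂ}

theorem mul (h : IsRoot hNq n φ X R) (h' : IsRoot hNq n ψ Y S) :
    IsRoot hNq n (φ + ψ) (X * Y) (R * S) where
  ne_zero := mul_ne_zero h.ne_zero h'.ne_zero
  mero := h.mero.mul h'.mero
  pow_eq := by rw [mul_pow]; exact (h.pow_eq.mul h'.pow_eq).trans (evG_mul X Y).symm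
  mult := by
    convert h.mult.mul h'.mult using 1
    funext γ
    simp [AddChar.map_add_eq_mul]

theorem inv (h : IsRoot hNq n φ X R) : IsRoot hNq n (-φ) X⁻¹ R⁻¹ where
  ne_zero := inv_ne_zero h.ne_zero
  mero := h.mero.inv
  pow_eq := by
    refine GermEq.trans ?_ (evG_inv h.ne_zero).symm
    rw [inv_pow]
    intro z hz
    filter_upwards [h.pow_eq z hz] with w hw
    simp only [Pi.inv_apply] at hw ⊢
    rw [hw]
  mult γ := by
    intro z hz
    filter_upwards [h.mult γ z hz] with w hw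
    simp only [Function.comp_apply, Pi.inv_apply] at hw ⊢
    rw [hw, mul_inv, AddMonoidHom.neg_apply, AddChar.map_neg_eq_inv]

/-- Two functions whose roots have the same multiplier differ by an `n`-th power. -/
theorem exists_pow_eq (h : IsRoot hNq n φ X R) (h' : IsRoot hNq n φ Y S) :
    ∃ Z : GF (N * q), Z ≠ 0 ∧ IsInv (gTwo N q) Z ∧ Z ^ n = X / Y := by
  have h0 := h.mul h'.inv
  rw [add_neg_cancel, ← div_eq_mul_inv X Y] at h0
  have hinv : ∀ γ ∈ gTwo N q, GermEq ((R * S⁻¹) ∘ mob (γ : M₂)) (R * S⁻¹) := fun γ hγ =>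
    (h0.mult ⟨γ, hγ⟩).trans (GermEq.of_eqOn fun w _ => by simp)
  obtain ⟨Z, hZ, hZg⟩ := exists_evG_eq (NeZero.ne n) h0.mero h0.pow_eq
    fun γ hγ => hinv γ (genStab_le_gTwo hγ)
  have hZ0 : Z ≠ 0 := fun e => h0.ne_zero (by rw [← hZ, e, zero_pow (NeZero.ne n)])
  exact ⟨Z, hZ0, isInv_of_germEq fun γ hγ =>
    (hZg.comp_mob (by simp)).trans ((hinv γ hγ).trans hZg.symm), hZ⟩

end IsRoot

/-! ### Torsion points -/

variable {n : ℕ} [NeZero n]

variable (N q) in
/-- `X` is a function attached to the `n`-torsion point `x`. -/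
def IsRepr (n : ℕ) (x : JZero (N * q ^ 2)) (X : GF (N * q)) : Prop :=
  ∃ (D : Divisor.degZero (K := Qb) (F := FieldBar (N * q ^ 2))) (F : FieldBar (N * q ^ 2)),
    F ≠ 0 ∧ Pic0.mk D = x ∧
      divisorOf (K := Qb) F = (n : ℤ) • (D : Divisor Qb (FieldBar (N * q ^ 2))) ∧ X = embS N q F

theorem exists_isRepr {x : JZero (N * q ^ 2)} (hx : (n : ℤ) • x = 0) :
    ∃ X, IsRepr N q n x X := by
  obtain ⟨D, rfl⟩ := Pic0.mk_surjective x
  have h0 : Pic0.mk ((n : ℤ) • D) = 0 := by rw [← hx]; rfl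
  obtain ⟨f, hf, hfD⟩ := AddSubgroup.mem_addSubgroupOf.mp ((QuotientAddGroup.eq_zero_iff _).mp h0)
  exact ⟨_, D, f, hf, rfl, Finsupp.ext fun v => by rw [divisorOf_apply, ← hfD v]; rfl, rfl⟩

namespace IsRepr

variable {x y : JZero (N * q ^ 2)} {X Y : GF (N * q)}

theorem ne_zero (h : IsRepr N q n x X) : X ≠ 0 := by
  obtain ⟨D, F, hF, -, -, rfl⟩ := h
  exact (map_ne_zero _).mpr hF

theorem isInv (hNq : N.Coprime q) (h : IsRepr N q n x X) : IsInv (gTwo N q) X := by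
  obtain ⟨D, F, -, -, -, rfl⟩ := h
  exact isInv_embS hNq F

theorem add (h : IsRepr N q n x X) (h' : IsRepr N q n y Y) :
    IsRepr N q n (x + y) (X * Y) := by
  obtain ⟨D, F, hF, rfl, hD, rfl⟩ := h
  obtain ⟨D', F', hF', rfl, hD', rfl⟩ := h'
  refine ⟨D + D', F * F', mul_ne_zero hF hF', rfl, ?_, (map_mul _ _ _).symm⟩
  rw [divisorOf_mul hF hF', hD, hD', AddSubgroup.coe_add, smul_add]

theorem neg (h : IsRepr N q n x X) : IsRepr N q n (-x) X⁻¹ := by
  obtain ⟨D, F, hF, rfl, hD, rfl⟩ := h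
  refine ⟨-D, F⁻¹, inv_ne_zero hF, rfl, ?_, (map_inv₀ _ _).symm⟩
  rw [AddSubgroup.coe_neg, smul_neg, ← hD]
  exact Finsupp.ext fun v => by simp [v.ord_inv]

theorem sub (h : IsRepr N q n x X) (h' : IsRepr N q n y Y) :
    IsRepr N q n (x - y) (X / Y) := by
  rw [sub_eq_add_neg, div_eq_mul_inv]
  exact h.add h'.neg

theorem galois (σ : GQ) (h : IsRepr N q n x X) : IsRepr N q n (σ • x) (galGF σ X) := by
  obtain ⟨D, F, hF, rfl, hD, rfl⟩ := h
  rw [galois_smul_pic0_def, SemilinearAut.pic0_smul_mk]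
  refine ⟨_, arithmeticGalois (modularFunctionFieldFull (N * q ^ 2)) σ • F,
    (smul_ne_zero_iff_ne _).mpr hF, rfl, ?_, galGF_embS N q σ F⟩
  rw [← smul_divisorOf, hD]
  exact map_zsmul (semilinearDiv (arithmeticGalois (modularFunctionFieldFull (N * q ^ 2)) σ)) _ _

/-- A function attached to zero is an `n`-th power. -/
theorem exists_pow_eq (hNq : N.Coprime q) (h : IsRepr N q n (0 : JZero (N * q ^ 2)) X) :
    ∃ Z : GF (N * q), Z ≠ 0 ∧ IsInv (gTwo N q) Z ∧ Z ^ n = X := by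
  obtain ⟨D, F, hF, hD0, hD, rfl⟩ := h
  obtain ⟨g, hg, hgD⟩ := AddSubgroup.mem_addSubgroupOf.mp ((QuotientAddGroup.eq_zero_iff _).mp hD0)
  have hord : ∀ v : Place Qb (FieldBar (N * q ^ 2)), v.ord (F / g ^ n) = 0 := fun v => by
    rw [div_eq_mul_inv, v.ord_mul hF (inv_ne_zero (pow_ne_zero _ hg)), v.ord_inv, ← zpow_natCast, v.ord_zpow, ← sub_eq_add_neg, ← divisorOf_apply, hD, Finsupp.smul_apply,
      smul_eq_mul, hgD v, sub_self]
  obtain ⟨c, hc⟩ := FermatAgent.Curve.forall_ord_eq_zero_iff.mp hord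
  obtain ⟨d, hd⟩ := IsAlgClosed.exists_pow_nat_eq c (Nat.pos_of_ne_zero (NeZero.ne n))
  have hFeq : F = (algebraMap Qb (FieldBar (N * q ^ 2)) d * g) ^ n := by
    rw [mul_pow, ← map_pow, hd, hc, div_mul_cancel₀ _ (pow_ne_zero _ hg)]
  refine ⟨embS N q (algebraMap Qb (FieldBar (N * q ^ 2)) d * g), ?_, isInv_embS hNq _, ?_⟩
  · refine (map_ne_zero _).mpr fun e => hF ?_
    rw [hFeq, e, zero_pow (NeZero.ne n)]
  · rw [← map_pow, ← hFeq]

/-- The root of a representative has the Kummer character as multiplier. -/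
theorem exists_isRoot (hNq : N.Coprime q) (h : IsRepr N q n x X)
    {φ : Additive (Gamma0 (N * q ^ 2)) →+ ZMod n}
    (hφ : IsKummerChar n (jBaseC (N * q ^ 2) x) φ) : ∃ R, IsRoot hNq n φ X R := by
  obtain ⟨D, f, hf, rfl, hdiv, rfl⟩ := h
  have hfC : algebraMap (FieldBar (N * q ^ 2)) (FieldC (N * q ^ 2)) f ≠ 0 :=
    (map_ne_zero (algebraMap (FieldBar (N * q ^ 2)) (FieldC (N * q ^ 2)))).mpr hf
  obtain ⟨g, hg⟩ := exists_kummerRoot_of_divisor (n := n) hfC (ord_algebraMap_fieldBar hdiv)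
  obtain ⟨χ, hχ, hχn⟩ := exists_multiplier (Γ := Gamma0 (N * q ^ 2)) (NeZero.ne n) hg.mero hg.pow_eq
    (nowhereZero_evalFun hfC) (evalFun_invariant (algebraMap (FieldBar (N * q ^ 2)) (FieldC (N * q ^ 2)) f))
  choose a ha using fun γ => exists_eq_stdAddChar (n := n) (hχn γ)
  have hg0 := hg.nowhereZero (NeZero.ne n)
  let ψ : Additive (Gamma0 (N * q ^ 2)) →+ ZMod n :=
    AddMonoidHom.mk' (fun γ => a γ.toMul) fun γ δ => ZMod.injective_stdAddChar (by
      rw [AddChar.map_add_eq_mul, ha, ha, ha, ← hχ.map_mul hg.mero hg0]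
      rfl)
  have hψχ : HasMultiplier g fun γ => ZMod.stdAddChar (ψ (Additive.ofMul γ)) := by
    convert hχ using 1
    funext γ
    exact ha γ
  have hψ : IsKummerChar n (jBaseC (N * q ^ 2) (Pic0.mk D)) ψ :=
    ⟨⟨divBaseC (N * q ^ 2) (D : Divisor Qb (FieldBar (N * q ^ 2))), by
      rw [Divisor.mem_degZero, degree_divBaseC]; exact D.2⟩, _, g, (jBaseC_mk (N * q ^ 2) D).symm, hg, hψχ⟩
  obtain rfl : ψ = φ := hψ.unique hφ
  refine ⟨g ∘ mob (dnQ q), (map_ne_zero _).mpr hf,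
    meromorphicOn_comp_mob hg.mero det_upQ_pos.2, ?_, fun γ => ?_⟩
  · exact (hg.pow_eq.comp_mob det_upQ_pos.2).trans (evG_embS' f).symm
  · exact germEq_comp_downQ (dvd_of_mem_gUp (gTwo_le_gUp γ.2)) (hψχ (downTwo hNq γ))

end IsRepr

end FermatAgent.TWLocal

end
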