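import Fermat.Agent.TWLocal.Interface
import Fermat.Agent.TWLocal.Kummer

/-!
The multipliers of the roots of the products `Φ_u` on the stabiliser of the level `N q` functions,
and the relation between three of them.
-/

set_option autoImplicit false
set_option linter.unusedSectionVars false

noncomputable section

namespace FermatAgent.TWLocal

open UpperHalfPlane hiding I
open Filter Topology
open CongruenceSubgroup ModularCurve IsLocalRing
open FermatAgent.ModCurveTorsion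
open FermatAgent.Periods (mob mob_mul)
open FermatAgent.RTLift.Modules (levelChar crossedHoms crossed_mul crossed_inv aUnit levelChar_apply)
open FermatAgent.RTLift.Systems (twistCross twChar twChar_coe twChar_inv_coe rShift)
open scoped MatrixGroups

local notation "M₂" => Matrix (Fin 2) (Fin 2) ℤ

variable {N q : ℕ} [NeZero N] [NeZero q]

/-- A conjugate of an element of the stabiliser. -/
def conjTwo (g : SL(2, ℤ)) (h : genStab (N * q)) : gTwo N q :=
  ⟨g * h * g⁻¹, genStab_le_gTwo ((genStab_normal (N * q)).conj_mem _ h.2 g)⟩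

@[simp] theorem coe_conjTwo (g : SL(2, ℤ)) (h : genStab (N * q)) :
    (conjTwo g h : SL(2, ℤ)) = g * h * g⁻¹ := rfl

/-! ### The root of `Φ_u` -/

theorem stdAddChar_sum {n : ℕ} [NeZero n] {ι : Type*} (s : Finset ι) (f : ι → ZMod n) :
    ZMod.stdAddChar (∑ i ∈ s, f i) = ∏ i ∈ s, ZMod.stdAddChar (f i) := by
  classical
  induction s using Finset.induction_on with
  | empty => simp
  | insert a s ha ih =>
    rw [Finset.sum_insert ha, Finset.prod_insert ha, AddChar.map_add_eq_mul, ih]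

variable (N) in
/-- The product of the translates of a root. -/
def phiRoot (u : (ZMod q)ˣ) (R : ℂ → ℂ) : ℂ → ℂ :=
  ∏ r : ZMod q, R ∘ mob (gRep N q (u : ZMod q) r : M₂)

variable [Fact q.Prime] {hNq : N.Coprime q} {n : ℕ} [NeZero n]
  {φ : Additive (Gamma0 (N * q ^ 2)) →+ ZMod n} {X : GF (N * q)} {R : ℂ → ℂ}

theorem IsRoot.phiRoot_mero (h : IsRoot hNq n φ X R) (u : (ZMod q)ˣ) :
    MeromorphicOn (phiRoot N u R) UpperHalfPlane.upperHalfPlaneSet := by
  rw [phiRoot]
  exact MeromorphicOn.prod fun r _ => meromorphicOn_comp_mob h.mero (by simp)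

theorem IsRoot.phiRoot_pow (h : IsRoot hNq n φ X R) (u : (ZMod q)ˣ) :
    GermEq (phiRoot N u R ^ n) (evG (phi u X)) := by
  refine GermEq.trans ?_ (evG_phi u X).symm
  rw [phiRoot, ← Finset.prod_pow]
  intro z hz
  have hr : ∀ r : ZMod q, ((R ∘ mob (gRep N q (u : ZMod q) r : M₂)) ^ n) =ᶠ[𝓝[≠] z]
      evG X ∘ mob (gRep N q (u : ZMod q) r : M₂) := fun r =>
    (h.pow_eq.comp_mob (by simp)) z hz
  filter_upwards [Filter.eventually_all.mpr hr] with w hw
  simp only [Finset.prod_apply]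
  exact Finset.prod_congr rfl fun r _ => hw r

theorem IsRoot.phiRoot_mult (h : IsRoot hNq n φ X R) (u : (ZMod q)ˣ) :
    HasMultiplier (Γ := genStab (N * q)) (phiRoot N u R) fun γ => ZMod.stdAddChar
      (∑ r : ZMod q, φ (Additive.ofMul (downTwo hNq (conjTwo (gRep N q (u : ZMod q) r) γ)))) := by
  intro γ z hz
  have hr : ∀ r : ZMod q, ((R ∘ mob (gRep N q (u : ZMod q) r : M₂)) ∘ mob (slMat γ)) =ᶠ[𝓝[≠] z]
      fun w => ZMod.stdAddChar
        (φ (Additive.ofMul (downTwo hNq (conjTwo (gRep N q (u : ZMod q) r) γ)))) *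
          (R ∘ mob (gRep N q (u : ZMod q) r : M₂)) w := by
    intro r
    set g := gRep N q (u : ZMod q) r
    refine GermEq.trans (germEq_comp_mob_mul R (g : M₂) (det_slMat_pos γ).ne').symm ?_ z hz
    rw [show (g : M₂) * slMat γ = slMat (conjTwo g γ) * (g : M₂) by
      rw [slMat, slMat, ← Matrix.SpecialLinearGroup.coe_mul, ← Matrix.SpecialLinearGroup.coe_mul,
        coe_conjTwo, inv_mul_cancel_right]]
    refine (germEq_comp_mob_mul R (slMat (conjTwo g γ)) (by simp)).trans ?_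
    exact (h.mult (conjTwo g γ)).comp_mob (by simp)
  filter_upwards [Filter.eventually_all.mpr hr] with w hw
  simp only [phiRoot, Function.comp_apply, Finset.prod_apply]
  rw [stdAddChar_sum, ← Finset.prod_mul_distrib]
  exact Finset.prod_congr rfl fun r _ => hw r

section Value

variable {O : Type} [CommRing O] [IsDomain O] [IsDiscreteValuationRing O] {p : ℕ}
  {ρ : GaloisRepAdic O} {κ : (ZMod q)ˣ →* O} (D : TwistData O p N q ρ κ)

include D in
theorem TwistData.coprime : N.Coprime q :=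
  (D.q_prime.coprime_iff_not_dvd.mpr D.q_not_dvd).symm

theorem TwistData.theta_neg_one : D.θ (-1) = 1 := by
  rw [D.θ_eq, ← map_pow, neg_one_sq, map_one]

omit [Fact q.Prime] in
theorem zpow_T_mem_gamma0 (v : ℤ) : ModularGroup.T ^ v ∈ Gamma0 N :=
  Gamma0_mem.mpr (by simp [ModularGroup.coe_T_zpow])

omit [Fact q.Prime] in
theorem qEnt_diag_of_mem_genStab {γ : SL(2, ℤ)} (hγ : γ ∈ genStab (N * q)) :
    qEnt q γ 0 0 = qEnt q γ 1 1 := by
  obtain ⟨-, -, h⟩ := genStab_congr hγ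
  rw [← sub_eq_zero, qEnt, qEnt, ← Int.cast_sub, ZMod.intCast_zmod_eq_zero_iff_dvd]
  exact (Int.natCast_dvd_natCast.mpr (dvd_mul_left q N)).trans h

theorem aUnit_sq_of_mem_genStab {M' : ℕ} (hqM : q ∣ M') {γ : SL(2, ℤ)}
    (hγ : γ ∈ genStab (N * q)) (x : Gamma0 M') (hx : (x : SL(2, ℤ)) 0 0 = γ 0 0) :
    aUnit hqM x ^ 2 = 1 := by
  refine Units.ext ?_
  rw [Units.val_pow_eq_pow_val, RTLift.Modules.val_aUnit, Units.val_one]
  show ((((x : SL(2, ℤ)) 0 0 : ℤ)) : ZMod q) ^ 2 = 1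
  have hd := qEnt_det q γ
  rw [(genStab_le_gTwo hγ).2.1, zero_mul, sub_zero, ← qEnt_diag_of_mem_genStab hγ] at hd
  rw [hx, sq]
  exact hd

/-- The value of `e₀` at a conjugate. -/
def eVal (g : SL(2, ℤ)) (h : genStab (N * q)) : O :=
  (D.e₀ : Gamma0 (N * q) → O) (downG (Subgroup.inclusion gTwo_le_gUp (conjTwo g h)))

/-- The weight of the twist. -/
def TwistData.wt (_D : TwistData O p N q ρ κ) (v : ZMod q) : O := (twChar κ)⁻¹ v

theorem y_downTwo_eq (g : SL(2, ℤ)) (h : genStab (N * q)) :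
    D.y (Additive.ofMul (downTwo D.coprime (conjTwo g h))) =
      ∑ v : ZMod q, D.wt v * eVal D (ModularGroup.T ^ (v.val : ℤ) * g) h := by
  rw [D.y_eq, RTLift.Modules.CrossCorr.apply_apply]
  refine Finset.sum_congr rfl fun v _ => ?_
  rw [smul_eq_mul]
  congr 1
  refine congrArg (D.e₀ : Gamma0 (N * q) → O) (RTLift.Modules.CrossCorr.move_eq_of _ ?_)
  have hm := (genStab_normal (N * q)).conj_mem _ h.2 g
  have htarget : ∀ x : Gamma0 (N * q ^ 2),
      (x : SL(2, ℤ)) 0 0 = (g * h * g⁻¹ : SL(2, ℤ)) 0 0 → ∀ (h' : q ∣ N * q ^ 2),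
        RTLift.Systems.twTarget (M₀ := q) h' (dvd_refl q) x v = v := fun x hx h' => by
    rw [RTLift.Systems.twTarget, aUnit_sq_of_mem_genStab _ hm x hx]
    simp
  rw [RTLift.Systems.twistCross_rep]
  show _ = _ * rShift q ((RTLift.Systems.twTarget (M₀ := q) (dvd_mul_of_dvd_right (dvd_pow_self q two_ne_zero) N)
    (dvd_refl q)
    (downTwo D.coprime (conjTwo g h)) v).val : ℤ)
  rw [htarget _ rfl]
  set T := ModularGroup.T ^ (v.val : ℤ) with hT
  set g' : SL(2, ℤ) := g * h * g⁻¹ with hg'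
  have hup := dvd_of_mem_gUp (gTwo_le_gUp (conjTwo g h).2)
  have hup' := dvd_of_mem_gUp (gTwo_le_gUp (conjTwo (T * g) h).2)
  rw [coe_conjTwo] at hup hup'
  have hc : (T * g) * (h : SL(2, ℤ)) * (T * g)⁻¹ = T * g' * T⁻¹ := by rw [hg']; group
  rw [hc] at hup'
  rw [← hg'] at hup
  show rShift q (v.val : ℤ) * downMat q g' = downMat q ((T * g) * h * (T * g)⁻¹) * rShift q _
  rw [hc]
  have hTv : (T : M₂) = !![1, (v.val : ℤ); 0, 1] := ModularGroup.coe_T_zpow _
  have hTi : ((T⁻¹ : SL(2, ℤ)) : M₂) = !![1, -(v.val : ℤ); 0, 1] := by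
    rw [hT, ← zpow_neg]; exact ModularGroup.coe_T_zpow _
  have he : ((T * g' * T⁻¹ : SL(2, ℤ)) : M₂) =
      !![g' 0 0 + (v.val : ℤ) * g' 1 0,
        g' 0 1 + (v.val : ℤ) * g' 1 1 - (v.val : ℤ) * (g' 0 0 + (v.val : ℤ) * g' 1 0);
        g' 1 0, g' 1 1 - (v.val : ℤ) * g' 1 0] := by
    rw [Matrix.SpecialLinearGroup.coe_mul, Matrix.SpecialLinearGroup.coe_mul, hTv, hTi]
    ext i j
    fin_cases i <;> fin_cases j <;>
      simp [Matrix.mul_apply, Fin.sum_univ_two, Matrix.vecMul, dotProduct, -ZMod.natCast_val] <;>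
      ring
  obtain ⟨s, hs⟩ := hup
  obtain ⟨t, ht⟩ := hup'
  have hq0 : (q : ℤ) ≠ 0 := Nat.cast_ne_zero.mpr (NeZero.ne q)
  have e01 := congrFun (congrFun he 0) 1
  rw [ht] at e01
  simp only [Matrix.of_apply, Matrix.cons_val', Matrix.cons_val_zero, Matrix.cons_val_one,
    Matrix.empty_val', Matrix.cons_val_fin_one] at e01
  ext i j
  simp only [downMat, rShift, hs, Int.mul_ediv_cancel_left _ hq0]
  rw [show (T * g' * T⁻¹ : SL(2, ℤ)) 0 1 = (q : ℤ) * t from ht, Int.mul_ediv_cancel_left _ hq0,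
    show (T * g' * T⁻¹ : SL(2, ℤ)) 0 0 = _ from congrFun (congrFun he 0) 0,
    show (T * g' * T⁻¹ : SL(2, ℤ)) 1 0 = _ from congrFun (congrFun he 1) 0,
    show (T * g' * T⁻¹ : SL(2, ℤ)) 1 1 = _ from congrFun (congrFun he 1) 1]
  fin_cases i <;> fin_cases j <;> simp [Matrix.mul_apply, Fin.sum_univ_two, -ZMod.natCast_val]
  · ring
  · linear_combination -hs - e01
  · ring
  · ring

/-- Behaviour of `eVal` under a change of the representative of a class modulo `gUp`. -/
theorem eVal_of_proportional (h : genStab (N * q)) {g g' : SL(2, ℤ)} (hg : g ∈ Gamma0 N)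
    (hg' : g' ∈ Gamma0 N) {μ : ZMod q} (h0 : qEnt q g' 0 0 = μ * qEnt q g 0 0)
    (h1 : qEnt q g' 0 1 = μ * qEnt q g 0 1) :
    eVal D g' h = twChar D.θ μ * eVal D g h := by
  obtain ⟨i00, i01, i10, i11⟩ := qEnt_inv q g
  have hη : g' * g⁻¹ ∈ gUp N q := ⟨mul_mem hg' (inv_mem hg), by
    rw [qEnt_mul, i01, i11, h0, h1]; ring⟩
  set a : gUp N q := ⟨g' * g⁻¹, hη⟩
  set b : gUp N q := Subgroup.inclusion gTwo_le_gUp (conjTwo g h)
  have hab : Subgroup.inclusion gTwo_le_gUp (conjTwo g' h) = a * b * a⁻¹ := Subtype.ext (by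
    show g' * h * g'⁻¹ = g' * g⁻¹ * (g * h * g⁻¹) * (g' * g⁻¹)⁻¹
    group)
  have ha : ((aUnit (dvd_mul_left q N) (downG a) : (ZMod q)ˣ) : ZMod q) = μ := by
    show qEnt q (g' * g⁻¹) 0 0 = μ
    rw [qEnt_mul, i00, i10, h0, h1]
    linear_combination μ * qEnt_det q g
  have hχb : levelChar (dvd_mul_left q N) D.θ (downG b) = 1 := by
    have h2 := aUnit_sq_of_mem_genStab (dvd_mul_left q N)
      ((genStab_normal (N * q)).conj_mem _ h.2 g) (downG b) rfl
    rw [levelChar_apply]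
    have h3 : ((aUnit (dvd_mul_left q N) (downG b) : (ZMod q)ˣ) : ZMod q) ^ 2 = 1 := by
      rw [← Units.val_pow_eq_pow_val, h2, Units.val_one]
    rcases sq_eq_one_iff.mp h3 with h4 | h4
    · rw [Units.val_eq_one] at h4
      rw [h4, map_one]
    · rw [show aUnit (dvd_mul_left q N) (downG b) = -1 from Units.ext (by simpa using h4),
        D.theta_neg_one]
  show (D.e₀ : Gamma0 (N * q) → O) (downG (Subgroup.inclusion gTwo_le_gUp (conjTwo g' h))) =
    twChar D.θ μ * (D.e₀ : Gamma0 (N * q) → O) (downG b)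
  rw [hab, map_mul, map_mul, map_inv, crossed_mul, crossed_mul, crossed_inv, map_mul, hχb,
    mul_one, smul_neg, smul_smul, ← map_mul, mul_inv_cancel, map_one, one_smul, smul_eq_mul,
    ← ha, twChar_coe, ← levelChar_apply]
  ring

include D in
theorem exists_row_rep {a b : ZMod q} (h : ¬(a = 0 ∧ b = 0)) :
    ∃ g : SL(2, ℤ), g ∈ Gamma0 N ∧ qEnt q g 0 0 = a ∧ qEnt q g 0 1 = b := by
  rcases not_and_or.mp h with ha | hb
  · obtain ⟨g, hg, he⟩ := exists_gamma0_lift (N := N) D.coprime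
      ⟨!![a, b; 0, a⁻¹], by rw [Matrix.det_fin_two_of, mul_inv_cancel₀ ha, mul_zero, sub_zero]⟩
    exact ⟨g, hg, he 0 0, he 0 1⟩
  · obtain ⟨g, hg, he⟩ := exists_gamma0_lift (N := N) D.coprime
      ⟨!![a, b; -b⁻¹, 0], by rw [Matrix.det_fin_two_of, mul_neg, mul_inv_cancel₀ hb]; ring⟩
    exact ⟨g, hg, he 0 0, he 0 1⟩

open Classical in
/-- `eVal` as a function of the upper row modulo `q`. -/
def rowVal (h : genStab (N * q)) (a b : ZMod q) : O :=
  if hab : a = 0 ∧ b = 0 then 0 else eVal D (exists_row_rep D hab).choose h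

theorem eVal_eq_rowVal (h : genStab (N * q)) {g : SL(2, ℤ)} (hg : g ∈ Gamma0 N) :
    eVal D g h = rowVal D h (qEnt q g 0 0) (qEnt q g 0 1) := by
  have hne : ¬(qEnt q g 0 0 = 0 ∧ qEnt q g 0 1 = 0) := fun he => by
    have := qEnt_det q g
    rw [he.1, he.2, zero_mul, zero_mul, sub_zero] at this
    exact zero_ne_one this
  rw [rowVal, dif_neg hne]
  obtain ⟨hm, e0, e1⟩ := (exists_row_rep D hne).choose_spec
  rw [eVal_of_proportional D h hm hg (μ := 1) (by rw [e0, one_mul]) (by rw [e1, one_mul]),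
    map_one, one_mul]

theorem rowVal_smul (h : genStab (N * q)) {μ : ZMod q} (hμ : μ ≠ 0) (a b : ZMod q) :
    rowVal D h (μ * a) (μ * b) = twChar D.θ μ * rowVal D h a b := by
  by_cases hab : a = 0 ∧ b = 0
  · rw [rowVal, rowVal, dif_pos hab, dif_pos (by simp [hab.1, hab.2]), mul_zero]
  have hab' : ¬(μ * a = 0 ∧ μ * b = 0) := fun he =>
    hab ⟨(mul_eq_zero.mp he.1).resolve_left hμ, (mul_eq_zero.mp he.2).resolve_left hμ⟩
  obtain ⟨hm, e0, e1⟩ := (exists_row_rep D hab).choose_spec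
  obtain ⟨hm', e0', e1'⟩ := (exists_row_rep D hab').choose_spec
  rw [rowVal, rowVal, dif_neg hab, dif_neg hab']
  exact eVal_of_proportional D h hm hm' (by rw [e0, e0']) (by rw [e1, e1'])

/-- The multiplier of the root of `Φ_u` at an element of the stabiliser, before applying a
functional. -/
def phiVal (u : (ZMod q)ˣ) (h : genStab (N * q)) : O :=
  ∑ r : ZMod q, D.y (Additive.ofMul (downTwo D.coprime (conjTwo (gRep N q (u : ZMod q) r) h)))

theorem phiVal_eq (u : (ZMod q)ˣ) (h : genStab (N * q)) :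
    phiVal D u h = κ u⁻¹ * ((twChar κ)⁻¹ (-1) * ((q : O) * rowVal D h 1 0)) +
      κ u * ((∑ x : ZMod q, (twChar κ)⁻¹ (x - 1) * twChar D.θ x) *
        ∑ x : ZMod q, rowVal D h x 1) := by
  set B := ∑ x : ZMod q, rowVal D h x 1
  have hq0 : twChar D.θ (0 : ZMod q) = 0 := MulChar.map_zero _
  have hsum : ∀ s : ZMod q, ∑ r : ZMod q, rowVal D h (1 + s * r) s =
      (if s = 0 then (q : O) * rowVal D h 1 0 else 0) + twChar D.θ s * B := by
    intro s
    rcases eq_or_ne s 0 with rfl | hs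
    · simp [hq0]
    rw [if_neg hs, zero_add, Finset.mul_sum]
    refine Fintype.sum_equiv ((Equiv.addLeft (s⁻¹ : ZMod q))) _ _ fun r => ?_
    show rowVal D h (1 + s * r) s = twChar D.θ s * rowVal D h (s⁻¹ + r) 1
    rw [← rowVal_smul D h hs, mul_add, mul_inv_cancel₀ hs, mul_one]
  have hv : ∀ (r v : ZMod q),
      eVal D (ModularGroup.T ^ (v.val : ℤ) * gRep N q (u : ZMod q) r) h =
        rowVal D h (1 + ((u : ZMod q) + v) * r) ((u : ZMod q) + v) := by
    intro r v
    rw [eVal_eq_rowVal D h (mul_mem (zpow_T_mem_gamma0 _) (gRep_mem D.coprime _ _))]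
    obtain ⟨k0, k1, k2, k3⟩ := qEnt_gRep D.coprime (u : ZMod q) r
    have hT0 : qEnt q (ModularGroup.T ^ (v.val : ℤ)) 0 0 = 1 := by
      simp [qEnt, ModularGroup.coe_T_zpow]
    have hT1 : qEnt q (ModularGroup.T ^ (v.val : ℤ)) 0 1 = v := by
      show (((ModularGroup.T ^ (v.val : ℤ) : SL(2, ℤ)) : M₂) 0 1 : ZMod q) = v
      rw [ModularGroup.coe_T_zpow]
      simp
    rw [qEnt_mul, qEnt_mul, k0, k1, k2, k3, hT0, hT1]
    congr 1 <;> ring
  calc phiVal D u h
      = ∑ v : ZMod q, D.wt v *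
          ∑ r : ZMod q, rowVal D h (1 + ((u : ZMod q) + v) * r) ((u : ZMod q) + v) := by
        simp only [phiVal, y_downTwo_eq, hv, Finset.mul_sum]
        exact Finset.sum_comm
    _ = ∑ s : ZMod q, (twChar κ)⁻¹ (s - u) *
          ((if s = 0 then (q : O) * rowVal D h 1 0 else 0) + twChar D.θ s * B) := by
        refine Fintype.sum_equiv (Equiv.addLeft (u : ZMod q)) _ _ fun v => ?_
        rw [hsum]
        show _ = (twChar κ)⁻¹ ((u : ZMod q) + v - u) * _
        rw [add_sub_cancel_left]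
        rfl
    _ = _ := by
        have hu : (twChar κ)⁻¹ (u : ZMod q) = κ u⁻¹ := twChar_inv_coe κ u
        rw [show ∑ s : ZMod q, (twChar κ)⁻¹ (s - u) *
            ((if s = 0 then (q : O) * rowVal D h 1 0 else 0) + twChar D.θ s * B) =
          (twChar κ)⁻¹ (-(u : ZMod q)) * ((q : O) * rowVal D h 1 0) +
            (∑ s : ZMod q, (twChar κ)⁻¹ (s - u) * twChar D.θ s) * B by
          rw [Finset.sum_mul]
          simp only [mul_add, Finset.sum_add_distrib, mul_ite, mul_zero, Finset.sum_ite_eq',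
            Finset.mem_univ, if_true, zero_sub, mul_assoc]]
        rw [← mul_neg_one (u : ZMod q), map_mul, hu, mul_assoc]
        congr 1
        rw [← mul_assoc (κ u)]
        congr 1
        rw [Finset.mul_sum]
        refine (Fintype.sum_equiv (Equiv.mulLeft₀ (u : ZMod q) u.ne_zero) _ _ fun x => ?_).symm
        show κ u * ((twChar κ)⁻¹ (x - 1) * twChar D.θ x) =
          (twChar κ)⁻¹ ((u : ZMod q) * x - u) * twChar D.θ ((u : ZMod q) * x)
        rw [show (u : ZMod q) * x - u = (u : ZMod q) * (x - 1) by ring, map_mul, map_mul, hu,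
          twChar_coe, D.θ_eq]
        have h1 : κ u⁻¹ * κ u = 1 := by rw [← map_mul, inv_mul_cancel, map_one]
        linear_combination (-(κ u) * ((twChar κ)⁻¹ (x - 1) * twChar D.θ x)) * h1

/-- **The relation.** -/
theorem phiVal_rel (u l : (ZMod q)ˣ) (h : genStab (N * q)) :
    phiVal D (u * (l ^ 2)⁻¹) h + phiVal D u h = (κ l + κ l⁻¹) * phiVal D (u * l⁻¹) h := by
  simp only [phiVal_eq, mul_inv, inv_inv, map_mul, map_pow, ← inv_pow]
  have h1 : κ l * κ l⁻¹ = 1 := by rw [← map_mul, mul_inv_cancel, map_one]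
  set A := (twChar κ)⁻¹ (-1) * ((q : O) * rowVal D h 1 0)
  set B := (∑ x : ZMod q, (twChar κ)⁻¹ (x - 1) * twChar D.θ x) * ∑ x : ZMod q, rowVal D h x 1
  linear_combination (-(κ u⁻¹ * A) - κ u * B) * h1

/-- The multiplier of the root of `Φ_u X` when the Kummer character of `X` is `f ∘ y`. -/
theorem IsRoot.phiRoot_mult_y {n : ℕ} [NeZero n] {f : O →+ ZMod n} {X : GF (N * q)} {R : ℂ → ℂ}
    (hX : IsRoot D.coprime n (f.comp D.y) X R) (u : (ZMod q)ˣ) :
    HasMultiplier (Γ := genStab (N * q)) (phiRoot N u R) fun γ =>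
      ZMod.stdAddChar (f (phiVal D u γ)) := by
  convert hX.phiRoot_mult u using 1
  funext γ
  rw [phiVal, map_sum]
  rfl

end Value

end FermatAgent.TWLocal

end
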