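import Fermat.Agent.TWLocal.RelationAux

/-!
The class of the reduction of `Φ_u` of a function attached to a torsion point of `J₀(N q²)`.
-/

set_option autoImplicit false
set_option linter.unusedSectionVars false

noncomputable section

namespace FermatAgent.TWLocal

open ModularCurve IsLocalRing
open FermatAgent.ModCurveTorsion
open scoped MatrixGroups

local notation "Qb" => AlgebraicClosure ℚ
local notation "GQ" => AlgebraicClosure ℚ ≃ₐ[ℚ] AlgebraicClosure ℚ

variable (N : ℕ) {q : ℕ} [NeZero N] [NeZero q] [hq : Fact q.Prime] (n : ℕ) [NeZero n]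
  {A : ValuationSubring Qb} (hA : A.LiesOverPrime q)

/-- Classes modulo the reductions of `n`-th powers of `gOne`-invariant functions. -/
abbrev PQ : Type _ := Cls (ResidueField A) ⧸ powRed (M := N * q) hq.out hA (gOne N q) n

/-- The projection. -/
def pqMk : Cls (ResidueField A) →* PQ N n hA := QuotientGroup.mk' _

variable {N n}

theorem pqMk_eq_one {Y X : GF (N * q)} (hY : Y ≠ 0) (hYi : IsInv (gOne N q) Y) (h : Y ^ n = X) :
    pqMk N n hA (redGF A X) = 1 :=
  (QuotientGroup.eq_one_iff _).mpr (mem_powRed_of_pow_eq hY hYi h)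

variable (N n)

open Classical in
/-- The class attached to a torsion point and `u`. -/
def phiQ (u : (ZMod q)ˣ) (x : JZero (N * q ^ 2)) : Additive (PQ N n hA) :=
  if h : ∃ X, IsRepr N q n x X then Additive.ofMul (pqMk N n hA (redGF A (phi u h.choose))) else 0

variable {N n} {hA} (hNq : N.Coprime q)
include hNq

theorem phiQ_eq (u : (ZMod q)ˣ) {x : JZero (N * q ^ 2)} {X : GF (N * q)}
    (h : IsRepr N q n x X) :
    phiQ N n hA u x = Additive.ofMul (pqMk N n hA (redGF A (phi u X))) := by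
  have hex : ∃ X, IsRepr N q n x X := ⟨X, h⟩
  rw [phiQ, dif_pos hex]
  have hsub := hex.choose_spec.sub h
  rw [sub_self] at hsub
  obtain ⟨Z, hZ, hZi, hZn⟩ := hsub.exists_pow_eq hNq
  have h1 := pqMk_eq_one hA (phi_ne_zero u hZ) (isInv_phi hNq u hZi) (phi_pow u Z n).symm
  rw [hZn, phi_div, redGF_div hq.out hA (phi_ne_zero u hex.choose_spec.ne_zero)
    (phi_ne_zero u h.ne_zero), map_div, div_eq_one] at h1
  rw [h1]

theorem phiQ_add (u : (ZMod q)ˣ) {x y : JZero (N * q ^ 2)} (hx : (n : ℤ) • x = 0)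
    (hy : (n : ℤ) • y = 0) : phiQ N n hA u (x + y) = phiQ N n hA u x + phiQ N n hA u y := by
  obtain ⟨X, hX⟩ := exists_isRepr hx
  obtain ⟨Y, hY⟩ := exists_isRepr hy
  rw [phiQ_eq hNq u hX, phiQ_eq hNq u hY, phiQ_eq hNq u (hX.add hY), phi_mul,
    redGF_mul hq.out hA (phi_ne_zero u hX.ne_zero) (phi_ne_zero u hY.ne_zero), map_mul]
  rfl

theorem phiQ_sub (u : (ZMod q)ˣ) {x y : JZero (N * q ^ 2)} (hx : (n : ℤ) • x = 0)
    (hy : (n : ℤ) • y = 0) : phiQ N n hA u (x - y) = phiQ N n hA u x - phiQ N n hA u y := by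
  rw [eq_sub_iff_add_eq, ← phiQ_add hNq u (by rw [zsmul_sub, hx, hy, sub_zero]) hy, sub_add_cancel]

theorem phiQ_zero (u : (ZMod q)ˣ) : phiQ N n hA u (0 : JZero (N * q ^ 2)) = 0 := by
  have h := phiQ_add (hA := hA) (n := n) hNq u (x := (0 : JZero (N * q ^ 2))) (y := 0)
    (zsmul_zero _) (zsmul_zero _)
  rw [add_zero] at h
  exact left_eq_add.mp h

theorem phiQ_nsmul (u : (ZMod q)ˣ) (e : ℕ) {x : JZero (N * q ^ 2)} (hx : (n : ℤ) • x = 0) :
    phiQ N n hA u (e • x) = e • phiQ N n hA u x := by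
  induction e with
  | zero => rw [zero_nsmul, zero_nsmul, phiQ_zero hNq]
  | succ e ih =>
    rw [succ_nsmul, succ_nsmul, phiQ_add hNq u ?_ hx, ih]
    rw [← natCast_zsmul x e, ← mul_zsmul', mul_zsmul, hx, zsmul_zero]

/-- Inertia shifts the index. -/
theorem phiQ_inertia (u : (ZMod q)ˣ) {τ : GQ} (hτ : τ ∈ A.inertiaSubgroupIn ℚ)
    {x : JZero (N * q ^ 2)} (hx : (n : ℤ) • x = 0) :
    phiQ N n hA u (τ • x) =
      phiQ N n hA ((chiU (N * q) (dvd_mul_left q N) τ)⁻¹ * u) x := by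
  obtain ⟨X, hX⟩ := exists_isRepr hx
  rw [phiQ_eq hNq u (hX.galois τ)]
  rw [phiQ_eq hNq _ hX]
  have hXi := isInv_galGF_gTwo hNq τ (hX.isInv hNq)
  have h1 := galGF_phi hNq τ ((chiU (N * q) (dvd_mul_left q N) τ)⁻¹ * u) hXi
  rw [mul_inv_cancel_left] at h1
  rw [← h1]
  have h2 := redGF_galGF_inertia hq.out hA hτ (phi_ne_zero ((chiU (N * q) (dvd_mul_left q N) τ)⁻¹ * u) hX.ne_zero)
  rw [h2]

end FermatAgent.TWLocal

end
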