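import Fermat.Agent.TWLocal.Mult
import Fermat.Agent.TWLocal.PhiClass

/-!
The consequence of the relation and of the characteristic equation at inertia: if the trace on
inertia is not `κ u + κ u⁻¹`, the reductions of all `Φ_u` of the functions attached to points with
Kummer character `g₀ ∘ y`, for `g₀` killing the maximal ideal, are `p`-th powers.
-/

set_option autoImplicit false
set_option linter.unusedSectionVars false
set_option maxHeartbeats 400000

noncomputable section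

namespace FermatAgent.TWLocal

open UpperHalfPlane hiding I
open ModularCurve IsLocalRing
open FermatAgent.ModCurveTorsion
open FermatAgent.Periods (mob mob_mul)
open scoped MatrixGroups

local notation "Qb" => AlgebraicClosure ℚ
local notation "GQ" => AlgebraicClosure ℚ ≃ₐ[ℚ] AlgebraicClosure ℚ
local notation "ℍo" => UpperHalfPlane.upperHalfPlaneSet

variable {O : Type} [CommRing O] [IsDomain O] [IsDiscreteValuationRing O] [CharZero O]
  {p N q : ℕ} [hp : Fact p.Prime] [NeZero N] [NeZero q] [hq : Fact q.Prime]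
  {ρ : GaloisRepAdic O} {κ : (ZMod q)ˣ →* O} (D : TwistData O p N q ρ κ)
  {A : ValuationSubring Qb} (hA : A.LiesOverPrime q) {k : ℕ}

include D in
theorem TwistData.not_dvd_finite :
    ({l : ℕ | l ∈ D.S} ∪ {l | l ∣ N * q ^ 2}).Finite :=
  D.S.finite_toSet.union (Set.Finite.subset (Set.finite_le_nat (N * q ^ 2)) fun _ hr =>
    Nat.le_of_dvd (NeZero.pos _) hr)

theorem zsmul_gal_kClass (σ : GQ) (f : O →+ ZMod (p ^ k)) :
    ((p ^ k : ℕ) : ℤ) • (σ • kClass D.y f) = 0 := by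
  rw [← gal_smul_zsmul, zsmul_kClass D.y_killsEP, gal_smul_zero]

/-- The characteristic equation of an element of inertia on the conjugates. -/
theorem quad_inertia (hA : A.LiesOverPrime q) {τ : GQ} (hτ : τ ∈ A.inertiaSubgroupIn ℚ) (σ : GQ)
    (f : O →+ ZMod (p ^ k)) :
    τ • τ • σ • kClass D.y f -
      τ • σ • kClass D.y (f.comp (AddMonoidHom.mulLeft (LinearMap.trace O ρ.V (ρ.ρ τ)))) +
      σ • kClass D.y f = 0 := by
  have hn : ∀ x : ZMod (p ^ k), (p ^ k) • x = 0 := fun x => ZModModule.char_nsmul_eq_zero _ x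
  have htr : LinearMap.trace O ρ.V (ρ.ρ (σ⁻¹ * τ * σ)) = LinearMap.trace O ρ.V (ρ.ρ τ) := by
    rw [map_mul, LinearMap.trace_mul_comm, ← map_mul, ← mul_assoc, mul_inv_cancel, one_mul]
  have hdet : LinearMap.det (ρ.ρ (σ⁻¹ * τ * σ)) = LinearMap.det (ρ.ρ τ) := by
    rw [map_mul, map_mul, map_mul, map_mul, mul_right_comm,
      ← map_mul LinearMap.det (ρ.ρ σ⁻¹), ← map_mul ρ.ρ, inv_mul_cancel, map_one, map_one, one_mul]
  have hd := dvd_det_sub_one (ρ := ρ) D.not_dvd_finite (a := D.a)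
    (fun l hl hlS => D.charpoly_eq l hl (fun h => hlS (Or.inr h)) fun h => hlS (Or.inl h))
    hq.out D.q_ne hA hτ k
  have h := quad_kClass D.y_killsEP (S := D.S) D.y_eigen D.charpoly_eq (σ⁻¹ * τ * σ) f
  rw [htr, hdet, comp_mulLeft_congr f hn hd,
    show f.comp (AddMonoidHom.mulLeft (1 : O)) = f from AddMonoidHom.ext fun x => by simp] at h
  have h' := congrArg (σ • ·) h
  simp only [smul_add, smul_sub, smul_smul, gal_smul_zero] at h'
  simp only [← mul_assoc, mul_inv_cancel, one_mul] at h'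
  simpa only [smul_smul, mul_assoc, mul_inv_cancel_left] using h'

/-- The first relation, on functions. -/
theorem exists_pow_eq_phi_rel (u l : (ZMod q)ˣ) (f : O →+ ZMod (p ^ k))
    {X X' : GF (N * q)} (hX : IsRepr N q (p ^ k) (kClass D.y f) X)
    (hX' : IsRepr N q (p ^ k)
      (kClass D.y (f.comp (AddMonoidHom.mulLeft (κ l + κ l⁻¹)))) X') :
    ∃ Y : GF (N * q), Y ≠ 0 ∧ IsInv (gOne N q) Y ∧ Y ^ (p ^ k) =
      (phi (u * (l ^ 2)⁻¹) X * phi u X / phi (u * l⁻¹) X') ^ stabIndex (N * q) := by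
  obtain ⟨R, hR⟩ := hX.exists_isRoot D.coprime (isKummerChar_kClass D.y_killsEP f)
  obtain ⟨R', hR'⟩ := hX'.exists_isRoot D.coprime (isKummerChar_kClass D.y_killsEP _)
  set Z := phi (u * (l ^ 2)⁻¹) X * phi u X / phi (u * l⁻¹) X' with hZ
  set G := phiRoot N (u * (l ^ 2)⁻¹) R * phiRoot N u R * (phiRoot N (u * l⁻¹) R')⁻¹ with hG
  have hGn : GermEq (G ^ (p ^ k)) (evG Z) := by
    rw [hG, hZ, mul_pow, mul_pow, inv_pow, div_eq_mul_inv]
    refine GermEq.trans (((hR.phiRoot_pow _).mul (hR.phiRoot_pow _)).trans (evG_mul _ _).symm |>.mul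
      (GermEq.trans (fun z hz => ?_) (evG_inv (phi_ne_zero _ hX'.ne_zero)).symm))
      (evG_mul _ _).symm
    exact (hR'.phiRoot_pow (u * l⁻¹) z hz).inv
  have hGm : MeromorphicOn G ℍo :=
    ((hR.phiRoot_mero _).mul (hR.phiRoot_mero _)).mul (hR'.phiRoot_mero _).inv
  have hinv : ∀ γ ∈ genStab (N * q), GermEq (G ∘ mob (γ : Matrix (Fin 2) (Fin 2) ℤ)) G := by
    intro γ hγ z hz
    filter_upwards [IsRoot.phiRoot_mult_y D hR (u * (l ^ 2)⁻¹) ⟨γ, hγ⟩ z hz,
      IsRoot.phiRoot_mult_y D hR u ⟨γ, hγ⟩ z hz,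
      IsRoot.phiRoot_mult_y D hR' (u * l⁻¹) ⟨γ, hγ⟩ z hz] with w h1 h2 h3
    simp only [Function.comp_apply] at h1 h2 h3
    simp only [hG, Function.comp_apply, Pi.mul_apply, Pi.inv_apply, h1, h2, h3, mul_inv]
    rw [AddMonoidHom.comp_apply, AddMonoidHom.coe_mulLeft, ← phiVal_rel, map_add,
      AddChar.map_add_eq_mul]
    have ne : ∀ a : ZMod (p ^ k), ZMod.stdAddChar a ≠ 0 := fun a =>
      (AddChar.val_isUnit _ a).ne_zero
    field_simp [ne]
  obtain ⟨Y, hY, -⟩ := exists_evG_eq (NeZero.ne (p ^ k)) hGm hGn hinv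
  have hZ0 : Z ≠ 0 := div_ne_zero (mul_ne_zero (phi_ne_zero _ hX.ne_zero)
    (phi_ne_zero _ hX.ne_zero)) (phi_ne_zero _ hX'.ne_zero)
  have hY0 : Y ≠ 0 := fun e => hZ0 (by rw [← hY, e, zero_pow (NeZero.ne _)])
  have hZi : IsInv (gOne N q) Z :=
    ((isInv_phi D.coprime _ (hX.isInv D.coprime)).mul
      (isInv_phi D.coprime _ (hX.isInv D.coprime))).div
      (isInv_phi D.coprime _ (hX'.isInv D.coprime))
  refine ⟨Y ^ stabIndex (N * q), pow_ne_zero _ hY0,
    isInv_pow_stabIndex (NeZero.ne (p ^ k)) hY0 (by rw [hY]; exact hZi), ?_⟩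
  rw [← pow_mul, ← hY, ← pow_mul, mul_comm (stabIndex (N * q)) (p ^ k)]

/-- The first relation, on classes. -/
theorem phiQ_rel (σ : GQ) (u l : (ZMod q)ˣ) (f : O →+ ZMod (p ^ k)) :
    stabIndex (N * q) •
      (phiQ N (p ^ k) hA (u * (l ^ 2)⁻¹) (σ • kClass D.y f) +
        phiQ N (p ^ k) hA u (σ • kClass D.y f) -
        phiQ N (p ^ k) hA (u * l⁻¹)
          (σ • kClass D.y (f.comp (AddMonoidHom.mulLeft (κ l + κ l⁻¹))))) = 0 := by
  obtain ⟨X, hX⟩ := exists_isRepr (zsmul_kClass D.y_killsEP f)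
  obtain ⟨X', hX'⟩ := exists_isRepr
    (zsmul_kClass D.y_killsEP (f.comp (AddMonoidHom.mulLeft (κ l + κ l⁻¹))))
  set c := chiU (N * q) (dvd_mul_left q N) σ with hc
  obtain ⟨Y, hY, hYi, hYn⟩ := exists_pow_eq_phi_rel D (c⁻¹ * u) l f hX hX'
  have hXi := isInv_galGF_gTwo D.coprime σ (hX.isInv D.coprime)
  have hXi' := isInv_galGF_gTwo D.coprime σ (hX'.isInv D.coprime)
  have h := pqMk_eq_one hA (n := p ^ k) (Y := galGF σ Y) ((map_ne_zero _).mpr hY)
    (isInv_galGF_gOne D.coprime σ hYi) (map_pow (galGF σ) Y (p ^ k)).symm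
  rw [hYn] at h
  rw [map_pow, map_div₀, map_mul, galGF_phi D.coprime σ _ hXi, galGF_phi D.coprime σ _ hXi,
    galGF_phi D.coprime σ _ hXi', ← hc, mul_inv_cancel_left,
    show c * (c⁻¹ * u * (l ^ 2)⁻¹) = u * (l ^ 2)⁻¹ by group,
    show c * (c⁻¹ * u * l⁻¹) = u * l⁻¹ by group] at h
  have h1 := phi_ne_zero (u * (l ^ 2)⁻¹) (hX.galois σ).ne_zero
  have h2 := phi_ne_zero u (hX.galois σ).ne_zero
  have h3 := phi_ne_zero (u * l⁻¹) (hX'.galois σ).ne_zero
  rw [redGF_pow hq.out hA (div_ne_zero (mul_ne_zero h1 h2) h3),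
    redGF_div hq.out hA (mul_ne_zero h1 h2) h3, redGF_mul hq.out hA h1 h2, map_pow, map_div,
    map_mul] at h
  rw [phiQ_eq D.coprime _ (hX.galois σ), phiQ_eq D.coprime _ (hX.galois σ),
    phiQ_eq D.coprime _ (hX'.galois σ), ← ofMul_mul, ← ofMul_div, ← ofMul_pow, h]
  rfl

/-- Both relations together. -/
theorem phiQ_smul_eq_zero {τ : GQ} (hτ : τ ∈ A.inertiaSubgroupIn ℚ) (σ : GQ) (u : (ZMod q)ˣ)
    (f : O →+ ZMod (p ^ k)) :
    phiQ N (p ^ k) hA u (σ • kClass D.y (f.comp (AddMonoidHom.mulLeft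
      ((stabIndex (N * q) : O) * (LinearMap.trace O ρ.V (ρ.ρ τ) -
        (κ (chiU (N * q) (dvd_mul_left q N) τ) + κ (chiU (N * q) (dvd_mul_left q N) τ)⁻¹)))))) =
      0 := by
  set l := chiU (N * q) (dvd_mul_left q N) τ with hl
  set t := LinearMap.trace O ρ.V (ρ.ρ τ)
  set c' := κ l + κ l⁻¹
  have htor := fun (s : GQ) (g : O →+ ZMod (p ^ k)) => zsmul_gal_kClass D s g
  have htor' : ∀ (s : GQ) (g : O →+ ZMod (p ^ k)),
      ((p ^ k : ℕ) : ℤ) • (τ • s • kClass D.y g) = 0 := fun s g => by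
    rw [smul_smul]; exact htor _ g
  -- the equation at inertia, on classes, at `u * l`
  have hb := congrArg (phiQ N (p ^ k) hA (u * l)) (quad_inertia D hA hτ σ f)
  rw [phiQ_zero D.coprime, phiQ_add D.coprime _ ?_ (htor σ f),
    phiQ_sub D.coprime _ ?_ (htor' σ _)] at hb
  rotate_left
  · rw [smul_smul τ τ, smul_smul]; exact htor _ f
  · rw [zsmul_sub, htor', smul_smul τ τ, smul_smul, htor, sub_zero]
  rw [phiQ_inertia D.coprime _ hτ (htor' σ f), phiQ_inertia D.coprime _ hτ (htor σ f),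
    phiQ_inertia D.coprime _ hτ (htor σ _), ← hl] at hb
  have ha := phiQ_rel D hA σ (u * l) l f
  rw [show u * l * (l ^ 2)⁻¹ = l⁻¹ * (l⁻¹ * (u * l)) by
      rw [pow_two]; simp [mul_comm],
    show u * l * l⁻¹ = u by group] at ha
  rw [show l⁻¹ * (u * l) = u by rw [mul_comm u, inv_mul_cancel_left]] at hb ha
  have hkey : stabIndex (N * q) •
      (phiQ N (p ^ k) hA u (σ • kClass D.y (f.comp (AddMonoidHom.mulLeft t))) -
        phiQ N (p ^ k) hA u (σ • kClass D.y (f.comp (AddMonoidHom.mulLeft c')))) = 0 := by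
    rw [sub_add_eq_add_sub, sub_eq_zero] at hb
    rw [← hb]
    exact ha
  have hsum := kClass_mulLeft_add D.y_killsEP f (t - c') c'
  rw [sub_add_cancel] at hsum
  rw [hsum, smul_add, phiQ_add D.coprime _ (htor σ _) (htor σ _), add_sub_cancel_right,
    ← phiQ_nsmul D.coprime _ _ (htor σ _), smul_comm (stabIndex (N * q)) σ,
    ← kClass_mulLeft_natCast D.y_killsEP (f.comp (AddMonoidHom.mulLeft (t - c')))] at hkey
  rw [← hkey, AddMonoidHom.comp_assoc]
  congr 4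
  exact AddMonoidHom.ext fun x => by
    show (stabIndex (N * q) : O) * (t - c') * x = (t - c') * ((stabIndex (N * q) : O) * x)
    ring

/-- **The relation.** If the trace at `τ` is not `κ l + κ l⁻¹`, then for every `g₀` killing the
maximal ideal the classes attached to `g₀ ∘ y` vanish. -/
theorem phiQ_eq_zero_of_trace_ne {τ : GQ} (hτ : τ ∈ A.inertiaSubgroupIn ℚ)
    (hne : LinearMap.trace O ρ.V (ρ.ρ τ) ≠
      κ (chiU (N * q) (dvd_mul_left q N) τ) + κ (chiU (N * q) (dvd_mul_left q N) τ)⁻¹)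
    (σ : GQ) (u : (ZMod q)ˣ) (g₀ : O →+ ZMod (p ^ 1)) (hg₀ : ∀ b ∈ maximalIdeal O, g₀ b = 0) :
    phiQ N (p ^ 1) hA u (σ • kClass D.y g₀) = 0 := by
  set x : O := (stabIndex (N * q) : O) * (LinearMap.trace O ρ.V (ρ.ρ τ) -
    (κ (chiU (N * q) (dvd_mul_left q N) τ) + κ (chiU (N * q) (dvd_mul_left q N) τ)⁻¹)) with hx
  have hx0 : x ≠ 0 := mul_ne_zero (Nat.cast_ne_zero.mpr stabIndex_ne_zero) (sub_ne_zero.mpr hne)
  obtain ⟨π, hπ⟩ := IsDiscreteValuationRing.exists_irreducible O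
  obtain ⟨K, w, hw⟩ := IsDiscreteValuationRing.eq_unit_mul_pow_irreducible hx0 hπ
  have hdiv : ∀ b c : O, x * b = (p ^ (K + 1)) • c → b ∈ maximalIdeal O := by
    intro b c hbc
    by_contra hb
    have hb' : IsUnit b := by simpa using hb
    have hmem : x ∈ maximalIdeal O ^ (K + 1) := by
      rw [← (Ideal.mul_unit_mem_iff_mem _ hb'), hbc, nsmul_eq_mul, Nat.cast_pow]
      exact Ideal.mul_mem_right _ _ (Ideal.pow_mem_pow D.p_mem _)
    rw [hπ.maximalIdeal_eq, Ideal.span_singleton_pow, Ideal.mem_span_singleton, hw,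
      w.isUnit.dvd_mul_left, pow_dvd_pow_iff hπ.ne_zero hπ.not_isUnit] at hmem
    omega
  let ι : ZMod (p ^ 1) →+ ZMod (p ^ (K + 1)) := ZMod.lift (p ^ 1)
    ⟨zmultiplesHom _ ((p ^ K : ℕ) : ZMod (p ^ (K + 1))), by
      show ((p ^ 1 : ℕ) : ℤ) • ((p ^ K : ℕ) : ZMod (p ^ (K + 1))) = 0
      rw [natCast_zsmul, nsmul_eq_mul, ← Nat.cast_mul, ← pow_add, add_comm, ZMod.natCast_self]⟩
  have hιchar : ∀ a, ZMod.stdAddChar (ι a) = ZMod.stdAddChar a := fun a => by
    obtain ⟨m, rfl⟩ := ZMod.intCast_surjective a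
    have hm : ι (m : ZMod (p ^ 1)) = ((m * (p ^ K : ℕ) : ℤ) : ZMod (p ^ (K + 1))) := by
      simp [ι]
    rw [hm, ZMod.stdAddChar_coe, ZMod.stdAddChar_coe]
    congr 1
    have hp0 : (p : ℂ) ≠ 0 := Nat.cast_ne_zero.mpr hp.out.ne_zero
    push_cast
    rw [pow_succ]
    field_simp
  obtain ⟨g, hg⟩ := exists_zmod_extension (p ^ (K + 1)) (AddMonoidHom.mulLeft x) (ι.comp g₀)
    fun b c hbc => by rw [AddMonoidHom.comp_apply, hg₀ b (hdiv b c hbc), map_zero]
  have hgι : g.comp (AddMonoidHom.mulLeft x) = ι.comp g₀ := AddMonoidHom.ext hg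
  have h0 := phiQ_smul_eq_zero D hA hτ σ u g
  rw [← hx, hgι] at h0
  obtain ⟨X, hX⟩ := exists_isRepr (zsmul_kClass D.y_killsEP (ι.comp g₀))
  obtain ⟨X₁, hX₁⟩ := exists_isRepr (zsmul_kClass D.y_killsEP g₀)
  obtain ⟨R, hR⟩ := hX.exists_isRoot D.coprime (isKummerChar_kClass D.y_killsEP _)
  obtain ⟨R₁, hR₁⟩ := hX₁.exists_isRoot D.coprime (isKummerChar_kClass D.y_killsEP g₀)
  have hR₁' : IsRoot D.coprime (p ^ (K + 1)) ((ι.comp g₀).comp D.y) (X₁ ^ p ^ K) R₁ :=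
    { ne_zero := pow_ne_zero _ hR₁.ne_zero
      mero := hR₁.mero
      pow_eq := by
        rw [show p ^ (K + 1) = p ^ 1 * p ^ K by ring, pow_mul]
        exact (hR₁.pow_eq.pow (p ^ K)).trans (evG_pow _ _).symm
      mult := by
        convert hR₁.mult using 1
        funext γ
        exact hιchar _ }
  obtain ⟨Z, hZ, hZi, hZn⟩ := hR.exists_pow_eq hR₁'
  have hq' := hq.out
  have hX0 := hX.ne_zero
  have hX₁0 := hX₁.ne_zero
  rw [phiQ_eq D.coprime u (hX.galois σ)] at h0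
  rw [phiQ_eq D.coprime u (hX₁.galois σ)]
  obtain ⟨Y, hY, hYi, hYn⟩ := (QuotientGroup.eq_one_iff _).mp (ofMul_eq_zero.mp h0)
  rw [ofMul_eq_zero]
  refine (QuotientGroup.eq_one_iff _).mpr ?_
  have hV := phi_ne_zero u ((map_ne_zero (galGF (M := N * q) σ)).mpr hX₁0)
  have hW := phi_ne_zero u ((map_ne_zero (galGF (M := N * q) σ)).mpr hZ)
  have hWi := isInv_phi D.coprime u (isInv_galGF_gTwo D.coprime σ hZi)
  refine ⟨Y / phi u (galGF σ Z), div_ne_zero hY hW, hYi.div hWi, ?_⟩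
  have hXeq : galGF σ X = galGF σ Z ^ p ^ (K + 1) * galGF σ X₁ ^ p ^ K := by
    rw [← map_pow, ← map_pow, ← map_mul, hZn, div_mul_cancel₀ _ (pow_ne_zero _ hX₁0)]
  rw [hXeq, phi_mul, phi_pow, phi_pow, redGF_mul hq' hA (pow_ne_zero _ hW) (pow_ne_zero _ hV),
    redGF_pow hq' hA hW, redGF_pow hq' hA hV] at hYn
  rw [redGF_div hq' hA hY hW, pow_one]
  have := Igusa.Down.isAlgClosed_residueField A
  refine div_eq_one.mp (cls_eq_one_of_pow_eq_one (pow_ne_zero K hp.out.ne_zero) ?_)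
  rw [div_pow, ← pow_mul, ← pow_succ', div_pow, ← hYn, mul_div_cancel_left, div_self']

end FermatAgent.TWLocal

end
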