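import Fermat.Agent.TWLocal.Relation
import Fermat.Agent.TWLocal.Embed

/-!
`Φ_u` of the function attached to a point with character `g₀ ∘ y`, in terms of level `N` functions,
and its consequence for the reduction.
-/

set_option autoImplicit false
set_option linter.unusedSectionVars false
set_option maxHeartbeats 800000

noncomputable section

namespace FermatAgent.TWLocal

open UpperHalfPlane hiding I
open Filter Topology
open ModularCurve AlgebraicCurve CongruenceSubgroup IsLocalRing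
open FermatAgent.ModCurveTorsion
open FermatAgent.Periods (mob mob_mul tRep diagRep upperRep tCorr heckeHomT)
open scoped MatrixGroups

local notation "M₂" => Matrix (Fin 2) (Fin 2) ℤ
local notation "Qb" => AlgebraicClosure ℚ
local notation "GQ" => AlgebraicClosure ℚ ≃ₐ[ℚ] AlgebraicClosure ℚ
local notation "ℍo" => UpperHalfPlane.upperHalfPlaneSet

variable {N q : ℕ} [NeZero N] [NeZero q] [hq : Fact q.Prime]

section Lines

variable (N q) in
open Classical in
/-- A lift of `!![0, 1; -1, 0]` to `Γ₀(N)`. -/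
def wLift : SL(2, ℤ) :=
  if h : N.Coprime q then
    (exists_gamma0_lift h ⟨!![0, 1; -1, 0], by rw [Matrix.det_fin_two_of]; ring⟩).choose
  else 1

theorem wLift_spec (hNq : N.Coprime q) :
    wLift N q ∈ Gamma0 N ∧ qEnt q (wLift N q) 0 0 = 0 ∧ qEnt q (wLift N q) 0 1 = 1 ∧
      qEnt q (wLift N q) 1 0 = -1 ∧ qEnt q (wLift N q) 1 1 = 0 := by
  rw [wLift, dif_pos hNq]
  have h := (exists_gamma0_lift hNq
    ⟨!![0, 1; -1, 0], by rw [Matrix.det_fin_two_of]; ring⟩).choose_spec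
  exact ⟨h.1, h.2 0 0, h.2 0 1, h.2 1 0, h.2 1 1⟩

variable (N) in
/-- Representatives of the classes of upper rows. -/
def lineRep : Option (ZMod q) → SL(2, ℤ)
  | none => wLift N q
  | some b => ModularGroup.T ^ (b.val : ℤ)

/-- The class of an upper row. -/
def lineOf (a b : ZMod q) : Option (ZMod q) := if a = 0 then none else some (b / a)

theorem smulGF_eq_lineRep (hNq : N.Coprime q) {X : GF (N * q)} (hX : IsInv (gUp N q) X)
    {g : SL(2, ℤ)} (hg : g ∈ Gamma0 N) :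
    smulGF g X = smulGF (lineRep N (lineOf (qEnt q g 0 0) (qEnt q g 0 1))) X := by
  obtain ⟨hw, w00, w01, w10, w11⟩ := wLift_spec (N := N) hNq
  by_cases h0 : qEnt q g 0 0 = 0
  · rw [lineOf, if_pos h0]
    refine smulGF_mul_eq_of_isInv hX ⟨mul_mem hg (inv_mem hw), ?_⟩
    show qEnt q (g * (wLift N q)⁻¹) 0 1 = 0
    rw [qEnt_mul, (qEnt_inv q _).2.1, (qEnt_inv q _).2.2.2, h0, w00]
    ring
  · rw [lineOf, if_neg h0]
    set b := qEnt q g 0 1 / qEnt q g 0 0 with hb
    refine smulGF_mul_eq_of_isInv hX ⟨mul_mem hg (inv_mem (zpow_T_mem_gamma0 _)), ?_⟩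
    show qEnt q (g * (ModularGroup.T ^ (b.val : ℤ))⁻¹) 0 1 = 0
    rw [qEnt_mul, ← zpow_neg, qEnt, qEnt, qEnt, qEnt, ModularGroup.coe_T_zpow]
    simp
    rw [hb]
    field_simp
    simp [qEnt]

/-- The product of the translates over all classes. -/
def lineProd (X : GF (N * q)) : GF (N * q) := ∏ i : Option (ZMod q), smulGF (lineRep N i) X

theorem lineRep_some_zero : lineRep N (some (0 : ZMod q)) = 1 := by simp [lineRep]

theorem lineProd_eq_of_inj {X : GF (N * q)} (e : ZMod q → Option (ZMod q))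
    (he : Function.Injective e) (h0 : ∀ r, e r ≠ some 0) :
    (∏ r : ZMod q, smulGF (lineRep N (e r)) X) * X = lineProd X := by
  classical
  have himage : Finset.univ.image e = Finset.univ.erase (some 0) := by
    refine Finset.eq_of_subset_of_card_le (fun x hx => ?_) ?_
    · obtain ⟨r, -, rfl⟩ := Finset.mem_image.mp hx
      exact Finset.mem_erase.mpr ⟨h0 r, Finset.mem_univ _⟩
    · rw [Finset.card_image_of_injective _ he, Finset.card_erase_of_mem (Finset.mem_univ _)]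
      simp
  rw [lineProd, ← Finset.prod_erase_mul _ _ (Finset.mem_univ (some (0 : ZMod q))), ← himage,
    Finset.prod_image he.injOn, lineRep_some_zero, smulGF_one]

theorem phi_mul_eq_lineProd (hNq : N.Coprime q) (u : (ZMod q)ˣ) {X : GF (N * q)}
    (hX : IsInv (gUp N q) X) :
    phi u X * X = lineProd X ∧ phi u (smulGF (wLift N q) X) * X = lineProd X := by
  obtain ⟨hw, w00, w01, w10, w11⟩ := wLift_spec (N := N) hNq
  have hu := u.ne_zero
  constructor
  · rw [← lineProd_eq_of_inj (X := X) (fun r => lineOf (1 + (u : ZMod q) * r) (u : ZMod q)) ?_ ?_]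
    · refine congrArg (· * X) (Finset.prod_congr rfl fun r _ => ?_)
      obtain ⟨k0, k1, -, -⟩ := qEnt_gRep hNq (u : ZMod q) r
      rw [smulGF_eq_lineRep hNq hX (gRep_mem hNq _ _), k0, k1]
    · intro r r' h
      simp only [lineOf] at h
      split_ifs at h with h1 h2 h2
      · exact mul_left_cancel₀ hu (add_left_cancel (h1.trans h2.symm))
      · rw [Option.some_inj, div_eq_div_iff h1 h2] at h
        exact (mul_left_cancel₀ hu (add_left_cancel (mul_left_cancel₀ hu h))).symm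
    · intro r h
      simp only [lineOf] at h
      split_ifs at h with h1
      rw [Option.some_inj, div_eq_zero_iff] at h
      exact h.elim hu h1
  · rw [← lineProd_eq_of_inj (X := X) (fun r => lineOf r (1 : ZMod q)) ?_ ?_]
    · refine congrArg (· * X) (Finset.prod_congr rfl fun r _ => ?_)
      obtain ⟨-, -, k2, k3⟩ := qEnt_gRep hNq (u : ZMod q) r
      rw [← smulGF_mul, smulGF_eq_lineRep hNq hX (mul_mem hw (gRep_mem hNq _ _)), qEnt_mul,
        qEnt_mul, w00, w01, k2, k3, zero_mul, zero_mul, one_mul, one_mul, zero_add, zero_add]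
    · intro r r' h
      simp only [lineOf] at h
      split_ifs at h with h1 h2 h2
      · exact h1.trans h2.symm
      · simpa using h
    · intro r h
      simp only [lineOf] at h
      split_ifs at h with h1
      simp [h1] at h

theorem eC_eq_smulGF (hNq : N.Coprime q) (x : modularFunctionFieldBar N) :
    eC N q x = smulGF (wLift N q) (eB N q x) := by
  obtain ⟨hw, w00, -, -, -⟩ := wLift_spec (N := N) hNq
  refine evG_injective ((evG_eC x).trans (GermEq.symm ?_))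
  refine (evG_smulGF _ _).trans (((evG_eB x).comp_mob (by simp)).trans ?_)
  set w := wLift N q
  obtain ⟨t, ht⟩ : (q : ℤ) ∣ w 0 0 := (ZMod.intCast_zmod_eq_zero_iff_dvd _ _).mp w00
  have hdet := w.det_coe
  rw [Matrix.det_fin_two] at hdet
  set δ : Gamma0 N := ⟨⟨!![t, w 0 1; w 1 0, (q : ℤ) * w 1 1], by
    rw [Matrix.det_fin_two_of]; linear_combination hdet - w 1 1 * ht⟩, Gamma0_mem.mpr (by
      simpa using Gamma0_mem.mp hw)⟩
  refine (germEq_comp_mob_mul _ (dnQ q) (B := (w : M₂)) (by simp)).symm.trans ?_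
  rw [show dnQ q * (w : M₂) = ((δ : SL(2, ℤ)) : M₂) * upQ q by
    ext i j
    fin_cases i <;> fin_cases j <;>
      simp [δ, dnQ, upQ, Matrix.mul_apply, Fin.sum_univ_two, ht, mul_comm]]
  refine (germEq_comp_mob_mul _ _ det_upQ_pos.1.ne').trans ?_
  exact (evB_invariant x δ).comp_mob det_upQ_pos.1

theorem dnQ_mul_T_zpow (j : ℤ) :
    dnQ q * ((ModularGroup.T ^ j : SL(2, ℤ)) : M₂) = upperRep q j := by
  rw [ModularGroup.coe_T_zpow]
  ext i k
  fin_cases i <;> fin_cases k <;> simp [dnQ, upperRep, Matrix.mul_apply, Fin.sum_univ_two]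

theorem evG_lineProd_eB (hNq : N.Coprime q) (x : modularFunctionFieldBar N) :
    GermEq (evG (lineProd (eB N q x))) (∏ i : Option (ZMod q), evB x ∘ mob (tRep q i)) := by
  refine (evG_prod _ _).trans fun z hz => ?_
  have h : ∀ i : Option (ZMod q),
      evG (smulGF (lineRep N i) (eB N q x)) =ᶠ[𝓝[≠] z] evB x ∘ mob (tRep q i) := by
    rintro (_ | j)
    · rw [lineRep, ← eC_eq_smulGF hNq]
      exact evG_eC x z hz
    · refine ((evG_smulGF _ _).trans (((evG_eB x).comp_mob (by simp)).trans ?_)) z hz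
      refine (germEq_comp_mob_mul _ (dnQ q) (by simp)).symm.trans ?_
      rw [lineRep, dnQ_mul_T_zpow]
      exact GermEq.refl _
  filter_upwards [Filter.eventually_all.mpr h] with w hw
  simp only [Finset.prod_apply]
  exact Finset.prod_congr rfl fun i _ => hw i

end Lines

/-! ### Roots -/

variable {O : Type} [CommRing O] [IsDomain O] [IsDiscreteValuationRing O]
  {p : ℕ} [hp : Fact p.Prime] {ρ : GaloisRepAdic O} {κ : (ZMod q)ˣ →* O}
  (D : TwistData O p N q ρ κ) {g : ResidueField O →+ ZMod (p ^ 1)}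
  {f f' : modularFunctionFieldBar N}

/-- The point of level `N` attached to `g`. -/
abbrev wPt (g : ResidueField O →+ ZMod (p ^ 1)) : JZero N := kClass D.x₀ g

/-- The product of the translates of `f (z / q)` is `f'` up to a `p`-th power. -/
theorem exists_lineProd_eq (hf : IsReprN N (p ^ 1) (wPt D g) f)
    (hf' : IsReprN N (p ^ 1) (wPt D (g.comp (AddMonoidHom.mulLeft D.c))) f') :
    ∃ Y : GF (N * q), Y ≠ 0 ∧ IsInv (Gamma0 N) Y ∧
      Y ^ (p ^ 1) * eA N q f' = lineProd (eB N q f) := by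
  have hNq := D.coprime
  obtain ⟨G, hG, hGn, hGm⟩ := hf.exists_root (isKummerChar_kClass D.x₀_killsEP g)
  obtain ⟨G', hG', hGn', hGm'⟩ := hf'.exists_root (isKummerChar_kClass D.x₀_killsEP _)
  set C := tCorr N D.q_prime D.q_not_dvd
  have hC : ∀ i, 0 < (C.rep i).det := fun i => by
    show 0 < (tRep q i).det
    rw [Periods.det_tRep]; exact_mod_cast hq.out.pos
  set R : ℂ → ℂ := (∏ i, G ∘ mob (C.rep i)) * G'⁻¹ with hR
  have hRm : MeromorphicOn R ℍo :=
    (MeromorphicOn.prod fun i _ => meromorphicOn_comp_mob hG (hC i)).mul hG'.inv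
  set X : GF (N * q) := lineProd (eB N q f) / eA N q f' with hX
  have hA' : eA N q f' ≠ 0 := (map_ne_zero _).mpr hf'.ne_zero
  have hL : lineProd (eB N q f) ≠ 0 :=
    Finset.prod_ne_zero_iff.mpr fun i _ => (map_ne_zero _).mpr ((map_ne_zero _).mpr hf.ne_zero)
  have hRn : GermEq (R ^ (p ^ 1)) (evG X) := by
    rw [hR, mul_pow, inv_pow, hX, div_eq_mul_inv]
    refine GermEq.trans ?_ (evG_mul _ _).symm
    refine GermEq.mul (fun z hz => ?_) (GermEq.trans ?_ (evG_inv hA').symm)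
    · refine EventuallyEq.trans ?_ ((evG_lineProd_eB hNq f).symm z hz)
      have h : ∀ i, ((G ∘ mob (C.rep i)) ^ (p ^ 1)) =ᶠ[𝓝[≠] z] evB f ∘ mob (tRep q i) :=
        fun i => (hGn.comp_mob (hC i)) z hz
      filter_upwards [Filter.eventually_all.mpr h] with w hw
      simp only [Pi.pow_apply, Finset.prod_apply, ← Finset.prod_pow]
      exact Finset.prod_congr rfl fun i _ => hw i
    · intro z hz
      exact ((hGn'.trans (evG_eA f').symm) z hz).inv
  have hinv : ∀ γ ∈ Gamma0 N, GermEq (R ∘ mob (γ : M₂)) R := by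
    intro γ hγ z hz
    filter_upwards [hGm.prod_corr C hC ⟨γ, hγ⟩ z hz, hGm' ⟨γ, hγ⟩ z hz] with w h1 h2
    simp only [Function.comp_apply] at h1 h2
    simp only [hR, Function.comp_apply, Pi.mul_apply, Pi.inv_apply, h1, h2, mul_inv]
    have hchar : ∏ i, ZMod.stdAddChar ((g.comp D.x₀) (Additive.ofMul (C.move ⟨γ, hγ⟩ i))) =
        ZMod.stdAddChar (((g.comp (AddMonoidHom.mulLeft D.c)).comp D.x₀)
          (Additive.ofMul (⟨γ, hγ⟩ : Gamma0 N))) := by
      rw [← stdAddChar_sum]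
      congr 1
      have he := DFunLike.congr_fun D.x₀_eigen_q (Additive.ofMul (⟨γ, hγ⟩ : Gamma0 N))
      show ∑ i, g (D.x₀ _) = g (D.c * D.x₀ _)
      rw [← map_sum]
      exact congrArg g he
    rw [hchar]
    have ne : ∀ a : ZMod (p ^ 1), ZMod.stdAddChar a ≠ 0 := fun a =>
      (AddChar.val_isUnit _ a).ne_zero
    field_simp [ne]
  obtain ⟨Y, hY, hYg⟩ := exists_evG_eq (NeZero.ne (p ^ 1)) hRm hRn fun γ hγ =>
    hinv γ (genStab_le_gTwo hγ).1
  refine ⟨Y, fun e => div_ne_zero hL hA' (by rw [← hX, ← hY, e, zero_pow (NeZero.ne _)]),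
    isInv_of_germEq fun γ hγ => (hYg.comp_mob (by simp)).trans ((hinv γ hγ).trans hYg.symm), ?_⟩
  rw [hY, hX, div_mul_cancel₀ _ hA']

/-- `diag (q, 1) γ diag (q, 1)⁻¹`. -/
def upG (hNq : N.Coprime q) (h : gTwo N q) : Gamma0 N :=
  ⟨⟨!![(h : SL(2, ℤ)) 0 0, (q : ℤ) * (h : SL(2, ℤ)) 0 1; (h : SL(2, ℤ)) 1 0 / q,
      (h : SL(2, ℤ)) 1 1], by
    rw [Matrix.det_fin_two_of, mul_comm (q : ℤ), mul_assoc, Int.mul_ediv_cancel'
      ((ZMod.intCast_zmod_eq_zero_iff_dvd _ _).mp h.2.2.2)]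
    have := (h : SL(2, ℤ)).det_coe
    rwa [Matrix.det_fin_two] at this⟩, by
    refine Gamma0_mem.mpr ?_
    obtain ⟨s, hs⟩ := (ZMod.intCast_zmod_eq_zero_iff_dvd _ _).mp h.2.2.2
    have hN := Gamma0_mem.mp h.2.1
    simp only [Matrix.of_apply, Matrix.cons_val', Matrix.cons_val_zero, Matrix.cons_val_one,
      Matrix.empty_val', Matrix.cons_val_fin_one]
    rw [hs, Int.mul_ediv_cancel_left _ (Nat.cast_ne_zero.mpr (NeZero.ne q))]
    rw [hs, Int.cast_mul] at hN
    have hco : IsUnit ((q : ℤ) : ZMod N) := by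
      simpa using (ZMod.isUnit_iff_coprime q N).mpr hNq.symm
    exact hco.mul_right_eq_zero.mp hN⟩

theorem upQ_mul_eq (hNq : N.Coprime q) (h : gTwo N q) :
    upQ q * ((h : SL(2, ℤ)) : M₂) = ((upG hNq h : SL(2, ℤ)) : M₂) * upQ q := by
  obtain ⟨s, hs⟩ := (ZMod.intCast_zmod_eq_zero_iff_dvd _ _).mp h.2.2.2
  ext i j
  fin_cases i <;> fin_cases j <;>
    simp [upQ, upG, Matrix.mul_apply, Fin.sum_univ_two, hs,
      Int.mul_ediv_cancel_left _ (Nat.cast_ne_zero.mpr (NeZero.ne q) : (q : ℤ) ≠ 0)] <;> ring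

/-- The function attached to the point with character `g ∘ residue ∘ y`. -/
theorem exists_pow_eq_special (hf : IsReprN N (p ^ 1) (wPt D g) f)
    (hf' : IsReprN N (p ^ 1) (wPt D (g.comp (AddMonoidHom.mulLeft D.c))) f') {X₁ : GF (N * q)}
    (hX₁ : IsRepr N q (p ^ 1) (kClass D.y (g.comp (residue O).toAddMonoidHom)) X₁) :
    ∃ Z : GF (N * q), Z ≠ 0 ∧ IsInv (gTwo N q) Z ∧
      Z ^ (p ^ 1) = X₁ / (eA N q f' / (eB N q f * eC N q f)) := by
  have hNq := D.coprime
  obtain ⟨G, hG, hGn, hGm⟩ := hf.exists_root (isKummerChar_kClass D.x₀_killsEP g)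
  obtain ⟨G', hG', hGn', hGm'⟩ := hf'.exists_root (isKummerChar_kClass D.x₀_killsEP _)
  obtain ⟨R₁, hR₁⟩ := hX₁.exists_isRoot hNq (isKummerChar_kClass D.y_killsEP _)
  refine hR₁.exists_pow_eq (S := G' * (G ∘ mob (dnQ q))⁻¹ * (G ∘ mob (upQ q))⁻¹) ?_
  have hA' : eA N q f' ≠ 0 := (map_ne_zero _).mpr hf'.ne_zero
  have hB : eB N q f ≠ 0 := (map_ne_zero _).mpr hf.ne_zero
  have hCf : eC N q f ≠ 0 := (map_ne_zero _).mpr hf.ne_zero
  refine ⟨div_ne_zero hA' (mul_ne_zero hB hCf), ?_, ?_, ?_⟩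
  · exact (hG'.mul (meromorphicOn_comp_mob hG det_upQ_pos.2).inv).mul
      (meromorphicOn_comp_mob hG det_upQ_pos.1).inv
  · rw [mul_pow, mul_pow, inv_pow, inv_pow, div_eq_mul_inv, mul_inv, ← mul_assoc]
    refine GermEq.trans ?_ (evG_mul _ _).symm
    refine GermEq.mul (GermEq.trans (GermEq.mul ?_ ?_) (evG_mul _ _).symm) ?_
    · exact hGn'.trans (evG_eA f').symm
    · refine GermEq.trans (fun z hz => ?_) (evG_inv hB).symm
      exact (((hGn.comp_mob det_upQ_pos.2).trans (evG_eB f).symm) z hz).inv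
    · refine GermEq.trans (fun z hz => ?_) (evG_inv hCf).symm
      exact (((hGn.comp_mob det_upQ_pos.1).trans (evG_eC f).symm) z hz).inv
  intro h
  set γ₀ : Gamma0 N := ⟨(downTwo hNq h : SL(2, ℤ)), by
    have h1 := Gamma0_mem.mp (downTwo hNq h).2
    exact Gamma0_mem.mpr (by
      simpa using congrArg (ZMod.castHom (dvd_mul_right N (q ^ 2)) (ZMod N)) h1)⟩
  set γ₁ : Gamma0 N := ⟨h, h.2.1⟩
  have hdn : dnQ q * ((h : SL(2, ℤ)) : M₂) = ((γ₀ : SL(2, ℤ)) : M₂) * dnQ q :=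
    downMat_spec (dvd_of_mem_gUp (gTwo_le_gUp h.2))
  obtain ⟨b, hb⟩ := dvd_of_mem_gUp (gTwo_le_gUp h.2)
  obtain ⟨s, hs⟩ := (ZMod.intCast_zmod_eq_zero_iff_dvd _ _).mp h.2.2.2
  have hq0 : (q : ℤ) ≠ 0 := Nat.cast_ne_zero.mpr (NeZero.ne q)
  have hy := D.y_mod (downTwo hNq h) γ₀ γ₁ (upG hNq h) rfl ?_ ?_
  rotate_left
  · show !![(q : ℤ), 0; 0, 1] * downMat q (h : SL(2, ℤ)) = ((h : SL(2, ℤ)) : M₂) * _
    ext i j
    fin_cases i <;> fin_cases j <;> simp [downMat, Matrix.mul_apply, Fin.sum_univ_two, hb,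
      Int.mul_ediv_cancel_left _ hq0] <;> ring
  · show !![((q : ℤ) ^ 2), 0; 0, 1] * downMat q (h : SL(2, ℤ)) =
      ((upG hNq h : SL(2, ℤ)) : M₂) * _
    ext i j
    fin_cases i <;> fin_cases j <;> simp [downMat, upG, Matrix.mul_apply, Fin.sum_univ_two, hb, hs,
      Int.mul_ediv_cancel_left _ hq0] <;> ring
  intro z hz
  have e0 : ((G ∘ mob (dnQ q)) ∘ mob (slMat h)) =ᶠ[𝓝[≠] z] fun w =>
      ZMod.stdAddChar ((g.comp D.x₀) (Additive.ofMul γ₀)) * (G ∘ mob (dnQ q)) w := by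
    refine GermEq.trans (germEq_comp_mob_mul G (dnQ q) (det_slMat_pos h).ne').symm ?_ z hz
    rw [slMat, hdn]
    exact (germEq_comp_mob_mul G _ det_upQ_pos.2.ne').trans ((hGm γ₀).comp_mob det_upQ_pos.2)
  have e2 : ((G ∘ mob (upQ q)) ∘ mob (slMat h)) =ᶠ[𝓝[≠] z] fun w =>
      ZMod.stdAddChar ((g.comp D.x₀) (Additive.ofMul (upG hNq h))) * (G ∘ mob (upQ q)) w := by
    refine GermEq.trans (germEq_comp_mob_mul G (upQ q) (det_slMat_pos h).ne').symm ?_ z hz
    rw [slMat, upQ_mul_eq hNq]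
    exact (germEq_comp_mob_mul G _ det_upQ_pos.1.ne').trans
      ((hGm (upG hNq h)).comp_mob det_upQ_pos.1)
  filter_upwards [hGm' γ₁ z hz, e0, e2] with w h1 h0 h2
  simp only [Function.comp_apply] at h0 h1 h2 ⊢
  have h1' : G' (mob (slMat h) w) = _ := h1
  simp only [Pi.mul_apply, Pi.inv_apply, Function.comp_apply, h0, h1', h2, mul_inv]
  rw [show ((g.comp (residue O).toAddMonoidHom).comp D.y) (Additive.ofMul (downTwo hNq h)) =
      (g.comp (AddMonoidHom.mulLeft D.c)).comp D.x₀ (Additive.ofMul γ₁) -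
        (g.comp D.x₀) (Additive.ofMul γ₀) - (g.comp D.x₀) (Additive.ofMul (upG hNq h)) by
    show g (residue O (D.y _)) = _
    rw [hy, map_sub, map_sub]
    rfl, sub_eq_add_neg, sub_eq_add_neg, AddChar.map_add_eq_mul, AddChar.map_add_eq_mul,
    AddChar.map_neg_eq_inv, AddChar.map_neg_eq_inv]
  ring

/-! ### The reduction -/

variable {A : ValuationSubring Qb} (hA : A.LiesOverPrime q)

/-- Raising to the `q`-th power is expansion followed by the Frobenius on the coefficients. -/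
theorem cls_pow_char {k : Type*} [Field k] [CharP k q] (φ : k →+* k) (hφ : ∀ x, φ x = x ^ q)
    (W : Cls k) : clsCoeff φ (clsExpand q W) = W ^ q := by
  obtain ⟨u, rfl⟩ : ∃ u, clsHom u = W := QuotientGroup.mk_surjective W
  rw [show clsHom u = clsOf (u : LaurentSeries k) u.ne_zero from congrArg clsHom (Units.ext rfl),
    clsExpand_clsOf, clsCoeff_clsOf]
  simp only [clsOf, ← map_pow]
  refine congrArg clsHom (Units.ext ?_)
  show coeffMap φ (qExpand k q (u : LaurentSeries k)) = (u : LaurentSeries k) ^ q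
  rw [ES.pow_char_eq q]
  exact coeffMap_congr (RingHom.ext fun x => hφ x) _

theorem redGF_eB_pow (hA : A.LiesOverPrime q) {F : GQ} (hF : A.IsFrobeniusAt F q)
    {x : modularFunctionFieldBar N} (hx : x ≠ 0) :
    redGF A (galGF F (eA N q x)) = redGF A (eB N q x) ^ q := by
  have := ES.charP_residueField hq.out hA
  have h := hasRed_redGF hq.out hA ((map_ne_zero (eB N q)).mpr hx)
  rw [gExp_eB] at h
  have h2 := (h.qExpand' q).galois ⟨F, hF.mem_decompositionSubgroup⟩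
  rw [← cls_pow_char (k := ResidueField A)
    (ES.residueAut ⟨F, hF.mem_decompositionSubgroup⟩ : ResidueField A →+* ResidueField A)
    (ES.residueAut_of_isFrobeniusAt hF)]
  refine redGF_eq ?_
  rw [gExp_galGF, gExp_eA, show qExpand Qb (N * q) (x : LaurentSeries Qb) =
    qExpand Qb q (qExpand Qb N (x : LaurentSeries Qb)) by
      rw [qExpand_qExpand]; exact qExpand_congr (mul_comm _ _) _]
  exact h2

theorem phi_special (u : (ZMod q)ˣ) (hNq : N.Coprime q) (x x' : modularFunctionFieldBar N) :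
    phi u (eA N q x' / (eB N q x * eC N q x)) * lineProd (eB N q x) ^ 2 =
      eA N q x' ^ q * eB N q x ^ 2 := by
  rcases eq_or_ne x 0 with rfl | hx
  · have h0 : lineProd (eB N q (0 : modularFunctionFieldBar N)) = 0 := by
      rw [lineProd, map_zero]
      exact Finset.prod_eq_zero (Finset.mem_univ none) (map_zero _)
    rw [h0, map_zero, zero_pow two_ne_zero, mul_zero, mul_zero]
  have hB : eB N q x ≠ 0 := (map_ne_zero _).mpr hx
  have hC : eC N q x ≠ 0 := (map_ne_zero _).mpr hx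
  obtain ⟨h1, h2⟩ := phi_mul_eq_lineProd hNq u (isInv_eB x)
  rw [← eC_eq_smulGF hNq] at h2
  have hA' : phi u (eA N q x') = eA N q x' ^ q := by
    rw [phi, Finset.prod_congr rfl fun r _ => isInv_eA x' _ (gRep_mem hNq _ r), Finset.prod_const]
    simp
  rw [phi_div, phi_mul, hA', div_mul_eq_mul_div,
    div_eq_iff (mul_ne_zero (phi_ne_zero u hB) (phi_ne_zero u hC))]
  linear_combination (-(eA N q x' ^ q) * lineProd (eB N q x)) * h1 +
    (-(eA N q x' ^ q) * (phi u (eB N q x) * eB N q x)) * h2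

theorem pow_eq_self_of_pow_eq_one {G : Type*} [Monoid G] {x : G} {n m : ℕ} (hx : x ^ n = 1)
    (e : q = n * m + 1) : x ^ q = x := by
  rw [e, pow_succ, pow_mul, hx, one_pow, one_mul]

/-- **The consequence for the reduction.** -/
theorem exists_red_eq_pow
    (hvan : ∀ (σ : GQ) (g₀ : O →+ ZMod (p ^ 1)), (∀ b ∈ maximalIdeal O, g₀ b = 0) →
      phiQ N (p ^ 1) hA 1 (σ • kClass D.y g₀) = 0)
    (σ : GQ) {F : GQ} (hF : A.IsFrobeniusAt F q) (hf : IsReprN N (p ^ 1) (wPt D g) f)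
    (hf' : IsReprN N (p ^ 1) (wPt D (g.comp (AddMonoidHom.mulLeft D.c))) f') :
    ∃ Y : GF (N * q), Y ≠ 0 ∧ IsInv (gOne N q) Y ∧
      redGF A (galGF F (galGF σ (eA N q f)) ^ 2 / galGF σ (eA N q f')) =
        redGF A Y ^ (p ^ 1) := by
  have hNq := D.coprime
  have hℓ := hq.out
  set g₀ : O →+ ZMod (p ^ 1) := g.comp (residue O).toAddMonoidHom
  have hg₀ : ∀ b ∈ maximalIdeal O, g₀ b = 0 := fun b hb => by
    show g (residue O b) = 0
    rw [(residue_eq_zero_iff b).mpr hb, map_zero]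
  have h0 := hvan σ g₀ hg₀
  obtain ⟨X₁, hX₁⟩ := exists_isRepr (zsmul_kClass D.y_killsEP g₀)
  obtain ⟨Z, hZ, hZi, hZn⟩ := exists_pow_eq_special D hf hf' hX₁
  obtain ⟨Y, hY, hYi, hYn⟩ := exists_lineProd_eq D hf hf'
  have hA' : eA N q f' ≠ 0 := (map_ne_zero _).mpr hf'.ne_zero
  have hB : eB N q f ≠ 0 := (map_ne_zero _).mpr hf.ne_zero
  have hX' : eA N q f' / (eB N q f * eC N q f) ≠ 0 :=
    div_ne_zero hA' (mul_ne_zero hB ((map_ne_zero _).mpr hf.ne_zero))
  set v := (chiU (N * q) (dvd_mul_left q N) σ)⁻¹ * 1 with hv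
  -- the identity of functions
  have hid : phi 1 (galGF σ X₁) * (galGF σ Y ^ (p ^ 1) * galGF σ (eA N q f')) ^ 2 =
      galGF σ (phi v Z) ^ (p ^ 1) * (galGF σ (eA N q f') ^ q * galGF σ (eB N q f) ^ 2) := by
    have hXi : IsInv (gTwo N q) (galGF σ X₁) := isInv_galGF_gTwo hNq σ (hX₁.isInv hNq)
    have hX : phi 1 (galGF σ X₁) = galGF σ (phi v X₁) := by
      rw [galGF_phi hNq σ v hXi, hv, mul_inv_cancel_left]
    have hfun : phi v X₁ * (Y ^ (p ^ 1) * eA N q f') ^ 2 =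
        phi v Z ^ (p ^ 1) * (eA N q f' ^ q * eB N q f ^ 2) := by
      rw [hYn, ← phi_special v hNq f f', ← mul_assoc, ← phi_pow, ← phi_mul, hZn,
        div_mul_cancel₀ _ hX']
    have h := congrArg (galGF σ) hfun
    simp only [map_mul, map_pow] at h
    rw [hX]
    exact h
  rw [phiQ_eq hNq 1 (hX₁.galois σ)] at h0
  set W : GF (N * q) → PQ N (p ^ 1) hA := fun X => pqMk N (p ^ 1) hA (redGF A X)
  have Wmul : ∀ {X X' : GF (N * q)}, X ≠ 0 → X' ≠ 0 → W (X * X') = W X * W X' := fun h h' =>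
    (congrArg (pqMk N (p ^ 1) hA) (redGF_mul hℓ hA h h')).trans (map_mul (pqMk N (p ^ 1) hA) _ _)
  have Wpow : ∀ {X : GF (N * q)}, X ≠ 0 → ∀ n : ℕ, W (X ^ n) = W X ^ n := fun h n =>
    (congrArg (pqMk N (p ^ 1) hA) (redGF_pow hℓ hA h n)).trans (map_pow (pqMk N (p ^ 1) hA) _ _)
  have Wone : ∀ {X : GF (N * q)}, X ≠ 0 → IsInv (gOne N q) X → W X ^ (p ^ 1) = 1 := fun hX hXi => by
    rw [← Wpow hX]
    exact pqMk_eq_one hA hX hXi rfl
  have hgA : gOne N q ≤ Gamma0 N := fun _ h => h.1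
  have nz : ∀ {X : GF (N * q)}, X ≠ 0 → galGF σ X ≠ 0 := fun h => (map_ne_zero _).mpr h
  have nphi : galGF σ (phi v Z) ≠ 0 := nz (phi_ne_zero v hZ)
  have nY : galGF σ Y ^ (p ^ 1) ≠ 0 := pow_ne_zero _ (nz hY)
  have hcls := congrArg W hid
  rw [Wmul (phi_ne_zero 1 (hX₁.galois σ).ne_zero) (pow_ne_zero 2 (mul_ne_zero nY (nz hA'))),
    Wpow (mul_ne_zero nY (nz hA')), Wmul nY (nz hA'), Wpow (nz hY),
    Wmul (pow_ne_zero _ nphi) (mul_ne_zero (pow_ne_zero q (nz hA')) (pow_ne_zero 2 (nz hB))),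
    Wmul (pow_ne_zero q (nz hA')) (pow_ne_zero 2 (nz hB)), Wpow nphi, Wpow (nz hA'), Wpow (nz hB),
    Wone (nz hY) (isInv_galGF_gOne hNq σ (hYi.mono hgA)),
    Wone nphi (isInv_galGF_gOne hNq σ (isInv_phi hNq v hZi)),
    show W (phi 1 (galGF σ X₁)) = 1 from ofMul_eq_zero.mp h0, one_mul, one_mul, one_mul] at hcls
  obtain ⟨m, hm⟩ : p ^ 1 ∣ q - 1 := by
    rw [pow_one]
    refine (Nat.modEq_iff_dvd' hℓ.one_le).mp ?_
    exact ((ZMod.natCast_eq_natCast_iff q 1 p).mp (by rw [Nat.cast_one, D.q_one])).symm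
  have e : q = p ^ 1 * m + 1 := by have := hℓ.one_le; omega
  have hpow : ∀ x : PQ N (p ^ 1) hA, x ^ (p ^ 1) = 1 → x ^ q = x := fun x hx =>
    pow_eq_self_of_pow_eq_one hx e
  have ha := hpow _ (Wone (nz hA') (isInv_galGF_gOne hNq σ ((isInv_eA f').mono hgA)))
  rw [ha, sq (W (galGF σ (eA N q f'))), mul_left_cancel_iff] at hcls
  set fσ := arithmeticGalois (modularFunctionFieldFull N) σ • f with hfσ
  have hfσ0 : fσ ≠ 0 := (smul_ne_zero_iff_ne _).mpr hf.ne_zero
  have hb : W (galGF F (galGF σ (eA N q f))) = W (galGF σ (eB N q f)) ^ q := by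
    rw [galGF_eA σ f, galGF_eB σ f, ← hfσ]
    show pqMk N (p ^ 1) hA _ = pqMk N (p ^ 1) hA _ ^ q
    rw [redGF_eB_pow hA hF hfσ0, map_pow]
  have hAf : galGF F (galGF σ (eA N q f)) ≠ 0 :=
    (map_ne_zero _).mpr (nz ((map_ne_zero _).mpr hf.ne_zero))
  have hfin : W (galGF F (galGF σ (eA N q f)) ^ 2 / galGF σ (eA N q f')) = 1 := by
    show pqMk N (p ^ 1) hA _ = 1
    rw [redGF_div hℓ hA (pow_ne_zero 2 hAf) (nz hA'), map_div, div_eq_one]
    show W (galGF F (galGF σ (eA N q f)) ^ 2) = W (galGF σ (eA N q f'))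
    rw [Wpow hAf, hb, pow_right_comm, ← hcls, ha]
  obtain ⟨Y', hY', hYi', hYn'⟩ := (QuotientGroup.eq_one_iff _).mp hfin
  exact ⟨Y', hY', hYi', hYn'⟩

end FermatAgent.TWLocal

end
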