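import Fermat.Agent.ModCurve.Torsion.AtkinLehner
import Fermat.Agent.Periods.HeckeHom
import Mathlib.Algebra.Field.ZMod

/-!
`T_l` on the characters of `Γ₀(N)` commutes with the Atkin–Lehner involution.
-/

set_option autoImplicit false

noncomputable section

namespace FermatAgent.TWLocal

open scoped MatrixGroups
open CongruenceSubgroup
open FermatAgent.Periods FermatAgent.ModCurveTorsion

/-- Correspondences with representatives in the same cosets have the same transfer. -/
theorem transfer_eq_of_reps {Γ : Subgroup SL(2, ℤ)} {ι : Type} [Fintype ι]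
    (R : Type*) [Semiring R] {A : Type*} [AddCommGroup A] [Module R A]
    (D D' : HeckeCorr Γ ι) (e : ι ≃ ι) (δ : ι → Γ)
    (h : ∀ i, D'.rep i = ((δ i : SL(2, ℤ)) : Matrix (Fin 2) (Fin 2) ℤ) * D.rep (e i))
    (φ : Additive Γ →+ A) : D'.transfer R φ = D.transfer R φ := by
  refine AddMonoidHom.ext fun x => ?_
  obtain ⟨γ, rfl⟩ : ∃ γ, Additive.ofMul γ = x := ⟨Additive.toMul x, rfl⟩
  rw [HeckeCorr.transfer_apply_of_eq D' R φ γ (fun i => e.symm (D.target γ (e i)))
    (fun i => δ i * D.move γ (e i) * (δ (e.symm (D.target γ (e i))))⁻¹) fun i => ?_,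
    HeckeCorr.transfer_apply]
  · simp only [ofMul_mul, ofMul_inv, map_add, map_neg, Finset.sum_add_distrib, Finset.sum_neg_distrib]
    rw [Equiv.sum_comp e fun i => φ (Additive.ofMul (D.move γ i))]
    have hperm := Equiv.sum_comp ((e.trans (D.targetEquiv γ)).trans e.symm)
      fun i => φ (Additive.ofMul (δ i))
    simp only [Equiv.trans_apply, HeckeCorr.targetEquiv_apply] at hperm
    rw [hperm]
    abel
  · rw [h, h, Equiv.apply_symm_apply, mul_assoc _ (D.rep (e i)), D.move_spec]
    simp only [← mul_assoc, ← Matrix.SpecialLinearGroup.coe_mul, ← Subgroup.coe_mul]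
    rw [inv_mul_cancel_right]

theorem wInvolution_heckeHomT (R : Type*) [Semiring R] {A : Type*} [AddCommGroup A] [Module R A]
    (N : ℕ) [NeZero N] {l : ℕ} (hl : l.Prime) (hlN : ¬ l ∣ N)
    (φ : Additive (Gamma0 N) →+ A) :
    wInvolution N R A (heckeHomT R N hl hlN (wInvolution N R A φ)) = heckeHomT R N hl hlN φ := by
  classical
  have : NeZero l := ⟨hl.ne_zero⟩
  have : Fact l.Prime := ⟨hl⟩
  have hN : (N : ZMod l) ≠ 0 := by rwa [ne_eq, ZMod.natCast_eq_zero_iff]
  refine (transfer_wCorr R (tCorr N hl hlN) (fun x => tRep_one_zero l x) φ).symm.trans ?_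
  let f : Option (ZMod l) → Option (ZMod l) := fun x =>
    match x with
    | none => some 0
    | some j => if j = 0 then none else some (-((N : ZMod l) * j)⁻¹)
  have hf : Function.Involutive f := by
    rintro (_ | j)
    · simp [f]
    · by_cases hj : j = 0
      · simp [f, hj]
      · simp [f, hj, hN]
        field_simp
  have hδ : ∀ x, ∃ δ : Gamma0 N, wMat N (tRep l x) =
      ((δ : SL(2, ℤ)) : Matrix (Fin 2) (Fin 2) ℤ) * tRep l (f x) := by
    have hwMat : ∀ a b c d : ℤ, (N : ℤ) ∣ c → wMat N !![a, b; c, d] = !![d, -(c / N); -(N * b), a] := by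
      intro a b c d _
      ext i k
      fin_cases i <;> fin_cases k <;> simp [wMat]
    rintro (_ | j)
    · refine ⟨1, ?_⟩
      simp [f, tRep, diagRep, upperRep, hwMat _ _ _ _ (dvd_zero _)]
    · by_cases hj : j = 0
      · refine ⟨1, ?_⟩
        subst hj
        simp [f, tRep, diagRep, upperRep, hwMat _ _ _ _ (dvd_zero _)]
      · set i : ZMod l := -((N : ZMod l) * j)⁻¹ with hi
        obtain ⟨k, hk⟩ : (l : ℤ) ∣ (N : ℤ) * (j.val : ℤ) * (i.val : ℤ) + 1 := by
          rw [← ZMod.intCast_zmod_eq_zero_iff_dvd]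
          push_cast
          rw [ZMod.natCast_zmod_val, ZMod.natCast_zmod_val, hi, mul_neg,
            mul_inv_cancel₀ (mul_ne_zero hN hj), neg_add_cancel]
        refine ⟨⟨⟨!![(l : ℤ), -(i.val : ℤ); -((N : ℤ) * (j.val : ℤ)), k], by
            rw [Matrix.det_fin_two_of]; linear_combination -hk⟩,
          Gamma0_mem.mpr ((ZMod.intCast_zmod_eq_zero_iff_dvd _ _).mpr ⟨-(j.val : ℤ), by simp⟩)⟩, ?_⟩
        simp only [f, hj, if_false, ← hi, tRep, upperRep,
          hwMat _ _ _ _ (dvd_zero _)]
        ext a b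
        fin_cases a <;> fin_cases b <;> simp [Matrix.mul_apply, Fin.sum_univ_two]
        · ring
        · simp only [ZMod.natCast_val] at hk
          linear_combination hk
  choose δ hδ using hδ
  exact transfer_eq_of_reps R (tCorr N hl hlN) (wCorr (tCorr N hl hlN) fun x => tRep_one_zero l x)
    (Function.Involutive.toPerm f hf) δ hδ φ

end FermatAgent.TWLocal

end
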